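import Fermat.Agent.AbVar.Field

/-! Valuation rings of the function field of a proper variety have a centre; consequently
Riemann-Roch spaces consist of functions with bounded denominators. -/

set_option autoImplicit false

noncomputable section

open CategoryTheory AlgebraicGeometry TopologicalSpace

universe u

namespace Fermat.Agent.AbVar

variable {K : Type u} [Field K] {S : Scheme.{u}} [IsIntegral S]

theorem fromSpecStalk_genericPoint_comp (f : S ⟶ Spec (CommRingCat.of K)) :
    S.fromSpecStalk (genericPoint S) ≫ f = Spec.map (CommRingCat.ofHom (baseMap f)) := by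
  have h : f = S.toSpecΓ ≫ Spec.map ((Scheme.ΓSpecIso (CommRingCat.of K)).inv ≫ f.appTop) := by
    rw [Spec.map_comp, ← Scheme.toSpecΓ_naturality_assoc, ← SpecMap_ΓSpecIso_hom,
      ← Spec.map_comp, Iso.inv_hom_id, Spec.map_id, Category.comp_id]
  conv_lhs => rw [h, ← Category.assoc, Scheme.fromSpecStalk_toSpecΓ, ← Spec.map_comp]
  rfl

/-- Every valuation ring containing the constants has a centre. -/
theorem exists_centre [S.Over (Spec (CommRingCat.of K))]
    [UniversallyClosed (S ↘ Spec (CommRingCat.of K))] (V : ValuationSubring S.functionField)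
    (hV : ∀ c : K, algebraMap K S.functionField c ∈ V) :
    ∃ p : S, Reg p ≤ V.toSubring := by
  have hex : ValuativeCriterion.Existence (S ↘ Spec (CommRingCat.of K)) := by
    have h : UniversallyClosed (S ↘ Spec (CommRingCat.of K)) := inferInstance
    rw [UniversallyClosed.eq_valuativeCriterion] at h
    exact h.1
  let j : K →+* V := (algebraMap K S.functionField).codRestrict V hV
  have w : S.fromSpecStalk (genericPoint S) ≫ (S ↘ Spec (CommRingCat.of K)) =
      Spec.map (CommRingCat.ofHom (algebraMap V S.functionField)) ≫
        Spec.map (CommRingCat.ofHom j) := by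
    rw [fromSpecStalk_genericPoint_comp, ← Spec.map_comp]
    rfl
  obtain ⟨l, hl, -⟩ := (hex { R := V, K := S.functionField, commSq := ⟨w⟩, .. }).exists_lift
  dsimp only at hl
  refine ⟨l (IsLocalRing.closedPoint V), ?_⟩
  rintro _ ⟨a, rfl⟩
  have hp : genericPoint S ⤳ l (IsLocalRing.closedPoint V) := genericPoint_specializes_to _
  have key : Scheme.stalkClosedPointTo l ≫ CommRingCat.ofHom (algebraMap V S.functionField) =
      S.presheaf.stalkSpecializes hp := by
    apply Spec.map_injective
    rw [← cancel_mono (S.fromSpecStalk _), Spec.map_comp, Category.assoc,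
      Scheme.Spec_stalkClosedPointTo_fromSpecStalk, Scheme.SpecMap_stalkSpecializes_fromSpecStalk]
    exact hl
  rw [RingHom.algebraMap_toAlgebra, ← key]
  exact (Scheme.stalkClosedPointTo l a).2

/-- An element lying in every valuation ring over `A` is integral over `A`. -/
theorem isIntegral_of_forall_valuationSubring {A F : Type*} [CommRing A] [Field F] [Algebra A F]
    {a : F} (h : ∀ V : ValuationSubring F, (∀ r : A, algebraMap A F r ∈ V) → a ∈ V) :
    IsIntegral A a := by
  by_contra ha
  have : IsIntegrallyClosedIn (integralClosure A F).toSubring F :=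
    inferInstanceAs (IsIntegrallyClosedIn (integralClosure A F) F)
  obtain ⟨V, hV, hxV⟩ := Subring.exists_le_valuationSubring_of_isIntegrallyClosedIn
    (R := (integralClosure A F).toSubring) (x := a) ha
  exact hxV (h V fun r => hV (isIntegral_algebraMap (R := A) (x := r)))

theorem mem_valuationSubring_of_isIntegral {A F : Type*} [CommRing A] [Field F] [Algebra A F]
    {V : ValuationSubring F} (hV : ∀ r : A, algebraMap A F r ∈ V) {a : F} (ha : IsIntegral A a) :
    a ∈ V := by
  obtain ⟨P, hP, hPa⟩ := ha
  have hint : IsIntegral V a :=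
    ⟨P.map ((algebraMap A F).codRestrict V hV), hP.map _, by
      rw [Polynomial.eval₂_map]; exact hPa⟩
  obtain ⟨y, hy⟩ := IsIntegrallyClosed.isIntegral_iff.mp hint
  exact hy ▸ y.2

/-- If `c / e` is integral over `A`, then so is `c ^ m * a` for `a` in `L(e ^ m)`. -/
theorem isIntegral_of_mem_Lspace [S.Over (Spec (CommRingCat.of K))]
    [UniversallyClosed (S ↘ Spec (CommRingCat.of K))] {A : Type*} [CommRing A]
    [Algebra A S.functionField]
    (hK : ∀ k : K, IsIntegral A (algebraMap K S.functionField k))
    (e : S → (S.functionField)ˣ) (c : A)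
    (hc : ∀ p, IsIntegral A (c • ((e p)⁻¹ : (S.functionField)ˣ).val)) {m : ℕ}
    {a : S.functionField} (ha : a ∈ Lspace K (e ^ m)) :
    IsIntegral A ((c ^ m) • a) := by
  refine isIntegral_of_forall_valuationSubring fun V hV => ?_
  obtain ⟨p, hp⟩ := exists_centre V fun k => mem_valuationSubring_of_isIntegral hV (hK k)
  have h1 : a * (e p : S.functionField) ^ m ∈ V := by
    have := hp (ha p)
    rw [Pi.pow_apply, Units.val_pow_eq_pow_val] at this
    exact this
  have h2 := mul_mem h1 (pow_mem (mem_valuationSubring_of_isIntegral hV (hc p)) m)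
  convert h2 using 1
  rw [Algebra.smul_def, Algebra.smul_def, mul_pow, map_pow, mul_left_comm, mul_assoc, ← mul_pow,
    Units.mul_inv, one_pow, mul_one]

end Fermat.Agent.AbVar
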