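import Mathlib

/-! The degree valuation of a rational function field and the dimension of spaces of polynomials
of bounded degree. -/

set_option autoImplicit false

noncomputable section

open MvPolynomial
open scoped WithZero nonZeroDivisors

universe u v

namespace Fermat.Agent.AbVar

variable (K : Type u) [Field K] (σ : Type v)

open scoped Classical in
/-- `exp (totalDegree)` as a valuation on polynomials. -/
def degreeValuation : Valuation (MvPolynomial σ K) ℤᵐ⁰ where
  toFun p := if p = 0 then 0 else WithZero.exp (p.totalDegree : ℤ)
  map_zero' := if_pos rfl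
  map_one' := by simp
  map_mul' p q := by
    rcases eq_or_ne p 0 with rfl | hp
    · simp
    rcases eq_or_ne q 0 with rfl | hq
    · simp
    simp [hp, hq, totalDegree_mul_of_isDomain hp hq, WithZero.exp_add]
  map_add_le_max' p q := by
    rcases eq_or_ne p 0 with rfl | hp
    · simp
    rcases eq_or_ne q 0 with rfl | hq
    · simp
    rcases eq_or_ne (p + q) 0 with hpq | hpq
    · simp [hpq]
    simp only [hp, hq, hpq, if_false, le_max_iff, WithZero.exp_le_exp, Nat.cast_le]
    exact le_max_iff.mp (totalDegree_add p q)

theorem degreeValuation_apply {p : MvPolynomial σ K} (hp : p ≠ 0) :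
    degreeValuation K σ p = WithZero.exp (p.totalDegree : ℤ) :=
  if_neg hp

theorem degreeValuation_supp :
    (MvPolynomial σ K)⁰ ≤ (degreeValuation K σ).supp.primeCompl := by
  intro p hp h
  rw [SetLike.mem_coe, Valuation.mem_supp_iff,
    degreeValuation_apply K σ (nonZeroDivisors.ne_zero hp)] at h
  exact WithZero.exp_ne_zero h

/-- The degree valuation on the rational function field. -/
def degreeValuationFrac : Valuation (FractionRing (MvPolynomial σ K)) ℤᵐ⁰ :=
  (degreeValuation K σ).extendToLocalization (degreeValuation_supp K σ) _

theorem degreeValuationFrac_algebraMap {p : MvPolynomial σ K} (hp : p ≠ 0) :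
    degreeValuationFrac K σ (algebraMap _ _ p) = WithZero.exp (p.totalDegree : ℤ) :=
  (Valuation.extendToLocalization_apply_map_apply _ _ _ p).trans (degreeValuation_apply K σ hp)

theorem degreeValuationFrac_const (k : K) :
    degreeValuationFrac K σ (algebraMap K _ k) ≤ 1 := by
  rcases eq_or_ne k 0 with rfl | hk
  · simp
  rw [IsScalarTower.algebraMap_apply K (MvPolynomial σ K), degreeValuationFrac_algebraMap K σ
    (by simpa [algebraMap_eq] using hk)]
  simp [algebraMap_eq]

theorem finrank_restrictTotalDegree_le [Fintype σ] (N : ℕ) :
    Module.finrank K (restrictTotalDegree σ K N) ≤ (N + 1) ^ Fintype.card σ := by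
  refine (Submodule.finrank_mono (restrictTotalDegree_le_restrictDegree σ K N)).trans ?_
  rw [restrictDegree, Module.finrank_eq_nat_card_basis (basisRestrictSupport K _)]
  refine (Nat.card_le_card_of_injective
    (β := σ → Fin (N + 1)) (fun n i => ⟨n.1 i, Nat.lt_succ_of_le (n.2 i)⟩) ?_).trans_eq
      (by rw [Nat.card_fun, Nat.card_fin, Nat.card_eq_fintype_card])
  intro a b h
  exact Subtype.ext (Finsupp.ext fun i => congrArg Fin.val (congrFun h i))

end Fermat.Agent.AbVar
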