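import Fermat.Agent.AbVar.Interfaces
import Fermat.Agent.AbVar.GrowthCentre
import Fermat.Agent.AbVar.GrowthDegree

/-! Riemann-Roch spaces on a proper integral variety of dimension `g` grow at most like `m ^ g`:
proof of `GrowthProperty`. -/

set_option autoImplicit false

noncomputable section

open CategoryTheory AlgebraicGeometry MvPolynomial
open scoped WithZero nonZeroDivisors

universe u

namespace Fermat.Agent.AbVar

variable {K : Type u} [Field K] {S : Scheme.{u}} [IsIntegral S] [S.Over (KSpec K)]
  [UniversallyClosed (S ↘ KSpec K)]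

/-- Traces of `L(e ^ m)` against a basis have bounded denominators. -/
theorem exists_trace_denominators {A E : Type u} [CommRing A] [IsDomain A] [IsIntegrallyClosed A]
    [Field E] [Algebra A E] [IsFractionRing A E] [Algebra E S.functionField]
    [Algebra A S.functionField] [IsScalarTower A E S.functionField]
    [FiniteDimensional E S.functionField]
    (hK : ∀ k : K, IsIntegral A (algebraMap K S.functionField k))
    (e : S → (S.functionField)ˣ) (he : (Set.range e).Finite)
    {ι : Type*} [Finite ι] (b : ι → S.functionField) :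
    ∃ c d : A, c ≠ 0 ∧ d ≠ 0 ∧ ∀ m : ℕ, ∀ a ∈ Lspace K (e ^ m), ∀ j, ∃ y : A,
      algebraMap A E y =
        algebraMap A E (c ^ m * d) * Algebra.trace E S.functionField (a * b j) := by
  classical
  obtain ⟨c, hc0, hc⟩ := exists_integral_multiples A E
    (he.toFinset.image fun v => ((v⁻¹ : (S.functionField)ˣ) : S.functionField))
  obtain ⟨d, hd0, hd⟩ := exists_integral_multiples A E (Set.finite_range b).toFinset
  refine ⟨c, d, hc0, hd0, fun m a ha j => ?_⟩
  have hc' : ∀ p, IsIntegral A (c • ((e p)⁻¹ : (S.functionField)ˣ).val) := fun p =>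
    hc _ (Finset.mem_image_of_mem _ (by simp))
  have hz : IsIntegral A ((c ^ m * d) • (a * b j)) := by
    rw [← smul_mul_smul_comm]
    exact (isIntegral_of_mem_Lspace hK e c hc' ha).mul (hd _ (by simp))
  obtain ⟨y, hy⟩ := IsIntegrallyClosed.isIntegral_iff.mp (Algebra.isIntegral_trace (L := E) hz)
  refine ⟨y, hy.trans ?_⟩
  rw [← IsScalarTower.algebraMap_smul E, map_smul, smul_eq_mul]

/-- The growth bound, with the rational function field as separate type. -/
theorem growth_of_fractionRing {g : ℕ} [Algebra (FractionRing (MvPolynomial (Fin g) K))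
      S.functionField]
    [IsScalarTower K (FractionRing (MvPolynomial (Fin g) K)) S.functionField]
    [FiniteDimensional (FractionRing (MvPolynomial (Fin g) K)) S.functionField]
    [Algebra.IsSeparable (FractionRing (MvPolynomial (Fin g) K)) S.functionField]
    (e : S → (S.functionField)ˣ) (he : (Set.range e).Finite) :
    ∃ C : ℕ, ∀ m : ℕ, FiniteDimensional K (Lspace K (e ^ m)) ∧
      Module.finrank K (Lspace K (e ^ m)) ≤ C * (m + 1) ^ g := by
  let P := MvPolynomial (Fin g) K
  let E := FractionRing P
  let r := Module.finrank E S.functionField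
  let b : Module.Basis (Fin r) E S.functionField := Module.finBasis E S.functionField
  let _ : Algebra P S.functionField :=
    ((algebraMap E S.functionField).comp (algebraMap P E)).toAlgebra
  have : IsScalarTower P E S.functionField := IsScalarTower.of_algebraMap_eq fun _ => rfl
  have hKP : ∀ k : K, IsIntegral P (algebraMap K S.functionField k) := fun k => by
    rw [IsScalarTower.algebraMap_apply K E, IsScalarTower.algebraMap_apply K P E]
    exact isIntegral_algebraMap (R := P) (A := S.functionField)
  let v := degreeValuationFrac K (Fin g)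
  let O := v.valuationSubring
  let _ : Algebra O S.functionField :=
    ((algebraMap E S.functionField).comp (algebraMap O E)).toAlgebra
  have : IsScalarTower O E S.functionField := IsScalarTower.of_algebraMap_eq fun _ => rfl
  have hKO : ∀ k : K, IsIntegral O (algebraMap K S.functionField k) := fun k => by
    rw [IsScalarTower.algebraMap_apply K E]
    exact isIntegral_algebraMap (R := O) (A := S.functionField)
      (x := ⟨algebraMap K E k, degreeValuationFrac_const K (Fin g) k⟩)
  obtain ⟨c, d, hc, hd, hP⟩ := exists_trace_denominators (E := E) hKP e he b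
  obtain ⟨c', d', hc', hd', hO⟩ := exists_trace_denominators (E := E) hKO e he b
  obtain ⟨γ, hγ⟩ : ∃ γ : ℤ, v (algebraMap O E c') = WithZero.exp γ :=
    ⟨_, (WithZero.exp_log (v.ne_zero_iff.mpr
      ((map_ne_zero_iff _ (IsFractionRing.injective O E)).mpr hc'))).symm⟩
  obtain ⟨δ, hδ⟩ : ∃ δ : ℤ, v (algebraMap O E d') = WithZero.exp δ :=
    ⟨_, (WithZero.exp_log (v.ne_zero_iff.mpr
      ((map_ne_zero_iff _ (IsFractionRing.injective O E)).mpr hd'))).symm⟩
  obtain ⟨α, hα⟩ : ∃ α : ℕ, (c.totalDegree : ℤ) - γ ≤ α := ⟨_, Int.self_le_toNat _⟩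
  obtain ⟨β, hβ⟩ : ∃ β : ℕ, (d.totalDegree : ℤ) - δ ≤ β := ⟨_, Int.self_le_toNat _⟩
  refine ⟨r * (α + β + 1) ^ g, fun m => ?_⟩
  let W : Submodule K E := (restrictTotalDegree (Fin g) K (α * m + β)).map
    (IsScalarTower.toAlgHom K P E).toLinearMap
  have key : ∀ a ∈ Lspace K (e ^ m), ∀ j,
      algebraMap P E (c ^ m * d) * Algebra.trace E S.functionField (a * b j) ∈ W := by
    intro a ha j
    obtain ⟨y, hy⟩ := hP m a ha j
    obtain ⟨y', hy'⟩ := hO m a ha j
    refine Submodule.mem_map.mpr ⟨y, (mem_restrictTotalDegree _ _ _).mpr ?_, hy⟩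
    rcases eq_or_ne y 0 with rfl | hy0
    · simp
    have hT : Algebra.trace E S.functionField (a * b j) ≠ 0 := by
      intro h
      rw [h, mul_zero, map_eq_zero_iff _ (IsFractionRing.injective P E)] at hy
      exact hy0 hy
    obtain ⟨τ, hτ⟩ : ∃ τ : ℤ, v (Algebra.trace E S.functionField (a * b j)) = WithZero.exp τ :=
      ⟨_, (WithZero.exp_log (v.ne_zero_iff.mpr hT)).symm⟩
    have h1 := congrArg v hy
    rw [map_mul (algebraMap P E), map_pow (algebraMap P E), map_mul v, map_mul v, map_pow v,
      degreeValuationFrac_algebraMap K (Fin g) hy0,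
      degreeValuationFrac_algebraMap K (Fin g) hc,
      degreeValuationFrac_algebraMap K (Fin g) hd, hτ, ← WithZero.exp_nsmul, ← WithZero.exp_add,
      ← WithZero.exp_add, WithZero.exp_inj, nsmul_eq_mul] at h1
    have h2 : v (algebraMap O E y') ≤ 1 := y'.2
    rw [hy', map_mul (algebraMap O E), map_pow (algebraMap O E), map_mul v, map_mul v, map_pow v,
      hγ, hδ, hτ, ← WithZero.exp_nsmul, ← WithZero.exp_add, ← WithZero.exp_add,
      ← WithZero.exp_zero, WithZero.exp_le_exp, nsmul_eq_mul] at h2
    have h3 := mul_le_mul_of_nonneg_left hα (Int.natCast_nonneg m)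
    zify
    linarith
  let Φ : Lspace K (e ^ m) →ₗ[K] (Fin r → W) := LinearMap.pi fun j =>
    (((LinearMap.mulLeft K (algebraMap P E (c ^ m * d))).comp
      ((Algebra.trace E S.functionField).restrictScalars K)).comp
        ((LinearMap.mulRight K (b j)).comp (Lspace K (e ^ m)).subtype)).codRestrict W
          fun a => key a.1 a.2 j
  have hΦ : Function.Injective Φ := by
    rw [← LinearMap.ker_eq_bot, LinearMap.ker_eq_bot']
    intro a ha
    have hD : algebraMap P E (c ^ m * d) ≠ 0 :=
      (map_ne_zero_iff _ (IsFractionRing.injective P E)).mpr (mul_ne_zero (pow_ne_zero _ hc) hd)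
    have h0 : Algebra.traceForm E S.functionField a.1 = 0 := b.ext fun j => by
      have h : algebraMap P E (c ^ m * d) * Algebra.trace E S.functionField (a.1 * b j) = 0 :=
        congrArg Subtype.val (congrFun ha j)
      rw [Algebra.traceForm_apply, LinearMap.zero_apply]
      exact (mul_eq_zero.mp h).resolve_left hD
    exact Subtype.ext ((traceForm_nondegenerate E S.functionField).1 a.1 fun z => by simp [h0])
  have : FiniteDimensional K W := Module.Finite.map _ _
  refine ⟨FiniteDimensional.of_injective Φ hΦ, ?_⟩
  calc Module.finrank K (Lspace K (e ^ m)) ≤ Module.finrank K (Fin r → W) :=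
        LinearMap.finrank_le_finrank_of_injective hΦ
    _ = r * Module.finrank K W := by simp [Module.finrank_pi_fintype]
    _ ≤ r * (α * m + β + 1) ^ g := by
        gcongr
        exact (Submodule.finrank_map_le _ _).trans
          ((finrank_restrictTotalDegree_le K (Fin g) _).trans (by simp))
    _ ≤ r * ((α + β + 1) * (m + 1)) ^ g := by
        gcongr
        ring_nf
        omega
    _ = _ := by rw [mul_pow, mul_assoc]

variable (K) in
theorem growthProperty [IsAlgClosed K] : GrowthProperty K := by
  intro S _ _ _ g x hx hfin hsep e he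
  let E := FractionRing (MvPolynomial (Fin g) K)
  let φ : E →ₐ[K] S.functionField :=
    IsFractionRing.liftAlgHom (algebraicIndependent_iff_injective_aeval.mp hx)
  let _ : Algebra E S.functionField := φ.toRingHom.toAlgebra
  have : IsScalarTower K E S.functionField :=
    IsScalarTower.of_algebraMap_eq fun k => (φ.commutes k).symm
  let i : IntermediateField.adjoin K (Set.range x) ≃+* E := hx.aevalEquivField.symm.toRingEquiv
  have hi : (algebraMap E S.functionField).comp i.toRingHom =
      (RingEquiv.refl S.functionField).toRingHom.comp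
        (algebraMap (IntermediateField.adjoin K (Set.range x)) S.functionField) :=
    RingHom.ext fun q => hx.lift_reprField q
  have : FiniteDimensional E S.functionField := Module.Finite.of_equiv_equiv i (RingEquiv.refl _) hi
  have : Algebra.IsSeparable E S.functionField :=
    Algebra.IsSeparable.of_equiv_equiv i (RingEquiv.refl _) hi
  exact growth_of_fractionRing e he

end Fermat.Agent.AbVar
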