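import Fermat.Agent.AbVar.RegOn
import Fermat.Agent.AbVar.Growth

/-! Finite dimensionality of Riemann-Roch spaces on proper integral schemes, constancy of global
regular functions, finite type of rings of regular functions. -/

set_option autoImplicit false

noncomputable section

open CategoryTheory AlgebraicGeometry TopologicalSpace

universe u

namespace Fermat.Agent.AbVar

variable {K : Type u} [Field K] {X : Scheme.{u}} [IsIntegral X]
  [X.Over (Spec (CommRingCat.of K))]

/-- The algebra map of the sections on an open set. -/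
def secToRegOn (W : X.Opens) [Nonempty W] : Γ(X, W) →+* RegOn K W :=
  (X.germToFunctionField W).hom.codRestrict _
    fun s _ hx => germToFunctionField_mem_Reg hx s

theorem secToRegOn_surjective (W : X.Opens) [Nonempty W] :
    Function.Surjective (secToRegOn (K := K) W) := fun a => by
  obtain ⟨s, hs⟩ := exists_section_of_forall_mem_Reg W (a : X.functionField) a.2
  exact ⟨s, Subtype.ext hs⟩

theorem finiteType_RegOn [LocallyOfFiniteType (X ↘ Spec (CommRingCat.of K))] {W : X.Opens}
    (hW : IsAffineOpen W) [Nonempty W] : Algebra.FiniteType K (RegOn K W) := by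
  let f := X ↘ Spec (CommRingCat.of K)
  have hfin : (f.appLE ⊤ W le_top).hom.FiniteType :=
    f.finiteType_appLE (isAffineOpen_top _) hW le_top
  have hiso : Function.Surjective (Scheme.ΓSpecIso (CommRingCat.of K)).inv.hom :=
    (ConcreteCategory.bijective_of_isIso (Scheme.ΓSpecIso (CommRingCat.of K)).inv).2
  have h2 : ((secToRegOn (K := K) W).comp ((f.appLE ⊤ W le_top).hom.comp
      (Scheme.ΓSpecIso (CommRingCat.of K)).inv.hom)).FiniteType :=
    RingHom.FiniteType.comp_surjective
      (hfin.comp (RingHom.FiniteType.of_surjective _ hiso)) (secToRegOn_surjective W)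
  have h3 : (secToRegOn (K := K) W).comp ((f.appLE ⊤ W le_top).hom.comp
      (Scheme.ΓSpecIso (CommRingCat.of K)).inv.hom) = algebraMap K (RegOn K W) := by
    refine RingHom.ext fun c => Subtype.ext ?_
    exact X.presheaf.germ_res_apply _ _ _ _
  rw [h3] at h2
  exact RingHom.finiteType_algebraMap.mp h2

theorem isFractionRing_RegOn {W : X.Opens} (hW : IsAffineOpen W) [Nonempty W] :
    IsFractionRing (RegOn K W) X.functionField := by
  have := functionField_isFractionRing_of_isAffineOpen X W hW
  refine IsFractionRing.of_field _ _ fun z => ?_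
  obtain ⟨a, b, -, hz⟩ := IsFractionRing.div_surjective Γ(X, W) z
  exact ⟨secToRegOn W a, secToRegOn W b, hz.symm⟩

theorem finiteDimensional_Lspace [IsAlgClosed K] [IsProper (X ↘ Spec (CommRingCat.of K))]
    (e : X → (X.functionField)ˣ) (he : (Set.range e).Finite) :
    FiniteDimensional K (Lspace K e) := by
  obtain ⟨_, ⟨W, hW, rfl⟩, hxW, -⟩ := X.isBasis_affineOpens.exists_subset_of_mem_open
    (Set.mem_univ (genericPoint X)) isOpen_univ
  have : Nonempty W := ⟨⟨_, hxW⟩⟩
  have := finiteType_RegOn (K := K) hW
  have := isFractionRing_RegOn (K := K) hW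
  have : Algebra.EssFiniteType (RegOn K W) X.functionField :=
    .of_isLocalization _ (nonZeroDivisors (RegOn K W))
  have : Algebra.EssFiniteType K X.functionField := .comp K (RegOn K W) _
  obtain ⟨s, hs, hsep⟩ :=
    exists_isTranscendenceBasis_and_isSeparable_of_perfectField K X.functionField
  let x : Fin s.card → X.functionField := fun i => (s.equivFin.symm i : X.functionField)
  have hx : AlgebraicIndependent K x := hs.1.comp _ s.equivFin.symm.injective
  have hrange : Set.range x = (s : Set X.functionField) := by
    ext a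
    exact ⟨fun ⟨i, hi⟩ => hi ▸ (s.equivFin.symm i).2, fun ha => ⟨s.equivFin ⟨a, ha⟩, by simp [x]⟩⟩
  have : Algebra.IsSeparable (IntermediateField.adjoin K (Set.range x)) X.functionField := by
    rw [hrange]; exact hsep
  have : Algebra.EssFiniteType (IntermediateField.adjoin K (Set.range x)) X.functionField :=
    .of_comp K _ _
  have : FiniteDimensional (IntermediateField.adjoin K (Set.range x)) X.functionField :=
    Algebra.finite_of_essFiniteType_of_isAlgebraic
  obtain ⟨C, hC⟩ := growthProperty K X s.card x hx ‹_› ‹_› e he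
  have h := (hC 1).1
  rwa [pow_one] at h

theorem eq_algebraMap_of_forall_mem_Reg [IsAlgClosed K] [IsProper (X ↘ Spec (CommRingCat.of K))]
    {a : X.functionField} (ha : ∀ x, a ∈ Reg x) : ∃ c : K, algebraMap K X.functionField c = a := by
  have hfin := finiteDimensional_Lspace (K := K) (1 : X → (X.functionField)ˣ)
    (Set.finite_range_const (c := (1 : (X.functionField)ˣ)))
  have hle : Subalgebra.toSubmodule (RegOn K (⊤ : X.Opens)) = Lspace K (1 : X → (X.functionField)ˣ) := by
    ext b
    simp [RegOn, Lspace]
  have : FiniteDimensional K (Subalgebra.toSubmodule (RegOn K (⊤ : X.Opens))) := hle ▸ hfin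
  have : Module.Finite K (RegOn K (⊤ : X.Opens)) := this
  have : Algebra.IsIntegral K (RegOn K (⊤ : X.Opens)) := Algebra.IsIntegral.of_finite K _
  obtain ⟨c, hc⟩ := (IsAlgClosed.algebraMap_bijective_of_isIntegral (k := K)
    (K := RegOn K (⊤ : X.Opens))).2 ⟨a, fun x _ => ha x⟩
  exact ⟨c, congrArg Subtype.val hc⟩

end Fermat.Agent.AbVar
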