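import Fermat.Agent.AbVar.RegOn

/-! Values of rational functions at rational points, restriction of rectangle tensors to slices,
injectivity of the rectangle map. -/

set_option autoImplicit false

noncomputable section

open CategoryTheory CategoryTheory.Limits AlgebraicGeometry TopologicalSpace
open scoped TensorProduct

universe u

namespace Fermat.Agent.AbVar

variable {K : Type u} [Field K]

theorem specField_eq (x : (Spec (CommRingCat.of K) : Scheme.{u})) :
    x = genericPoint (Spec (CommRingCat.of K) : Scheme.{u}) :=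
  Subsingleton.elim _ _

theorem baseMap_id_bijective :
    Function.Bijective (baseMap (𝟙 (Spec (CommRingCat.of K)))) := by
  refine ⟨RingHom.injective _, fun a => ?_⟩
  obtain ⟨s, rfl⟩ := exists_section_of_forall_mem_Reg ⊤ a
    (fun x _ => (specField_eq x).symm ▸ mem_Reg_genericPoint a)
  obtain ⟨c, rfl⟩ := (ConcreteCategory.bijective_of_isIso
    (Scheme.ΓSpecIso (CommRingCat.of K)).inv).2 s
  exact ⟨c, rfl⟩

variable (K) in
/-- The function field of the base is the base field. -/
def baseEquiv : K ≃+* (Spec (CommRingCat.of K) : Scheme.{u}).functionField :=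
  RingEquiv.ofBijective (baseMap (𝟙 (Spec (CommRingCat.of K)))) baseMap_id_bijective

variable {X Z : Scheme.{u}} [X.Over (Spec (CommRingCat.of K))] [Z.Over (Spec (CommRingCat.of K))]

variable (K Z) in
/-- A rational point. -/
abbrev RatPt : Type u :=
  {z : Spec (CommRingCat.of K) ⟶ Z // z ≫ (Z ↘ Spec (CommRingCat.of K)) = 𝟙 _}

/-- The point underlying a rational point. -/
def RatPt.pt (z : RatPt K Z) : Z := z.1 (IsLocalRing.closedPoint K)

theorem RatPt.apply_eq (z : RatPt K Z) (x : (Spec (CommRingCat.of K) : Scheme.{u})) :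
    z.1 x = z.pt :=
  congrArg z.1 (Subsingleton.elim _ _)

variable [IsIntegral Z]

/-- The value of a rational function at a rational point (zero where undefined). -/
def valAt (z : RatPt K Z) (a : Z.functionField) : K :=
  (baseEquiv K).symm (pullFun z.1 a)

theorem pullFun_ratPt (z : RatPt K Z) (a : Z.functionField) :
    pullFun z.1 a = baseMap (𝟙 _) (valAt z a) :=
  ((baseEquiv K).apply_symm_apply _).symm

theorem RatPt.mem_Reg_generic (z : RatPt K Z) {a : Z.functionField} (ha : a ∈ Reg z.pt) :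
    a ∈ Reg (z.1 (genericPoint _)) := by
  rwa [z.apply_eq]

theorem valAt_add (z : RatPt K Z) {a b : Z.functionField} (ha : a ∈ Reg z.pt)
    (hb : b ∈ Reg z.pt) : valAt z (a + b) = valAt z a + valAt z b := by
  rw [valAt, pullFun_add _ (z.mem_Reg_generic ha) (z.mem_Reg_generic hb), map_add]
  rfl

theorem valAt_mul (z : RatPt K Z) {a b : Z.functionField} (ha : a ∈ Reg z.pt)
    (hb : b ∈ Reg z.pt) : valAt z (a * b) = valAt z a * valAt z b := by
  rw [valAt, pullFun_mul _ (z.mem_Reg_generic ha) (z.mem_Reg_generic hb), map_mul]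
  rfl

theorem valAt_algebraMap (z : RatPt K Z) (c : K) : valAt z (algebraMap K Z.functionField c) = c := by
  rw [valAt, algebraMap_functionField, pullFun_baseMap z.1 _ _ z.2]
  exact (baseEquiv K).symm_apply_apply c

/-- Evaluation of functions regular on an open set containing the point. -/
def evalAt (z : RatPt K Z) (U : Z.Opens) (hz : z.pt ∈ U) : RegOn K U →ₐ[K] K where
  toFun a := valAt z a
  map_one' := by
    have := valAt_algebraMap z (1 : K)
    simpa using this
  map_mul' a b := valAt_mul z (a.2 _ hz) (b.2 _ hz)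
  map_zero' := by simp [valAt]
  map_add' a b := valAt_add z (a.2 _ hz) (b.2 _ hz)
  commutes' c := valAt_algebraMap z c

@[simp]
theorem evalAt_apply (z : RatPt K Z) (U : Z.Opens) (hz : z.pt ∈ U) (a : RegOn K U) :
    evalAt z U hz a = valAt z a :=
  rfl

section Jacobson

variable [IsAlgClosed K] [LocallyOfFiniteType (Z ↘ Spec (CommRingCat.of K))]

omit [IsIntegral Z] in
theorem exists_ratPt_mem {U : Z.Opens} (hU : (U : Set Z).Nonempty) :
    ∃ z : RatPt K Z, z.pt ∈ U := by
  have := LocallyOfFiniteType.jacobsonSpace (Z ↘ Spec (CommRingCat.of K))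
  obtain ⟨x, hx, hxc⟩ := nonempty_inter_closedPoints hU U.isOpen.isLocallyClosed
  refine ⟨(pointEquivClosedPoint (Z ↘ Spec (CommRingCat.of K))).symm ⟨x, hxc⟩, ?_⟩
  have h : ((pointEquivClosedPoint (Z ↘ Spec (CommRingCat.of K))).symm ⟨x, hxc⟩).1
      (IsLocalRing.closedPoint K) = x := by
    exact pointOfClosedPoint_apply _ x hxc _
  show _ ∈ (U : Set Z)
  rw [RatPt.pt, h]
  exact hx

theorem exists_valAt_ne_zero {U : Z.Opens} (hU : (U : Set Z).Nonempty) {a : Z.functionField}
    (ha : a ∈ RegOn K U) (ha0 : a ≠ 0) : ∃ z : RatPt K Z, z.pt ∈ U ∧ valAt z a ≠ 0 := by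
  obtain ⟨V, hV, hV'⟩ := exists_open_of_mem_Reg (mem_Reg_genericPoint a⁻¹)
  have hne : ((U ⊓ V : Z.Opens) : Set Z).Nonempty :=
    ⟨genericPoint Z, ((genericPoint_spec Z).mem_open_set_iff U.isOpen).mpr (by simpa using hU), hV⟩
  obtain ⟨z, hz⟩ := exists_ratPt_mem (K := K) hne
  refine ⟨z, hz.1, fun h0 => ?_⟩
  have := valAt_mul z (ha _ hz.1) (hV' _ hz.2)
  rw [mul_inv_cancel₀ ha0, h0, zero_mul] at this
  have h1 := valAt_algebraMap z (1 : K)
  rw [map_one] at h1
  exact one_ne_zero (h1.symm.trans this)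

theorem eq_zero_of_forall_valAt {U : Z.Opens} (hU : (U : Set Z).Nonempty) {a : Z.functionField}
    (ha : a ∈ RegOn K U) (h : ∀ z : RatPt K Z, z.pt ∈ U → valAt z a = 0) : a = 0 :=
  by_contra fun h0 =>
    let ⟨z, hz, hz'⟩ := exists_valAt_ne_zero hU ha h0
    hz' (h z hz)

end Jacobson

/-- The slice `X × {z}`. -/
def sliceZ (z : RatPt K Z) : X ⟶ Pd K X Z :=
  pullback.lift (𝟙 X) ((X ↘ Spec (CommRingCat.of K)) ≫ z.1) (by simp [z.2])

omit [IsIntegral Z] in
@[simp]
theorem sliceZ_pX (z : RatPt K Z) : sliceZ z ≫ pX K X Z = 𝟙 X :=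
  pullback.lift_fst _ _ _

omit [IsIntegral Z] in
@[simp]
theorem sliceZ_pZ (z : RatPt K Z) :
    sliceZ z ≫ pZ K X Z = (X ↘ Spec (CommRingCat.of K)) ≫ z.1 :=
  pullback.lift_snd _ _ _

omit [IsIntegral Z] in
theorem pX_sliceZ (z : RatPt K Z) (x : X) : pX K X Z (sliceZ z x) = x := by
  rw [← Scheme.Hom.comp_apply, sliceZ_pX]
  rfl

omit [IsIntegral Z] in
theorem pZ_sliceZ (z : RatPt K Z) (x : X) : pZ K X Z (sliceZ z x) = z.pt := by
  rw [← Scheme.Hom.comp_apply, sliceZ_pZ, Scheme.Hom.comp_apply, z.apply_eq]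

omit [IsIntegral Z] in
theorem sliceZ_over (z : RatPt K Z) :
    sliceZ z ≫ (Pd K X Z ↘ Spec (CommRingCat.of K)) = (X ↘ Spec (CommRingCat.of K)) := by
  show sliceZ z ≫ pX K X Z ≫ _ = _
  rw [← Category.assoc, sliceZ_pX, Category.id_comp]

omit [IsIntegral Z] in
theorem sliceZ_mem_rect (z : RatPt K Z) {W : X.Opens} {U : Z.Opens} {x : X} (hx : x ∈ W)
    (hz : z.pt ∈ U) : sliceZ z x ∈ rect K W U :=
  ⟨by show pX K X Z (sliceZ z x) ∈ W; rwa [pX_sliceZ],
   by show pZ K X Z (sliceZ z x) ∈ U; rwa [pZ_sliceZ]⟩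

variable [IsIntegral X] [IsIntegral (Pd K X Z)] [PdDominant K X Z]

theorem pullFun_sliceZ_pullX (z : RatPt K Z) (a : X.functionField) :
    pullFun (sliceZ z) (pullX K X Z a) = a := by
  rw [pullX_apply, ← pullFun_comp]
  · rw [sliceZ_pX, pullFun_id]
  · rw [sliceZ_pX]
    exact mem_Reg_genericPoint a

theorem pullFun_sliceZ_pullZ (z : RatPt K Z) {b : Z.functionField} (hb : b ∈ Reg z.pt) :
    pullFun (sliceZ z) (pullZ K X Z b) = algebraMap K X.functionField (valAt z b) := by
  rw [pullZ_apply, ← pullFun_comp]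
  · rw [sliceZ_pZ, pullFun_comp, pullFun_ratPt,
      pullFun_baseMap _ _ (X ↘ Spec (CommRingCat.of K)) (Category.comp_id _)]
    · rfl
    · rwa [Scheme.Hom.comp_apply, z.apply_eq]
  · rwa [Scheme.Hom.comp_apply, pZ_sliceZ]

/-- Restriction of rectangle tensors to a slice. -/
def sliceTensor (z : RatPt K Z) (W : X.Opens) (U : Z.Opens) (hz : z.pt ∈ U) :
    RegOn K W ⊗[K] RegOn K U →ₐ[K] X.functionField :=
  Algebra.TensorProduct.productMap (RegOn K W).val
    ((Algebra.ofId K X.functionField).comp (evalAt z U hz))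

theorem pullFun_sliceZ_mu (z : RatPt K Z) (W : X.Opens) (hW : (W : Set X).Nonempty) (U : Z.Opens)
    (hz : z.pt ∈ U) (t : RegOn K W ⊗[K] RegOn K U) :
    pullFun (sliceZ z) (mu K W U t) = sliceTensor z W U hz t := by
  have hη : sliceZ z (genericPoint X) ∈ rect K W U :=
    sliceZ_mem_rect z (((genericPoint_spec X).mem_open_set_iff W.isOpen).mpr (by simpa using hW)) hz
  induction t using TensorProduct.induction_on with
  | zero => simp
  | tmul a b =>
    rw [mu_tmul]
    erw [pullFun_mul _ (pullFun_mem_Reg _ _ (a.2 _ hη.1))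
      (pullFun_mem_Reg _ _ (b.2 _ hη.2))]
    erw [pullFun_sliceZ_pullX, pullFun_sliceZ_pullZ z (b.2 _ hz)]
    rfl
  | add x y hx hy =>
    rw [map_add]
    erw [pullFun_add _ (range_mu_le W U ⟨x, rfl⟩ _ hη) (range_mu_le W U ⟨y, rfl⟩ _ hη),
      hx, hy, map_add]

section Injective

variable [IsAlgClosed K] [LocallyOfFiniteType (Z ↘ Spec (CommRingCat.of K))]

theorem mu_injective (W : X.Opens) (hW : (W : Set X).Nonempty) (U : Z.Opens)
    (hU : (U : Set Z).Nonempty) : Function.Injective (mu (X := X) (Z := Z) K W U) := by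
  rw [injective_iff_map_eq_zero]
  intro t ht
  let ℬ := Module.Free.chooseBasis K (RegOn K W)
  let e := TensorProduct.equivFinsuppOfBasisLeft (N := RegOn K U) ℬ
  refine e.injective ?_
  rw [map_zero]
  ext i
  rw [Finsupp.zero_apply, ZeroMemClass.coe_zero]
  refine eq_zero_of_forall_valAt hU (e t i).2 fun z hz => ?_
  have key : ∀ s : RegOn K W ⊗[K] RegOn K U,
      evalAt z U hz (e s i) =
        ℬ.coord i (TensorProduct.rid K (RegOn K W)
          (TensorProduct.map LinearMap.id (evalAt z U hz).toLinearMap s)) := by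
    intro s
    induction s using TensorProduct.induction_on with
    | zero => simp [valAt]
    | tmul a b => simp [e, mul_comm]
    | add x y hx hy => simp only [map_add, Finsupp.add_apply, hx, hy]
  have h2 : ∀ s : RegOn K W ⊗[K] RegOn K U,
      ((TensorProduct.rid K (RegOn K W)
          (TensorProduct.map LinearMap.id (evalAt z U hz).toLinearMap s)) : X.functionField) =
        sliceTensor z W U hz s := by
    intro s
    induction s using TensorProduct.induction_on with
    | zero => simp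
    | tmul a b => simp [sliceTensor, Algebra.smul_def, mul_comm]
    | add x y hx hy => simp only [map_add, AddMemClass.coe_add, hx, hy]
  have h3 := pullFun_sliceZ_mu z W hW U hz t
  rw [ht, pullFun_zero, ← h2] at h3
  have := key t
  rw [show (TensorProduct.rid K (RegOn K W))
    (TensorProduct.map LinearMap.id (evalAt z U hz).toLinearMap t) = 0 from Subtype.ext h3.symm,
    map_zero] at this
  simpa using this

end Injective

end Fermat.Agent.AbVar
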