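import Mathlib

/-! Gluing data over a parameter ring: kernel of the compatibility map as the kernel of a matrix
over the parameter ring, compatibly with every change of parameters. -/

set_option autoImplicit false

noncomputable section

open scoped TensorProduct Classical

universe u

namespace Fermat.Agent.AbVar

variable (K : Type u) [Field K] (F : Type u) [Field F] [Algebra K F]
  (B : Type u) [CommRing B] [Algebra K B]

/-- Gluing data for a rank one module, with coefficients in `B`. -/
structure GlueData where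
  ι : Type u
  finι : Fintype ι
  r : ℕ
  R : ι → Subalgebra K F
  R2 : ι → ι → Subalgebra K F
  le_left : ∀ i j, R i ≤ R2 i j
  le_right : ∀ i j, R j ≤ R2 i j
  ε : ∀ i j, Fin r → Fin r → (R2 i j) ⊗[K] B

attribute [instance] GlueData.finι

variable {K F B} (G : GlueData K F B) {B' : Type u} [CommRing B'] [Algebra K B']

/-- Restriction from the left chart. -/
def GlueData.resL (B' : Type u) [CommRing B'] [Algebra K B'] (i j : G.ι) :
    G.R i ⊗[K] B' →ₐ[K] G.R2 i j ⊗[K] B' :=
  Algebra.TensorProduct.map (Subalgebra.inclusion (G.le_left i j)) (AlgHom.id K B')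

/-- Restriction from the right chart. -/
def GlueData.resR (B' : Type u) [CommRing B'] [Algebra K B'] (i j : G.ι) :
    G.R j ⊗[K] B' →ₐ[K] G.R2 i j ⊗[K] B' :=
  Algebra.TensorProduct.map (Subalgebra.inclusion (G.le_right i j)) (AlgHom.id K B')

/-- The transition elements after change of parameters. -/
def GlueData.push (π : B →ₐ[K] B') (i j : G.ι) (k l : Fin G.r) : G.R2 i j ⊗[K] B' :=
  Algebra.TensorProduct.map (AlgHom.id K _) π (G.ε i j k l)

/-- The failure of a family to be compatible. -/
def GlueData.defect (π : B →ₐ[K] B') (f : ∀ i, Fin G.r → G.R i ⊗[K] B') (i j : G.ι)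
    (k : Fin G.r) : G.R2 i j ⊗[K] B' :=
  G.resL B' i j (f i k) - ∑ l, G.push π i j k l * G.resR B' i j (f j l)

/-- Compatible families. -/
def GlueData.IsCompat (π : B →ₐ[K] B') (f : ∀ i, Fin G.r → G.R i ⊗[K] B') : Prop :=
  ∀ i j k, G.defect π f i j k = 0

/-- Coefficients of the transition elements. -/
def GlueData.coeffSet (i j : G.ι) : Set F :=
  ⋃ k, ⋃ l, Set.range fun γ => (TensorProduct.equivFinsuppOfBasisRight
    (Module.Free.chooseBasis K B) (G.ε i j k l) γ : F)

/-- The space where compatible families have their coefficients on the chart `j`. -/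
def GlueData.transSpan (i j : G.ι) : Submodule K F :=
  Submodule.span K (Set.image2 (· * ·) (G.coeffSet i j) (G.R j : Set F))

/-- The space of coefficients of compatible families. -/
def GlueData.bdd (i : G.ι) : Submodule K F :=
  Subalgebra.toSubmodule (G.R i) ⊓ ⨅ j, G.transSpan i j

theorem GlueData.bdd_le (i : G.ι) : G.bdd i ≤ Subalgebra.toSubmodule (G.R i) :=
  inf_le_left

theorem GlueData.coord_mem_bdd {π : B →ₐ[K] B'} {f : ∀ i, Fin G.r → G.R i ⊗[K] B'}
    (hf : G.IsCompat π f) {β : Type*} (b : Module.Basis β K B') (i : G.ι) (k : Fin G.r) (n : β) :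
    (TensorProduct.equivFinsuppOfBasisRight b (f i k) n : F) ∈ G.bdd i := by
  refine ⟨(TensorProduct.equivFinsuppOfBasisRight b (f i k) n).2,
    (Submodule.mem_iInf _).mpr fun j => ?_⟩
  have h1 : ∀ t : G.R i ⊗[K] B',
      (TensorProduct.equivFinsuppOfBasisRight b (G.resL B' i j t) n : F) =
        (TensorProduct.equivFinsuppOfBasisRight b t n : F) := by
    intro t
    induction t using TensorProduct.induction_on with
    | zero => simp
    | tmul a c => simp [GlueData.resL]
    | add x y hx hy => simp [map_add, hx, hy]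
  rw [← h1, sub_eq_zero.mp (hf i j k), map_sum, Finsupp.finsetSum_apply]
  push_cast
  refine Submodule.sum_mem _ fun l _ => ?_
  generalize f j l = t
  induction t using TensorProduct.induction_on with
  | zero => simp
  | add x y hx hy =>
    rw [map_add, mul_add, map_add, Finsupp.add_apply]
    push_cast
    exact add_mem hx hy
  | tmul a c =>
    have hε := ((TensorProduct.equivFinsuppOfBasisRight (M := G.R2 i j)
      (Module.Free.chooseBasis K B)).symm_apply_apply (G.ε i j k l)).symm
    rw [GlueData.push, hε, TensorProduct.equivFinsuppOfBasisRight_symm_apply, Finsupp.sum,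
      map_sum, Finset.sum_mul, map_sum, Finsupp.finsetSum_apply]
    push_cast
    refine Submodule.sum_mem _ fun γ _ => ?_
    simp only [GlueData.resR, Algebra.TensorProduct.map_tmul, AlgHom.coe_id, id_eq,
      Algebra.TensorProduct.tmul_mul_tmul, TensorProduct.equivFinsuppOfBasisRight_apply_tmul_apply,
      SetLike.val_smul, MulMemClass.coe_mul]
    refine Submodule.smul_mem _ _ (Submodule.subset_span ⟨_, ?_, (a : F), a.2, rfl⟩)
    exact Set.mem_iUnion.mpr ⟨k, Set.mem_iUnion.mpr ⟨l, γ, rfl⟩⟩

section Matrix

variable [∀ i, FiniteDimensional K (G.bdd i)]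

/-- Columns of the matrix. -/
abbrev GlueData.Col : Type u := Σ _ : Fin G.r, Σ i : G.ι, Fin (Module.finrank K (G.bdd i))

/-- The basic family attached to a column, in chart `i`. -/
def GlueData.colElt (i : G.ι) (a : Fin (Module.finrank K (G.bdd i))) : G.R i :=
  ⟨(Module.finBasis K (G.bdd i) a : F), G.bdd_le i (Module.finBasis K (G.bdd i) a).2⟩

/-- The family with given coefficients. -/
def GlueData.family (x : G.Col → B') (i : G.ι) (k : Fin G.r) : G.R i ⊗[K] B' :=
  ∑ a, G.colElt i a ⊗ₜ[K] x ⟨k, i, a⟩

theorem GlueData.exists_family {π : B →ₐ[K] B'} {f : ∀ i, Fin G.r → G.R i ⊗[K] B'}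
    (hf : G.IsCompat π f) : ∃ x : G.Col → B', f = G.family x := by
  classical
  let b := Module.Free.chooseBasis K B'
  refine ⟨fun c => ∑ n ∈ (TensorProduct.equivFinsuppOfBasisRight b (f c.2.1 c.1)).support,
    ((Module.finBasis K (G.bdd c.2.1)).repr
      ⟨_, G.coord_mem_bdd hf b c.2.1 c.1 n⟩ c.2.2) • b n, funext fun i => funext fun k => ?_⟩
  have aux : ∀ (s : G.R i) (hs : (s : F) ∈ G.bdd i),
      ∑ a, (Module.finBasis K (G.bdd i)).repr ⟨_, hs⟩ a • G.colElt i a = s := by
    intro s hs
    refine Subtype.ext ?_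
    have := congrArg Subtype.val ((Module.finBasis K (G.bdd i)).sum_repr ⟨_, hs⟩)
    push_cast at this ⊢
    exact this
  have hd : f i k = ∑ n ∈ (TensorProduct.equivFinsuppOfBasisRight b (f i k)).support,
      TensorProduct.equivFinsuppOfBasisRight b (f i k) n ⊗ₜ[K] b n := by
    conv_lhs => rw [← (TensorProduct.equivFinsuppOfBasisRight b).symm_apply_apply (f i k),
      TensorProduct.equivFinsuppOfBasisRight_symm_apply, Finsupp.sum]
  unfold GlueData.family
  simp only [TensorProduct.tmul_sum, ← TensorProduct.smul_tmul]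
  have h3 : ∀ n, ∑ a, ((Module.finBasis K (G.bdd i)).repr
      ⟨_, G.coord_mem_bdd hf b i k n⟩ a • G.colElt i a) ⊗ₜ[K] b n =
      TensorProduct.equivFinsuppOfBasisRight b (f i k) n ⊗ₜ[K] b n := fun n => by
    rw [← TensorProduct.sum_tmul, aux]
  refine (hd.trans (Finset.sum_congr rfl fun n _ => (h3 n).symm)).trans ?_
  exact Finset.sum_comm

theorem GlueData.family_injective : Function.Injective (G.family (B' := B')) := by
  classical
  intro x y hxy
  funext ⟨k, i, a⟩
  have hex : ∃ L : G.R i →ₗ[K] K, ∀ a', L (G.colElt i a') = if a' = a then 1 else 0 := by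
    let incl : G.bdd i →ₗ[K] G.R i := Submodule.inclusion (G.bdd_le i)
    obtain ⟨g, hg⟩ := LinearMap.exists_leftInverse_of_injective incl
      (LinearMap.ker_eq_bot.mpr (Submodule.inclusion_injective _))
    refine ⟨((Module.finBasis K (G.bdd i)).coord a).comp g, fun a' => ?_⟩
    have := LinearMap.congr_fun hg (Module.finBasis K (G.bdd i) a')
    rw [LinearMap.comp_apply, LinearMap.id_apply] at this
    show (Module.finBasis K (G.bdd i)).coord a (g (incl _)) = _
    rw [this]
    simp [Finsupp.single_apply]
  obtain ⟨L, hL⟩ := hex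
  have key : ∀ z : G.Col → B',
      TensorProduct.lid K B' (L.rTensor B' (G.family z i k)) = z ⟨k, i, a⟩ := by
    intro z
    simp [GlueData.family, map_sum, hL]
  rw [← key x, ← key y, hxy]

/-- Rows of the matrix. -/
abbrev GlueData.Row : Type u :=
  Σ i : G.ι, Σ j : G.ι, Σ _ : Fin G.r, Module.Free.ChooseBasisIndex K (G.R2 i j)

/-- The matrix of the compatibility map. -/
def GlueData.mat (l : G.Row) (c : G.Col) : B :=
  TensorProduct.equivFinsuppOfBasisLeft (N := B) (Module.Free.chooseBasis K (G.R2 l.1 l.2.1))
    (G.defect (AlgHom.id K B) (G.family (Pi.single c 1)) l.1 l.2.1 l.2.2.1) l.2.2.2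

theorem GlueData.coord_defect (π : B →ₐ[K] B') (x : G.Col → B') (l : G.Row) :
    TensorProduct.equivFinsuppOfBasisLeft (Module.Free.chooseBasis K (G.R2 l.1 l.2.1))
      (G.defect π (G.family x) l.1 l.2.1 l.2.2.1) l.2.2.2 = ∑ c, π (G.mat l c) * x c := by
  classical
  obtain ⟨i, j, k, μ'⟩ := l
  let 𝓑 := Module.Free.chooseBasis K (G.R2 i j)
  have hcoord : ∀ (t : G.R2 i j ⊗[K] B) (y : B'),
      TensorProduct.equivFinsuppOfBasisLeft 𝓑
        (Algebra.TensorProduct.map (AlgHom.id K _) π t * (1 ⊗ₜ y)) μ' =
      π (TensorProduct.equivFinsuppOfBasisLeft 𝓑 t μ') * y := by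
    intro t y
    induction t using TensorProduct.induction_on with
    | zero => simp
    | tmul p q => simp [smul_mul_assoc]
    | add p q hp hq => simp only [map_add, add_mul, Finsupp.add_apply, hp, hq]
  have hdec : G.defect π (G.family x) i j k = ∑ c : G.Col,
      Algebra.TensorProduct.map (AlgHom.id K _) π
        (G.defect (AlgHom.id K B) (G.family (Pi.single c 1)) i j k) * (1 ⊗ₜ x c) := by
    have hfam : ∀ (i' : G.ι) (k' : Fin G.r), G.family x i' k' = ∑ c : G.Col,
        Algebra.TensorProduct.map (AlgHom.id K (G.R i')) π (G.family (Pi.single c (1 : B)) i' k') *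
          (1 ⊗ₜ x c) := by
      intro i' k'
      simp only [GlueData.family, map_sum, Algebra.TensorProduct.map_tmul, Finset.sum_mul,
        Algebra.TensorProduct.tmul_mul_tmul, mul_one, AlgHom.coe_id, id_eq]
      rw [Finset.sum_comm]
      refine Finset.sum_congr rfl fun a _ => ?_
      rw [← TensorProduct.tmul_sum]
      congr 1
      rw [Finset.sum_eq_single (⟨k', i', a⟩ : G.Col)]
      · simp
      · intro c _ hc
        rw [Pi.single_eq_of_ne (Ne.symm hc), map_zero, zero_mul]
      · simp
    have hL : ∀ (t : G.R i ⊗[K] B) (y : B'),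
        G.resL B' i j (Algebra.TensorProduct.map (AlgHom.id K _) π t * (1 ⊗ₜ y)) =
          Algebra.TensorProduct.map (AlgHom.id K _) π (G.resL B i j t) * (1 ⊗ₜ y) := by
      intro t y
      induction t using TensorProduct.induction_on with
      | zero => simp
      | tmul p q => simp [GlueData.resL]
      | add p q hp hq => simp only [map_add, add_mul, hp, hq]
    have hR : ∀ (t : G.R j ⊗[K] B) (y : B'),
        G.resR B' i j (Algebra.TensorProduct.map (AlgHom.id K _) π t * (1 ⊗ₜ y)) =
          Algebra.TensorProduct.map (AlgHom.id K _) π (G.resR B i j t) * (1 ⊗ₜ y) := by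
      intro t y
      induction t using TensorProduct.induction_on with
      | zero => simp
      | tmul p q => simp [GlueData.resR]
      | add p q hp hq => simp only [map_add, add_mul, hp, hq]
    have hid : ∀ (i j : G.ι) (k l : Fin G.r), G.push (AlgHom.id K B) i j k l = G.ε i j k l :=
      fun i j k l => by simp [GlueData.push]
    simp only [GlueData.defect, hid]
    simp only [hfam, map_sub, map_sum, hL, hR, sub_mul, Finset.sum_sub_distrib,
      map_mul, Finset.sum_mul, Finset.mul_sum, GlueData.push, mul_assoc]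
    rw [Finset.sum_comm]
  rw [hdec, map_sum, Finsupp.finsetSum_apply]
  exact Finset.sum_congr rfl fun c _ => hcoord _ _

theorem GlueData.isCompat_family_iff (π : B →ₐ[K] B') (x : G.Col → B') :
    G.IsCompat π (G.family x) ↔ ∀ l : G.Row, ∑ c, π (G.mat l c) * x c = 0 := by
  classical
  constructor
  · intro h l
    rw [← G.coord_defect, h, map_zero, Finsupp.zero_apply]
  · intro h i j k
    refine (TensorProduct.equivFinsuppOfBasisLeft
      (Module.Free.chooseBasis K (G.R2 i j))).injective ?_
    rw [map_zero]
    ext μ'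
    rw [Finsupp.zero_apply]
    exact (G.coord_defect π x ⟨i, j, k, μ'⟩).trans (h ⟨i, j, k, μ'⟩)

end Matrix

end Fermat.Agent.AbVar
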