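import Fermat.Agent.AbVar.Field

/-! Subalgebras of functions regular on an open set, and the rectangle map
`O(W) ⊗ O(U) → K(X × Z)`. -/

set_option autoImplicit false

noncomputable section

open CategoryTheory CategoryTheory.Limits AlgebraicGeometry TopologicalSpace
open scoped TensorProduct

universe u

namespace Fermat.Agent.AbVar

variable {K : Type u} [Field K]

section RegOn

variable {S : Scheme.{u}} [IsIntegral S] [S.Over (Spec (CommRingCat.of K))]

variable (K) in
/-- The functions regular on `V`, as a subalgebra of the function field. -/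
def RegOn (V : S.Opens) : Subalgebra K S.functionField where
  carrier := {a | ∀ x ∈ V, a ∈ Reg x}
  mul_mem' ha hb x hx := mul_mem (ha x hx) (hb x hx)
  add_mem' ha hb x hx := add_mem (ha x hx) (hb x hx)
  algebraMap_mem' c x _ := algebraMap_mem_Reg c x

theorem mem_RegOn {V : S.Opens} {a : S.functionField} :
    a ∈ RegOn K V ↔ ∀ x ∈ V, a ∈ Reg x :=
  Iff.rfl

theorem RegOn_anti {V V' : S.Opens} (h : V ≤ V') : RegOn K V' ≤ RegOn K V :=
  fun _ ha x hx => ha x (h hx)

theorem RegOn_eq_range (V : S.Opens) [Nonempty V] :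
    (RegOn K V : Set S.functionField) = Set.range (S.germToFunctionField V) := by
  ext a
  refine ⟨fun ha => exists_section_of_forall_mem_Reg V a ha, ?_⟩
  rintro ⟨s, rfl⟩
  exact fun x hx => germToFunctionField_mem_Reg hx s

end RegOn

section Products

variable {X Z : Scheme.{u}} [X.Over (Spec (CommRingCat.of K))] [Z.Over (Spec (CommRingCat.of K))]

variable (K X Z) in
/-- The product over the base field. -/
abbrev Pd : Scheme.{u} :=
  pullback (X ↘ Spec (CommRingCat.of K)) (Z ↘ Spec (CommRingCat.of K))

variable (K X Z) in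
/-- The first projection. -/
abbrev pX : Pd K X Z ⟶ X :=
  pullback.fst (X ↘ Spec (CommRingCat.of K)) (Z ↘ Spec (CommRingCat.of K))

variable (K X Z) in
/-- The second projection. -/
abbrev pZ : Pd K X Z ⟶ Z :=
  pullback.snd (X ↘ Spec (CommRingCat.of K)) (Z ↘ Spec (CommRingCat.of K))

instance pdOver : (Pd K X Z).Over (Spec (CommRingCat.of K)) :=
  ⟨pX K X Z ≫ (X ↘ Spec (CommRingCat.of K))⟩

variable (K X Z) in
/-- Both projections are dominant. -/
class PdDominant [IsIntegral X] [IsIntegral Z] [IsIntegral (Pd K X Z)] : Prop where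
  fst_generic : pX K X Z (genericPoint (Pd K X Z)) = genericPoint X
  snd_generic : pZ K X Z (genericPoint (Pd K X Z)) = genericPoint Z

theorem generic_map_of_surjective {S T : Scheme.{u}} [IsIntegral S] [IsIntegral T] (φ : T ⟶ S)
    [Surjective φ] : φ (genericPoint T) = genericPoint S := by
  refine ((genericPoint_spec T).image φ.continuous).eq ?_
  convert genericPoint_spec S
  rw [Set.image_univ, φ.surjective.range_eq, closure_univ]

variable [IsIntegral X] [IsIntegral Z] [IsIntegral (Pd K X Z)]

instance pdDominant [Surjective (X ↘ Spec (CommRingCat.of K))]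
    [Surjective (Z ↘ Spec (CommRingCat.of K))] : PdDominant K X Z :=
  ⟨generic_map_of_surjective _, generic_map_of_surjective _⟩

variable [PdDominant K X Z]

variable (K X Z) in
/-- Pullback of functions from the first factor. -/
def pullX : X.functionField →ₐ[K] (Pd K X Z).functionField :=
  { pullHom (pX K X Z) PdDominant.fst_generic with
    commutes' := fun c => pullFun_baseMap _ _ _ rfl c }

variable (K X Z) in
/-- Pullback of functions from the second factor. -/
def pullZ : Z.functionField →ₐ[K] (Pd K X Z).functionField :=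
  { pullHom (pZ K X Z) PdDominant.snd_generic with
    commutes' := fun c => pullFun_baseMap _ _ _ pullback.condition.symm c }

@[simp]
theorem pullX_apply (a : X.functionField) : pullX K X Z a = pullFun (pX K X Z) a :=
  rfl

@[simp]
theorem pullZ_apply (b : Z.functionField) : pullZ K X Z b = pullFun (pZ K X Z) b :=
  rfl

variable (K) in
/-- The rectangle `W × U`. -/
def rect (W : X.Opens) (U : Z.Opens) : (Pd K X Z).Opens :=
  pX K X Z ⁻¹ᵁ W ⊓ pZ K X Z ⁻¹ᵁ U

omit [IsIntegral X] [IsIntegral Z] [IsIntegral (Pd K X Z)] [PdDominant K X Z] in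
theorem mem_rect {W : X.Opens} {U : Z.Opens} {p : (Pd K X Z)} :
    p ∈ rect K W U ↔ pX K X Z p ∈ W ∧ pZ K X Z p ∈ U :=
  Iff.rfl

variable (K) in
/-- The rectangle map. -/
def mu (W : X.Opens) (U : Z.Opens) :
    RegOn K W ⊗[K] RegOn K U →ₐ[K] (Pd K X Z).functionField :=
  Algebra.TensorProduct.productMap ((pullX K X Z).comp (RegOn K W).val)
    ((pullZ K X Z).comp (RegOn K U).val)

@[simp]
theorem mu_tmul (W : X.Opens) (U : Z.Opens) (a : RegOn K W) (b : RegOn K U) :
    mu K W U (a ⊗ₜ b) = pullX K X Z (a : X.functionField) * pullZ K X Z (b : Z.functionField) :=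
  rfl

theorem range_mu_le (W : X.Opens) (U : Z.Opens) : (mu K W U).range ≤ RegOn K (rect K W U) := by
  rintro _ ⟨t, rfl⟩
  induction t using TensorProduct.induction_on with
  | zero => exact (map_zero (mu K W U : _ →ₐ[K] _)).symm ▸ zero_mem _
  | tmul a b =>
    intro p hp
    exact mul_mem (pullFun_mem_Reg _ p (a.2 _ hp.1)) (pullFun_mem_Reg _ p (b.2 _ hp.2))
  | add x y hx hy =>
    rw [map_add]
    exact add_mem hx hy

variable (K X Z) in
/-- The rectangle lemma. -/
def RectangleSurjective : Prop :=
  ∀ (W : X.Opens) (U : Z.Opens), IsAffineOpen W → IsAffineOpen U → (W : Set X).Nonempty →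
    (U : Set Z).Nonempty → RegOn K (rect K W U) ≤ (mu K W U).range

end Products

end Fermat.Agent.AbVar
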