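import Fermat.Agent.AbVar.Product
import Fermat.Agent.AbVar.RegOn

/-! The rectangle lemma: functions regular on an affine rectangle come from the tensor product. -/

set_option autoImplicit false

noncomputable section

open CategoryTheory CategoryTheory.Limits AlgebraicGeometry TopologicalSpace
open scoped TensorProduct

universe u

namespace Fermat.Agent.AbVar

variable {K : Type u} [Field K] {X Z : Scheme.{u}} [X.Over (Spec (CommRingCat.of K))]
  [Z.Over (Spec (CommRingCat.of K))] [IsIntegral X] [IsIntegral Z]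

theorem germToFunctionField_res {S : Scheme.{u}} [IrreducibleSpace S] {U V : S.Opens}
    [Nonempty U] [Nonempty V] (h : U ≤ V) (s : Γ(S, V)) :
    S.germToFunctionField U (S.presheaf.map (homOfLE h).op s) = S.germToFunctionField V s :=
  S.presheaf.germ_res_apply (homOfLE h) _ _ s

variable (K X Z) in
/-- The rectangle lemma. -/
theorem rectangleSurjective [IsIntegral (Pd K X Z)] [PdDominant K X Z] :
    RectangleSurjective K X Z := by
  intro W U hW hU hW0 hU0 a ha
  let := secAlgebra (X ↘ Spec (CommRingCat.of K)) W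
  let := secAlgebra (Z ↘ Spec (CommRingCat.of K)) U
  obtain ⟨x, hx⟩ := hW0
  obtain ⟨z, hz⟩ := hU0
  obtain ⟨p, hp, hp'⟩ :=
    exists_point_over (X ↘ Spec (CommRingCat.of K)) (Z ↘ Spec (CommRingCat.of K)) x z
  have hpW : pX K X Z p ∈ W := by rwa [hp]
  have hpU : pZ K X Z p ∈ U := by rwa [hp']
  have : Nonempty W := ⟨⟨x, hx⟩⟩
  have : Nonempty U := ⟨⟨z, hz⟩⟩
  have : Nonempty (pX K X Z ⁻¹ᵁ W : (Pd K X Z).Opens) := ⟨⟨p, hpW⟩⟩
  have : Nonempty (pZ K X Z ⁻¹ᵁ U : (Pd K X Z).Opens) := ⟨⟨p, hpU⟩⟩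
  have : Nonempty (prodRect (X ↘ Spec (CommRingCat.of K)) (Z ↘ Spec (CommRingCat.of K)) W U :
      (Pd K X Z).Opens) := ⟨⟨p, hpW, hpU⟩⟩
  have : Nonempty (rect K W U) := ⟨⟨p, hpW, hpU⟩⟩
  obtain ⟨s, rfl⟩ := exists_section_of_forall_mem_Reg
    (prodRect (X ↘ Spec (CommRingCat.of K)) (Z ↘ Spec (CommRingCat.of K)) W U) a ha
  obtain ⟨t, rfl⟩ := (prodRectMap_bijective _ _ hW hU).2 s
  induction t using TensorProduct.induction_on with
  | zero => rw [map_zero, map_zero]; exact zero_mem _
  | add u v hu hv =>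
    rw [map_add, map_add] at ha ⊢
    exact add_mem (hu fun q hq => germToFunctionField_mem_Reg hq _)
      (hv fun q hq => germToFunctionField_mem_Reg hq _)
  | tmul b c =>
    refine ⟨⟨X.germToFunctionField W b, fun y hy => germToFunctionField_mem_Reg hy b⟩ ⊗ₜ
      ⟨Z.germToFunctionField U c, fun y hy => germToFunctionField_mem_Reg hy c⟩, ?_⟩
    refine (mu_tmul W U _ _).trans ?_
    rw [pullX_apply, pullZ_apply, pullFun_germ, pullFun_germ, prodRectMap_tmul, map_mul]
    congr 1
    · exact (germToFunctionField_res inf_le_left _).symm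
    · exact (germToFunctionField_res inf_le_right _).symm

end Fermat.Agent.AbVar
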