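import Fermat.Agent.AbVar.Sections
import Fermat.Agent.AbVar.Eval
import Fermat.Agent.AbVar.Glue
import Fermat.Agent.AbVar.Const
import Fermat.Agent.AbVar.RectangleSurjective

/-! The chart of a Cartier class on `X × U`: the gluing matrix over the coordinate ring of `U`,
whose kernels are the spaces of sections. -/

set_option autoImplicit false

noncomputable section

open CategoryTheory CategoryTheory.Limits AlgebraicGeometry TopologicalSpace
open scoped TensorProduct

universe u

namespace Fermat.Agent.AbVar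

variable {K : Type u} [Field K] {X Z : Scheme.{u}} [X.Over (Spec (CommRingCat.of K))]
  [Z.Over (Spec (CommRingCat.of K))] [IsIntegral X] [IsIntegral Z] [IsIntegral (Pd K X Z)]

/-- Splitting data of `h` on the rectangles over an affine cover of `X`. -/
structure Chart (h : CDiv (Pd K X Z)) (U : Z.Opens) where
  ι : Type u
  fin : Fintype ι
  W : ι → X.Opens
  affW : ∀ i, IsAffineOpen (W i)
  neW : ∀ i, (W i : Set X).Nonempty
  cover : ∀ x, ∃ i, x ∈ W i
  affU : IsAffineOpen U
  neU : (U : Set Z).Nonempty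
  r : ℕ
  ψ : ι → Fin r → (Pd K X Z).functionField
  φ : ι → Fin r → (Pd K X Z).functionField
  split : ∀ i, SplitOn h (rect K (W i) U) (ψ i) (φ i)

attribute [instance] Chart.fin

variable {h : CDiv (Pd K X Z)} {U : Z.Opens}

/-- The chart of the inverse class. -/
def Chart.inv (C : Chart h U) : Chart h⁻¹ U :=
  { C with ψ := C.φ, φ := C.ψ, split := fun i => (C.split i).swap }

instance Chart.nonempty (C : Chart h U) : Nonempty C.ι :=
  ⟨(C.cover (genericPoint X)).choose⟩

omit [IsIntegral X] [IsIntegral Z] in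
theorem exists_chart (h : CDiv (Pd K X Z)) (hU : IsAffineOpen U) (hU0 : (U : Set Z).Nonempty)
    (ι : Type u) [Fintype ι] (W : ι → X.Opens) (hW : ∀ i, IsAffineOpen (W i))
    (hW0 : ∀ i, (W i : Set X).Nonempty) (hcov : ∀ x, ∃ i, x ∈ W i) :
    ∃ C : Chart h U, ∃ e : C.ι = ι, ∀ i, C.W i = W (cast e i) := by
  have hex : ∀ i, ∃ (r : ℕ) (ψ φ : Fin r → (Pd K X Z).functionField),
      SplitOn h (rect K (W i) U) ψ φ := by
    intro i
    have : Nonempty (rect K (W i) U) := by
      obtain ⟨p, hp, hp'⟩ := exists_point_over (X ↘ Spec (CommRingCat.of K))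
        (Z ↘ Spec (CommRingCat.of K)) (hW0 i).some hU0.some
      exact ⟨⟨p, by show pX K X Z p ∈ W i; rw [hp]; exact (hW0 i).some_mem,
        by show pZ K X Z p ∈ U; rw [hp']; exact hU0.some_mem⟩⟩
    exact exists_splitOn h (isAffineOpen_prodRect _ _ (hW i) hU)
  choose r ψ φ hs using hex
  choose ψ' φ' hs' using fun i =>
    (hs i).extend (r := ∑ j, r j) (Finset.single_le_sum (fun _ _ => Nat.zero_le _) (Finset.mem_univ i))
  exact ⟨⟨ι, inferInstance, W, hW, hW0, hcov, hU, hU0, ∑ j, r j, ψ', φ', hs'⟩, rfl, fun i => rfl⟩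

/-- An affine cover by nonempty opens. -/
theorem exists_finite_affine_cover (X : Scheme.{u}) [CompactSpace X] :
    ∃ (ι : Type u) (_ : Fintype ι) (W : ι → X.Opens), (∀ i, IsAffineOpen (W i)) ∧
      (∀ i, (W i : Set X).Nonempty) ∧ ∀ x, ∃ i, x ∈ W i := by
  classical
  have : ∀ x : X, ∃ W : X.Opens, IsAffineOpen W ∧ x ∈ W := fun x => by
    obtain ⟨_, ⟨W, hW, rfl⟩, hxW, -⟩ :=
      X.isBasis_affineOpens.exists_subset_of_mem_open (Set.mem_univ x) isOpen_univ
    exact ⟨W, hW, hxW⟩
  choose W hW hxW using this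
  obtain ⟨t, ht⟩ := isCompact_univ.elim_finite_subcover (fun x : X => (W x : Set X))
    (fun x => (W x).isOpen) fun x _ => Set.mem_iUnion.mpr ⟨x, hxW x⟩
  refine ⟨t, inferInstance, fun i => W i, fun i => hW i, fun i => ⟨i, hxW i⟩, fun x => ?_⟩
  obtain ⟨i, hi, hxi⟩ := Set.mem_iUnion₂.mp (ht (Set.mem_univ x))
  exact ⟨⟨i, hi⟩, hxi⟩

omit [IsIntegral X] [IsIntegral Z] [IsIntegral (Pd K X Z)] in
theorem isAffineOpen_inf [IsSeparated (X ↘ Spec (CommRingCat.of K))] {V V' : X.Opens}
    (hV : IsAffineOpen V) (hV' : IsAffineOpen V') : IsAffineOpen (V ⊓ V') := by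
  have : IsSeparated (terminal.from X) := by
    rw [← terminal.comp_from (X ↘ Spec (CommRingCat.of K))]
    infer_instance
  exact hV.inf hV'

theorem inf_nonempty {V V' : X.Opens} (hV : (V : Set X).Nonempty) (hV' : (V' : Set X).Nonempty) :
    ((V ⊓ V' : X.Opens) : Set X).Nonempty :=
  ⟨genericPoint X, ((genericPoint_spec X).mem_open_set_iff V.isOpen).mpr (by simpa using hV),
    ((genericPoint_spec X).mem_open_set_iff V'.isOpen).mpr (by simpa using hV')⟩

omit [IsIntegral Z] in
theorem Chart.generic_mem (C : Chart h U) (i : C.ι) : genericPoint X ∈ C.W i :=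
  ((genericPoint_spec X).mem_open_set_iff (C.W i).isOpen).mpr (by simpa using C.neW i)

variable [IsProper (X ↘ Spec (CommRingCat.of K))] [LocallyOfFiniteType (Z ↘ Spec (CommRingCat.of K))]
  [PdDominant K X Z]

omit [LocallyOfFiniteType (Z ↘ Spec (CommRingCat.of K))] in
theorem Chart.exists_eps (C : Chart h U) (i j : C.ι) (k l : Fin C.r) :
    ∃ t, mu K (C.W i ⊓ C.W j) U t = C.φ i k * C.ψ j l :=
  rectangleSurjective K X Z (C.W i ⊓ C.W j) U (isAffineOpen_inf (K := K) (C.affW i) (C.affW j)) C.affU
    (inf_nonempty (C.neW i) (C.neW j)) C.neU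
    fun _ hp => (C.split i).mul_mem_Reg (C.split j) ⟨hp.1.1, hp.2⟩ ⟨hp.1.2, hp.2⟩ k l

/-- The gluing data of a chart. -/
@[reducible]
def Chart.glue (C : Chart h U) : GlueData K X.functionField (RegOn K U) where
  ι := C.ι
  finι := C.fin
  r := C.r
  R i := RegOn K (C.W i)
  R2 i j := RegOn K (C.W i ⊓ C.W j)
  le_left _ _ := RegOn_anti inf_le_left
  le_right _ _ := RegOn_anti inf_le_right
  ε i j k l := (C.exists_eps i j k l).choose

omit [LocallyOfFiniteType (Z ↘ Spec (CommRingCat.of K))] in
theorem Chart.mu_eps (C : Chart h U) (i j : C.ι) (k l : Fin C.r) :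
    mu K (C.W i ⊓ C.W j) U (C.glue.ε i j k l) = C.φ i k * C.ψ j l :=
  (C.exists_eps i j k l).choose_spec

instance Chart.finiteDimensional_bdd [IsAlgClosed K] (C : Chart h U) (i : C.glue.ι) :
    FiniteDimensional K (C.glue.bdd i) := by
  classical
  have hd : ∀ j : C.ι, ∃ d : (X.functionField)ˣ, ∀ a ∈ C.glue.transSpan i j,
      a * (d : X.functionField) ∈ RegOn K (C.W j) := by
    intro j
    have : Nonempty (C.W j) := (C.neW j).to_subtype
    have := isFractionRing_RegOn (K := K) (C.affW j)
    have hfin : (C.glue.coeffSet i j).Finite := by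
      refine Set.finite_iUnion fun k => Set.finite_iUnion fun l => ?_
      refine ((Finsupp.finite_range (TensorProduct.equivFinsuppOfBasisRight
        (Module.Free.chooseBasis K (RegOn K U)) (C.glue.ε i j k l))).image Subtype.val).subset ?_
      rintro _ ⟨γ, rfl⟩
      exact ⟨_, ⟨γ, rfl⟩, rfl⟩
    obtain ⟨⟨d, hd⟩, hd'⟩ := IsLocalization.exist_integer_multiples
      (S := X.functionField) (nonZeroDivisors (RegOn K (C.W j))) hfin.toFinset id
    have hd0 : (d : X.functionField) ≠ 0 := fun h0 =>
      nonZeroDivisors.ne_zero hd (show d = 0 from Subtype.ext h0)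
    refine ⟨Units.mk0 _ hd0, fun a ha => ?_⟩
    refine Submodule.span_induction ?_ ?_ ?_ ?_ ha
    · rintro _ ⟨g, hg, b, hb, rfl⟩
      obtain ⟨c, hc⟩ := hd' g (hfin.mem_toFinset.mpr hg)
      have : (g * b) * (d : X.functionField) = (c : X.functionField) * b := by
        have hc' : (c : X.functionField) = (d : X.functionField) * g := hc
        rw [hc']
        ring
      show g * b * (d : X.functionField) ∈ _
      rw [this]
      exact mul_mem c.2 hb
    · simp
    · intro a b _ _ ha hb
      rw [add_mul]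
      exact add_mem ha hb
    · intro c a _ ha
      rw [Algebra.smul_def, mul_assoc]
      exact mul_mem (Subalgebra.algebraMap_mem _ c) ha
  choose d hd using hd
  choose j hj using C.cover
  have hfd := finiteDimensional_Lspace (K := K) (fun x => d (j x))
    ((Set.finite_range d).subset (Set.range_comp_subset_range j d))
  refine Submodule.finiteDimensional_of_le (S₂ := Lspace K fun x => d (j x)) fun a ha x => ?_
  exact hd (j x) a ((Submodule.mem_iInf _).mp ha.2 (j x)) x (hj x)

end Fermat.Agent.AbVar
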