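import Fermat.Agent.AbVar.Chart

/-! Kernels of the gluing matrix at rational points are sections of the slices; global kernel
vectors are sections on `X × U`. -/

set_option autoImplicit false
set_option linter.unusedSectionVars false

noncomputable section

open CategoryTheory CategoryTheory.Limits AlgebraicGeometry TopologicalSpace
open scoped TensorProduct

universe u

namespace Fermat.Agent.AbVar

variable {K : Type u} [Field K] {X Z : Scheme.{u}} [X.Over (Spec (CommRingCat.of K))]
  [Z.Over (Spec (CommRingCat.of K))] [IsIntegral X] [IsIntegral Z] [IsIntegral (Pd K X Z)]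

variable (K) in
/-- Tensors over the base field as functions. -/
def sliceK (V : X.Opens) : RegOn K V ⊗[K] K →ₐ[K] X.functionField :=
  Algebra.TensorProduct.productMap (RegOn K V).val (Algebra.ofId K X.functionField)

omit [IsIntegral (Pd K X Z)] [IsIntegral Z] [Z.Over (Spec (CommRingCat.of K))] in
theorem sliceK_eq_rid (V : X.Opens) (t : RegOn K V ⊗[K] K) :
    sliceK K V t = ((TensorProduct.rid K (RegOn K V) t : RegOn K V) : X.functionField) := by
  induction t using TensorProduct.induction_on with
  | zero => simp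
  | tmul a c => simp [sliceK, Algebra.smul_def, mul_comm]
  | add x y hx hy => simp only [map_add, AddMemClass.coe_add, hx, hy]

omit [IsIntegral (Pd K X Z)] [IsIntegral Z] [Z.Over (Spec (CommRingCat.of K))] in
theorem sliceK_injective (V : X.Opens) : Function.Injective (sliceK (X := X) K V) := fun a b h => by
  rw [sliceK_eq_rid, sliceK_eq_rid] at h
  exact (TensorProduct.rid K (RegOn K V)).injective (Subtype.ext h)

omit [IsIntegral (Pd K X Z)] [IsIntegral Z] [Z.Over (Spec (CommRingCat.of K))] in
theorem sliceK_map_inclusion {V V' : X.Opens} (hVV : RegOn K V ≤ RegOn K V')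
    (t : RegOn K V ⊗[K] K) :
    sliceK K V' (Algebra.TensorProduct.map (Subalgebra.inclusion hVV) (AlgHom.id K K) t) =
      sliceK K V t := by
  induction t using TensorProduct.induction_on with
  | zero => simp
  | tmul a c => simp [sliceK]
  | add x y hx hy => simp only [map_add, hx, hy]

omit [IsIntegral (Pd K X Z)] in
theorem sliceTensor_eq (z : RatPt K Z) (V : X.Opens) (U : Z.Opens) (hz : z.pt ∈ U)
    (t : RegOn K V ⊗[K] RegOn K U) :
    sliceTensor z V U hz t =
      sliceK K V (Algebra.TensorProduct.map (AlgHom.id K (RegOn K V)) (evalAt z U hz) t) := by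
  induction t using TensorProduct.induction_on with
  | zero => simp
  | tmul a c => simp [sliceTensor, sliceK]
  | add x y hx hy => simp only [map_add, hx, hy]

variable [PdDominant K X Z]

theorem mu_map_inclusion {V V' : X.Opens} {U : Z.Opens} (hVV : RegOn K V ≤ RegOn K V')
    (t : RegOn K V ⊗[K] RegOn K U) :
    mu K V' U (Algebra.TensorProduct.map (Subalgebra.inclusion hVV) (AlgHom.id K _) t) =
      mu K V U t := by
  induction t using TensorProduct.induction_on with
  | zero => simp
  | tmul a c => rfl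
  | add x y hx hy => simp only [map_add, hx, hy]

variable {h : CDiv (Pd K X Z)} {U : Z.Opens}

/-- The slice of the divisor. -/
def sliceDiv (h : CDiv (Pd K X Z)) (z : RatPt K Z) : CDiv X := pullDiv (sliceZ z) h

/-- The sections on the slice. -/
def Chart.ψAt (C : Chart h U) (z : RatPt K Z) (i : C.ι) (k : Fin C.r) : X.functionField :=
  pullFun (sliceZ z) (C.ψ i k * (h.1 (sliceZ z (genericPoint X)) : (Pd K X Z).functionField))

/-- The sections of the inverse on the slice. -/
def Chart.φAt (C : Chart h U) (z : RatPt K Z) (i : C.ι) (k : Fin C.r) : X.functionField :=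
  pullFun (sliceZ z)
    (C.φ i k * ((h.1 (sliceZ z (genericPoint X)))⁻¹ : ((Pd K X Z).functionField)ˣ))

theorem Chart.gen_mem (C : Chart h U) {z : RatPt K Z} (hz : z.pt ∈ U) (i : C.ι) :
    sliceZ z (genericPoint X) ∈ rect K (C.W i) U :=
  sliceZ_mem_rect z (C.generic_mem i) hz

theorem Chart.split_slice (C : Chart h U) {z : RatPt K Z} (hz : z.pt ∈ U) (i : C.ι) :
    SplitOn (sliceDiv h z) (C.W i) (C.ψAt z i) (C.φAt z i) := by
  have hη := C.gen_mem hz i
  refine ⟨fun x hx k => ⟨?_, ?_⟩, ?_⟩
  · have hp := sliceZ_mem_rect z hx hz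
    have h1 := ((C.split i).1 _ hp k).1
    have h2 := pullFun_mem_Reg (sliceZ z) x h1
    convert h2 using 1
    rw [Chart.ψAt, sliceDiv, pullDiv_coe, pullGerm, pullUnit_coe]
    rw [← pullFun_mul _ ((C.split i).1 _ hη k).1 (ratio_mem (sliceZ z) h x).1]
    congr 1
    simp only [Units.val_div_eq_div_val]
    field_simp
  · have hp := sliceZ_mem_rect z hx hz
    have h1 := ((C.split i).1 _ hp k).2
    have h2 := pullFun_mem_Reg (sliceZ z) x h1
    convert h2 using 1
    rw [Chart.φAt, sliceDiv, pullDiv_coe, pullGerm, ← map_inv, pullUnit_coe]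
    rw [InvMemClass.coe_inv, ← pullFun_mul _ ((C.split i).1 _ hη k).2 (ratio_mem (sliceZ z) h x).2]
    congr 1
    simp only [inv_div, Units.val_div_eq_div_val, Units.val_inv_eq_inv_val]
    field_simp
  · have hsum : ∀ s : Finset (Fin C.r),
        (∑ k ∈ s, C.ψ i k * C.φ i k) ∈ Reg (sliceZ z (genericPoint X)) ∧
        pullFun (sliceZ z) (∑ k ∈ s, C.ψ i k * C.φ i k) =
          ∑ k ∈ s, C.ψAt z i k * C.φAt z i k := by
      classical
      intro s
      induction s using Finset.induction with
      | empty => simp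
      | insert a s ha ih =>
        have h1 := mul_mem ((C.split i).1 _ hη a).1 ((C.split i).1 _ hη a).2
        have h2 : C.ψ i a * (h.1 (sliceZ z (genericPoint X)) : (Pd K X Z).functionField) *
            (C.φ i a * ((h.1 (sliceZ z (genericPoint X)))⁻¹ : ((Pd K X Z).functionField)ˣ)) =
            C.ψ i a * C.φ i a := by
          rw [Units.val_inv_eq_inv_val]; field_simp
        rw [Finset.sum_insert ha, Finset.sum_insert ha]
        refine ⟨add_mem (h2 ▸ h1) ih.1, ?_⟩
        rw [pullFun_add _ (h2 ▸ h1) ih.1, ih.2]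
        congr 1
        rw [Chart.ψAt, Chart.φAt, ← pullFun_mul _ ((C.split i).1 _ hη a).1 ((C.split i).1 _ hη a).2]
        rw [h2]
    rw [← (hsum Finset.univ).2, (C.split i).2, pullFun_one]

variable [IsProper (X ↘ Spec (CommRingCat.of K))] [LocallyOfFiniteType (Z ↘ Spec (CommRingCat.of K))]

/-- The family of functions of a vector over `K` on the slices. -/
def Chart.famK [IsAlgClosed K] (C : Chart h U) (v : C.glue.Col → K) (i : C.ι) (k : Fin C.r) :
    X.functionField :=
  sliceK K (C.W i) (C.glue.family v i k)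

/-- The kernel of the gluing matrix at a rational point. -/
def Chart.Ker [IsAlgClosed K] (C : Chart h U) (z : RatPt K Z) (hz : z.pt ∈ U)
    (v : C.glue.Col → K) : Prop :=
  ∀ l, ∑ c, evalAt z U hz (C.glue.mat l c) * v c = 0

theorem Chart.push_eval (C : Chart h U) {z : RatPt K Z} (hz : z.pt ∈ U) (i j : C.ι)
    (k l : Fin C.r) :
    sliceK K (C.W i ⊓ C.W j) (C.glue.push (evalAt z U hz) i j k l) =
      C.φAt z i k * C.ψAt z j l := by
  show sliceK K _ (Algebra.TensorProduct.map (AlgHom.id K _) (evalAt z U hz) _) = _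
  have hne : ((C.W i ⊓ C.W j : X.Opens) : Set X).Nonempty := inf_nonempty (C.neW i) (C.neW j)
  refine ((sliceTensor_eq z _ U hz _).symm.trans (pullFun_sliceZ_mu z _ hne U hz _).symm).trans ?_
  erw [C.mu_eps]
  have h1 := ((C.split i).1 _ (C.gen_mem hz i) k).2
  have h2 := ((C.split j).1 _ (C.gen_mem hz j) l).1
  rw [Chart.φAt, Chart.ψAt, ← pullFun_mul _ h1 h2]
  congr 1
  rw [Units.val_inv_eq_inv_val]
  field_simp

variable [IsAlgClosed K]

theorem Chart.ker_iff (C : Chart h U) {z : RatPt K Z} (hz : z.pt ∈ U) (v : C.glue.Col → K) :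
    C.Ker z hz v ↔
      ∀ i j k, C.famK v i k = ∑ l, C.φAt z i k * C.ψAt z j l * C.famK v j l := by
  have hd : ∀ i j k, sliceK K (C.W i ⊓ C.W j)
      (C.glue.defect (evalAt z U hz) (C.glue.family v) i j k) =
        C.famK v i k - ∑ l, C.φAt z i k * C.ψAt z j l * C.famK v j l := by
    intro i j k
    show sliceK K (C.W i ⊓ C.W j) (C.glue.resL K i j _ -
      ∑ l, C.glue.push (evalAt z U hz) i j k l * C.glue.resR K i j _) = _
    rw [map_sub, map_sum]
    congr 1
    · exact sliceK_map_inclusion (C.glue.le_left i j) _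
    · refine Finset.sum_congr rfl fun l _ => ?_
      rw [map_mul]
      erw [C.push_eval hz i j k l, sliceK_map_inclusion (C.glue.le_right i j)]
      rfl
  rw [Chart.Ker, ← C.glue.isCompat_family_iff]
  constructor
  · intro hc i j k
    have := hd i j k
    rw [hc i j k, map_zero] at this
    exact sub_eq_zero.mp this.symm
  · intro hc i j k
    refine sliceK_injective (C.W i ⊓ C.W j) ?_
    rw [map_zero]
    exact (hd i j k).trans (sub_eq_zero.mpr (hc i j k))

theorem Chart.famK_mem (C : Chart h U) (v : C.glue.Col → K) (i : C.ι) (k : Fin C.r) :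
    C.famK v i k ∈ RegOn K (C.W i) := by
  rw [Chart.famK, sliceK_eq_rid]
  exact Subtype.coe_prop _

theorem Chart.famK_smul (C : Chart h U) (r : K) (v : C.glue.Col → K) (i : C.ι) (k : Fin C.r) :
    C.famK (r • v) i k = algebraMap K _ r * C.famK v i k := by
  rw [← Algebra.smul_def, Chart.famK, Chart.famK, ← map_smul]
  congr 1
  simp only [GlueData.family, Finset.smul_sum, Pi.smul_apply, TensorProduct.tmul_smul]

omit [LocallyOfFiniteType (Z ↘ Spec (CommRingCat.of K))] in
theorem Chart.famK_injective (C : Chart h U) {v w : C.glue.Col → K}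
    (hvw : ∀ i k, C.famK v i k = C.famK w i k) : v = w :=
  C.glue.family_injective (funext fun i => funext fun k => sliceK_injective _ (hvw i k))

theorem Chart.exists_sec (C : Chart h U) {z : RatPt K Z} (hz : z.pt ∈ U) {v : C.glue.Col → K}
    (hv : C.Ker z hz v) :
    ∃ s : X.functionField, (∀ x, s * ((sliceDiv h z).1 x : X.functionField) ∈ Reg x) ∧
      ∀ i k, C.famK v i k = s * C.φAt z i k := by
  obtain ⟨s, hs, hs'⟩ := exists_section_of_family (fun i => C.split_slice hz i)
    (fun i k => C.famK_mem v i k) ((C.ker_iff hz v).mp hv)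
  exact ⟨s, fun x => let ⟨i, hi⟩ := C.cover x; hs i x hi, hs'⟩

theorem Chart.exists_ker (C : Chart h U) {z : RatPt K Z} (hz : z.pt ∈ U) {s : X.functionField}
    (hs : ∀ x, s * ((sliceDiv h z).1 x : X.functionField) ∈ Reg x) :
    ∃ v, C.Ker z hz v ∧ ∀ i k, C.famK v i k = s * C.φAt z i k := by
  obtain ⟨h1, h2⟩ := family_of_section (fun i => C.split_slice hz i) fun i x _ => hs x
  let f : ∀ i : C.glue.ι, Fin C.glue.r → C.glue.R i ⊗[K] K :=
    fun i k => (⟨_, fun x hx => h1 i k x hx⟩ : RegOn K (C.W i)) ⊗ₜ 1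
  have hf : ∀ (i : C.ι) k, sliceK K (C.W i) (f i k) = s * C.φAt z i k := fun i k => by
    simp [f, sliceK]
  have hc : C.glue.IsCompat (evalAt z U hz) f := by
    intro i j k
    refine sliceK_injective (C.W i ⊓ C.W j) ?_
    rw [map_zero]
    show sliceK K (C.W i ⊓ C.W j) (C.glue.resL K i j _ -
      ∑ l, C.glue.push (evalAt z U hz) i j k l * C.glue.resR K i j _) = _
    rw [map_sub, map_sum, sub_eq_zero]
    refine (sliceK_map_inclusion (C.glue.le_left i j) _).trans ?_
    rw [hf, h2 i j k]
    refine Finset.sum_congr rfl fun l _ => ?_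
    rw [map_mul]
    erw [C.push_eval hz i j k l, sliceK_map_inclusion (C.glue.le_right i j), hf]
  obtain ⟨v, hv⟩ := C.glue.exists_family hc
  refine ⟨v, ?_, fun i k => ?_⟩
  · rw [Chart.Ker, ← C.glue.isCompat_family_iff, ← hv]
    exact hc
  · rw [Chart.famK, ← hv]
    exact hf i k

/-- A kernel vector over the coordinate ring is a section over `X × U`. -/
theorem Chart.exists_sec_global (C : Chart h U) {x : C.glue.Col → RegOn K U}
    (hx : ∀ l, ∑ c, C.glue.mat l c * x c = 0) :
    ∃ s : (Pd K X Z).functionField,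
      (∀ p, pZ K X Z p ∈ U → s * (h.1 p : (Pd K X Z).functionField) ∈ Reg p) ∧
      ∀ (z : RatPt K Z) (hz : z.pt ∈ U),
        C.Ker z hz (fun c => evalAt z U hz (x c)) ∧ ∀ i k,
          C.famK (fun c => evalAt z U hz (x c)) i k =
            pullFun (sliceZ z) (s * (h.1 (sliceZ z (genericPoint X)) : (Pd K X Z).functionField)) *
              C.φAt z i k := by
  have hc : C.glue.IsCompat (AlgHom.id K (RegOn K U)) (C.glue.family x) :=
    (C.glue.isCompat_family_iff _ _).mpr hx
  let g : C.ι → Fin C.r → (Pd K X Z).functionField :=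
    fun i k => mu K (C.W i) U (C.glue.family x i k)
  have hreg : ∀ i k, ∀ p ∈ rect K (C.W i) U, g i k ∈ Reg p :=
    fun i k p hp => range_mu_le (C.W i) U ⟨_, rfl⟩ p hp
  have hcomp : ∀ i j k, g i k = ∑ l, C.φ i k * C.ψ j l * g j l := by
    intro i j k
    have h0 : mu K (C.W i ⊓ C.W j) U (C.glue.resL _ i j (C.glue.family x i k) -
        ∑ l, C.glue.push (AlgHom.id K (RegOn K U)) i j k l *
          C.glue.resR _ i j (C.glue.family x j l)) = 0 :=
      (congrArg (mu K (C.W i ⊓ C.W j) U) (hc i j k)).trans (map_zero _)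
    rw [map_sub, map_sum, sub_eq_zero] at h0
    refine ((mu_map_inclusion (C.glue.le_left i j) (C.glue.family x i k)).symm.trans h0).trans ?_
    refine Finset.sum_congr rfl fun l _ => ?_
    rw [map_mul]
    erw [mu_map_inclusion (C.glue.le_right i j)]
    have : C.glue.push (AlgHom.id K (RegOn K U)) i j k l = C.glue.ε i j k l := by
      simp [GlueData.push]
    rw [this]
    erw [C.mu_eps]
  obtain ⟨s, hs, hs'⟩ := exists_section_of_family C.split hreg hcomp
  refine ⟨s, fun p hp => ?_, fun z hz => ⟨?_, fun i k => ?_⟩⟩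
  · obtain ⟨i, hi⟩ := C.cover (pX K X Z p)
    exact hs i p ⟨hi, hp⟩
  · intro l
    simp only [← map_mul, ← map_sum, hx l, map_zero]
  · have hη := C.gen_mem hz i
    rw [Chart.φAt, ← pullFun_mul _ (hs i _ hη) ((C.split i).1 _ hη k).2]
    have hcalc : s * (h.1 (sliceZ z (genericPoint X)) : (Pd K X Z).functionField) *
        (C.φ i k * ((h.1 (sliceZ z (genericPoint X)))⁻¹ : ((Pd K X Z).functionField)ˣ)) = g i k := by
      rw [hs', Units.val_inv_eq_inv_val]
      field_simp
    rw [hcalc]
    erw [pullFun_sliceZ_mu z (C.W i) (C.neW i) U hz, sliceTensor_eq]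
    rw [Chart.famK]
    congr 1
    simp [GlueData.family, map_sum]

end Fermat.Agent.AbVar
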