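import Mathlib.RingTheory.Flat.EquationalCriterion
import Mathlib.RingTheory.Flat.FaithfullyFlat.Algebra
import Mathlib.RingTheory.Noetherian.Basic
import Mathlib.RingTheory.UniqueFactorizationDomain.GCDMonoid
import Mathlib.RingTheory.LocalRing.MaximalIdeal.Basic
import Mathlib.RingTheory.Ideal.Colon

/-! Factoriality descends along a faithfully flat extension of a Noetherian local ring. -/

set_option autoImplicit false

noncomputable section

open IsLocalRing

universe u v

namespace Fermat.Agent.AbVar.Formal

variable {R : Type u} {S : Type v} [CommRing R] [CommRing S] [Algebra R S]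

/-- An ideal of a local ring with principal extension to a faithfully flat local extension is
principal. -/
theorem isPrincipal_of_map [IsLocalRing R] [IsLocalRing S] [IsDomain S]
    [Module.FaithfullyFlat R S] (I : Ideal R) (c : S)
    (hc : I.map (algebraMap R S) = Ideal.span {c}) : ∃ i ∈ I, I = Ideal.span {i} := by
  by_cases hc0 : c = 0
  · refine ⟨0, zero_mem _, ?_⟩
    rw [← Ideal.comap_map_eq_self_of_faithfullyFlat (B := S) I, hc, hc0]
    ext x
    simp [Ideal.mem_span_singleton]
  obtain ⟨i, hi, hni⟩ : ∃ i ∈ I, algebraMap R S i ∉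
      Ideal.span {c} * maximalIdeal S := by
    by_contra! h
    have : I.map (algebraMap R S) ≤ Ideal.span {c} * maximalIdeal S := by
      rw [Ideal.map_le_iff_le_comap]
      exact h
    rw [hc, Ideal.span_singleton_le_iff_mem] at this
    obtain ⟨y, hy, hy'⟩ := Ideal.mem_span_singleton_mul.1 this
    rw [mul_eq_left₀ hc0] at hy'
    subst hy'
    exact (mem_maximalIdeal _).1 hy isUnit_one
  refine ⟨i, hi, ?_⟩
  have hmem : algebraMap R S i ∈ Ideal.span {c} := hc ▸ Ideal.mem_map_of_mem _ hi
  obtain ⟨y, hy⟩ := Ideal.mem_span_singleton.1 hmem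
  have hyu : IsUnit y := by
    by_contra hyu
    exact hni (Ideal.mem_span_singleton_mul.2 ⟨y, (mem_maximalIdeal _).2 hyu, hy.symm⟩)
  have heq : I.map (algebraMap R S) = (Ideal.span {i}).map (algebraMap R S) := by
    rw [hc, Ideal.map_span, Set.image_singleton, hy, Ideal.span_singleton_mul_right_unit hyu]
  exact Ideal.map_injective_of_faithfullyFlat heq

/-- Colon ideals of elements are extended along flat extensions. -/
theorem mem_map_colon [Module.Flat R S] (a b : R) {y x : S}
    (h : algebraMap R S b * y = algebraMap R S a * x) (I : Ideal R)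
    (hI : ∀ r, a ∣ b * r → r ∈ I) : y ∈ I.map (algebraMap R S) := by
  have hrel : ∑ i : Fin 2, (![b, -a] i) • (![y, x] i) = 0 := by
    simp [Fin.sum_univ_two, Algebra.smul_def, h]
  obtain ⟨k, c, z, hz, hc⟩ := Module.Flat.isTrivialRelation_of_sum_smul_eq_zero hrel
  have hy : y = ∑ j, c 0 j • z j := hz 0
  rw [hy]
  refine sum_mem fun j _ => ?_
  rw [Algebra.smul_def]
  refine Ideal.mul_mem_right _ _ (Ideal.mem_map_of_mem _ (hI _ ⟨c 1 j, ?_⟩))
  have := hc j
  simp [Fin.sum_univ_two] at this
  linear_combination this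

/-- Factoriality descends along a faithfully flat local extension. -/
theorem ufd_of_faithfullyFlat [IsNoetherianRing R] [IsLocalRing R] [IsLocalRing S] [IsDomain R]
    [IsDomain S] [UniqueFactorizationMonoid S] [Module.FaithfullyFlat R S] :
    UniqueFactorizationMonoid R := by
  classical
  let _ : GCDMonoid S := UniqueFactorizationMonoid.toGCDMonoid S
  have : WfDvdMonoid R := inferInstance
  suffices h : ∀ {p : R}, Irreducible p ↔ Prime p from { irreducible_iff_prime := h }
  intro p
  refine ⟨fun hp => ⟨hp.ne_zero, hp.not_isUnit, fun a b hab => ?_⟩, fun hp => hp.irreducible⟩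
  let I : Ideal R :=
    Submodule.comap (LinearMap.mulLeft R a) (Ideal.span {p} : Ideal R)
  have hI : ∀ r, r ∈ I ↔ p ∣ a * r := fun r => by
    show LinearMap.mulLeft R a r ∈ Ideal.span {p} ↔ _
    rw [Ideal.mem_span_singleton, LinearMap.mulLeft_apply]
  have hcolon : ∃ c : S, I.map (algebraMap R S) = Ideal.span {c} := by
    set P := algebraMap R S p
    set A := algebraMap R S a
    have hP : P ≠ 0 := (map_ne_zero_iff _ (FaithfulSMul.algebraMap_injective R S)).2 hp.ne_zero
    obtain ⟨P', A', g, hP', hA', hcop⟩ : ∃ P' A' g : S,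
        P = g * P' ∧ A = g * A' ∧ IsRelPrime P' A' := by
      obtain ⟨P', A', g, hrel, h1, h2⟩ :=
        UniqueFactorizationMonoid.exists_reduced_factors P hP A
      exact ⟨P', A', g, h1.symm, h2.symm, hrel⟩
    have hg : g ≠ 0 := left_ne_zero_of_mul (hP' ▸ hP)
    refine ⟨P', le_antisymm ?_ ?_⟩
    · rw [Ideal.map_le_iff_le_comap]
      intro r hr
      rw [Ideal.mem_comap, Ideal.mem_span_singleton]
      have h1 : P ∣ A * algebraMap R S r := by
        rw [← map_mul]
        exact map_dvd (algebraMap R S) ((hI r).1 hr)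
      rw [hP', hA', mul_assoc, mul_dvd_mul_iff_left hg] at h1
      exact hcop.dvd_of_dvd_mul_left h1
    · rw [Ideal.span_singleton_le_iff_mem]
      refine mem_map_colon p a (y := P') (x := A') ?_ I fun r hr => (hI r).2 hr
      show A * P' = P * A'
      rw [hP', hA']; ring
  obtain ⟨c, hc⟩ := hcolon
  obtain ⟨d, -, hd⟩ := isPrincipal_of_map I c hc
  have hpI : p ∈ I := (hI p).2 (Dvd.intro_left _ rfl)
  have hbI : b ∈ I := (hI b).2 hab
  rw [hd, Ideal.mem_span_singleton] at hpI hbI
  obtain ⟨t, ht⟩ := hpI
  rcases hp.isUnit_or_isUnit ht with hu | hu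
  · left
    have : (1 : R) ∈ I := by rw [hd, Ideal.mem_span_singleton]; exact hu.dvd
    simpa using (hI 1).1 this
  · right
    exact (ht ▸ (associated_mul_unit_right d t hu).symm.dvd).trans hbI

end Fermat.Agent.AbVar.Formal
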