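import Mathlib.RingTheory.PowerSeries.WeierstrassPreparation
import Mathlib.RingTheory.MvPowerSeries.Equiv
import Mathlib.RingTheory.MvPowerSeries.Substitution
import Mathlib.RingTheory.MvPowerSeries.NoZeroDivisors
import Mathlib.RingTheory.MvPowerSeries.Inverse
import Mathlib.RingTheory.AdicCompletion.Completeness
import Mathlib.RingTheory.UniqueFactorizationDomain.Kaplansky
import Mathlib.RingTheory.Polynomial.UniqueFactorization
import Mathlib.Algebra.MvPolynomial.Funext

/-! Formal power series in finitely many variables over an infinite field form a factorial ring. -/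

set_option autoImplicit false

noncomputable section

open IsLocalRing

universe u v

namespace Fermat.Agent.AbVar.Formal

/-- Over a complete local ring, a prime ideal of the power series ring containing a series which
is nonzero modulo the maximal ideal contains a prime element. -/
theorem exists_prime_mem {A : Type v} [CommRing A] [IsDomain A] [IsLocalRing A]
    [UniqueFactorizationMonoid A] [IsAdicComplete (maximalIdeal A) A]
    (P : Ideal (PowerSeries A)) [P.IsPrime] (h : PowerSeries A) (hP : h ∈ P)
    (hh : h.map (residue A) ≠ 0) : ∃ x ∈ P, Prime x := by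
  obtain ⟨F, w, hF⟩ := h.exists_isWeierstrassFactorization hh
  have hFP : (F : PowerSeries A) ∈ P := by
    rw [hF.eq_mul] at hP
    rcases Ideal.IsPrime.mem_or_mem ‹_› hP with h' | h'
    · exact h'
    · exact absurd (Ideal.eq_top_of_isUnit_mem _ h' hF.isUnit) (Ideal.IsPrime.ne_top ‹_›)
  obtain ⟨s, hs, hsF⟩ := UniqueFactorizationMonoid.exists_prime_factors F
    hF.isDistinguishedAt.monic.ne_zero
  let ι : Polynomial A →+* PowerSeries A := Polynomial.coeToPowerSeries.ringHom
  have hprodP : ι s.prod ∈ P := by
    obtain ⟨v, hv⟩ := hsF.symm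
    rw [← hv, map_mul]
    exact Ideal.mul_mem_right _ _ hFP
  rw [map_multiset_prod] at hprodP
  obtain ⟨y, hy, hyP⟩ :=
    (Ideal.IsPrime.multiset_prod_mem_iff_exists_mem ‹_› _).1 hprodP
  obtain ⟨q, hq, rfl⟩ := Multiset.mem_map.1 hy
  have hqF : q ∣ F := (Multiset.dvd_prod hq).trans hsF.dvd
  have hlead : IsUnit q.leadingCoeff := by
    refine isUnit_of_dvd_one ?_
    rw [← hF.isDistinguishedAt.monic.leadingCoeff]
    exact Polynomial.leadingCoeff_dvd_leadingCoeff hqF
  obtain ⟨c, hc⟩ := hlead
  let G : Polynomial A := q * Polynomial.C (↑c⁻¹ : A)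
  have hcU : IsUnit (Polynomial.C (↑c⁻¹ : A)) := (c⁻¹).isUnit.map Polynomial.C
  have hG : G.Monic := by
    show (q * Polynomial.C (↑c⁻¹ : A)).leadingCoeff = 1
    rw [Polynomial.leadingCoeff_mul, Polynomial.leadingCoeff_C, ← hc, Units.mul_inv]
  have hGp : Prime G := (associated_mul_unit_right q _ hcU).prime (hs q hq)
  have hGF : G ∣ F := by
    rw [(associated_mul_unit_right q _ hcU).dvd_iff_dvd_left.symm]
    exact hqF
  have hGd : G.IsDistinguishedAt (maximalIdeal A) := by
    have hmap : G.map (residue A) ∣ (Polynomial.X : Polynomial (ResidueField A)) ^ F.natDegree := by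
      have := hF.isDistinguishedAt.map_eq_X_pow
      have h2 : F.map (residue A) = Polynomial.X ^ F.natDegree := this
      rw [← h2]
      exact Polynomial.map_dvd _ hGF
    obtain ⟨i, -, hi⟩ := (dvd_prime_pow Polynomial.prime_X _).1 hmap
    have hi' := Polynomial.eq_of_monic_of_associated (hG.map _) (Polynomial.monic_X_pow i) hi
    have hdeg : i = G.natDegree := by
      have := congrArg Polynomial.natDegree hi'
      rwa [Polynomial.natDegree_X_pow, hG.natDegree_map, eq_comm] at this
    refine ⟨⟨fun {k} hk => ?_⟩, hG⟩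
    have := congrArg (fun p => Polynomial.coeff p k) hi'
    simp only [Polynomial.coeff_map, Polynomial.coeff_X_pow] at this
    rw [if_neg (by omega)] at this
    exact Ideal.Quotient.eq_zero_iff_mem.1 this
  refine ⟨(G : PowerSeries A), ?_, ?_⟩
  · show ι G ∈ P
    rw [map_mul]
    exact Ideal.mul_mem_right _ _ hyP
  · have hne : (G : PowerSeries A) ≠ 0 := by simpa using hG.ne_zero
    rw [← Ideal.span_singleton_prime hne, ← Ideal.Quotient.isDomain_iff_prime]
    have : (Ideal.span {G}).IsPrime := (Ideal.span_singleton_prime hG.ne_zero).2 hGp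
    exact hGd.algEquivQuotient.symm.toMulEquiv.isDomain _

variable (K : Type u) [Field K]

theorem maximalIdeal_eq_span_X (n : ℕ) :
    maximalIdeal (MvPowerSeries (Fin n) K) = Ideal.span (Set.range MvPowerSeries.X) := by
  apply le_antisymm
  · intro x hx
    have h1 : MvPowerSeries.constantCoeff x = 0 := by
      rwa [mem_maximalIdeal, mem_nonunits_iff, MvPowerSeries.isUnit_iff_constantCoeff,
        isUnit_iff_ne_zero, not_not] at hx
    clear hx
    revert x
    induction n with
    | zero =>
      intro x h1
      have : x = 0 := by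
        ext e
        rw [Subsingleton.elim e 0, map_zero]
        exact h1
      rw [this]; exact zero_mem _
    | succ n ih =>
      intro x h1
      let e := MvPowerSeries.finSuccEquiv K n
      have hx0 : MvPowerSeries.constantCoeff (PowerSeries.constantCoeff (e x)) = 0 := by
        rw [← PowerSeries.coeff_zero_eq_constantCoeff_apply,
          ← MvPowerSeries.coeff_zero_eq_constantCoeff_apply,
          MvPowerSeries.coeff_coeff_finSuccEquiv, Finsupp.cons_zero_zero]
        exact h1
      obtain ⟨y, hy⟩ := PowerSeries.X_dvd_iff.2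
        (show PowerSeries.constantCoeff (e x - PowerSeries.C (PowerSeries.constantCoeff (e x))) = 0
          by simp)
      rw [sub_eq_iff_eq_add] at hy
      have hxe : x = MvPowerSeries.X 0 * e.symm y
          + e.symm (PowerSeries.C (PowerSeries.constantCoeff (e x))) := by
        apply e.injective
        rw [map_add, map_mul, MvPowerSeries.finSuccEquiv_X_zero, AlgEquiv.apply_symm_apply,
          AlgEquiv.apply_symm_apply]
        exact hy
      have hmap : Ideal.map (e.symm.toRingEquiv.toRingHom.comp PowerSeries.C)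
          (Ideal.span (Set.range (MvPowerSeries.X : Fin n → MvPowerSeries (Fin n) K))) ≤
          Ideal.span (Set.range MvPowerSeries.X) := by
        rw [Ideal.map_span, Ideal.span_le]
        rintro _ ⟨_, ⟨i, rfl⟩, rfl⟩
        refine Ideal.subset_span ⟨i.succ, ?_⟩
        apply e.injective
        simp [e]
      rw [hxe]
      refine add_mem (Ideal.mul_mem_right _ _ (Ideal.subset_span ⟨0, rfl⟩)) (hmap ?_)
      exact Ideal.mem_map_of_mem _ (ih hx0)
  · rw [Ideal.span_le]
    rintro _ ⟨i, rfl⟩
    rw [SetLike.mem_coe, mem_maximalIdeal, mem_nonunits_iff,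
      MvPowerSeries.isUnit_iff_constantCoeff]
    simp

theorem isAdicComplete_series (n : ℕ) :
    IsAdicComplete (maximalIdeal (MvPowerSeries (Fin n) K)) (MvPowerSeries (Fin n) K) := by
  rw [maximalIdeal_eq_span_X]
  infer_instance

variable {K} {n : ℕ}

/-- The linear substitution `z₀ ↦ a z₀`, `zᵢ ↦ zᵢ + vᵢ z₀`. -/
def shear (a : K) (v : Fin n → K) : Fin (n + 1) → MvPowerSeries (Fin (n + 1)) K :=
  Fin.cons (MvPowerSeries.C a * MvPowerSeries.X 0)
    fun i => MvPowerSeries.X i.succ + MvPowerSeries.C (v i) * MvPowerSeries.X 0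

theorem hasSubst_shear (a : K) (v : Fin n → K) : MvPowerSeries.HasSubst (shear a v) := by
  refine MvPowerSeries.hasSubst_of_constantCoeff_zero fun i => ?_
  cases i using Fin.cases <;> simp [shear]

theorem shear_zero (a : K) (v : Fin n → K) :
    shear a v 0 = MvPowerSeries.C a * MvPowerSeries.X 0 := by
  simp [shear]

theorem shear_succ (a : K) (v : Fin n → K) (i : Fin n) :
    shear a v i.succ = MvPowerSeries.X i.succ + MvPowerSeries.C (v i) * MvPowerSeries.X 0 := by
  simp [shear]

theorem shear_comp (a b : K) (v w : Fin n → K) (hab : a * b = 1) (hvw : ∀ i, w i + v i * b = 0)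
    (i : Fin (n + 1)) :
    MvPowerSeries.subst (shear b w) (shear a v i) = MvPowerSeries.X i := by
  have h := hasSubst_shear b w
  rw [← MvPowerSeries.substAlgHom_apply h]
  have hC : ∀ r : K, MvPowerSeries.substAlgHom h (MvPowerSeries.C r) = MvPowerSeries.C r := by
    intro r
    rw [MvPowerSeries.c_eq_algebraMap, AlgHom.commutes]
  cases i using Fin.cases with
  | zero =>
    simp only [shear_zero, map_mul, hC, MvPowerSeries.substAlgHom_X]
    rw [← mul_assoc, ← map_mul, hab, map_one, one_mul]
  | succ i =>
    simp only [shear_succ, shear_zero, map_add, map_mul, hC, MvPowerSeries.substAlgHom_X]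
    rw [add_assoc, ← mul_assoc, ← map_mul, ← add_mul, ← map_add, hvw, map_zero, zero_mul, add_zero]

/-- The shear automorphism of power series. -/
def shearEquiv (a : K) (v : Fin n → K) (ha : a ≠ 0) :
    MvPowerSeries (Fin (n + 1)) K ≃ₐ[K] MvPowerSeries (Fin (n + 1)) K :=
  AlgEquiv.ofAlgHom (MvPowerSeries.substAlgHom (hasSubst_shear a v))
    (MvPowerSeries.substAlgHom (hasSubst_shear a⁻¹ fun i => -(v i * a⁻¹)))
    (by
      ext f : 1
      rw [AlgHom.comp_apply, MvPowerSeries.substAlgHom_apply, MvPowerSeries.substAlgHom_apply,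
        MvPowerSeries.subst_comp_subst_apply (hasSubst_shear _ _) (hasSubst_shear _ _),
        funext (shear_comp a⁻¹ a _ v (inv_mul_cancel₀ ha) fun i => by field_simp; ring),
        MvPowerSeries.subst_self]
      rfl)
    (by
      ext f : 1
      rw [AlgHom.comp_apply, MvPowerSeries.substAlgHom_apply, MvPowerSeries.substAlgHom_apply,
        MvPowerSeries.subst_comp_subst_apply (hasSubst_shear _ _) (hasSubst_shear _ _),
        funext (shear_comp a a⁻¹ v _ (mul_inv_cancel₀ ha) fun i => by ring),
        MvPowerSeries.subst_self]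
      rfl)

/-- The parametrisation of the line in direction `v`. -/
def lineMap {m : ℕ} (v : Fin m → K) : Fin m → MvPowerSeries Unit K :=
  fun i => MvPowerSeries.C (v i) * MvPowerSeries.X ()

theorem hasSubst_lineMap {m : ℕ} (v : Fin m → K) : MvPowerSeries.HasSubst (lineMap v) :=
  MvPowerSeries.hasSubst_of_constantCoeff_zero fun i => by simp [lineMap]

theorem coeff_subst_lineMap {m : ℕ} (v : Fin m → K) (f : MvPowerSeries (Fin m) K) (d : ℕ) :
    MvPowerSeries.coeff (Finsupp.single () d) (MvPowerSeries.subst (lineMap v) f) =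
      ∑ e ∈ Finset.finsuppAntidiag (Finset.univ : Finset (Fin m)) d,
        MvPowerSeries.coeff e f * ∏ i, v i ^ e i := by
  classical
  have hterm : ∀ e : Fin m →₀ ℕ, MvPowerSeries.coeff (Finsupp.single () d)
      (e.prod fun i k => lineMap v i ^ k) = if ∑ i, e i = d then ∏ i, v i ^ e i else 0 := by
    intro e
    rw [Finsupp.prod_fintype _ _ (by simp)]
    simp only [lineMap, mul_pow, Finset.prod_mul_distrib, ← map_pow, ← map_prod,
      Finset.prod_pow_eq_pow_sum, MvPowerSeries.coeff_C_mul, MvPowerSeries.coeff_X_pow]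
    by_cases hd : ∑ i, e i = d
    · subst hd; simp
    · rw [if_neg hd, if_neg (by simpa using (Ne.symm hd)), mul_zero]
  rw [MvPowerSeries.coeff_subst (hasSubst_lineMap v),
    finsum_eq_sum_of_support_subset (s := Finset.finsuppAntidiag Finset.univ d)]
  · refine Finset.sum_congr rfl fun e he => ?_
    rw [Finset.mem_finsuppAntidiag] at he
    rw [smul_eq_mul, hterm, if_pos he.1]
  · intro e he
    rw [Function.mem_support, smul_eq_mul] at he
    rw [Finset.mem_coe, Finset.mem_finsuppAntidiag]
    refine ⟨?_, Finset.subset_univ _⟩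
    by_contra hd
    exact he (by rw [hterm, if_neg hd, mul_zero])

theorem exists_regular [Infinite K] (f : MvPowerSeries (Fin (n + 1)) K) (hf : f ≠ 0) :
    ∃ σ : MvPowerSeries (Fin (n + 1)) K ≃ₐ[K] MvPowerSeries (Fin (n + 1)) K,
      (MvPowerSeries.finSuccEquiv K n (σ f)).map
        (residue (MvPowerSeries (Fin n) K)) ≠ 0 := by
  classical
  obtain ⟨e₀, he₀⟩ : ∃ e, MvPowerSeries.coeff e f ≠ 0 := by
    by_contra! h
    exact hf (MvPowerSeries.ext fun e => by simp [h e])
  let d := ∑ i, e₀ i
  let S := Finset.finsuppAntidiag (Finset.univ : Finset (Fin (n + 1))) d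
  have he₀S : e₀ ∈ S := Finset.mem_finsuppAntidiag.2 ⟨rfl, Finset.subset_univ _⟩
  let p : MvPolynomial (Fin (n + 1)) K :=
    ∑ e ∈ S, MvPolynomial.monomial e (MvPowerSeries.coeff e f)
  have hp : p ≠ 0 := by
    intro h
    have := congrArg (MvPolynomial.coeff e₀) h
    simp only [p, MvPolynomial.coeff_sum, MvPolynomial.coeff_monomial, MvPolynomial.coeff_zero,
      Finset.sum_ite_eq', he₀S, if_true] at this
    exact he₀ this
  obtain ⟨v, hv⟩ : ∃ v, MvPolynomial.eval v (p * MvPolynomial.X 0) ≠ 0 := by
    by_contra! h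
    exact mul_ne_zero hp (MvPolynomial.X_ne_zero 0) (MvPolynomial.funext fun x => by simp [h x])
  rw [map_mul, MvPolynomial.eval_X] at hv
  refine ⟨shearEquiv (v 0) (fun i => v i.succ) (right_ne_zero_of_mul hv), fun h => ?_⟩
  refine left_ne_zero_of_mul hv ?_
  set g := shearEquiv (v 0) (fun i => v i.succ) (right_ne_zero_of_mul hv) f with hg
  have hline : MvPowerSeries.subst (lineMap (Pi.single 0 1)) g =
      MvPowerSeries.subst (lineMap v) f := by
    rw [hg]
    show MvPowerSeries.subst _ (MvPowerSeries.substAlgHom (hasSubst_shear _ _) f) = _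
    rw [MvPowerSeries.substAlgHom_apply,
      MvPowerSeries.subst_comp_subst_apply (hasSubst_shear _ _) (hasSubst_lineMap _)]
    congr 1
    funext i
    have hl := hasSubst_lineMap (m := n + 1) (Pi.single (0 : Fin (n + 1)) (1 : K))
    rw [← MvPowerSeries.substAlgHom_apply hl]
    have hC : ∀ r : K, MvPowerSeries.substAlgHom hl (MvPowerSeries.C r) = MvPowerSeries.C r := by
      intro r
      rw [MvPowerSeries.c_eq_algebraMap, AlgHom.commutes, MvPowerSeries.c_eq_algebraMap]
    cases i using Fin.cases with
    | zero =>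
      simp only [shear_zero, map_mul, hC, MvPowerSeries.substAlgHom_X]
      simp [lineMap]
    | succ i =>
      simp only [shear_succ, map_add, map_mul, hC, MvPowerSeries.substAlgHom_X]
      simp [lineMap, Fin.succ_ne_zero]
  have haxis : ∀ k, MvPowerSeries.coeff (Finsupp.cons k (0 : Fin n →₀ ℕ)) g = 0 := by
    intro k
    have := congrArg (PowerSeries.coeff k) h
    rw [PowerSeries.coeff_map, map_zero, residue_eq_zero_iff, mem_maximalIdeal,
      mem_nonunits_iff, MvPowerSeries.isUnit_iff_constantCoeff, isUnit_iff_ne_zero, not_not,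
      ← MvPowerSeries.coeff_zero_eq_constantCoeff_apply,
      MvPowerSeries.coeff_coeff_finSuccEquiv] at this
    exact this
  have hzero := coeff_subst_lineMap (Pi.single (0 : Fin (n + 1)) (1 : K)) g d
  rw [hline, coeff_subst_lineMap] at hzero
  have hev : MvPolynomial.eval v p =
      ∑ e ∈ S, MvPowerSeries.coeff e f * ∏ i, v i ^ e i := by
    simp only [p, map_sum, MvPolynomial.eval_monomial]
    exact Finset.sum_congr rfl fun e _ => by rw [Finsupp.prod_fintype _ _ (by simp)]
  rw [hev, hzero]
  refine Finset.sum_eq_zero fun e _ => ?_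
  by_cases he : ∀ i : Fin n, e i.succ = 0
  · have : e = Finsupp.cons (e 0) 0 := by
      ext i
      cases i using Fin.cases <;> simp [he]
    rw [this, haxis, zero_mul]
  · obtain ⟨i, hi⟩ := not_forall.1 he
    rw [Finset.prod_eq_zero (Finset.mem_univ i.succ) (by simp [Fin.succ_ne_zero, hi]), mul_zero]

theorem ufd_series (K : Type u) [Field K] [Infinite K] (n : ℕ) :
    UniqueFactorizationMonoid (MvPowerSeries (Fin n) K) := by
  induction n with
  | zero =>
    exact (MvPowerSeries.isEmptyEquiv (Fin 0) K).symm.toMulEquiv.uniqueFactorizationMonoid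
      inferInstance
  | succ n ih =>
    have := isAdicComplete_series K n
    have : IsDomain (MvPowerSeries (Fin n) K) := NoZeroDivisors.to_isDomain _
    have : IsDomain (MvPowerSeries (Fin (n + 1)) K) := NoZeroDivisors.to_isDomain _
    refine UniqueFactorizationMonoid.iff_exists_prime_mem_of_isPrime.2 fun P hP hPp => ?_
    obtain ⟨f, hf, hf0⟩ := Submodule.exists_mem_ne_zero_of_ne_bot hP
    obtain ⟨σ, hσ⟩ := exists_regular f (by simpa using hf0)
    let e := σ.trans ((MvPowerSeries.finSuccEquiv K n).restrictScalars K)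
    obtain ⟨x, hx, hxp⟩ := exists_prime_mem (P.comap (e.symm : _ →+* _))
      (MvPowerSeries.finSuccEquiv K n (σ f))
      (by
        rw [Ideal.mem_comap]
        have : e.symm (e f) = f := e.symm_apply_apply f
        exact this.symm ▸ hf) hσ
    exact ⟨e.symm x, hx, (MulEquiv.prime_iff e.symm.toMulEquiv).2 hxp⟩

end Fermat.Agent.AbVar.Formal
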