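import Fermat.Agent.AbVar.Interfaces
import Fermat.Agent.AbVar.FormalSeries
import Fermat.Agent.AbVar.FormalDescent
import Mathlib.RingTheory.AdicCompletion.AsTensorProduct
import Mathlib.RingTheory.AdicCompletion.LocalRing
import Mathlib.RingTheory.AdicCompletion.RingHom

/-! A Noetherian local ring with the formal structure of affine space is a factorial domain. -/

set_option autoImplicit false

noncomputable section

open IsLocalRing

universe u

namespace Fermat.Agent.AbVar.Formal

/-- Compatible isomorphisms of quotients give an isomorphism of completions. -/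
def completionEquiv {P R : Type u} [CommRing P] [CommRing R] (J : Ideal P) (I : Ideal R)
    (e : ∀ k, (P ⧸ J ^ k) ≃+* (R ⧸ I ^ k))
    (he : ∀ {m n : ℕ} (h : m ≤ n) x,
      Ideal.Quotient.factorPow I h (e n x) = e m (Ideal.Quotient.factorPow J h x)) :
    AdicCompletion J P ≃+* AdicCompletion I R :=
  RingEquiv.ofRingHom
    (AdicCompletion.liftRingHom I
      (fun k => (e k).toRingHom.comp (AdicCompletion.evalₐ J k).toRingHom) (by
        intro m n h
        ext x
        simp only [RingHom.coe_comp, Function.comp_apply, RingEquiv.toRingHom_eq_coe,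
          AlgHom.toRingHom_eq_coe, RingHom.coe_coe]
        rw [he h]
        congr 1
        obtain ⟨y, rfl⟩ := AdicCompletion.mk_surjective J P x
        simp [AdicCompletion.evalₐ_mk, AdicCompletion.Ideal.mk_eq_mk _ h]))
    (AdicCompletion.liftRingHom J
      (fun k => (e k).symm.toRingHom.comp (AdicCompletion.evalₐ I k).toRingHom) (by
        intro m n h
        ext x
        simp only [RingHom.coe_comp, Function.comp_apply, RingEquiv.toRingHom_eq_coe,
          AlgHom.toRingHom_eq_coe, RingHom.coe_coe]
        apply (e m).injective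
        rw [RingEquiv.apply_symm_apply, ← he h, RingEquiv.apply_symm_apply]
        obtain ⟨y, rfl⟩ := AdicCompletion.mk_surjective I R x
        simp [AdicCompletion.evalₐ_mk, AdicCompletion.Ideal.mk_eq_mk _ h]))
    (by
      ext x : 1
      refine AdicCompletion.ext_evalₐ fun k => ?_
      rw [RingHom.comp_apply, RingHom.id_apply]
      erw [AdicCompletion.evalₐ_liftRingHom]
      simp only [RingHom.comp_apply]
      erw [AdicCompletion.evalₐ_liftRingHom]
      simp)
    (by
      ext x : 1
      refine AdicCompletion.ext_evalₐ fun k => ?_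
      rw [RingHom.comp_apply, RingHom.id_apply]
      erw [AdicCompletion.evalₐ_liftRingHom]
      simp only [RingHom.comp_apply]
      erw [AdicCompletion.evalₐ_liftRingHom]
      simp)

/-- The completion of a ring with the formal structure of affine space. -/
theorem exists_completion_equiv {K : Type u} [Field K] {g : ℕ} {R : Type u} [CommRing R]
    [IsLocalRing R] [Algebra K R] (z : Fin g → R)
    (hz : maximalIdeal R = Ideal.span (Set.range z))
    (hres : Function.Surjective (residue R ∘ algebraMap K R))
    (hinj : ∀ (k : ℕ) (p : MvPolynomial (Fin g) K),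
      MvPolynomial.aeval z p ∈ maximalIdeal R ^ k →
      p ∈ Ideal.span (Set.range (MvPolynomial.X : Fin g → MvPolynomial (Fin g) K)) ^ k) :
    Nonempty (MvPowerSeries (Fin g) K ≃+* AdicCompletion (maximalIdeal R) R) := by
  let φ : MvPolynomial (Fin g) K →ₐ[K] R := MvPolynomial.aeval z
  let J : Ideal (MvPolynomial (Fin g) K) := MvPolynomial.idealOfVars (Fin g) K
  have hJ : J = Ideal.span (Set.range MvPolynomial.X) := rfl
  have hmap : J.map (φ : MvPolynomial (Fin g) K →+* R) = maximalIdeal R := by
    rw [hJ, Ideal.map_span, hz, ← Set.range_comp]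
    congr 2
    funext i
    simp [φ]
  have hpow : ∀ k p, p ∈ J ^ k → φ p ∈ maximalIdeal R ^ k := fun k p hp => by
    have := Ideal.mem_map_of_mem (φ : MvPolynomial (Fin g) K →+* R) hp
    rwa [Ideal.map_pow, hmap] at this
  have hsurj : ∀ k r, ∃ p, r - φ p ∈ maximalIdeal R ^ k := by
    intro k
    induction k with
    | zero => exact fun r => ⟨0, by simp⟩
    | succ k ih =>
      intro r
      obtain ⟨c, hc⟩ := hres (residue R r)
      have hm : r - algebraMap K R c ∈ maximalIdeal R := by
        rw [← residue_eq_zero_iff, map_sub]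
        exact sub_eq_zero.2 hc.symm
      rw [hz] at hm
      obtain ⟨w, hw⟩ := Ideal.mem_span_range_iff_exists_fun.1 hm
      choose p hp using fun i => ih (w i)
      refine ⟨MvPolynomial.C c + ∑ i, MvPolynomial.X i * p i, ?_⟩
      have : r - φ (MvPolynomial.C c + ∑ i, MvPolynomial.X i * p i) =
          ∑ i, z i * (w i - φ (p i)) := by
        have hr : r = ∑ i, w i * z i + algebraMap K R c := (sub_eq_iff_eq_add.1 hw.symm)
        simp only [φ, map_add, map_sum, map_mul, MvPolynomial.aeval_X, MvPolynomial.aeval_C]
        rw [hr, add_comm (algebraMap K R c), add_sub_add_right_eq_sub, ← Finset.sum_sub_distrib]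
        exact Finset.sum_congr rfl fun i _ => by ring
      rw [this]
      refine sum_mem fun i _ => ?_
      rw [pow_succ']
      exact Ideal.mul_mem_mul (hz ▸ Ideal.subset_span ⟨i, rfl⟩) (hp i)
  let e : ∀ k, (MvPolynomial (Fin g) K ⧸ J ^ k) ≃+* (R ⧸ maximalIdeal R ^ k) := fun k =>
    RingEquiv.ofBijective
      (Ideal.quotientMap (maximalIdeal R ^ k) (φ : MvPolynomial (Fin g) K →+* R)
        (fun p hp => hpow k p hp)) ⟨by
      rw [injective_iff_map_eq_zero]
      intro x hx
      obtain ⟨p, rfl⟩ := Ideal.Quotient.mk_surjective x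
      erw [Ideal.quotientMap_mk, Ideal.Quotient.eq_zero_iff_mem] at hx
      exact Ideal.Quotient.eq_zero_iff_mem.2 (hinj k p hx), by
      intro x
      obtain ⟨r, rfl⟩ := Ideal.Quotient.mk_surjective x
      obtain ⟨p, hp⟩ := hsurj k r
      exact ⟨Ideal.Quotient.mk _ p, ((Ideal.Quotient.mk_eq_mk_iff_sub_mem _ _).2 hp).symm⟩⟩
  refine ⟨(MvPowerSeries.toAdicCompletionAlgEquiv (Fin g) K).toRingEquiv.trans
    (completionEquiv J (maximalIdeal R) e ?_)⟩
  intro m n h x
  obtain ⟨p, rfl⟩ := Ideal.Quotient.mk_surjective x
  rfl

end Fermat.Agent.AbVar.Formal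

namespace Fermat.Agent.AbVar

/-- A local ring with the formal structure of affine space is a factorial domain. -/
theorem formalFactorialProperty (K : Type u) [Field K] [IsAlgClosed K] :
    FormalFactorialProperty K := by
  intro g R _ _ _ _ z hz hres hinj
  obtain ⟨e⟩ := Formal.exists_completion_equiv z hz hres hinj
  let S := AdicCompletion (maximalIdeal R) R
  have : IsDomain (MvPowerSeries (Fin g) K) := NoZeroDivisors.to_isDomain _
  have : IsDomain S := e.symm.toMulEquiv.isDomain _
  have := Formal.ufd_series K g
  have : UniqueFactorizationMonoid S := e.toMulEquiv.uniqueFactorizationMonoid inferInstance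
  have : Module.FaithfullyFlat R S := Module.FaithfullyFlat.of_flat_of_isLocalHom
  have : IsDomain R := (FaithfulSMul.algebraMap_injective R S).isDomain _
  exact ⟨inferInstance, Formal.ufd_of_faithfullyFlat (S := S)⟩

end Fermat.Agent.AbVar
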