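import Fermat.Agent.AbVar.KunnethIface
import Fermat.Agent.AbVar.RectangleSurjective
import Fermat.Agent.AbVar.Const

/-! Injectivity of `H¹(Y × Y', O) → H¹(Y, O) × H¹(Y', O)` on rectangle covers. -/

set_option autoImplicit false

noncomputable section

open CategoryTheory CategoryTheory.Limits AlgebraicGeometry TopologicalSpace
open scoped TensorProduct

universe u

namespace Fermat.Agent.AbVar

section Tools

theorem isAffineOpen_inf_of_isSeparated {K : Type u} [Field K] {X : Scheme.{u}}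
    (f : X ⟶ Spec (CommRingCat.of K)) [IsSeparated f] {V V' : X.Opens} (hV : IsAffineOpen V)
    (hV' : IsAffineOpen V') : IsAffineOpen (V ⊓ V') :=
  (isAffineHom_diagonal_iff (f := f)).mp inferInstance ⊤ (isAffineOpen_top _) V (fun _ _ => trivial) V'
    (fun _ _ => trivial) hV hV'

theorem nonempty_inf_of_isIntegral {X : Scheme.{u}} [IsIntegral X] {V V' : X.Opens}
    (hV : (V : Set X).Nonempty) (hV' : (V' : Set X).Nonempty) :
    ((V ⊓ V' : X.Opens) : Set X).Nonempty :=
  nonempty_preirreducible_inter V.2 V'.2 hV hV'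

theorem pullFun_sub {S T : Scheme.{u}} [IsIntegral S] [IsIntegral T] (φ : T ⟶ S)
    {a b : S.functionField} (ha : a ∈ Reg (φ (genericPoint T)))
    (hb : b ∈ Reg (φ (genericPoint T))) : pullFun φ (a - b) = pullFun φ a - pullFun φ b := by
  rw [eq_sub_iff_add_eq, ← pullFun_add φ (sub_mem ha hb) hb, sub_add_cancel]

theorem pullFun_mem_RegOn {K : Type u} [Field K] {S T : Scheme.{u}} [IsIntegral S] [IsIntegral T]
    [S.Over (Spec (CommRingCat.of K))] [T.Over (Spec (CommRingCat.of K))] (φ : T ⟶ S)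
    {V : S.Opens} {U : T.Opens} {a : S.functionField}
    (ha : a ∈ RegOn K V) (h : ∀ y ∈ U, φ y ∈ V) : pullFun φ a ∈ RegOn K U :=
  fun y hy => pullFun_mem_Reg φ y (ha _ (h y hy))

theorem genericPoint_mem_of_nonempty {X : Scheme.{u}} [IsIntegral X] {V : X.Opens}
    (hV : (V : Set X).Nonempty) : genericPoint X ∈ V :=
  ((genericPoint_spec X).mem_open_set_iff V.isOpen).mpr (by simpa using hV)

variable {K : Type u} [Field K] {X Z : Scheme.{u}} [X.Over (Spec (CommRingCat.of K))]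
  [Z.Over (Spec (CommRingCat.of K))]

theorem rect_mono {V V' : X.Opens} {U U' : Z.Opens} (hV : V ≤ V') (hU : U ≤ U') :
    rect K V U ≤ rect K V' U' :=
  fun _ hp => ⟨hV hp.1, hU hp.2⟩

@[simp]
theorem sliceX_pZ_id (x : RatPt K X) : sliceX (Z := Z) x ≫ pZ K X Z = 𝟙 Z :=
  pullback.lift_snd _ _ _

theorem pX_sliceX_pt (x : RatPt K X) (z : Z) : pX K X Z (sliceX x z) = x.pt := by
  rw [← Scheme.Hom.comp_apply, sliceX, pullback.lift_fst, Scheme.Hom.comp_apply, x.apply_eq]

theorem sliceX_mem_rect_of_mem (x : RatPt K X) {W : X.Opens} {U : Z.Opens} {z : Z}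
    (hx : x.pt ∈ W) (hz : z ∈ U) : sliceX x z ∈ rect K W U :=
  ⟨by show pX K X Z (sliceX x z) ∈ W; rwa [pX_sliceX_pt],
   by show pZ K X Z (sliceX x z) ∈ U; rw [← Scheme.Hom.comp_apply, sliceX_pZ_id]; exact hz⟩

variable [IsIntegral X] [IsIntegral Z] [IsIntegral (Pd K X Z)] [PdDominant K X Z]

theorem pullFun_sliceX_of_pullZ (x : RatPt K X) (b : Z.functionField) :
    pullFun (sliceX x) (pullZ K X Z b) = b := by
  rw [pullZ_apply, ← pullFun_comp]
  · rw [sliceX_pZ_id, pullFun_id]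
  · rw [sliceX_pZ_id]
    exact mem_Reg_genericPoint b

/-- Expansion of a function on an affine rectangle along a basis of the second factor. -/
theorem exists_expansion {W : X.Opens} {U : Z.Opens} (hW : IsAffineOpen W) (hU : IsAffineOpen U)
    (hW0 : (W : Set X).Nonempty) (hU0 : (U : Set Z).Nonempty) {κ : Type*}
    (e : Module.Basis κ K (RegOn K U)) {f : (Pd K X Z).functionField}
    (hf : f ∈ RegOn K (rect K W U)) :
    ∃ v : κ →₀ RegOn K W,
      f = v.sum fun i a => pullX K X Z (a : X.functionField) * pullZ K X Z (e i : Z.functionField) := by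
  classical
  obtain ⟨t, rfl⟩ := rectangleSurjective K X Z W U hW hU hW0 hU0 hf
  refine ⟨TensorProduct.equivFinsuppOfBasisRight e t, ?_⟩
  conv_lhs =>
    rw [← (TensorProduct.equivFinsuppOfBasisRight (M := RegOn K W) e).symm_apply_apply t]
  show mu K W U _ = _
  rw [TensorProduct.equivFinsuppOfBasisRight_symm_apply, map_finsuppSum]
  exact Finsupp.sum_congr fun i _ => mu_tmul W U _ _

variable [IsAlgClosed K] [LocallyOfFiniteType (Z ↘ Spec (CommRingCat.of K))]

/-- The expansion is unique. -/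
theorem expansion_unique {W : X.Opens} {U : Z.Opens} (hW0 : (W : Set X).Nonempty)
    (hU0 : (U : Set Z).Nonempty) {κ : Type*} (e : Module.Basis κ K (RegOn K U)) (s : Finset κ)
    (v : κ → RegOn K W)
    (h : ∑ i ∈ s, pullX K X Z (v i : X.functionField) * pullZ K X Z (e i : Z.functionField) = 0) :
    ∀ i ∈ s, v i = 0 := by
  classical
  intro i hi
  have ht : (∑ j ∈ s, v j ⊗ₜ[K] e j : RegOn K W ⊗[K] RegOn K U) = 0 := by
    refine mu_injective W hW0 U hU0 ?_
    rw [map_zero, map_sum, ← h]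
    exact Finset.sum_congr rfl fun j _ => mu_tmul W U _ _
  have := congrArg (fun q => TensorProduct.equivFinsuppOfBasisRight e q i) ht
  simpa [Finsupp.single_apply, hi] using this

end Tools

section Main

variable {K : Type u} [Field K] [IsAlgClosed K] {Y Y' : Scheme.{u}}
  [Y.Over (Spec (CommRingCat.of K))] [Y'.Over (Spec (CommRingCat.of K))]
  [IsProper (Y ↘ Spec (CommRingCat.of K))] [IsProper (Y' ↘ Spec (CommRingCat.of K))]
  [IsIntegral Y] [IsIntegral Y'] [IsIntegral (Pd K Y Y')] [PdDominant K Y Y']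
  {ι ι' : Type u} [Fintype ι] (W : ι → Y.Opens) (W' : ι' → Y'.Opens)
  (c : ι × ι' → ι × ι' → (Pd K Y Y').functionField)

/-- The `Č¹` of the first factor. -/
abbrev Cech1 : Type u := ∀ pr : ι × ι, RegOn K (W pr.1 ⊓ W pr.2)

/-- The differential of the first factor. -/
def cechDelta : (∀ a, RegOn K (W a)) →ₗ[K] Cech1 (K := K) W where
  toFun u pr := ⟨(u pr.1 : Y.functionField) - u pr.2,
    sub_mem (RegOn_anti inf_le_left (u pr.1).2) (RegOn_anti inf_le_right (u pr.2).2)⟩
  map_add' u v := funext fun pr => Subtype.ext (by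
    simp only [Pi.add_apply, AddMemClass.coe_add]; ring)
  map_smul' r u := funext fun pr => Subtype.ext (by
    simp only [Pi.smul_apply, SetLike.val_smul, RingHom.id_apply, smul_sub])

variable {W W' c}
variable (hreg : ∀ p q, c p q ∈ RegOn K (rect K (W p.1) (W' p.2) ⊓ rect K (W q.1) (W' q.2)))
  (hcocycle : ∀ p q s, c p s = c p q + c q s)

include hreg hcocycle

omit [IsAlgClosed K] [IsProper (Y ↘ Spec (CommRingCat.of K))]
  [IsProper (Y' ↘ Spec (CommRingCat.of K))] [IsIntegral Y'] [PdDominant K Y Y'] [Fintype ι]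
  hcocycle in
theorem slice_mem (b : ι') (z : RatPt K Y') (hz : z.pt ∈ W' b) (a a' : ι) :
    pullFun (sliceZ z) (c (a, b) (a', b)) ∈ RegOn K (W a ⊓ W a') :=
  pullFun_mem_RegOn _ (hreg _ _)
    fun _ hy => ⟨sliceZ_mem_rect z hy.1 hz, sliceZ_mem_rect z hy.2 hz⟩

omit [IsAlgClosed K] [IsProper (Y ↘ Spec (CommRingCat.of K))]
  [IsProper (Y' ↘ Spec (CommRingCat.of K))] [IsIntegral Y'] [PdDominant K Y Y'] [Fintype ι] in
/-- The slices of the cocycle over two indices differ by a coboundary. -/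
theorem slice_sub_mem_range (hW0 : ∀ a, (W a : Set Y).Nonempty) (b b' : ι') (z : RatPt K Y')
    (hz : z.pt ∈ W' b) (hz' : z.pt ∈ W' b') (σ σ' : Cech1 (K := K) W)
    (hσ : ∀ a a', (σ (a, a') : Y.functionField) = pullFun (sliceZ z) (c (a, b) (a', b)))
    (hσ' : ∀ a a', (σ' (a, a') : Y.functionField) = pullFun (sliceZ z) (c (a, b') (a', b'))) :
    σ - σ' ∈ LinearMap.range (cechDelta W) := by
  refine ⟨fun a => ⟨pullFun (sliceZ z) (c (a, b) (a, b')),
    pullFun_mem_RegOn _ (hreg _ _)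
      fun _ hy => ⟨sliceZ_mem_rect z hy hz, sliceZ_mem_rect z hy hz'⟩⟩, funext fun ⟨a, a'⟩ => Subtype.ext ?_⟩
  have hη := fun a => genericPoint_mem_of_nonempty (hW0 a)
  have m : ∀ (p q : ι × ι'), z.pt ∈ W' p.2 → z.pt ∈ W' q.2 →
      c p q ∈ Reg (sliceZ z (genericPoint Y)) := fun p q h1 h2 =>
    hreg p q _ ⟨sliceZ_mem_rect z (hη _) h1, sliceZ_mem_rect z (hη _) h2⟩
  show pullFun (sliceZ z) (c (a, b) (a, b')) - pullFun (sliceZ z) (c (a', b) (a', b')) =
    (σ (a, a') : Y.functionField) - σ' (a, a')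
  rw [hσ, hσ', ← pullFun_sub _ (m _ _ hz hz') (m _ _ hz hz'),
    ← pullFun_sub _ (m _ _ hz hz) (m _ _ hz' hz')]
  congr 1
  linear_combination hcocycle (a, b) (a', b) (a', b') - hcocycle (a, b) (a, b') (a', b')

/-- The cocycle restricted to one index of the second cover is a coboundary. -/
theorem exists_axis_split (hW : ∀ a, IsAffineOpen (W a)) (hW' : ∀ b, IsAffineOpen (W' b))
    (hW0 : ∀ a, (W a : Set Y).Nonempty) (hW0' : ∀ b, (W' b : Set Y').Nonempty)
    (hcov' : ∀ y, ∃ b, y ∈ W' b) (y₀' : RatPt K Y')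
    (hb : ∃ β : ι × ι' → Y.functionField,
      (∀ p, y₀'.pt ∈ W' p.2 → β p ∈ RegOn K (W p.1)) ∧
      ∀ p q, y₀'.pt ∈ W' p.2 → y₀'.pt ∈ W' q.2 →
        pullFun (sliceZ y₀') (c p q) = β p - β q) :
    ∀ b, ∃ u : ι → (Pd K Y Y').functionField, (∀ a, u a ∈ RegOn K (rect K (W a) (W' b))) ∧
      ∀ a a', c (a, b) (a', b) = u a - u a' := by
  classical
  obtain ⟨β, hβ, hβc⟩ := hb
  let e := fun b => Module.Free.chooseBasis K (RegOn K (W' b))
  have hexp : ∀ (b : ι') (pr : ι × ι), ∃ v : _ →₀ RegOn K (W pr.1 ⊓ W pr.2),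
      c (pr.1, b) (pr.2, b) = v.sum fun i a =>
        pullX K Y Y' (a : Y.functionField) * pullZ K Y Y' (e b i : Y'.functionField) := fun b pr => by
    refine exists_expansion (isAffineOpen_inf_of_isSeparated (Y ↘ Spec (CommRingCat.of K))
      (hW pr.1) (hW pr.2)) (hW' b) (nonempty_inf_of_isIntegral (hW0 pr.1) (hW0 pr.2)) (hW0' b)
      (e b) ?_
    exact fun q hq => hreg (pr.1, b) (pr.2, b) q ⟨⟨hq.1.1, hq.2⟩, hq.1.2, hq.2⟩
  choose v hv using hexp
  let s : ∀ b, Finset _ := fun b => Finset.univ.biUnion fun pr => (v b pr).support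
  let vv : ∀ b, Module.Free.ChooseBasisIndex K (RegOn K (W' b)) → Cech1 (K := K) W :=
    fun b i pr => v b pr i
  have hsum : ∀ b pr, c (pr.1, b) (pr.2, b) = ∑ i ∈ s b,
      pullX K Y Y' (vv b i pr : Y.functionField) * pullZ K Y Y' (e b i : Y'.functionField) := by
    intro b pr
    rw [hv b pr, Finsupp.sum]
    refine Finset.sum_subset (Finset.subset_biUnion_of_mem (fun pr => (v b pr).support)
      (Finset.mem_univ pr)) fun i _ hi => ?_
    rw [Finsupp.notMem_support_iff.mp hi, ZeroMemClass.coe_zero, map_zero, zero_mul]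
  have hslice : ∀ b (z : RatPt K Y'), z.pt ∈ W' b → ∀ pr : ι × ι,
      ((∑ i ∈ s b, valAt z (e b i : Y'.functionField) • vv b i) pr : Y.functionField) =
        pullFun (sliceZ z) (c (pr.1, b) (pr.2, b)) := by
    intro b z hz pr
    have : c (pr.1, b) (pr.2, b) = mu K (W pr.1 ⊓ W pr.2) (W' b) (∑ i ∈ s b, vv b i pr ⊗ₜ e b i) := by
      rw [map_sum, hsum]
      exact Finset.sum_congr rfl fun i _ => (mu_tmul _ _ _ _).symm
    rw [this, pullFun_sliceZ_mu z _ (nonempty_inf_of_isIntegral (hW0 _) (hW0 _)) _ hz, map_sum,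
      Finset.sum_apply, AddSubmonoidClass.coe_finsetSum]
    refine Finset.sum_congr rfl fun i _ => ?_
    rw [sliceTensor, Algebra.TensorProduct.productMap_apply_tmul, Pi.smul_apply, SetLike.val_smul,
      Algebra.smul_def, mul_comm]
    rfl
  have hzero : ∀ b, ∀ i ∈ s b, vv b i ∈ LinearMap.range (cechDelta W) := by
    intro b i hi
    by_contra hni
    obtain ⟨l, hl', hl⟩ := Submodule.exists_le_ker_of_notMem hni
    let σ : ∀ b', RegOn K (W' b') := fun b' => ∑ i ∈ s b', l (vv b' i) • e b' i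
    have hσ : ∀ b' (z : RatPt K Y'), z.pt ∈ W' b' →
        valAt z (σ b' : Y'.functionField) =
          l (∑ i ∈ s b', valAt z (e b' i : Y'.functionField) • vv b' i) := by
      intro b' z hz
      rw [← evalAt_apply z _ hz, map_sum, map_sum]
      refine Finset.sum_congr rfl fun i _ => ?_
      rw [map_smul, map_smul, evalAt_apply, smul_eq_mul, smul_eq_mul, mul_comm]
    have heq : ∀ b₁ b₂, (σ b₁ : Y'.functionField) = σ b₂ := by
      intro b₁ b₂
      have hm : (σ b₁ : Y'.functionField) - σ b₂ ∈ RegOn K (W' b₁ ⊓ W' b₂) :=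
        sub_mem (RegOn_anti inf_le_left (σ b₁).2) (RegOn_anti inf_le_right (σ b₂).2)
      refine sub_eq_zero.mp (eq_zero_of_forall_valAt
        (nonempty_inf_of_isIntegral (hW0' _) (hW0' _)) hm fun z hz => ?_)
      have h1 : valAt z ((σ b₁ : Y'.functionField) - σ b₂) =
          valAt z (σ b₁ : Y'.functionField) - valAt z (σ b₂ : Y'.functionField) :=
        map_sub (evalAt z _ hz) ⟨_, RegOn_anti inf_le_left (σ b₁).2⟩
          ⟨_, RegOn_anti inf_le_right (σ b₂).2⟩
      rw [h1, hσ b₁ z hz.1, hσ b₂ z hz.2, ← map_sub]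
      exact hl (slice_sub_mem_range hreg hcocycle hW0 b₁ b₂ z hz.1 hz.2 _ _
        (fun a a' => hslice b₁ z hz.1 (a, a')) fun a a' => hslice b₂ z hz.2 (a, a'))
    obtain ⟨b₀, hb₀⟩ := hcov' y₀'.pt
    obtain ⟨r, hr⟩ := eq_algebraMap_of_forall_mem_Reg (K := K) (a := (σ b : Y'.functionField))
      fun y => by
        obtain ⟨b', hb'⟩ := hcov' y
        rw [heq b b']
        exact (σ b').2 y hb'
    have h0 : valAt y₀' (σ b₀ : Y'.functionField) = 0 := by
      rw [hσ b₀ y₀' hb₀]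
      refine hl ⟨fun a => ⟨β (a, b₀), hβ (a, b₀) hb₀⟩, funext fun ⟨a, a'⟩ => Subtype.ext ?_⟩
      rw [hslice b₀ y₀' hb₀]
      exact (hβc (a, b₀) (a', b₀) hb₀ hb₀).symm
    have hσ0 : σ b = 0 := by
      refine Subtype.ext ?_
      rw [← heq b b₀, ← hr, valAt_algebraMap] at h0
      rw [← hr, h0, map_zero]
      rfl
    exact hl' (linearIndependent_iff'.mp (e b).linearIndependent (s b) (fun j => l (vv b j)) hσ0 i hi)
  intro b
  choose w hw using hzero b
  refine ⟨fun a => ∑ i ∈ (s b).attach,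
    pullX K Y Y' (w i.1 i.2 a : Y.functionField) * pullZ K Y Y' (e b i.1 : Y'.functionField),
    fun a => sum_mem fun i _ => range_mu_le _ _ ⟨w i.1 i.2 a ⊗ₜ e b i.1, mu_tmul _ _ _ _⟩,
    fun a a' => ?_⟩
  rw [hsum b (a, a'), ← Finset.sum_sub_distrib, ← Finset.sum_attach (s b)]
  refine Finset.sum_congr rfl fun i _ => ?_
  rw [← hw i.1 i.2, ← sub_mul, ← map_sub]
  rfl

omit [IsProper (Y' ↘ Spec (CommRingCat.of K))] [Fintype ι] hreg hcocycle in
/-- A function regular on `Y × U` comes from `U`. -/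
theorem exists_pullZ_of_regOn [Finite ι] [LocallyOfFiniteType (Y' ↘ Spec (CommRingCat.of K))]
    (hW : ∀ a, IsAffineOpen (W a)) (hW0 : ∀ a, (W a : Set Y).Nonempty)
    (hcov : ∀ y, ∃ a, y ∈ W a) {U : Y'.Opens} (hU : IsAffineOpen U)
    (hU0 : (U : Set Y').Nonempty) {G : (Pd K Y Y').functionField}
    (hG : ∀ a, G ∈ RegOn K (rect K (W a) U)) :
    ∃ s : Y'.functionField, G = pullZ K Y Y' s := by
  classical
  let := Fintype.ofFinite ι
  let e := Module.Free.chooseBasis K (RegOn K U)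
  choose v hv using fun a => exists_expansion (hW a) hU (hW0 a) hU0 e (hG a)
  let s := Finset.univ.biUnion fun a => (v a).support
  have hsum : ∀ a, G = ∑ i ∈ s,
      pullX K Y Y' (v a i : Y.functionField) * pullZ K Y Y' (e i : Y'.functionField) := by
    intro a
    conv_lhs => rw [hv a, Finsupp.sum]
    refine Finset.sum_subset (Finset.subset_biUnion_of_mem (fun a => (v a).support)
      (Finset.mem_univ a)) fun i _ hi => ?_
    rw [Finsupp.notMem_support_iff.mp hi, ZeroMemClass.coe_zero, map_zero, zero_mul]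
  have heq : ∀ a a', ∀ i ∈ s, (v a i : Y.functionField) = v a' i := by
    intro a a' i hi
    let d : _ → RegOn K (W a ⊓ W a') := fun j => ⟨(v a j : Y.functionField) - v a' j,
      sub_mem (RegOn_anti inf_le_left (v a j).2) (RegOn_anti inf_le_right (v a' j).2)⟩
    have := expansion_unique (nonempty_inf_of_isIntegral (hW0 a) (hW0 a')) hU0 e s d ?_ i hi
    · exact sub_eq_zero.mp (congrArg Subtype.val this)
    · simp only [d, map_sub, sub_mul, Finset.sum_sub_distrib, ← hsum]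
      exact sub_self G
  obtain ⟨a, ha⟩ := hcov (genericPoint Y)
  have hc : ∀ i ∈ s, ∃ r : K, algebraMap K Y.functionField r = v a i := fun i hi =>
    eq_algebraMap_of_forall_mem_Reg fun y => by
      obtain ⟨a', ha'⟩ := hcov y
      rw [heq a a' i hi]
      exact (v a' i).2 y ha'
  choose r hr using hc
  refine ⟨∑ i ∈ s.attach, algebraMap K _ (r i.1 i.2) * (e i.1 : Y'.functionField), ?_⟩
  rw [hsum a, ← Finset.sum_attach s, map_sum]
  refine Finset.sum_congr rfl fun i _ => ?_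
  rw [← hr i.1 i.2, map_mul, AlgHom.commutes, AlgHom.commutes]

end Main

/-- An additive cocycle on a rectangle cover which is a coboundary on both axes is a
coboundary. -/
theorem kunnethProperty (K : Type u) [Field K] [IsAlgClosed K] : KunnethProperty K := by
  intro Y Y' _ _ _ _ _ _ _ _ y₀ y₀' ι ι' _ _ W W' hW hW' hW0 hW0' hcov hcov' c hreg hcocycle
    hb₁ hb₂
  obtain ⟨β, hβ, hβc⟩ := hb₂
  choose u hu huc using exists_axis_split hreg hcocycle hW hW' hW0 hW0' hcov' y₀' hb₁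
  obtain ⟨a₀, ha₀⟩ := hcov y₀.pt
  have hη : ∀ b, sliceX y₀ (genericPoint Y') ∈ rect K (W a₀) (W' b) := fun b =>
    sliceX_mem_rect_of_mem y₀ ha₀ (genericPoint_mem_of_nonempty (hW0' b))
  let G : ι' → ι' → (Pd K Y Y').functionField := fun b b' =>
    c (a₀, b) (a₀, b') - u b a₀ + u b' a₀
  have hswap : ∀ (a : ι) (b b' : ι'),
      G b b' = c (a, b) (a, b') - u b a + u b' a := by
    intro a b b'
    simp only [G]
    linear_combination hcocycle (a₀, b) (a, b) (a₀, b') + hcocycle (a, b) (a, b') (a₀, b') +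
      huc b a₀ a + huc b' a a₀
  have hG : ∀ b b', ∃ s : Y'.functionField, G b b' = pullZ K Y Y' s := fun b b' => by
    refine exists_pullZ_of_regOn hW hW0 hcov (U := W' b ⊓ W' b')
      (isAffineOpen_inf_of_isSeparated (Y' ↘ Spec (CommRingCat.of K)) (hW' b) (hW' b'))
      (nonempty_inf_of_isIntegral (hW0' b) (hW0' b')) fun a => ?_
    rw [hswap a]
    refine add_mem (sub_mem ?_ ?_) ?_
    · exact fun q hq => hreg (a, b) (a, b') q ⟨⟨hq.1, hq.2.1⟩, hq.1, hq.2.2⟩
    · exact RegOn_anti (rect_mono le_rfl inf_le_left) (hu b a)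
    · exact RegOn_anti (rect_mono le_rfl inf_le_right) (hu b' a)
  let h : ι' → Y'.functionField := fun b => β (a₀, b) - pullFun (sliceX y₀) (u b a₀)
  have hh : ∀ b, h b ∈ RegOn K (W' b) := fun b =>
    sub_mem (hβ (a₀, b) ha₀)
      (pullFun_mem_RegOn _ (hu b a₀) fun _ hy => sliceX_mem_rect_of_mem y₀ ha₀ hy)
  have hkey : ∀ b b', G b b' = pullZ K Y Y' (h b - h b') := by
    intro b b'
    obtain ⟨s, hs⟩ := hG b b'
    rw [hs]
    congr 1
    have m₁ : c (a₀, b) (a₀, b') ∈ Reg (sliceX y₀ (genericPoint Y')) :=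
      hreg _ _ _ ⟨hη b, hη b'⟩
    have := congrArg (pullFun (sliceX y₀)) hs
    rw [pullFun_sliceX_of_pullZ] at this
    rw [← this]
    simp only [G, h]
    rw [pullFun_add _ (sub_mem m₁ (hu b a₀ _ (hη b))) (hu b' a₀ _ (hη b')),
      pullFun_sub _ m₁ (hu b a₀ _ (hη b)), hβc (a₀, b) (a₀, b') ha₀ ha₀]
    ring
  refine ⟨fun p => u p.2 p.1 + pullZ K Y Y' (h p.2),
    fun p => add_mem (hu _ _) (pullFun_mem_RegOn _ (hh _) fun _ hq => hq.2), fun p q => ?_⟩
  obtain ⟨a, b⟩ := p
  obtain ⟨a', b'⟩ := q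
  have h1 := hkey b b'
  rw [hswap a b b', map_sub] at h1
  show c (a, b) (a', b') = (u b a + pullZ K Y Y' (h b)) - (u b' a' + pullZ K Y Y' (h b'))
  linear_combination hcocycle (a, b) (a, b') (a', b') + huc b' a a' + h1

end Fermat.Agent.AbVar
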