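import Fermat.Agent.AbVar.LocalStructureAlg
import Mathlib.AlgebraicGeometry.Morphisms.Smooth
import Mathlib.AlgebraicGeometry.Morphisms.Proper
import Mathlib.AlgebraicGeometry.Noetherian

/-! An abelian variety is integral and normal, and the pole divisor of etale coordinates is a big
effective divisor: proof of `LocalStructureProperty`. -/

set_option autoImplicit false

noncomputable section

open CategoryTheory AlgebraicGeometry TopologicalSpace GoodReductionJacobian

universe u

namespace Fermat.Agent.AbVar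

namespace LocalStructure

variable {K : Type u} [Field K] {A : Scheme.{u}} (f : A ⟶ KSpec K)

/-- The constants in the sections over an open set. -/
def sectionConst (V : A.Opens) : K →+* Γ(A, V) :=
  (f.appLE ⊤ V le_top).hom.comp (Scheme.ΓSpecIso (CommRingCat.of K)).inv.hom

theorem exists_etale_chart {g : ℕ} [SmoothOfRelativeDimension g f] (x : A) :
    ∃ V : A.Opens, IsAffineOpen V ∧ x ∈ V ∧ ∃ φ : MvPolynomial (Fin g) K →+* Γ(A, V),
      φ.comp MvPolynomial.C = sectionConst f V ∧ φ.Etale := by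
  obtain ⟨U, hU, V, hV, hxV, e, hf⟩ :=
    SmoothOfRelativeDimension.exists_isStandardSmoothOfRelativeDimension (n := g) (f := f) x
  obtain rfl : U = ⊤ := by
    have : Subsingleton (KSpec K) := inferInstanceAs (Subsingleton (PrimeSpectrum K))
    refine Opens.ext (Set.eq_univ_of_forall fun y => ?_)
    rw [Subsingleton.elim y (f x)]
    exact e hxV
  have h' : (sectionConst f V).IsStandardSmoothOfRelativeDimension g :=
    (RingHom.isStandardSmoothOfRelativeDimension_respectsIso (n := g)).2 _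
      (Scheme.ΓSpecIso (CommRingCat.of K)).symm.commRingCatIsoToRingEquiv hf
  exact ⟨V, hV, hxV, h'.exists_etale_mvPolynomial⟩

variable {f}

theorem le_of_specializes {V : A.Opens} (hV : IsAffineOpen V) {x y : A} (hx : x ∈ V) (hy : y ∈ V)
    (h : x ⤳ y) :
    (hV.primeIdealOf ⟨x, hx⟩).asIdeal ≤ (hV.primeIdealOf ⟨y, hy⟩).asIdeal := by
  refine (PrimeSpectrum.le_iff_specializes _ _).2 ?_
  refine hV.fromSpec.isOpenEmbedding.isInducing.specializes_iff.1 ?_
  erw [hV.fromSpec_primeIdealOf, hV.fromSpec_primeIdealOf]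
  exact h

/-- Every point specialises to a point with factorial local ring; all local rings are domains. -/
theorem stalk_properties [IsAlgClosed K] (hU : FormalFactorialProperty K) (g : ℕ)
    [SmoothOfRelativeDimension g f] (x : A) :
    IsDomain (A.presheaf.stalk x) ∧
      ∃ y : A, x ⤳ y ∧ IsDomain (A.presheaf.stalk y) ∧
        UniqueFactorizationMonoid (A.presheaf.stalk y) := by
  obtain ⟨V, hV, hxV, φ, hC, hφ⟩ := exists_etale_chart (g := g) f x
  let _ : Algebra K Γ(A, V) := (sectionConst f V).toAlgebra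
  let p := hV.primeIdealOf ⟨x, hxV⟩
  obtain ⟨P, hP, hpP⟩ := Ideal.exists_le_maximal p.asIdeal p.2.ne_top
  have hy : hV.fromSpec ⟨P, hP.isPrime⟩ ∈ V := hV.range_fromSpec.le (Set.mem_range_self _)
  let _ : Algebra Γ(A, V) (A.presheaf.stalk (hV.fromSpec ⟨P, hP.isPrime⟩)) :=
    (A.presheaf.germ V _ hy).hom.toAlgebra
  have : IsLocalization.AtPrime (A.presheaf.stalk (hV.fromSpec ⟨P, hP.isPrime⟩)) P :=
    hV.isLocalization_stalk' ⟨P, hP.isPrime⟩ hy
  obtain ⟨h1, h2⟩ := factorial_of_etale hU φ hC hφ P (A.presheaf.stalk (hV.fromSpec ⟨P, hP.isPrime⟩))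
  refine ⟨?_, _, ?_, h1, h2⟩
  · let _ : Algebra Γ(A, V) (A.presheaf.stalk x) := (A.presheaf.germ V x hxV).hom.toAlgebra
    have : IsLocalization.AtPrime (A.presheaf.stalk x) p.asIdeal :=
      hV.isLocalization_stalk ⟨x, hxV⟩
    exact isDomain_of_le hpP (A.presheaf.stalk x) (A.presheaf.stalk (hV.fromSpec ⟨P, hP.isPrime⟩))
  · have := ((PrimeSpectrum.le_iff_specializes p ⟨P, hP.isPrime⟩).1 hpP).map hV.fromSpec.continuous
    erw [hV.fromSpec_primeIdealOf] at this
    exact this

theorem exists_generalisation_top (x : A) [IsDomain (A.presheaf.stalk x)] :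
    ∃ η : A, ∀ y, y ⤳ x → η ⤳ y := by
  obtain ⟨V, hV', hxV, -⟩ :=
    Opens.isBasis_iff_nbhd.mp A.isBasis_affineOpens (show x ∈ (⊤ : A.Opens) from trivial)
  have hV : IsAffineOpen V := hV'
  let _ : Algebra Γ(A, V) (A.presheaf.stalk x) := (A.presheaf.germ V x hxV).hom.toAlgebra
  have : IsLocalization.AtPrime (A.presheaf.stalk x) (hV.primeIdealOf ⟨x, hxV⟩).asIdeal :=
    hV.isLocalization_stalk ⟨x, hxV⟩
  let q : PrimeSpectrum Γ(A, V) :=
    ⟨RingHom.ker (algebraMap Γ(A, V) (A.presheaf.stalk x)), RingHom.ker_isPrime _⟩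
  refine ⟨hV.fromSpec q, fun y hy => ?_⟩
  have hyV : y ∈ V := hy.mem_open V.isOpen hxV
  suffices h : q.asIdeal ≤ (hV.primeIdealOf ⟨y, hyV⟩).asIdeal by
    have := ((PrimeSpectrum.le_iff_specializes q _).1 h).map hV.fromSpec.continuous
    erw [hV.fromSpec_primeIdealOf] at this
    exact this
  intro s hs
  obtain ⟨t, ht⟩ :=
    (IsLocalization.map_eq_zero_iff (hV.primeIdealOf ⟨x, hxV⟩).asIdeal.primeCompl _ s).1 hs
  exact (((hV.primeIdealOf ⟨y, hyV⟩).2.mem_or_mem (ht.symm ▸ zero_mem _)).resolve_left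
    fun h => t.2 (le_of_specializes hV hyV hxV hy h))

theorem irreducibleSpace_of_isDomain_stalk [NoetherianSpace A] [ConnectedSpace A]
    (h : ∀ x : A, IsDomain (A.presheaf.stalk x)) : IrreducibleSpace A := by
  have huniq : ∀ Z ∈ irreducibleComponents A, ∀ Z' ∈ irreducibleComponents A, ∀ x,
      x ∈ Z → x ∈ Z' → Z = Z' := by
    intro Z hZ Z' hZ' x hx hx'
    have := h x
    obtain ⟨η, hη⟩ := exists_generalisation_top x
    have key : ∀ Z ∈ irreducibleComponents A, x ∈ Z → Z = closure {η} := by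
      intro Z hZ hx
      have hg : IsGenericPoint hZ.1.genericPoint Z := by
        simpa [(isClosed_of_mem_irreducibleComponents Z hZ).closure_eq] using
          hZ.1.isGenericPoint_genericPoint_closure
      have h1 : η ⤳ hZ.1.genericPoint := hη _ (hg.specializes hx)
      have h2 : Z ⊆ closure {η} := by
        rw [← hg.def]
        exact specializes_iff_closure_subset.1 h1
      exact h2.antisymm (hZ.2 isIrreducible_singleton.closure h2)
    rw [key Z hZ hx, key Z' hZ' hx']
  obtain ⟨x₀⟩ := (inferInstance : Nonempty A)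
  let Z := irreducibleComponent x₀
  have hZ : Z ∈ irreducibleComponents A := irreducibleComponent_mem_irreducibleComponents x₀
  have hopen : IsOpen Z := by
    have hcompl : Zᶜ = ⋃ Z' ∈ irreducibleComponents A \ {Z}, Z' := by
      ext y
      simp only [Set.mem_compl_iff, Set.mem_iUnion, Set.mem_sdiff, Set.mem_singleton_iff,
        exists_prop]
      constructor
      · exact fun hy => ⟨_, ⟨irreducibleComponent_mem_irreducibleComponents y,
          fun e => hy (e ▸ mem_irreducibleComponent)⟩, mem_irreducibleComponent⟩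
      · rintro ⟨Z', ⟨hZ', hne⟩, hy⟩ hyZ
        exact hne (huniq Z' hZ' Z hZ y hy hyZ)
    rw [← isClosed_compl_iff, hcompl]
    exact (NoetherianSpace.finite_irreducibleComponents.sdiff).isClosed_biUnion
      fun Z' hZ' => isClosed_of_mem_irreducibleComponents Z' hZ'.1
  have huniv : Z = Set.univ :=
    IsClopen.eq_univ ⟨isClosed_of_mem_irreducibleComponents Z hZ, hopen⟩
      ⟨x₀, mem_irreducibleComponent⟩
  have : PreirreducibleSpace A := ⟨huniv ▸ hZ.1.2⟩
  exact IrreducibleSpace.mk inferInstance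

variable [IsIntegral A]

/-- `u` generates the ideal of denominators at `p` of the functions `x i`. -/
def IsDenominator {ι : Type*} (x : ι → A.functionField) (p : A) (u : (A.functionField)ˣ) :
    Prop :=
  (u : A.functionField) ∈ Reg p ∧ (∀ i, x i * (u : A.functionField) ∈ Reg p) ∧
    ∀ r ∈ Reg p, (∀ i, x i * r ∈ Reg p) → r * ((u⁻¹ : (A.functionField)ˣ) : A.functionField) ∈ Reg p

theorem IsDenominator.div_mem {ι : Type*} {x : ι → A.functionField} {p : A}
    {u v : (A.functionField)ˣ} (hu : IsDenominator x p u) (hv : IsDenominator x p v) :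
    u / v ∈ unitsAt p := by
  refine ⟨?_, ?_⟩
  · simpa [div_eq_mul_inv] using hv.2.2 _ hu.1 hu.2.1
  · simpa [div_eq_mul_inv, mul_comm] using hu.2.2 _ hv.1 hv.2.1

theorem exists_isDenominator_of_ufd {ι : Type*} [Finite ι] (x : ι → A.functionField) (y : A)
    [UniqueFactorizationMonoid (A.presheaf.stalk y)] : ∃ u, IsDenominator x y u := by
  obtain ⟨a, ha0, ha, hmax⟩ := exists_common_denominator (R := A.presheaf.stalk y) x
  refine ⟨Units.mk0 _ ((map_ne_zero_iff _ (algebraMap_stalk_injective y)).2 ha0), ⟨a, rfl⟩,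
    fun i => ?_, ?_⟩
  · obtain ⟨r, hr⟩ := ha i
    exact ⟨r, by rw [Units.val_mk0, mul_comm]; exact hr.symm⟩
  · rintro _ ⟨v, rfl⟩ hv
    obtain ⟨w, rfl⟩ := hmax v fun i => by
      obtain ⟨r, hr⟩ := hv i
      exact ⟨r, by rw [mul_comm]; exact hr.symm⟩
    refine ⟨w, ?_⟩
    have hne : algebraMap (A.presheaf.stalk y) A.functionField a ≠ 0 :=
      (map_ne_zero_iff _ (algebraMap_stalk_injective y)).2 ha0
    rw [Units.val_inv_eq_inv_val, Units.val_mk0, map_mul]
    field_simp

theorem exists_open_isDenominator [IsLocallyNoetherian A] {ι : Type*} [Finite ι]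
    (x : ι → A.functionField) {p : A} {u : (A.functionField)ˣ} (hu : IsDenominator x p u) :
    ∃ U : A.Opens, p ∈ U ∧ ∀ y ∈ U, IsDenominator x y u := by
  obtain ⟨V, hV', hpV, -⟩ :=
    Opens.isBasis_iff_nbhd.mp A.isBasis_affineOpens (show p ∈ (⊤ : A.Opens) from trivial)
  have hV : IsAffineOpen V := hV'
  have : Nonempty V := ⟨⟨p, hpV⟩⟩
  have : IsNoetherianRing Γ(A, V) := IsLocallyNoetherian.component_noetherian ⟨V, hV⟩
  let F := A.functionField
  let σ : Γ(A, V) →+* F := (A.germToFunctionField V).hom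
  let J : Ideal Γ(A, V) :=
    { carrier := {r | ∀ i, x i * σ r ∈ σ.range}
      zero_mem' := fun i => by simp
      add_mem' := fun ha hb i => by rw [map_add, mul_add]; exact add_mem (ha i) (hb i)
      smul_mem' := fun c r hr i => by
        rw [smul_eq_mul, map_mul, mul_left_comm]
        exact mul_mem ⟨c, rfl⟩ (hr i) }
  obtain ⟨n, r, hr⟩ := Submodule.fg_iff_exists_fin_generating_family.1 (IsNoetherian.noetherian J)
  have hσReg : ∀ y ∈ V, ∀ s, σ s ∈ Reg y := fun y hy s => germToFunctionField_mem_Reg hy s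
  have hJ : ∀ j, σ (r j) * ((u⁻¹ : Fˣ) : F) ∈ Reg p := fun j => by
    refine hu.2.2 _ (hσReg p hpV _) fun i => ?_
    have hj : r j ∈ J := hr ▸ Submodule.subset_span ⟨j, rfl⟩
    obtain ⟨s, hs⟩ := hj i
    rw [← hs]
    exact hσReg p hpV s
  choose W₁ hW₁ hW₁' using fun j => exists_open_of_mem_Reg (hJ j)
  choose W₂ hW₂ hW₂' using fun i => exists_open_of_mem_Reg (hu.2.1 i)
  obtain ⟨W₃, hW₃, hW₃'⟩ := exists_open_of_mem_Reg hu.1
  let W₁₂ : A.Opens := ⟨(⋂ j, (W₁ j : Set A)) ∩ ⋂ i, (W₂ i : Set A),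
    (isOpen_iInter_of_finite fun j => (W₁ j).isOpen).inter
      (isOpen_iInter_of_finite fun i => (W₂ i).isOpen)⟩
  refine ⟨V ⊓ W₃ ⊓ W₁₂, ⟨⟨hpV, hW₃⟩, Set.mem_iInter.2 hW₁, Set.mem_iInter.2 hW₂⟩,
    fun y ⟨⟨hyV, hy3⟩, hy1, hy2⟩ => ⟨hW₃' y hy3, fun i => hW₂' i y (Set.mem_iInter.1 hy2 i),
      fun z hz hxz => ?_⟩⟩
  rw [Set.mem_iInter] at hy1
  let _ : Algebra Γ(A, V) (A.presheaf.stalk y) := (A.presheaf.germ V y hyV).hom.toAlgebra
  have : IsLocalization.AtPrime (A.presheaf.stalk y) (hV.primeIdealOf ⟨y, hyV⟩).asIdeal :=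
    hV.isLocalization_stalk ⟨y, hyV⟩
  have halg : ∀ s, algebraMap (A.presheaf.stalk y) F (algebraMap Γ(A, V) _ s) = σ s := fun s =>
    Scheme.algebraMap_germ_eq_germToFunctionField A hyV s
  obtain ⟨a, rfl⟩ := hz
  choose b hb using hxz
  classical
  cases nonempty_fintype ι
  obtain ⟨t, ht⟩ := IsLocalization.exist_integer_multiples_of_finset
    (hV.primeIdealOf ⟨y, hyV⟩).asIdeal.primeCompl (insert a (Finset.univ.image b))
  have hint : ∀ c ∈ insert a (Finset.univ.image b),
      ∃ s, σ s = σ (t : Γ(A, V)) * algebraMap (A.presheaf.stalk y) F c := fun c hc => by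
    obtain ⟨s, hs⟩ := ht c hc
    exact ⟨s, by rw [← halg, hs, Algebra.smul_def, map_mul, halg]⟩
  obtain ⟨s, hs⟩ := hint a (Finset.mem_insert_self _ _)
  have hsJ : s ∈ J := fun i => by
    obtain ⟨s', hs'⟩ := hint (b i)
      (Finset.mem_insert_of_mem (Finset.mem_image_of_mem b (Finset.mem_univ i)))
    refine ⟨s', ?_⟩
    rw [hs', hs, hb i]
    ring
  have hsu : σ s * ((u⁻¹ : Fˣ) : F) ∈ Reg y := by
    rw [← hr, Submodule.mem_span_range_iff_exists_fun] at hsJ
    obtain ⟨c, rfl⟩ := hsJ
    rw [map_sum, Finset.sum_mul]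
    refine sum_mem fun j _ => ?_
    rw [smul_eq_mul, map_mul, mul_assoc]
    exact mul_mem (hσReg y hyV _) (hW₁' j y (hy1 j))
  have hunit : IsUnit (algebraMap Γ(A, V) (A.presheaf.stalk y) t) := IsLocalization.map_units _ t
  obtain ⟨w, hw⟩ := hunit.exists_left_inv
  have hkey : algebraMap (A.presheaf.stalk y) F a * ((u⁻¹ : Fˣ) : F) =
      algebraMap (A.presheaf.stalk y) F w * (σ s * ((u⁻¹ : Fˣ) : F)) := by
    rw [hs, ← halg, mul_assoc (algebraMap (A.presheaf.stalk y) F _) _ _, ← mul_assoc,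
      ← map_mul (algebraMap (A.presheaf.stalk y) F) w, hw, map_one, one_mul]
  rw [hkey]
  exact mul_mem ⟨w, rfl⟩ hsu

end LocalStructure

open LocalStructure in
/-- An abelian variety is integral and normal, and has a big effective divisor. -/
theorem localStructureProperty {K : Type u} [Field K] [IsAlgClosed K]
    (hU : FormalFactorialProperty K) : LocalStructureProperty K := by
  intro A _ _ hA g _
  let f := A ↘ KSpec K
  have := hA.proper
  have : IsLocallyNoetherian A := LocallyOfFiniteType.isLocallyNoetherian f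
  have : CompactSpace A := QuasiCompact.compactSpace_of_compactSpace f
  have : AlgebraicGeometry.IsNoetherian A := {}
  have : ConnectedSpace A := by
    have : Subsingleton (KSpec K) := inferInstanceAs (Subsingleton (PrimeSpectrum K))
    obtain ⟨s⟩ := (inferInstance : Nonempty (PrimeSpectrum K))
    have hs : f.base ⁻¹' {(s : KSpec K)} = Set.univ :=
      Set.eq_univ_of_forall fun a => Subsingleton.elim (α := KSpec K) _ _
    exact connectedSpace_iff_univ.2 (hs ▸ hA.connectedFibres s)
  have hdom : ∀ x : A, IsDomain (A.presheaf.stalk x) := fun x =>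
    (stalk_properties (f := f) hU g x).1
  have := irreducibleSpace_of_isDomain_stalk hdom
  have : IsReduced A := by
    have : ∀ x : A, _root_.IsReduced (A.presheaf.stalk x) := fun x => inferInstance
    exact isReduced_of_isReduced_stalk A
  have hint : IsIntegral A := isIntegral_of_irreducibleSpace_of_isReduced A
  refine ⟨hint, fun p => ?_, ?_⟩
  · obtain ⟨V, hV, hpV, φ, hC, hφ⟩ := exists_etale_chart (g := g) f p
    have : Nonempty V := ⟨⟨p, hpV⟩⟩
    let _ : Algebra K Γ(A, V) := (sectionConst f V).toAlgebra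
    have : IsIntegrallyClosed Γ(A, V) := IsIntegrallyClosed.of_localization_maximal fun P _ hP => by
      obtain ⟨h1, h2⟩ := factorial_of_etale hU φ hC hφ P (Localization.AtPrime P)
      infer_instance
    let _ : Algebra Γ(A, V) (A.presheaf.stalk p) := (A.presheaf.germ V p hpV).hom.toAlgebra
    have : IsLocalization.AtPrime (A.presheaf.stalk p) (hV.primeIdealOf ⟨p, hpV⟩).asIdeal :=
      hV.isLocalization_stalk ⟨p, hpV⟩
    exact isIntegrallyClosed_of_isLocalization (A.presheaf.stalk p)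
      (hV.primeIdealOf ⟨p, hpV⟩).asIdeal.primeCompl
      (Ideal.primeCompl_le_nonZeroDivisors _)
  obtain ⟨V, hV, hV0, φ, hC, hφ⟩ := exists_etale_chart (g := g) f (genericPoint A)
  have : Nonempty V := ⟨⟨_, hV0⟩⟩
  let _ : Algebra K Γ(A, V) := (sectionConst f V).toAlgebra
  have : IsFractionRing Γ(A, V) A.functionField :=
    functionField_isFractionRing_of_isAffineOpen A V hV
  have : IsScalarTower K Γ(A, V) A.functionField := .of_algebraMap_eq fun c => by
    show baseMap f c = A.germToFunctionField V (sectionConst f V c)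
    exact (A.presheaf.germ_res_apply (homOfLE le_top) _ _ _).symm
  let x : Fin g → A.functionField := fun i => algebraMap Γ(A, V) _ (φ (MvPolynomial.X i))
  obtain ⟨hind, hfin, hsep⟩ := fractionField_of_etale φ hC hφ x fun _ => rfl
  have hex : ∀ p : A, ∃ u, IsDenominator x p u := fun p => by
    obtain ⟨-, y, hpy, -, hy⟩ := stalk_properties (f := f) hU g p
    obtain ⟨u, hu⟩ := exists_isDenominator_of_ufd x y
    obtain ⟨U, hyU, hU'⟩ := exists_open_isDenominator x hu
    exact ⟨u, hU' p (hpy.mem_open U.isOpen hyU)⟩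
  choose h hh using hex
  have hmem : h ∈ CDiv A := fun p => by
    obtain ⟨U, hpU, hU'⟩ := exists_open_isDenominator x (hh p)
    exact ⟨U, hpU, fun y hy => (hh y).div_mem (hU' y hy)⟩
  exact ⟨⟨h, hmem⟩, x, hind, hfin, hsep, fun p => (hh p).1, fun i p => (hh p).2.1 i⟩

end Fermat.Agent.AbVar
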