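import Mathlib

/-! A finite extension of a normal domain with a reduced split fibre at one maximal ideal has
degree the number of points of that fibre, and is separable. -/

set_option autoImplicit false

noncomputable section

open Polynomial

universe u

namespace Fermat.Agent.AbVar

section Fibre

variable {R : Type u} [CommRing R] {S : Type u} [CommRing S] [Algebra R S]
  {ι : Type u} [Finite ι] {m : Ideal R} [hm : m.IsMaximal] {P : ι → Ideal S}

/-- The ideals of a fibre are comaximal and cut out the fibre. -/
theorem fibre_iInf_le (hall : ∀ Q : Ideal S, Q.IsMaximal → Q.comap (algebraMap R S) = m →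
      ∃ i, Q = P i)
    (hloc : ∀ i, ∀ a ∈ P i, ∃ t, t ∉ P i ∧ t * a ∈ m.map (algebraMap R S)) :
    ⨅ i, P i ≤ m.map (algebraMap R S) := by
  intro a ha
  rw [Ideal.mem_iInf] at ha
  by_contra hna
  let I : Ideal S := Submodule.comap (LinearMap.toSpanSingleton S S a) (m.map (algebraMap R S))
  have hI : I ≠ ⊤ := fun h => hna (by
    have : (1 : S) ∈ I := h ▸ Submodule.mem_top
    simpa [I, LinearMap.toSpanSingleton] using this)
  obtain ⟨Q, hQ, hIQ⟩ := I.exists_le_maximal hI
  have hmQ : Q.comap (algebraMap R S) = m := by
    refine (hm.eq_of_le (Ideal.comap_ne_top _ hQ.ne_top) fun r hr => ?_).symm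
    refine hIQ ?_
    show algebraMap R S r • a ∈ m.map (algebraMap R S)
    exact Ideal.mul_mem_right _ _ (Ideal.mem_map_of_mem _ hr)
  obtain ⟨i, rfl⟩ := hall Q hQ hmQ
  obtain ⟨t, ht, ht'⟩ := hloc i a (ha i)
  exact ht (hIQ ht')

/-- The fibre is split, so it is generated by as many elements as it has points. -/
theorem exists_generators (hPmax : ∀ i, (P i).IsMaximal) (hPinj : Function.Injective P)
    (hres : ∀ i (a : S), ∃ r : R, a - algebraMap R S r ∈ P i)
    (hJ : ⨅ i, P i ≤ m.map (algebraMap R S)) [Module.Finite R S] :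
    ∃ (e : ι → S) (r : R), r ∉ m ∧ ∀ a : S, r • a ∈ Submodule.span R (Set.range e) := by
  classical
  have := Fintype.ofFinite ι
  have hcop : Pairwise (Function.onFun IsCoprime P) := fun i j hij =>
    have := hPmax i
    have := hPmax j
    Ideal.isCoprime_of_isMaximal fun h => hij (hPinj h)
  have hcrt : ∀ i, ∃ e : S, ∀ j, Ideal.Quotient.mk (P j) e = if i = j then 1 else 0 := fun i =>
    Ideal.pi_quotient_surjective hcop (fun j => if i = j then 1 else 0)
  choose e he using hcrt
  set N := Submodule.span R (Set.range e)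
  have htop : (⊤ : Submodule R (S ⧸ N)) ≤ m • ⊤ := by
    intro x _
    obtain ⟨a, rfl⟩ := Submodule.mkQ_surjective N x
    choose c hc using fun i => hres i a
    have hmem : a - ∑ i, c i • e i ∈ m.map (algebraMap R S) := by
      refine hJ (Ideal.mem_iInf.mpr fun j => ?_)
      rw [← Ideal.Quotient.eq_zero_iff_mem, map_sub, map_sum, sub_eq_zero]
      simp only [Algebra.smul_def, map_mul, he, mul_ite, mul_one, mul_zero, Finset.sum_ite_eq',
        Finset.mem_univ, if_true]
      exact Ideal.Quotient.eq.mpr (hc j)
    have h1 : N.mkQ a = N.mkQ (a - ∑ i, c i • e i) := by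
      rw [map_sub, eq_comm, sub_eq_self, Submodule.mkQ_apply, Submodule.Quotient.mk_eq_zero]
      exact sum_mem fun i _ => N.smul_mem _ (Submodule.subset_span ⟨i, rfl⟩)
    rw [h1]
    have h2 : a - ∑ i, c i • e i ∈ m • (⊤ : Submodule R S) := by
      rw [Ideal.smul_top_eq_map]
      exact hmem
    have h3 := Submodule.mem_map_of_mem (f := N.mkQ) h2
    rwa [Submodule.map_smul'', Submodule.map_top, Submodule.range_mkQ] at h3
  obtain ⟨r, hr, hr'⟩ := Submodule.exists_sub_one_mem_and_smul_eq_zero_of_fg_of_le_smul m ⊤
    Module.Finite.fg_top htop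
  refine ⟨e, r, fun h => hm.ne_top ((Ideal.eq_top_iff_one m).mpr (by simpa using sub_mem h hr)),
    fun a => ?_⟩
  have := hr' (N.mkQ a) trivial
  rwa [← map_smul, Submodule.mkQ_apply, Submodule.Quotient.mk_eq_zero] at this

end Fibre

/-- A monic polynomial of degree at most the number of its simple given roots is separable. -/
theorem separable_of_roots {k : Type u} [Field k] {ι : Type u} [Fintype ι] {q : k[X]}
    (hq : q.Monic) (c : ι → k) (hc : Function.Injective c) (hroot : ∀ i, q.IsRoot (c i))
    (hle : q.natDegree ≤ Fintype.card ι) : q.natDegree = Fintype.card ι ∧ q.Separable := by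
  classical
  have hm : (∏ i, (X - C (c i))).Monic := monic_prod_of_monic _ _ fun i _ => monic_X_sub_C (c i)
  have hd : (∏ i, (X - C (c i))).natDegree = Fintype.card ι := by
    rw [natDegree_prod_of_monic _ _ fun i _ => monic_X_sub_C (c i)]
    simp
  have hdvd : (∏ i, (X - C (c i))) ∣ q :=
    Finset.prod_dvd_of_coprime (fun i _ j _ hij => pairwise_coprime_X_sub_C hc hij)
      fun i _ => dvd_iff_isRoot.mpr (hroot i)
  have he := eq_of_monic_of_dvd_of_natDegree_le hm hq hdvd (hd.symm ▸ hle)
  subst he
  exact ⟨hd, separable_prod_X_sub_C_iff.mpr hc⟩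

/-- A generator of a finite extension whose polynomial stays separable of full degree modulo `m`. -/
theorem isSeparable_of_minpoly {R : Type u} [CommRing R] {m : Ideal R} [m.IsMaximal]
    {F : Type u} [Field F] [Algebra R F] [IsFractionRing R F]
    {E : Type u} [Field E] [Algebra F E] [FiniteDimensional F E] (x : E) {p : R[X]} (hp : p.Monic)
    (hmin : minpoly F x = p.map (algebraMap R F)) (hdeg : p.natDegree = Module.finrank F E)
    (hsep : (p.map (Ideal.Quotient.mk m)).Separable) : Algebra.IsSeparable F E := by
  have hx : IsSeparable F x := by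
    rw [IsSeparable, separable_iff_derivative_ne_zero (minpoly.irreducible
      (IsIntegral.of_finite F _)), hmin, derivative_map]
    intro h
    rw [Polynomial.map_eq_zero_iff (IsFractionRing.injective R F)] at h
    rw [Separable, derivative_map, h, Polynomial.map_zero] at hsep
    have h1 := natDegree_eq_zero_of_isUnit (isCoprime_zero_right.mp hsep)
    rw [hp.natDegree_map] at h1
    have : 0 < Module.finrank F E := Module.finrank_pos
    omega
  have htop : IntermediateField.adjoin F {x} = ⊤ := by
    rw [Field.primitive_element_iff_minpoly_natDegree_eq, hmin, hp.natDegree_map, hdeg]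
  have h1 := (IntermediateField.isSeparable_adjoin_simple_iff_isSeparable F E).mpr hx
  rw [htop] at h1
  exact AlgEquiv.Algebra.isSeparable IntermediateField.topEquiv

/-- Elements spanning up to a denominator span the fraction field. -/
theorem finite_and_finrank_le {R : Type u} [CommRing R] {S : Type u} [CommRing S] [Algebra R S]
    {ι : Type u} [Fintype ι] {F : Type u} [Field F] [Algebra R F]
    {E : Type u} [Field E] [Algebra S E] [IsFractionRing S E] [Algebra R E] [IsScalarTower R S E]
    [Algebra F E] [IsScalarTower R F E] (e : ι → S) {r : R} (hrF : algebraMap R F r ≠ 0)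
    (hspan : ∀ a : S, r • a ∈ Submodule.span R (Set.range e)) :
    FiniteDimensional F E ∧ Module.finrank F E ≤ Fintype.card ι := by
  set V := Submodule.span F (Set.range fun i => algebraMap S E (e i))
  have hVS : ∀ a : S, algebraMap S E a ∈ V := by
    intro a
    have h := Submodule.mem_map_of_mem (f := (IsScalarTower.toAlgHom R S E).toLinearMap) (hspan a)
    rw [Submodule.map_span, ← Set.range_comp] at h
    have h' := Submodule.span_subset_span R F _ h
    rw [map_smul, ← IsScalarTower.algebraMap_smul F r] at h'
    exact (V.smul_mem_iff hrF).mp h'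
  have hVfin : FiniteDimensional F V := FiniteDimensional.span_of_finite F (Set.finite_range _)
  have hV : V = ⊤ := by
    refine eq_top_iff.mpr fun z _ => ?_
    obtain ⟨a, b, hb, rfl⟩ := IsFractionRing.div_surjective (A := S) z
    have hb' : IsUnit (algebraMap S E b) := IsLocalization.map_units E ⟨b, hb⟩
    have hmul : ∀ v ∈ V, LinearMap.mulLeft F (algebraMap S E b) v ∈ V := fun v hv => by
      induction hv using Submodule.span_induction with
      | mem x hx =>
        obtain ⟨i, rfl⟩ := hx
        simpa [← map_mul] using hVS (b * e i)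
      | zero => simp
      | add x y _ _ hx hy =>
        rw [map_add]
        exact add_mem hx hy
      | smul c x _ hx =>
        rw [map_smul]
        exact V.smul_mem c hx
    let μ : V →ₗ[F] V := (LinearMap.mulLeft F (algebraMap S E b)).restrict hmul
    have hμ : Function.Surjective μ := LinearMap.injective_iff_surjective.mp fun x y h =>
      Subtype.ext (hb'.mul_left_cancel (congrArg Subtype.val h))
    obtain ⟨v, hv⟩ := hμ ⟨_, hVS a⟩
    have hv' : algebraMap S E b * v.1 = algebraMap S E a := congrArg Subtype.val hv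
    rw [← hv', mul_div_cancel_left₀ _ hb'.ne_zero]
    exact v.2
  refine ⟨Module.Finite.equiv (LinearEquiv.ofTop V hV), ?_⟩
  rw [← finrank_top F E, ← hV]
  exact finrank_range_le_card _

variable {R : Type u} [CommRing R] [IsDomain R] [IsIntegrallyClosed R]
  {S : Type u} [CommRing S] [IsDomain S] [Algebra R S] [Module.Finite R S]
  {ι : Type u} [Finite ι] {m : Ideal R} [hm : m.IsMaximal] [Infinite (R ⧸ m)] {P : ι → Ideal S}

theorem exists_separating (hPmax : ∀ i, (P i).IsMaximal) (hPinj : Function.Injective P)
    (hcomap : ∀ i, (P i).comap (algebraMap R S) = m) :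
    ∃ (s : S) (c : ι → R ⧸ m), Function.Injective c ∧
      ∀ i, ((minpoly R s).map (Ideal.Quotient.mk m)).IsRoot (c i) := by
  classical
  have := Fintype.ofFinite ι
  let g : ι → R ⧸ m := fun i => Infinite.natEmbedding _ (Fintype.equivFin ι i)
  have hg : Function.Injective g := fun i j h => (Fintype.equivFin ι).injective
    (Fin.ext ((Infinite.natEmbedding (R ⧸ m)).injective h))
  choose c hc using fun i => Ideal.Quotient.mk_surjective (g i)
  have hcop : Pairwise (Function.onFun IsCoprime P) := fun i j hij =>
    have := hPmax i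
    have := hPmax j
    Ideal.isCoprime_of_isMaximal fun h => hij (hPinj h)
  obtain ⟨s, hs⟩ := Ideal.exists_forall_sub_mem_ideal hcop fun i => algebraMap R S (c i)
  refine ⟨s, g, hg, fun i => ?_⟩
  rw [IsRoot.def, ← hc i, eval_map_apply, Ideal.Quotient.eq_zero_iff_mem, ← hcomap i,
    Ideal.mem_comap, ← aeval_algebraMap_apply_eq_algebraMap_eval]
  have h1 := Ideal.mem_of_dvd (P i) (sub_dvd_eval_sub s (algebraMap R S (c i))
    ((minpoly R s).map (algebraMap R S))) (hs i)
  rwa [eval_map_algebraMap, eval_map_algebraMap, minpoly.aeval, zero_sub, neg_mem_iff] at h1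

theorem finrank_eq_card_fibre_aux (F : Type u) [Field F] [Algebra R F] [IsFractionRing R F]
    (E : Type u) [Field E] [Algebra S E] [IsFractionRing S E] [Algebra R E] [IsScalarTower R S E]
    [Algebra F E] [IsScalarTower R F E] (hPmax : ∀ i, (P i).IsMaximal)
    (hPinj : Function.Injective P) (hcomap : ∀ i, (P i).comap (algebraMap R S) = m)
    (hall : ∀ Q : Ideal S, Q.IsMaximal → Q.comap (algebraMap R S) = m → ∃ i, Q = P i)
    (hres : ∀ i (a : S), ∃ r : R, a - algebraMap R S r ∈ P i)
    (hloc : ∀ i, ∀ a ∈ P i, ∃ t, t ∉ P i ∧ t * a ∈ m.map (algebraMap R S)) :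
    Nat.card ι = Module.finrank F E ∧ FiniteDimensional F E ∧ Algebra.IsSeparable F E := by
  classical
  have := Fintype.ofFinite ι
  obtain ⟨e, r, hr, hspan⟩ := exists_generators hPmax hPinj hres (fibre_iInf_le hall hloc)
  have hrF : algebraMap R F r ≠ 0 := fun h =>
    hr ((IsFractionRing.injective R F (h.trans (map_zero _).symm)) ▸ m.zero_mem)
  obtain ⟨hEfin, hle⟩ := finite_and_finrank_le (F := F) (E := E) e hrF hspan
  obtain ⟨s, c, hc, hroot⟩ := exists_separating hPmax hPinj hcomap
  have hint : IsIntegral R s := IsIntegral.of_finite R s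
  have hmon := minpoly.monic hint
  have hminF : minpoly F (algebraMap S E s) = (minpoly R s).map (algebraMap R F) :=
    minpoly.isIntegrallyClosed_eq_field_fractions F E hint
  have hpdeg : (minpoly R s).natDegree ≤ Module.finrank F E := by
    have := minpoly.natDegree_le (A := F) (algebraMap S E s)
    rwa [hminF, hmon.natDegree_map] at this
  let : Field (R ⧸ m) := Ideal.Quotient.field m
  have hqdeg := hmon.natDegree_map (Ideal.Quotient.mk m)
  obtain ⟨hd, hsep⟩ := separable_of_roots (hmon.map (Ideal.Quotient.mk m)) c hc hroot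
    (by omega)
  refine ⟨by rw [Nat.card_eq_fintype_card]; omega, hEfin, ?_⟩
  exact isSeparable_of_minpoly _ hmon hminF (by omega) hsep

/-- The version for a subfield. -/
theorem finrank_eq_card_fibre {E : Type u} [Field E] [Algebra S E] [IsFractionRing S E]
    (F : Subfield E) (hinj : Function.Injective (algebraMap R S))
    (hF : ∀ z : E, z ∈ F ↔ ∃ a b : R, b ≠ 0 ∧
      z = algebraMap S E (algebraMap R S a) / algebraMap S E (algebraMap R S b))
    (hPmax : ∀ i, (P i).IsMaximal) (hPinj : Function.Injective P)
    (hcomap : ∀ i, (P i).comap (algebraMap R S) = m)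
    (hall : ∀ Q : Ideal S, Q.IsMaximal → Q.comap (algebraMap R S) = m → ∃ i, Q = P i)
    (hres : ∀ i (a : S), ∃ r : R, a - algebraMap R S r ∈ P i)
    (hloc : ∀ i, ∀ a ∈ P i, ∃ t, t ∉ P i ∧ t * a ∈ m.map (algebraMap R S)) :
    Nat.card ι = Module.finrank F E ∧ FiniteDimensional F E ∧ Algebra.IsSeparable F E := by
  let φ : R →+* E := (algebraMap S E).comp (algebraMap R S)
  have hφ : Function.Injective φ := (IsFractionRing.injective S E).comp hinj
  let : Algebra R E := φ.toAlgebra
  have hmem : ∀ r : R, φ r ∈ F := fun r => (hF _).mpr ⟨r, 1, one_ne_zero, by simp [φ]⟩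
  let : Algebra R F := (φ.codRestrict F hmem).toAlgebra
  have : IsScalarTower R S E := .of_algebraMap_eq fun _ => rfl
  have : IsScalarTower R F E := .of_algebraMap_eq fun _ => rfl
  have : FaithfulSMul R F := (faithfulSMul_iff_algebraMap_injective R F).mpr fun a b h =>
    hφ (congrArg Subtype.val h)
  have : IsFractionRing R F := IsFractionRing.of_field R F fun z => by
    obtain ⟨a, b, -, hab⟩ := (hF z.1).mp z.2
    exact ⟨a, b, Subtype.ext hab⟩
  exact finrank_eq_card_fibre_aux F E hPmax hPinj hcomap hall hres hloc

end Fermat.Agent.AbVar
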