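import Fermat.Agent.AbVar.NsmulLocal
import Fermat.Agent.AbVar.NsmulAlgebra

/-! Multiplication by an invertible `n` on an abelian variety is finite, and its function field
extension is separable of degree the number of `n`-torsion points. -/

set_option autoImplicit false

noncomputable section

open CategoryTheory CategoryTheory.Limits AlgebraicGeometry NeronModelInfra GoodReductionJacobian
  GoodReductionJacobian.RelativeGroupLaw IsLocalRing TopologicalSpace

universe u

namespace Fermat.Agent.AbVar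

section Affine

variable {A : Scheme.{u}} {U : A.Opens}

theorem mem_primeIdealOf_iff (hU : IsAffineOpen U) {x : A} (hx : x ∈ U) (s : Γ(A, U)) :
    s ∈ (hU.primeIdealOf ⟨x, hx⟩).asIdeal ↔
      A.presheaf.germ U x hx s ∈ maximalIdeal (A.presheaf.stalk x) := by
  let : Algebra Γ(A, U) (A.presheaf.stalk x) := (A.presheaf.germ U x hx).hom.toAlgebra
  have := hU.isLocalization_stalk ⟨x, hx⟩
  exact (IsLocalization.AtPrime.to_map_mem_maximal_iff (A.presheaf.stalk x)
    (hU.primeIdealOf ⟨x, hx⟩).asIdeal s).symm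

theorem map_germ_primeIdealOf (hU : IsAffineOpen U) {x : A} (hx : x ∈ U) :
    (hU.primeIdealOf ⟨x, hx⟩).asIdeal.map (A.presheaf.germ U x hx).hom =
      maximalIdeal (A.presheaf.stalk x) := by
  let : Algebra Γ(A, U) (A.presheaf.stalk x) := (A.presheaf.germ U x hx).hom.toAlgebra
  have := hU.isLocalization_stalk ⟨x, hx⟩
  exact IsLocalization.AtPrime.map_eq_maximalIdeal (hU.primeIdealOf ⟨x, hx⟩).asIdeal
    (A.presheaf.stalk x)

theorem eq_of_primeIdealOf_eq (hU : IsAffineOpen U) {x x' : A} (hx : x ∈ U) (hx' : x' ∈ U)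
    (h : (hU.primeIdealOf ⟨x, hx⟩).asIdeal = (hU.primeIdealOf ⟨x', hx'⟩).asIdeal) : x = x' := by
  have h1 := hU.fromSpec_primeIdealOf ⟨x, hx⟩
  rw [PrimeSpectrum.ext h] at h1
  exact h1.symm.trans (hU.fromSpec_primeIdealOf ⟨x', hx'⟩)

theorem primeIdealOf_fromSpec (hU : IsAffineOpen U) (Q : PrimeSpectrum Γ(A, U))
    (hQ : hU.fromSpec Q ∈ U) : hU.primeIdealOf ⟨hU.fromSpec Q, hQ⟩ = Q :=
  hU.fromSpec.isOpenEmbedding.injective (hU.fromSpec_primeIdealOf ⟨hU.fromSpec Q, hQ⟩)

theorem isMaximal_primeIdealOf (hU : IsAffineOpen U) {x : A} (hx : x ∈ U) (hxc : IsClosed {x}) :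
    (hU.primeIdealOf ⟨x, hx⟩).asIdeal.IsMaximal := by
  rw [← PrimeSpectrum.isClosed_singleton_iff_isMaximal]
  have : {hU.primeIdealOf ⟨x, hx⟩} = hU.fromSpec ⁻¹' {x} := by
    ext Q
    constructor
    · rintro rfl
      exact hU.fromSpec_primeIdealOf ⟨x, hx⟩
    · intro h
      exact hU.fromSpec.isOpenEmbedding.injective
        (h.trans (hU.fromSpec_primeIdealOf ⟨x, hx⟩).symm)
  exact (congrArg IsClosed this).mpr (hxc.preimage hU.fromSpec.continuous)

theorem exists_germ_sub_mem (hU : IsAffineOpen U) {x : A} (hx : x ∈ U)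
    [(hU.primeIdealOf ⟨x, hx⟩).asIdeal.IsMaximal] (b : A.presheaf.stalk x) :
    ∃ r : Γ(A, U), A.presheaf.germ U x hx r - b ∈ maximalIdeal (A.presheaf.stalk x) := by
  let : Algebra Γ(A, U) (A.presheaf.stalk x) := (A.presheaf.germ U x hx).hom.toAlgebra
  have := hU.isLocalization_stalk ⟨x, hx⟩
  obtain ⟨a, s, rfl⟩ :=
    IsLocalization.exists_mk'_eq (hU.primeIdealOf ⟨x, hx⟩).asIdeal.primeCompl b
  obtain ⟨t, i, hi, hti⟩ := ‹(hU.primeIdealOf ⟨x, hx⟩).asIdeal.IsMaximal›.exists_inv s.2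
  refine ⟨t * a, ?_⟩
  show algebraMap _ (A.presheaf.stalk x) (t * a) - _ ∈ _
  have hspec := IsLocalization.mk'_spec (A.presheaf.stalk x) a s
  have : algebraMap _ (A.presheaf.stalk x) (t * a) - IsLocalization.mk' (A.presheaf.stalk x) a s =
      IsLocalization.mk' (A.presheaf.stalk x) a s *
        (-algebraMap _ (A.presheaf.stalk x) i) := by
    have h1 := congrArg (algebraMap Γ(A, U) (A.presheaf.stalk x)) hti
    rw [map_add, map_mul, map_one] at h1
    rw [map_mul, ← hspec]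
    linear_combination (IsLocalization.mk' (A.presheaf.stalk x) a s) * h1
  rw [this]
  exact Ideal.mul_mem_left _ _ (neg_mem ((mem_primeIdealOf_iff hU hx i).mp hi))

variable (φ : A ⟶ A) (hU : IsAffineOpen U) (hV : IsAffineOpen (φ ⁻¹ᵁ U))

theorem comap_primeIdealOf {x : A} (hx : x ∈ φ ⁻¹ᵁ U) :
    (hV.primeIdealOf ⟨x, hx⟩).asIdeal.comap (φ.app U).hom =
      (hU.primeIdealOf ⟨φ x, hx⟩).asIdeal := by
  ext s
  rw [Ideal.mem_comap, mem_primeIdealOf_iff hV hx, mem_primeIdealOf_iff hU hx,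
    ← Scheme.Hom.germ_stalkMap_apply φ U x hx s]
  exact map_mem_nonunits_iff (φ.stalkMap x).hom _

theorem exists_mul_mem_map {x : A} (hx : x ∈ φ ⁻¹ᵁ U) [IsIntegral A]
    (hm : (maximalIdeal (A.presheaf.stalk (φ x))).map (φ.stalkMap x).hom =
      maximalIdeal (A.presheaf.stalk x)) {a : Γ(A, φ ⁻¹ᵁ U)}
    (ha : a ∈ (hV.primeIdealOf ⟨x, hx⟩).asIdeal) :
    ∃ t, t ∉ (hV.primeIdealOf ⟨x, hx⟩).asIdeal ∧
      t * a ∈ ((hU.primeIdealOf ⟨φ x, hx⟩).asIdeal).map (φ.app U).hom := by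
  let : Algebra Γ(A, φ ⁻¹ᵁ U) (A.presheaf.stalk x) := (A.presheaf.germ _ x hx).hom.toAlgebra
  have := hV.isLocalization_stalk ⟨x, hx⟩
  have h1 := (mem_primeIdealOf_iff hV hx a).mp ha
  rw [← hm, ← map_germ_primeIdealOf hU hx, Ideal.map_map, ← CommRingCat.hom_comp,
    Scheme.Hom.germ_stalkMap φ U x hx, CommRingCat.hom_comp, ← Ideal.map_map] at h1
  obtain ⟨⟨i, t⟩, hit⟩ := (IsLocalization.mem_map_algebraMap_iff
    (hV.primeIdealOf ⟨x, hx⟩).asIdeal.primeCompl (A.presheaf.stalk x)).mp h1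
  refine ⟨t.1, t.2, ?_⟩
  have : a * t.1 = i.1 := germ_injective_of_isIntegral A x hx (by
    rw [map_mul]
    exact hit)
  rw [mul_comm, this]
  exact i.2

theorem isIntegrallyClosed_of_stalk [IsIntegral A] [Nonempty U] (hU : IsAffineOpen U)
    (h : ∀ x : A, IsIntegrallyClosed (A.presheaf.stalk x)) : IsIntegrallyClosed Γ(A, U) := by
  refine IsIntegrallyClosed.of_localization_maximal fun Q _ hQ => ?_
  have hx : hU.fromSpec ⟨Q, hQ.isPrime⟩ ∈ U := hU.range_fromSpec.le (Set.mem_range_self _)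
  let : Algebra Γ(A, U) (A.presheaf.stalk (hU.fromSpec ⟨Q, hQ.isPrime⟩)) :=
    (A.presheaf.germ U _ hx).hom.toAlgebra
  have : IsLocalization Q.primeCompl (A.presheaf.stalk (hU.fromSpec ⟨Q, hQ.isPrime⟩)) :=
    hU.isLocalization_stalk' ⟨Q, hQ.isPrime⟩ hx
  have := h (hU.fromSpec ⟨Q, hQ.isPrime⟩)
  exact IsIntegrallyClosed.of_equiv
    (IsLocalization.algEquiv Q.primeCompl (A.presheaf.stalk (hU.fromSpec ⟨Q, hQ.isPrime⟩))
      (Localization.AtPrime Q)).toRingEquiv

end Affine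

variable {K : Type u} [Field K] [IsAlgClosed K] {A : Scheme.{u}} {f : A ⟶ KSpec K}
  [LocallyOfFiniteType f] (L : RelativeGroupLaw K f)

/-- The torsion points are the closed points of the fibre over the origin. -/
theorem card_torsion_eq_card_fibre (n : ℕ) :
    Nat.card {p : SchemeHomOver (𝟙 (KSpec K)) f // L.IsTorsionPoint (𝟙 (KSpec K)) n p} =
      Nat.card {x : closedPoints A // L.schemeNsmul n x.1 = origin L} := by
  refine Nat.card_congr ((pointEquivClosedPoint f).subtypeEquiv fun p => ?_)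
  show L.nsmul _ n p = L.one _ ↔ L.schemeNsmul n (p.1 (closedPoint K)) = origin L
  constructor
  · intro h
    rw [origin, ← h, ← comp_schemeNsmul]
    rfl
  · intro h
    refine Subtype.ext (ext_of_apply_closedPoint_eq f (L.nsmul _ n p).2 (L.one _).2 ?_)
    rw [← comp_schemeNsmul]
    exact h

omit L in
/-- A point above a closed point which is closed in an open containing the whole fibre is
closed. -/
theorem isClosed_of_isMaximal (φ : A ⟶ A) {U : A.Opens} (hV : IsAffineOpen (φ ⁻¹ᵁ U)) {x o : A}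
    (hx : x ∈ φ ⁻¹ᵁ U) (ho : IsClosed {o}) (hφ : φ x = o)
    (hmax : (hV.primeIdealOf ⟨x, hx⟩).asIdeal.IsMaximal) : IsClosed {x} := by
  refine closure_eq_iff_isClosed.mp ((Set.Subset.antisymm ?_ subset_closure))
  intro z hz
  have hxz : x ⤳ z := specializes_iff_mem_closure.mpr hz
  have hφz : φ z = o := ho.stableUnderSpecialization (hxz.map φ.continuous) hφ
  have hzV : z ∈ φ ⁻¹ᵁ U := by
    show φ z ∈ U
    rw [hφz, ← hφ]
    exact hx
  refine (eq_of_primeIdealOf_eq hV hx hzV (hmax.eq_of_le (Ideal.IsPrime.ne_top inferInstance)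
    fun s hs => ?_)).symm
  rw [mem_primeIdealOf_iff hV hzV, mem_maximalIdeal, mem_nonunits_iff,
    ← A.mem_basicOpen s z hzV]
  intro hzb
  have := hxz.mem_open (A.basicOpen s).isOpen hzb
  rw [SetLike.mem_coe, A.mem_basicOpen s x hx] at this
  exact (mem_primeIdealOf_iff hV hx s).mp hs this

theorem nsmul_degree [IsIntegral A] [IsProper f] (hc : L.IsCommutative)
    (hnormal : ∀ x : A, IsIntegrallyClosed (A.presheaf.stalk x)) (n : ℕ) (hn : (n : K) ≠ 0)
    (hgen : L.schemeNsmul n (genericPoint A) = genericPoint A) :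
    Nat.card {p : SchemeHomOver (𝟙 (KSpec K)) f // L.IsTorsionPoint (𝟙 (KSpec K)) n p} =
        Module.finrank (pullHom (L.schemeNsmul n) hgen).fieldRange A.functionField ∧
      FiniteDimensional (pullHom (L.schemeNsmul n) hgen).fieldRange A.functionField ∧
      Algebra.IsSeparable (pullHom (L.schemeNsmul n) hgen).fieldRange A.functionField := by
  rw [card_torsion_eq_card_fibre L n]
  set φ := L.schemeNsmul n
  have hfinφ : IsFinite φ := isFinite_schemeNsmul L hc n hn
  obtain ⟨U, hU, hoU : origin L ∈ U, -⟩ :=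
    exists_isAffineOpen_mem_and_subset (x := origin L) (U := ⊤) trivial
  have hV : IsAffineOpen (φ ⁻¹ᵁ U) := hU.preimage φ
  have hoV : φ (origin L) ∈ U := by
    rw [schemeNsmul_origin L n]
    exact hoU
  have : Nonempty U := ⟨⟨_, hoU⟩⟩
  have : Nonempty (φ ⁻¹ᵁ U : A.Opens) := ⟨⟨_, hoV⟩⟩
  have hRint := isIntegrallyClosed_of_stalk hU hnormal
  let : Algebra Γ(A, U) Γ(A, φ ⁻¹ᵁ U) := (φ.app U).hom.toAlgebra
  have : Module.Finite Γ(A, U) Γ(A, φ ⁻¹ᵁ U) := IsFinite.finite_app φ U hU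
  have := functionField_isFractionRing_of_isAffineOpen A (φ ⁻¹ᵁ U) hV
  have := functionField_isFractionRing_of_isAffineOpen A U hU
  set m := (hU.primeIdealOf ⟨origin L, hoU⟩).asIdeal
  have hmmax : m.IsMaximal := isMaximal_primeIdealOf hU hoU (isClosed_origin L)
  let ψ : K →+* Γ(A, U) :=
    (f.appLE ⊤ U (by simp)).hom.comp (Scheme.ΓSpecIso (CommRingCat.of K)).inv.hom
  have : Infinite (Γ(A, U) ⧸ m) :=
    Infinite.of_injective _ ((Ideal.Quotient.mk m).comp ψ).injective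
  set ι := {x : closedPoints A // φ x.1 = origin L}
  have hmem : ∀ x : ι, x.1.1 ∈ φ ⁻¹ᵁ U := fun x => by
    show φ x.1.1 ∈ U
    rw [x.2]
    exact hoU
  have hm : ∀ x : ι, m = (hU.primeIdealOf ⟨φ x.1.1, hmem x⟩).asIdeal := fun x => by
    simp only [m, x.2]
  have : Finite ι := by
    have := (φ.finite_preimage_singleton (origin L)).to_subtype
    exact Finite.of_injective (fun x : ι => (⟨x.1.1, x.2⟩ : φ ⁻¹' {origin L}))
      fun a b h => Subtype.ext (Subtype.ext (Subtype.mk.inj h))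
  have hinj : Function.Injective (algebraMap Γ(A, U) Γ(A, φ ⁻¹ᵁ U)) := by
    intro a b h
    apply IsFractionRing.injective Γ(A, U) A.functionField
    refine (pullHom φ hgen).injective ?_
    show pullFun φ (A.germToFunctionField U a) = pullFun φ (A.germToFunctionField U b)
    rw [pullFun_germ, pullFun_germ]
    exact congrArg _ h
  have hpull : ∀ a : Γ(A, U), algebraMap Γ(A, φ ⁻¹ᵁ U) A.functionField
      (algebraMap Γ(A, U) Γ(A, φ ⁻¹ᵁ U) a) =
        pullHom φ hgen (algebraMap Γ(A, U) A.functionField a) := fun a =>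
    (pullFun_germ φ U a).symm
  refine finrank_eq_card_fibre (R := Γ(A, U)) (m := m) (pullHom φ hgen).fieldRange
    (P := fun x : ι => (hV.primeIdealOf ⟨x.1.1, hmem x⟩).asIdeal) hinj ?_
    (fun x => isMaximal_primeIdealOf hV _ x.1.2)
    (fun x x' h => Subtype.ext (Subtype.ext (eq_of_primeIdealOf_eq hV _ _ h)))
    (fun x => (comap_primeIdealOf φ hU hV (hmem x)).trans (hm x).symm) ?_ ?_ ?_
  · intro z
    rw [RingHom.mem_fieldRange]
    constructor
    · rintro ⟨w, rfl⟩
      obtain ⟨a, b, hb, rfl⟩ := IsFractionRing.div_surjective (A := Γ(A, U)) w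
      exact ⟨a, b, nonZeroDivisors.ne_zero hb, by rw [hpull, hpull, map_div₀]⟩
    · rintro ⟨a, b, -, rfl⟩
      exact ⟨algebraMap _ _ a / algebraMap _ _ b, by rw [hpull, hpull, map_div₀]⟩
  · intro Q hQ hQm
    have hxV : hV.fromSpec ⟨Q, hQ.isPrime⟩ ∈ φ ⁻¹ᵁ U :=
      hV.range_fromSpec.le (Set.mem_range_self _)
    have hP := congrArg PrimeSpectrum.asIdeal (primeIdealOf_fromSpec hV _ hxV)
    have hφx : φ (hV.fromSpec ⟨Q, hQ.isPrime⟩) = origin L := by
      refine eq_of_primeIdealOf_eq hU hxV hoU ?_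
      rw [← comap_primeIdealOf φ hU hV hxV, hP]
      exact hQm
    have hcl := isClosed_of_isMaximal φ hV hxV (isClosed_origin L) hφx (hP ▸ hQ)
    exact ⟨⟨⟨_, hcl⟩, hφx⟩, hP.symm⟩
  · intro x a
    have hxU : φ x.1.1 ∈ U := hmem x
    have : (hU.primeIdealOf ⟨φ x.1.1, hxU⟩).asIdeal.IsMaximal := hm x ▸ hmmax
    have hxc : IsClosed {x.1.1} := x.1.2
    set c := stalkVal f x.1.1 hxc (A.presheaf.germ _ _ (hmem x) a)
    obtain ⟨r, hr⟩ := exists_germ_sub_mem hU hxU (stalkConst f (φ x.1.1) c)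
    refine ⟨r, (mem_primeIdealOf_iff hV (hmem x) _).mpr ?_⟩
    have h1 := sub_stalkConst_mem (f := f) hxc (A.presheaf.germ _ _ (hmem x) a)
    have h2 : φ.stalkMap x.1.1 (A.presheaf.germ U _ hxU r - stalkConst f (φ x.1.1) c) ∈
        maximalIdeal (A.presheaf.stalk x.1.1) := map_nonunit (φ.stalkMap x.1.1).hom _ hr
    have h3 : φ.stalkMap x.1.1 (stalkConst f (φ x.1.1) c) = stalkConst f x.1.1 c :=
      congrArg (fun e => (CommRingCat.Hom.hom e) c)
        (stalkConst_stalkMap f φ (schemeNsmul_over L n) x.1.1)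
    rw [map_sub, h3, Scheme.Hom.germ_stalkMap_apply φ U x.1.1 hxU] at h2
    convert sub_mem h1 h2 using 1
    rw [map_sub, sub_sub_sub_cancel_right]
    rfl
  · intro x a ha
    rw [hm x]
    exact exists_mul_mem_map φ hU hV (hmem x)
      (map_maximalIdeal_stalkMap L hc n hn x.1.1 x.1.2) ha

variable (K) in
theorem nsmulDegreeProperty : NsmulDegreeProperty K := by
  intro A _ _ L hc hA g _ hnormal n hn
  have := hA.proper
  exact ⟨isFinite_schemeNsmul L hc n hn, schemeNsmul_genericPoint L n hn,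
    nsmul_degree L hc hnormal n hn _⟩

end Fermat.Agent.AbVar
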