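import Fermat.Agent.AbVar.Interfaces

/-! Products of integral varieties over an algebraically closed field are integral; sections on
rectangles are tensor products. -/

set_option autoImplicit false

noncomputable section

open CategoryTheory CategoryTheory.Limits AlgebraicGeometry TopologicalSpace
open scoped TensorProduct

universe u v w

namespace Fermat.Agent.AbVar

section Algebra

variable {K : Type u} {R : Type v} {S : Type w} [Field K] [IsAlgClosed K] [CommRing R] [CommRing S]
  [Algebra K R] [Algebra K S]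

/-- A nonzero element of a reduced finitely generated algebra is nonzero at some `K`-point. -/
theorem exists_algHom_apply_ne_zero [IsReduced R] [Algebra.FiniteType K R] {r : R} (hr : r ≠ 0) :
    ∃ φ : R →ₐ[K] K, φ r ≠ 0 := by
  have : IsJacobsonRing R := isJacobsonRing_of_finiteType (A := K)
  have hrad : (⊥ : Ideal R).jacobson = ⊥ :=
    IsJacobsonRing.out' ⊥ ((Ideal.isRadical_iff_quotient_reduced _).mpr
      (isReduced_of_injective (RingEquiv.quotientBot R) (RingEquiv.quotientBot R).injective))
  obtain ⟨m, hm, hrm⟩ : ∃ m : Ideal R, m.IsMaximal ∧ r ∉ m := by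
    by_contra! h
    exact hr (by
      rw [← Submodule.mem_bot R, ← hrad, Ideal.jacobson, Submodule.mem_sInf]
      exact fun J hJ => h J hJ.2)
  let := Ideal.Quotient.field m
  have : Module.Finite K (R ⧸ m) := finite_of_finite_type_of_isJacobsonRing K (R ⧸ m)
  let e : K ≃ₐ[K] R ⧸ m :=
    AlgEquiv.ofBijective (Algebra.ofId K (R ⧸ m)) IsAlgClosed.algebraMap_bijective_of_isIntegral
  exact ⟨e.symm.toAlgHom.comp (Ideal.Quotient.mkₐ K m), by
    simpa [Ideal.Quotient.eq_zero_iff_mem] using hrm⟩

/-- A tensor product of domains over an algebraically closed field is a domain. -/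
theorem isDomain_tensorProduct [IsDomain R] [IsDomain S] [Algebra.FiniteType K R] :
    IsDomain (R ⊗[K] S) := by
  obtain ⟨_, b⟩ := (⟨_, Module.Free.chooseBasis K S⟩ :
    Σ' ι : Type w, Module.Basis ι K S)
  let B := Algebra.TensorProduct.basis R b
  have key : ∀ (φ : R →ₐ[K] K) (x : R ⊗[K] S) i,
      b.repr (Algebra.TensorProduct.lift ((Algebra.ofId K S).comp φ) (AlgHom.id K S)
        (fun _ _ => .all _ _) x) i = φ (B.repr x i) := by
    intro φ x i
    induction x with
    | zero => simp
    | tmul a s => rw [Algebra.TensorProduct.lift_tmul]; simp [B, Algebra.ofId_apply, ← Algebra.smul_def]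
    | add x y hx hy => simp [hx, hy]
  have : Nontrivial (R ⊗[K] S) := Algebra.TensorProduct.nontrivial_of_algebraMap_injective_of_isDomain
    K R S (algebraMap K R).injective (algebraMap K S).injective
  refine @NoZeroDivisors.to_isDomain _ _ _ ⟨fun {x y} hxy => ?_⟩
  by_contra! h
  obtain ⟨i, hi⟩ : ∃ i, B.repr x i ≠ 0 := by
    by_contra! h'; exact h.1 (B.repr.injective (Finsupp.ext (by simpa using h')))
  obtain ⟨j, hj⟩ : ∃ j, B.repr y j ≠ 0 := by
    by_contra! h'; exact h.2 (B.repr.injective (Finsupp.ext (by simpa using h')))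
  obtain ⟨φ, hφ⟩ := exists_algHom_apply_ne_zero (K := K) (mul_ne_zero hi hj)
  rw [map_mul, ← key, ← key] at hφ
  obtain ⟨hx, hy⟩ := mul_ne_zero_iff.mp hφ
  let Φ := Algebra.TensorProduct.lift ((Algebra.ofId K S).comp φ) (AlgHom.id K S)
        (fun _ _ => .all _ _)
  have := congrArg Φ hxy
  rw [map_mul, map_zero, mul_eq_zero] at this
  rcases this with h' | h' <;> simp [Φ, h'] at hx hy

end Algebra

section Rectangles

variable {K : Type u} [Field K] {X Z : Scheme.{u}} (fX : X ⟶ KSpec K) (fZ : Z ⟶ KSpec K)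

/-- The constants among the sections on an open set. -/
def secMap (V : X.Opens) : K →+* Γ(X, V) :=
  ((Scheme.ΓSpecIso (CommRingCat.of K)).inv ≫ fX.appLE ⊤ V (le_of_le_of_eq le_top rfl)).hom

/-- Sections on an open set as a `K`-algebra. -/
@[reducible] def secAlgebra (V : X.Opens) : Algebra K Γ(X, V) := (secMap fX V).toAlgebra

/-- The rectangle `V × U`. -/
abbrev prodRect (V : X.Opens) (U : Z.Opens) : (pullback fX fZ).Opens :=
  pullback.fst fX fZ ⁻¹ᵁ V ⊓ pullback.snd fX fZ ⁻¹ᵁ U

theorem isAffineOpen_prodRect {V : X.Opens} (hV : IsAffineOpen V) {U : Z.Opens}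
    (hU : IsAffineOpen U) : IsAffineOpen (prodRect fX fZ V U) := by
  have : IsAffine V.toScheme := hV
  have : IsAffine U.toScheme := hU
  have : IsAffine ((⊤ : (KSpec K).Opens) : Scheme) := isAffineOpen_top (KSpec K)
  exact .of_isIso (Scheme.Hom.isPullback_resLE (IsPullback.of_hasPullback fX fZ)
    (US := ⊤) (UT := U) (UX := V) le_top le_top rfl).isoPullback.hom

/-- Sections on an affine rectangle are the pushout of the sections on the factors. -/
theorem isPushout_prodRect {V : X.Opens} (hV : IsAffineOpen V) {U : Z.Opens} (hU : IsAffineOpen U) :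
    IsPushout (CommRingCat.ofHom (secMap fX V)) (CommRingCat.ofHom (secMap fZ U))
      ((pullback.fst fX fZ).appLE V (prodRect fX fZ V U) inf_le_left)
      ((pullback.snd fX fZ).appLE U (prodRect fX fZ V U) inf_le_right) := by
  have h := (isIso_pushoutSection_iff (IsPullback.of_hasPullback fX fZ)
    (US := ⊤) (UT := U) (UX := V) le_top le_top (rfl : prodRect fX fZ V U = _)).mp
      (isIso_pushoutSection_of_isAffineOpen _ le_top le_top rfl (isAffineOpen_top _) hU hV)
  refine h.of_iso (Scheme.ΓSpecIso (CommRingCat.of K)) (Iso.refl _) (Iso.refl _) (Iso.refl _)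
    ?_ ?_ ?_ ?_ <;> simp [secMap]

theorem secMap_comp (V : X.Opens) (U : Z.Opens) (c : K) :
    (pullback.fst fX fZ).appLE V (prodRect fX fZ V U) inf_le_left (secMap fX V c) =
      (pullback.snd fX fZ).appLE U (prodRect fX fZ V U) inf_le_right (secMap fZ U c) := by
  have h : fX.appLE ⊤ V (le_of_le_of_eq le_top rfl) ≫
      (pullback.fst fX fZ).appLE V (prodRect fX fZ V U) inf_le_left =
      fZ.appLE ⊤ U (le_of_le_of_eq le_top rfl) ≫
        (pullback.snd fX fZ).appLE U (prodRect fX fZ V U) inf_le_right := by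
    simp only [Scheme.Hom.appLE_comp_appLE, pullback.condition]
  exact congr($(h).hom ((Scheme.ΓSpecIso (CommRingCat.of K)).inv c))

/-- The map `Γ(X, V) ⊗ Γ(Z, U) → Γ(X × Z, V × U)`. -/
def prodRectMap (V : X.Opens) (U : Z.Opens) :
    letI := secAlgebra fX V
    letI := secAlgebra fZ U
    Γ(X, V) ⊗[K] Γ(Z, U) →+* Γ(pullback fX fZ, prodRect fX fZ V U) :=
  letI := secAlgebra fX V
  letI := secAlgebra fZ U
  letI : Algebra K Γ(pullback fX fZ, prodRect fX fZ V U) :=
    (((pullback.fst fX fZ).appLE V (prodRect fX fZ V U) inf_le_left).hom.comp (secMap fX V)).toAlgebra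
  (Algebra.TensorProduct.lift
    (⟨((pullback.fst fX fZ).appLE V (prodRect fX fZ V U) inf_le_left).hom, fun _ => rfl⟩ :
      Γ(X, V) →ₐ[K] Γ(pullback fX fZ, prodRect fX fZ V U))
    ⟨((pullback.snd fX fZ).appLE U (prodRect fX fZ V U) inf_le_right).hom,
      fun c => (secMap_comp fX fZ V U c).symm⟩ (fun _ _ => .all _ _)).toRingHom

theorem prodRectMap_tmul (V : X.Opens) (U : Z.Opens) (a : Γ(X, V)) (b : Γ(Z, U)) :
    letI := secAlgebra fX V
    letI := secAlgebra fZ U
    prodRectMap fX fZ V U (a ⊗ₜ[K] b) =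
      (pullback.fst fX fZ).appLE V (prodRect fX fZ V U) inf_le_left a *
        (pullback.snd fX fZ).appLE U (prodRect fX fZ V U) inf_le_right b :=
  rfl

/-- The first factor of a rectangle is the restriction of `fst.app`. -/
theorem prodRectMap_tmul_one (V : X.Opens) (U : Z.Opens) (a : Γ(X, V)) :
    letI := secAlgebra fX V
    letI := secAlgebra fZ U
    prodRectMap fX fZ V U (a ⊗ₜ[K] 1) =
      (pullback fX fZ).presheaf.map (homOfLE inf_le_left).op ((pullback.fst fX fZ).app V a) := by
  rw [prodRectMap_tmul, map_one, mul_one]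
  rfl

/-- The second factor of a rectangle is the restriction of `snd.app`. -/
theorem prodRectMap_one_tmul (V : X.Opens) (U : Z.Opens) (b : Γ(Z, U)) :
    letI := secAlgebra fX V
    letI := secAlgebra fZ U
    prodRectMap fX fZ V U (1 ⊗ₜ[K] b) =
      (pullback fX fZ).presheaf.map (homOfLE inf_le_right).op ((pullback.snd fX fZ).app U b) := by
  rw [prodRectMap_tmul, map_one, one_mul]
  rfl

theorem prodRectMap_bijective {V : X.Opens} (hV : IsAffineOpen V) {U : Z.Opens}
    (hU : IsAffineOpen U) : Function.Bijective (prodRectMap fX fZ V U) := by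
  let := secAlgebra fX V
  let := secAlgebra fZ U
  let e := (CommRingCat.isPushout_tensorProduct K Γ(X, V) Γ(Z, U)).isoIsPushout _ _
    (isPushout_prodRect fX fZ hV hU)
  have he : ∀ t, prodRectMap fX fZ V U t = e.hom t := by
    intro t
    induction t with
    | zero => simp
    | add x y hx hy => simp [hx, hy]
    | tmul a b =>
      rw [prodRectMap_tmul, show a ⊗ₜ[K] b = (a ⊗ₜ 1) * (1 ⊗ₜ b) by simp, map_mul]
      congr 1
      · exact congr($((CommRingCat.isPushout_tensorProduct K Γ(X, V) Γ(Z, U)).inl_isoIsPushout_hom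
          _ _ (isPushout_prodRect fX fZ hV hU)).hom a).symm
      · exact congr($((CommRingCat.isPushout_tensorProduct K Γ(X, V) Γ(Z, U)).inr_isoIsPushout_hom
          _ _ (isPushout_prodRect fX fZ hV hU)).hom b).symm
  rw [show ⇑(prodRectMap fX fZ V U) = e.hom from funext he]
  exact e.commRingCatIsoToRingEquiv.bijective

theorem exists_point_over (x : X) (z : Z) :
    ∃ p : ↑(pullback fX fZ), pullback.fst fX fZ p = x ∧ pullback.snd fX fZ p = z :=
  Scheme.Pullback.exists_preimage_pullback x z (Subsingleton.elim _ _)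

/-- Every point lies on an affine rectangle. -/
theorem exists_prodRect_mem (p : ↑(pullback fX fZ)) :
    ∃ (V : X.Opens) (U : Z.Opens), IsAffineOpen V ∧ IsAffineOpen U ∧ p ∈ prodRect fX fZ V U := by
  obtain ⟨_, ⟨V, hV, rfl⟩, hxV, -⟩ := X.isBasis_affineOpens.exists_subset_of_mem_open
    (Set.mem_univ (pullback.fst fX fZ p)) isOpen_univ
  obtain ⟨_, ⟨U, hU, rfl⟩, hzU, -⟩ := Z.isBasis_affineOpens.exists_subset_of_mem_open
    (Set.mem_univ (pullback.snd fX fZ p)) isOpen_univ
  exact ⟨V, U, hV, hU, hxV, hzU⟩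

/-- Rectangles with nonempty sides in integral schemes meet. -/
theorem prodRect_inter_nonempty [IsIntegral X] [IsIntegral Z] {V V' : X.Opens} {U U' : Z.Opens}
    (hV : (V : Set X).Nonempty) (hV' : (V' : Set X).Nonempty) (hU : (U : Set Z).Nonempty)
    (hU' : (U' : Set Z).Nonempty) :
    ((prodRect fX fZ V U : Set ↑(pullback fX fZ)) ∩ prodRect fX fZ V' U').Nonempty := by
  obtain ⟨x, hx, hx'⟩ := nonempty_preirreducible_inter V.2 V'.2 hV hV'
  obtain ⟨z, hz, hz'⟩ := nonempty_preirreducible_inter U.2 U'.2 hU hU'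
  obtain ⟨p, hp, hp'⟩ := exists_point_over fX fZ x z
  exact ⟨p, ⟨show pullback.fst fX fZ p ∈ V by rwa [hp], show pullback.snd fX fZ p ∈ U by rwa [hp']⟩,
    show pullback.fst fX fZ p ∈ V' by rwa [hp], show pullback.snd fX fZ p ∈ U' by rwa [hp']⟩

variable [IsAlgClosed K] [IsIntegral X] [IsIntegral Z] [LocallyOfFiniteType fX]

omit [IsAlgClosed K] [LocallyOfFiniteType fX] in
/-- The first projection of a product of integral varieties is dominant. -/
theorem fst_genericPoint [IsIntegral (pullback fX fZ)] :
    pullback.fst fX fZ (genericPoint ↑(pullback fX fZ)) = genericPoint X := by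
  refine ((genericPoint_spec ↑(pullback fX fZ)).image (Scheme.Hom.continuous _)).eq ?_
  rw [Set.image_univ, Set.range_eq_univ.mpr fun x =>
    ⟨_, (exists_point_over fX fZ x (genericPoint Z)).choose_spec.1⟩, closure_univ]
  exact genericPoint_spec X

omit [IsAlgClosed K] [LocallyOfFiniteType fX] in
/-- The second projection of a product of integral varieties is dominant. -/
theorem snd_genericPoint [IsIntegral (pullback fX fZ)] :
    pullback.snd fX fZ (genericPoint ↑(pullback fX fZ)) = genericPoint Z := by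
  refine ((genericPoint_spec ↑(pullback fX fZ)).image (Scheme.Hom.continuous _)).eq ?_
  rw [Set.image_univ, Set.range_eq_univ.mpr fun x =>
    ⟨_, (exists_point_over fX fZ (genericPoint X) x).choose_spec.2⟩, closure_univ]
  exact genericPoint_spec Z

/-- Nonempty affine rectangles are integral. -/
theorem isIntegral_prodRect {V : X.Opens} (hV : IsAffineOpen V) {U : Z.Opens} (hU : IsAffineOpen U)
    (hV0 : (V : Set X).Nonempty) (hU0 : (U : Set Z).Nonempty) :
    IsIntegral (prodRect fX fZ V U).toScheme := by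
  let := secAlgebra fX V
  let := secAlgebra fZ U
  have : Nonempty V := hV0.to_subtype
  have : Nonempty U := hU0.to_subtype
  have : Algebra.FiniteType K Γ(X, V) := by
    refine RingHom.FiniteType.comp (fX.finiteType_appLE (isAffineOpen_top _) hV _) ?_
    exact .of_surjective _
      (Scheme.ΓSpecIso (CommRingCat.of K)).symm.commRingCatIsoToRingEquiv.surjective
  have := isDomain_tensorProduct (K := K) (R := Γ(X, V)) (S := Γ(Z, U))
  have hd : IsDomain Γ(pullback fX fZ, prodRect fX fZ V U) :=
    (RingEquiv.ofBijective _ (prodRectMap_bijective fX fZ hV hU)).symm.toMulEquiv.isDomain _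
  exact IsIntegral.of_isIso (isAffineOpen_prodRect fX fZ hV hU).isoSpec.inv

/-- A product of integral varieties is integral. -/
theorem isIntegral_product : IsIntegral (pullback fX fZ) := by
  have hne : Nonempty ↑(pullback fX fZ) :=
    ⟨(exists_point_over fX fZ (genericPoint X) (genericPoint Z)).choose⟩
  choose V U hV hU hp using exists_prodRect_mem fX fZ
  have hint : ∀ p, IsIntegral (prodRect fX fZ (V p) (U p)).toScheme := fun p =>
    isIntegral_prodRect fX fZ (hV p) (hU p) ⟨_, (hp p).1⟩ ⟨_, (hp p).2⟩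
  have hirr : ∀ p, IsPreirreducible (prodRect fX fZ (V p) (U p) : Set ↑(pullback fX fZ)) := fun p => by
    have := (hint p)
    rw [← Scheme.Opens.range_ι, ← Set.image_univ]
    exact (IrreducibleSpace.isIrreducible_univ _).2.image _ (Scheme.Hom.continuous _).continuousOn
  have : IsReduced (pullback fX fZ) := by
    have : ∀ p : ↑(pullback fX fZ), _root_.IsReduced ((pullback fX fZ).presheaf.stalk p) := by
      intro p
      have := hint p
      have : IsReduced (prodRect fX fZ (V p) (U p)).toScheme := inferInstance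
      have := @isReduced_stalk_of_isReduced _ this ⟨p, hp p⟩
      exact isReduced_of_injective _
        ((prodRect fX fZ (V p) (U p)).stalkIso
          ⟨p, hp p⟩).symm.commRingCatIsoToRingEquiv.injective
    exact isReduced_of_isReduced_stalk _
  have : IrreducibleSpace ↑(pullback fX fZ) := by
    refine { toPreirreducibleSpace := ⟨fun A B hA hB ⟨a, _, ha⟩ ⟨b, _, hb⟩ => ?_⟩
             toNonempty := hne }
    obtain ⟨c, hca, hcb⟩ := prodRect_inter_nonempty fX fZ (V := V a) (V' := V b) (U := U a)
      (U' := U b) ⟨_, (hp a).1⟩ ⟨_, (hp b).1⟩ ⟨_, (hp a).2⟩ ⟨_, (hp b).2⟩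
    obtain ⟨d, hd, hdA, hdb⟩ :=
      hirr a A _ hA (prodRect fX fZ (V b) (U b)).2 ⟨a, hp a, ha⟩ ⟨c, hca, hcb⟩
    obtain ⟨e, -, heA, heB⟩ := hirr b A B hA hB ⟨d, hdb, hdA⟩ ⟨b, hp b, hb⟩
    exact ⟨e, trivial, heA, heB⟩
  exact isIntegral_of_irreducibleSpace_of_isReduced _

end Rectangles

/-- Products of integral varieties over an algebraically closed field are integral. -/
theorem productIntegralProperty (K : Type u) [Field K] [IsAlgClosed K] :
    ProductIntegralProperty K :=
  fun _ _ fX fZ _ _ _ _ => isIntegral_product fX fZ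

end Fermat.Agent.AbVar
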