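import Fermat.Agent.AbVar.Interfaces

/-! Symmetric classes on an abelian variety are quadratic, given the seesaw principle, the
theorem of the cube on an open set of the third factor and integrality of products. -/

set_option autoImplicit false

noncomputable section

open CategoryTheory CategoryTheory.Limits AlgebraicGeometry NeronModelInfra GoodReductionJacobian

universe u

namespace Fermat.Agent.AbVar.Quadratic

variable {K : Type u} [Field K] {A : Scheme.{u}} [IsIntegral A] {f : A ⟶ KSpec K}

local instance classCommGroup {S : Scheme.{u}} [IsIntegral S] : CommGroup (CPic S) := inferInstance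

section Algebra

variable (L : RelativeGroupLaw K f) (hL : L.IsCommutative)

/-- The commutative group of points with values in a scheme over the base. -/
abbrev pointCommGroup {T : Scheme.{u}} (t : T ⟶ KSpec K) : CommGroup (SchemeHomOver t f) :=
  { L.pointGroup t with mul_comm := hL t }

/-- A point of the base seen as a constant point with values in `T`. -/
def constPoint {T : Scheme.{u}} (t : T ⟶ KSpec K) (z : SchemeHomOver (𝟙 (KSpec K)) f) :
    SchemeHomOver t f :=
  schemeHomOverComp t (Category.comp_id t) z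

/-- The class pulled back along a point. -/
def ptClass (c : CPic A) {T : Scheme.{u}} [IsIntegral T] {t : T ⟶ KSpec K}
    (x : SchemeHomOver t f) : CPic T :=
  pullPic x.1 c

theorem pullPic_ptClass (c : CPic A) {T T' : Scheme.{u}} [IsIntegral T] [IsIntegral T']
    {t : T ⟶ KSpec K} {t' : T' ⟶ KSpec K} (ψ : T' ⟶ T) (hψ : ψ ≫ t = t')
    (x : SchemeHomOver t f) :
    pullPic ψ (ptClass c x) = ptClass c (schemeHomOverComp ψ hψ x) :=
  (pullPic_comp ψ x.1 c).symm

theorem ptClass_constPoint (c : CPic A) {T : Scheme.{u}} [IsIntegral T] (t : T ⟶ KSpec K)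
    (z : SchemeHomOver (𝟙 (KSpec K)) f) : ptClass c (constPoint t z) = 1 := by
  have : IsIntegral (KSpec K) := inferInstance
  exact pullPic_factor_point t z.1 c

theorem ptClass_one (c : CPic A) {T : Scheme.{u}} [IsIntegral T] (t : T ⟶ KSpec K) :
    ptClass c (L.one t) = 1 := by
  rw [← L.one_natural (𝟙 _) t t (Category.comp_id t)]
  exact ptClass_constPoint c t _

omit [IsIntegral A] in
theorem constPoint_mul {T : Scheme.{u}} (t : T ⟶ KSpec K)
    (z w : SchemeHomOver (𝟙 (KSpec K)) f) :
    constPoint t (L.mul _ z w) = L.mul t (constPoint t z) (constPoint t w) :=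
  L.mul_natural _ _ _ _ _ _

omit [IsIntegral A] in
theorem comp_inv {T T' : Scheme.{u}} {t : T ⟶ KSpec K} {t' : T' ⟶ KSpec K} (ψ : T' ⟶ T)
    (hψ : ψ ≫ t = t') (x : SchemeHomOver t f) :
    schemeHomOverComp ψ hψ (L.inv t x) = L.inv t' (schemeHomOverComp ψ hψ x) := by
  let := L.pointGroup t'
  refine eq_inv_of_mul_eq_one_left (a := schemeHomOverComp ψ hψ (L.inv t x)) ?_
  show L.mul t' _ _ = L.one t'
  rw [← L.mul_natural, L.inv_mul_cancel, L.one_natural]

omit [IsIntegral A] in
theorem constPoint_comp {T T' : Scheme.{u}} {t : T ⟶ KSpec K} {t' : T' ⟶ KSpec K} (ψ : T' ⟶ T)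
    (hψ : ψ ≫ t = t') (z : SchemeHomOver (𝟙 (KSpec K)) f) :
    schemeHomOverComp ψ hψ (constPoint t z) = constPoint t' z := by
  subst hψ
  exact Subtype.ext (Category.assoc _ _ _).symm

/-- The translate of the class by `z` differs from it by a primitive class. -/
def IsGood (c : CPic A) (z : SchemeHomOver (𝟙 (KSpec K)) f) : Prop :=
  ∀ (T : Scheme.{u}) [IsIntegral T] (t : T ⟶ KSpec K) (x y : SchemeHomOver t f),
    ptClass c (L.mul t (L.mul t x y) (constPoint t z)) * (ptClass c x * ptClass c y) =
      ptClass c (L.mul t x y) *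
        (ptClass c (L.mul t x (constPoint t z)) * ptClass c (L.mul t y (constPoint t z)))

variable {L}

include hL in
theorem IsGood.mul {c : CPic A} {z w : SchemeHomOver (𝟙 (KSpec K)) f} (hz : IsGood L c z)
    (hw : IsGood L c w) : IsGood L c (L.mul _ z w) := by
  intro T _ t x y
  let := pointCommGroup L hL t
  have hm : ∀ a b : SchemeHomOver t f, L.mul t a b = a * b := fun _ _ => rfl
  rw [constPoint_mul]
  simp only [hm]
  set Z := constPoint t z with hZ
  set W := constPoint t w with hW
  have h1 := hw T t (x * Z) y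
  have h2 := hz T t x y
  have h3 := hw T t y Z
  simp only [hm, ← hW, ← hZ] at h1 h2 h3
  rw [show ptClass c Z = 1 from ptClass_constPoint c t z,
    show ptClass c (Z * W) = 1 from
      (congrArg (ptClass c) (constPoint_mul L t z w)).symm.trans (ptClass_constPoint c t _)]
    at h3
  rw [mul_one, mul_one] at h3
  rw [mul_right_comm x Z y] at h1
  rw [show x * y * (Z * W) = x * y * Z * W from (mul_assoc _ _ _).symm,
    show x * (Z * W) = x * Z * W from (mul_assoc _ _ _).symm,
    show y * (Z * W) = y * Z * W from (mul_assoc _ _ _).symm]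
  generalize ptClass c (x * y * Z * W) = a at h1 ⊢
  generalize ptClass c (x * y * Z) = b at h1 h2 ⊢
  generalize ptClass c (x * Z * W) = d at h1 ⊢
  generalize ptClass c (y * Z * W) = e at h3 ⊢
  generalize ptClass c (x * Z) = g at h1 h2 ⊢
  generalize ptClass c (y * Z) = k at h2 h3 ⊢
  generalize ptClass c (y * W) = l at h1 h3 ⊢
  generalize ptClass c (x * y) = m at h2 ⊢
  generalize ptClass c x = p at h2 ⊢
  generalize ptClass c y = q at h1 h2 h3 ⊢
  refine mul_right_cancel (b := g * k * l * b) ?_
  calc a * (p * q) * (g * k * l * b) = (b * (p * q)) * ((a * (g * q)) * (k * l) / q) := by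
        apply Additive.ofMul.injective
        simp only [ofMul_mul, ofMul_div]
        abel
    _ = (m * (g * k)) * ((b * (d * l)) * (e * q) / q) := by rw [h1, h2, ← h3]
    _ = m * (d * e) * (g * k * l * b) := by
        apply Additive.ofMul.injective
        simp only [ofMul_mul, ofMul_div]
        abel

theorem ptClass_mul_div {c : CPic A} {z : SchemeHomOver (𝟙 (KSpec K)) f} (hz : IsGood L c z)
    {T : Scheme.{u}} [IsIntegral T] (t : T ⟶ KSpec K) (x : SchemeHomOver t f) :
    ptClass c (L.mul t x (constPoint t z)) *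
      ptClass c (L.mul t x (L.inv t (constPoint t z))) = ptClass c x * ptClass c x := by
  have h := hz T t (L.mul t x (L.inv t (constPoint t z))) (constPoint t z)
  have e : L.mul t (L.mul t x (L.inv t (constPoint t z))) (constPoint t z) = x := by
    rw [L.mul_assoc, L.inv_mul_cancel, L.mul_one]
  rw [e, ptClass_constPoint, ← constPoint_mul, ptClass_constPoint, mul_one, mul_one] at h
  exact h

/-- The parallelogram identity for a class. -/
def IsParallelogram (L : RelativeGroupLaw K f) (c : CPic A) : Prop :=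
  ∀ (T : Scheme.{u}) [IsIntegral T] (t : T ⟶ KSpec K) (x y : SchemeHomOver t f),
    ptClass c (L.mul t x y) * ptClass c (L.mul t x (L.inv t y)) =
      (ptClass c x * ptClass c x) * (ptClass c y * ptClass c (L.inv t y))

theorem pullPic_schemeNsmul {c : CPic A} (hp : IsParallelogram L c)
    (hc : pullPic (L.inv f RelativeGroupLaw.idPoint).1 c = c) (n : ℕ) :
    pullPic (L.schemeNsmul n) c = c ^ (n ^ 2) := by
  have h0 : ptClass c (RelativeGroupLaw.idPoint : SchemeHomOver f f) = c := pullPic_id c
  show ptClass c (L.nsmul f n RelativeGroupLaw.idPoint) = _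
  induction n using Nat.strong_induction_on with
  | _ n ih =>
    match n with
    | 0 => exact (ptClass_one L c f).trans (by simp)
    | 1 => rw [L.nsmul_one_apply, h0]; simp
    | k + 2 =>
      have h := hp A f (L.nsmul f (k + 1) RelativeGroupLaw.idPoint) RelativeGroupLaw.idPoint
      rw [← L.nsmul_succ, ih (k + 1) (by omega)] at h
      have h2 : L.mul f (L.nsmul f (k + 1) RelativeGroupLaw.idPoint)
          (L.inv f RelativeGroupLaw.idPoint) = L.nsmul f k RelativeGroupLaw.idPoint := by
        rw [L.nsmul_succ, L.mul_assoc, L.mul_inv_cancel, L.mul_one]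
      rw [h2, ih k (by omega), h0] at h
      change _ = _ * (c * pullPic (L.inv f RelativeGroupLaw.idPoint).1 c) at h
      rw [hc, ← pow_add, ← pow_two, ← pow_add] at h
      refine mul_right_cancel (b := c ^ k ^ 2) ?_
      rw [h, ← pow_add]
      congr 1
      ring

/-- The alternating combination of the classes of partial sums of three points. -/
def cubeClass (L : RelativeGroupLaw K f) (c : CPic A) {T : Scheme.{u}} [IsIntegral T]
    {t : T ⟶ KSpec K} (x y w : SchemeHomOver t f) : CPic T :=
  ptClass c (L.mul t (L.mul t x y) w) * (ptClass c x * (ptClass c y * ptClass c w)) /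
    (ptClass c (L.mul t x y) * (ptClass c (L.mul t x w) * ptClass c (L.mul t y w)))

theorem pullPic_cubeClass (L : RelativeGroupLaw K f) (c : CPic A) {T T' : Scheme.{u}}
    [IsIntegral T] [IsIntegral T'] {t : T ⟶ KSpec K} {t' : T' ⟶ KSpec K} (ψ : T' ⟶ T)
    (hψ : ψ ≫ t = t') (x y w : SchemeHomOver t f) :
    pullPic ψ (cubeClass L c x y w) = cubeClass L c (schemeHomOverComp ψ hψ x)
      (schemeHomOverComp ψ hψ y) (schemeHomOverComp ψ hψ w) := by
  simp only [cubeClass, map_div, map_mul, pullPic_ptClass c ψ hψ, L.mul_natural t t' ψ hψ]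

theorem cubeClass_one_right (L : RelativeGroupLaw K f) (c : CPic A) {T : Scheme.{u}}
    [IsIntegral T] {t : T ⟶ KSpec K} (x y : SchemeHomOver t f) :
    cubeClass L c x y (L.one t) = 1 := by
  simp [cubeClass, L.mul_one, ptClass_one]

theorem cubeClass_one_left (L : RelativeGroupLaw K f) (c : CPic A) {T : Scheme.{u}}
    [IsIntegral T] {t : T ⟶ KSpec K} (y w : SchemeHomOver t f) :
    cubeClass L c (L.one t) y w = 1 := by
  simp [cubeClass, L.one_mul, ptClass_one, div_eq_one]
  ac_rfl

theorem cubeClass_one_middle (L : RelativeGroupLaw K f) (c : CPic A) {T : Scheme.{u}}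
    [IsIntegral T] {t : T ⟶ KSpec K} (x w : SchemeHomOver t f) :
    cubeClass L c x (L.one t) w = 1 := by
  simp [cubeClass, L.one_mul, L.mul_one, ptClass_one, div_eq_one]
  ac_rfl

end Algebra

section Points

variable [IsAlgClosed K]

omit [IsIntegral A] in
theorem exists_point_mem [LocallyOfFiniteType f] (U : A.Opens) (hU : (U : Set A).Nonempty) :
    ∃ z : SchemeHomOver (𝟙 (KSpec K)) f, z.1 (IsLocalRing.closedPoint K) ∈ U := by
  have : JacobsonSpace A := LocallyOfFiniteType.jacobsonSpace f
  obtain ⟨x, hxU, hx⟩ := nonempty_inter_closedPoints hU U.isOpen.isLocallyClosed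
  exact ⟨⟨pointOfClosedPoint f x hx, pointOfClosedPoint_comp f x hx⟩,
    (pointOfClosedPoint_apply f x hx _).symm ▸ hxU⟩

theorem exists_mul_eq [LocallyOfFiniteType f] (L : RelativeGroupLaw K f) (hL : L.IsCommutative)
    (U : A.Opens) (hU : (U : Set A).Nonempty) (z : SchemeHomOver (𝟙 (KSpec K)) f) :
    ∃ x y : SchemeHomOver (𝟙 (KSpec K)) f, x.1 (IsLocalRing.closedPoint K) ∈ U ∧
      y.1 (IsLocalRing.closedPoint K) ∈ U ∧ L.mul _ x y = z := by
  let := pointCommGroup L hL f
  let := pointCommGroup L hL (𝟙 (KSpec K))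
  let m : SchemeHomOver f f := L.mul f (constPoint f z) (L.inv f RelativeGroupLaw.idPoint)
  have hcomp : schemeHomOverComp m.1 m.2 m = RelativeGroupLaw.idPoint := by
    show schemeHomOverComp m.1 m.2 (L.mul f _ _) = _
    rw [L.mul_natural f f, constPoint_comp, comp_inv L]
    have : schemeHomOverComp m.1 m.2 (RelativeGroupLaw.idPoint : SchemeHomOver f f) = m :=
      Subtype.ext (Category.comp_id _)
    rw [this]
    show constPoint f z * (constPoint f z * (RelativeGroupLaw.idPoint : SchemeHomOver f f)⁻¹)⁻¹ = _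
    simp
  have hmm : m.1 ≫ m.1 = 𝟙 A := congrArg Subtype.val hcomp
  have hV : ((m.1 ⁻¹ᵁ U : A.Opens) : Set A).Nonempty := by
    obtain ⟨a, ha⟩ := hU
    refine ⟨m.1 a, ?_⟩
    show m.1 (m.1 a) ∈ U
    rw [show m.1 (m.1 a) = (m.1 ≫ m.1) a from rfl, hmm]
    exact ha
  obtain ⟨a, ha, ha'⟩ := nonempty_preirreducible_inter U.isOpen (m.1 ⁻¹ᵁ U).isOpen hU hV
  obtain ⟨x, hx, hx'⟩ := exists_point_mem (f := f) (U ⊓ m.1 ⁻¹ᵁ U) ⟨a, ha, ha'⟩
  refine ⟨x, schemeHomOverComp x.1 x.2 m, hx, hx', ?_⟩
  show L.mul _ x (schemeHomOverComp x.1 x.2 (L.mul f _ _)) = z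
  rw [L.mul_natural f (𝟙 _), constPoint_comp, comp_inv L]
  have h1 : constPoint (𝟙 (KSpec K)) z = z := Subtype.ext (Category.id_comp _)
  have h2 : schemeHomOverComp x.1 x.2 (RelativeGroupLaw.idPoint : SchemeHomOver f f) = x :=
    Subtype.ext (Category.comp_id _)
  rw [h1, h2]
  show x * (z * x⁻¹) = z
  simp

theorem forall_isGood [IsProper f] (hP : ProductIntegralProperty K)
    (hC : CubeGenericProperty K) (L : RelativeGroupLaw K f) (hL : L.IsCommutative) (c : CPic A)
    (z : SchemeHomOver (𝟙 (KSpec K)) f) : IsGood L c z := by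
  have : IsIntegral (pullback f f) := hP A A f f
  let g : pullback f f ⟶ KSpec K := pullback.fst f f ≫ f
  have : IsIntegral (pullback g f) := hP _ A g f
  let t : pullback g f ⟶ KSpec K := pullback.fst g f ≫ g
  let p₁ : SchemeHomOver t f := ⟨pullback.fst g f ≫ pullback.fst f f, Category.assoc _ _ _⟩
  let p₂ : SchemeHomOver t f := ⟨pullback.fst g f ≫ pullback.snd f f, by
    rw [Category.assoc, ← pullback.condition]⟩
  let p₃ : SchemeHomOver t f := ⟨pullback.snd g f, pullback.condition.symm⟩
  let e := L.one (𝟙 (KSpec K))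
  have hone : ∀ {T : Scheme.{u}} (s : T ⟶ KSpec K) (x : SchemeHomOver s f),
      x.1 = s ≫ e.1 → x = L.one s := fun s x h =>
    (Subtype.ext h : x = schemeHomOverComp s (Category.comp_id s) e).trans
      (L.one_natural _ _ _ _)
  obtain ⟨U, hU, hU'⟩ := hC A A A f f f (cubeClass L c p₁ p₂ p₃) e e e (by
    rw [pullPic_cubeClass L c (t' := g) (sliceAt g f e)
      (show _ ≫ pullback.fst g f ≫ g = g from sliceAt_over _ _ _)]
    rw [hone g (schemeHomOverComp (sliceAt g f e) (sliceAt_over g f e) p₃)
      (pullback.lift_snd _ _ _), cubeClass_one_right]) (by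
    rw [pullPic_cubeClass L c (t' := pullback.fst f f ≫ f) _ (by
      show _ ≫ pullback.fst g f ≫ g = _
      rw [pullback.lift_fst_assoc, Category.assoc, sliceFrom_over])]
    rw [hone _ (schemeHomOverComp _ _ p₁) (by
      show pullback.map _ _ _ _ _ _ _ _ _ ≫ pullback.fst g f ≫ pullback.fst f f = _
      rw [pullback.lift_fst_assoc, Category.assoc, sliceFrom, pullback.lift_fst,
        Category.assoc]), cubeClass_one_left]) (by
    rw [pullPic_cubeClass L c (t' := pullback.fst f f ≫ f) _ (by
      show _ ≫ pullback.fst g f ≫ g = _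
      rw [pullback.lift_fst_assoc, Category.assoc, sliceAt_over])]
    rw [hone _ (schemeHomOverComp _ _ p₂) (by
      show pullback.map _ _ _ _ _ _ _ _ _ ≫ pullback.fst g f ≫ pullback.snd f f = _
      rw [pullback.lift_fst_assoc, Category.assoc, sliceAt, pullback.lift_snd,
        Category.assoc]), cubeClass_one_middle])
  have key : ∀ x : SchemeHomOver (𝟙 (KSpec K)) f,
      x.1 (IsLocalRing.closedPoint K) ∈ U → IsGood L c x := by
    intro x hx T _ s a b
    let ψ : T ⟶ pullback f f := pullback.lift a.1 b.1 (a.2.trans b.2.symm)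
    have hψ : (ψ ≫ sliceAt g f x) ≫ t = s := by
      rw [Category.assoc, show sliceAt g f x ≫ t = g from sliceAt_over _ _ _]
      show ψ ≫ pullback.fst f f ≫ f = s
      rw [pullback.lift_fst_assoc]
      exact a.2
    have h1 : pullPic (ψ ≫ sliceAt g f x) (cubeClass L c p₁ p₂ p₃) = 1 := by
      rw [pullPic_comp, hU' x hx, map_one]
    rw [pullPic_cubeClass L c _ hψ] at h1
    have e1 : schemeHomOverComp _ hψ p₁ = a := Subtype.ext (by
      show (ψ ≫ sliceAt g f x) ≫ pullback.fst g f ≫ pullback.fst f f = a.1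
      rw [Category.assoc, sliceAt, pullback.lift_fst_assoc, Category.id_comp, pullback.lift_fst])
    have e2 : schemeHomOverComp _ hψ p₂ = b := Subtype.ext (by
      show (ψ ≫ sliceAt g f x) ≫ pullback.fst g f ≫ pullback.snd f f = b.1
      rw [Category.assoc, sliceAt, pullback.lift_fst_assoc, Category.id_comp, pullback.lift_snd])
    have e3 : schemeHomOverComp _ hψ p₃ = constPoint s x := Subtype.ext (by
      show (ψ ≫ sliceAt g f x) ≫ pullback.snd g f = s ≫ x.1
      rw [Category.assoc, sliceAt, pullback.lift_snd, ← Category.assoc]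
      congr 1
      show ψ ≫ pullback.fst f f ≫ f = s
      rw [pullback.lift_fst_assoc]
      exact a.2)
    rw [e1, e2, e3, cubeClass, div_eq_one, ptClass_constPoint, mul_one] at h1
    exact h1
  obtain ⟨x, y, hx, hy, rfl⟩ := exists_mul_eq L hL U hU z
  exact (key x hx).mul hL (key y hy)

theorem isParallelogram [IsProper f] (hP : ProductIntegralProperty K) (hS : SeesawProperty K)
    (hC : CubeGenericProperty K) (L : RelativeGroupLaw K f) (hL : L.IsCommutative) (c : CPic A) :
    IsParallelogram L c := by
  have : IsIntegral (pullback f f) := hP A A f f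
  let g : pullback f f ⟶ KSpec K := pullback.fst f f ≫ f
  let p₁ : SchemeHomOver g f := ⟨pullback.fst f f, rfl⟩
  let p₂ : SchemeHomOver g f := ⟨pullback.snd f f, pullback.condition.symm⟩
  let Φ : CPic (pullback f f) :=
    ptClass c (L.mul g p₁ p₂) * ptClass c (L.mul g p₁ (L.inv g p₂)) /
      ((ptClass c p₁ * ptClass c p₁) * (ptClass c p₂ * ptClass c (L.inv g p₂)))
  have hΦ : ∀ (T : Scheme.{u}) [IsIntegral T] (t : T ⟶ KSpec K) (ψ : T ⟶ pullback f f)
      (hψ : ψ ≫ g = t), pullPic ψ Φ =
        ptClass c (L.mul t (schemeHomOverComp ψ hψ p₁) (schemeHomOverComp ψ hψ p₂)) *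
          ptClass c (L.mul t (schemeHomOverComp ψ hψ p₁)
            (L.inv t (schemeHomOverComp ψ hψ p₂))) /
        ((ptClass c (schemeHomOverComp ψ hψ p₁) * ptClass c (schemeHomOverComp ψ hψ p₁)) *
          (ptClass c (schemeHomOverComp ψ hψ p₂) *
            ptClass c (L.inv t (schemeHomOverComp ψ hψ p₂)))) := fun T _ t ψ hψ => by
    simp only [Φ, map_div, map_mul, pullPic_ptClass c ψ hψ, L.mul_natural g t ψ hψ,
      comp_inv L ψ hψ]
  let e := L.one (𝟙 (KSpec K))
  have h1 : Φ = 1 := by
    refine hS A A f f Φ e (fun z => ?_) ?_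
    · rw [hΦ A f _ (sliceAt_over _ _ _)]
      rw [show schemeHomOverComp (sliceAt f f z) (sliceAt_over f f z) p₁ =
            (RelativeGroupLaw.idPoint : SchemeHomOver f f) from
          Subtype.ext (pullback.lift_fst _ _ _),
        show schemeHomOverComp (sliceAt f f z) (sliceAt_over f f z) p₂ = constPoint f z from
          Subtype.ext (pullback.lift_snd _ _ _),
        ptClass_mul_div (forall_isGood hP hC L hL c z), ptClass_constPoint,
        show ptClass c (L.inv f (constPoint f z)) = 1 by
          rw [show L.inv f (constPoint f z) = constPoint f (L.inv _ z) from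
            (comp_inv L _ _ _).symm]
          exact ptClass_constPoint c f _]
      simp
    · rw [hΦ A f _ (sliceFrom_over _ _ _)]
      rw [show schemeHomOverComp (sliceFrom f f e) (sliceFrom_over f f e) p₁ = L.one f from
          (Subtype.ext (pullback.lift_fst _ _ _) :
            schemeHomOverComp _ _ p₁ = schemeHomOverComp f (Category.comp_id f) e).trans
            (L.one_natural _ _ _ _),
        show schemeHomOverComp (sliceFrom f f e) (sliceFrom_over f f e) p₂ =
            (RelativeGroupLaw.idPoint : SchemeHomOver f f) from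
          Subtype.ext (pullback.lift_snd _ _ _),
        L.one_mul, L.one_mul, ptClass_one]
      simp
  intro T _ t x y
  let ψ : T ⟶ pullback f f := pullback.lift x.1 y.1 (x.2.trans y.2.symm)
  have hψ : ψ ≫ g = t := by
    show ψ ≫ pullback.fst f f ≫ f = t
    rw [pullback.lift_fst_assoc]
    exact x.2
  have h := hΦ T t ψ hψ
  rw [h1, map_one, show schemeHomOverComp ψ hψ p₁ = x from
      Subtype.ext (pullback.lift_fst _ _ _),
    show schemeHomOverComp ψ hψ p₂ = y from Subtype.ext (pullback.lift_snd _ _ _)] at h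
  exact div_eq_one.mp h.symm

end Points

end Fermat.Agent.AbVar.Quadratic

namespace Fermat.Agent.AbVar

variable {K : Type u} [Field K]

/-- Seesaw and cube imply that symmetric classes are quadratic. -/
theorem quadraticProperty [IsAlgClosed K] (hP : ProductIntegralProperty K)
    (hS : SeesawProperty K) (hC : CubeGenericProperty K) : QuadraticProperty K := by
  intro A _ _ L hL hA c hc n
  have := hA.proper
  exact Quadratic.pullPic_schemeNsmul (Quadratic.isParallelogram hP hS hC L hL c) hc n

end Fermat.Agent.AbVar
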