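import Fermat.Agent.AbVar.SandwichTools

/-! The two inequalities between Riemann-Roch spaces of a divisor and of its pullback along a
finite separable morphism of degree `d`. -/

set_option autoImplicit false

noncomputable section

open CategoryTheory AlgebraicGeometry TopologicalSpace

universe u

namespace Fermat.Agent.AbVar

variable {K : Type u} [Field K] {S T : Scheme.{u}} [IsIntegral S] [IsIntegral T]
  [S.Over (Spec (CommRingCat.of K))] [T.Over (Spec (CommRingCat.of K))] {φ : T ⟶ S}

theorem pullHom_algebraMap (hover : φ ≫ (S ↘ Spec (CommRingCat.of K)) = T ↘ Spec (CommRingCat.of K))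
    (hφ : φ (genericPoint T) = genericPoint S) (c : K) :
    pullHom φ hφ (algebraMap K S.functionField c) = algebraMap K T.functionField c :=
  pullFun_baseMap φ _ _ hover c

section Inequalities

variable (hover : φ ≫ (S ↘ Spec (CommRingCat.of K)) = T ↘ Spec (CommRingCat.of K))
  (hφ : φ (genericPoint T) = genericPoint S) (D : CDiv S) {ι : Type u} [Fintype ι]
  (b' : Module.Basis ι (pullHom φ hφ).fieldRange T.functionField) (k : ℕ)
  (hb' : ∀ j p, b' j * (((pullDom φ hφ D).1 p : (T.functionField)ˣ) : T.functionField) ^ k ∈ Reg p)

include hover hb'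

theorem finrank_mul_le (m : ℕ) [FiniteDimensional K (Lspace K ((pullDom φ hφ D).1 ^ (m + k)))]
    [FiniteDimensional K (Lspace K (D.1 ^ m))] :
    Fintype.card ι * Module.finrank K (Lspace K (D.1 ^ m)) ≤
      Module.finrank K (Lspace K ((pullDom φ hφ D).1 ^ (m + k))) := by
  let G : (ι → Lspace K (D.1 ^ m)) →ₗ[K] Lspace K ((pullDom φ hφ D).1 ^ (m + k)) :=
    { toFun := fun f => ⟨∑ j, pullHom φ hφ (f j).1 * b' j, fun p => by
        rw [Finset.sum_mul]
        refine sum_mem fun j _ => ?_
        have h1 : pullHom φ hφ (f j).1 *
            (((pullDom φ hφ D).1 p : (T.functionField)ˣ) : T.functionField) ^ m ∈ Reg p := by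
          have h := (f j).2 (φ p)
          rw [Pi.pow_apply, Units.val_pow_eq_pow_val] at h
          have e : (((pullDom φ hφ D).1 p : (T.functionField)ˣ) : T.functionField) =
              pullHom φ hφ (D.1 (φ p) : S.functionField) := rfl
          rw [e, ← map_pow, ← map_mul, pullHom_apply]
          exact pullFun_mem_Reg φ p h
        convert mul_mem h1 (hb' j p) using 1
        rw [Pi.pow_apply, Units.val_pow_eq_pow_val, pow_add]
        ring⟩
      map_add' := fun f f' => by
        refine Subtype.ext ?_
        simp only [Pi.add_apply, Submodule.coe_add, map_add, add_mul, Finset.sum_add_distrib]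
      map_smul' := fun c f => by
        refine Subtype.ext ?_
        simp only [Pi.smul_apply, Submodule.coe_smul, RingHom.id_apply, Finset.mul_sum,
          Algebra.smul_def, map_mul, pullHom_algebraMap hover hφ, mul_assoc] }
  have hG : Function.Injective G := by
    intro f f' h
    have h' := congrArg Subtype.val h
    refine funext fun j => Subtype.ext ((pullHom φ hφ).injective ?_)
    have hsum : ∀ e : ι → Lspace K (D.1 ^ m), ((G e : _) : T.functionField) =
        ∑ i, (pullHom φ hφ).rangeRestrictField (e i).1 • b' i := fun _ => rfl
    rw [hsum, hsum] at h'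
    have := congrArg (fun z => b'.repr z j) h'
    simp only [b'.repr_sum_self] at this
    exact congrArg Subtype.val this
  have := LinearMap.finrank_le_finrank_of_injective hG
  rwa [Module.finrank_pi_fintype, Finset.sum_const, Finset.card_univ, smul_eq_mul] at this

theorem finrank_le_mul [IsFinite φ] [FiniteDimensional (pullHom φ hφ).fieldRange T.functionField]
    [Algebra.IsSeparable (pullHom φ hφ).fieldRange T.functionField]
    (hS : ∀ y : S, IsIntegrallyClosed (S.presheaf.stalk y)) (m : ℕ)
    [FiniteDimensional K (Lspace K (D.1 ^ (m + k)))] :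
    Module.finrank K (Lspace K ((pullDom φ hφ D).1 ^ m)) ≤
      Fintype.card ι * Module.finrank K (Lspace K (D.1 ^ (m + k))) := by
  let P := pullHom φ hφ
  let e : S.functionField ≃+* P.fieldRange :=
    RingEquiv.ofBijective P.rangeRestrictField P.rangeRestrictField_bijective
  have he : ∀ a, ((e a : P.fieldRange) : T.functionField) = P a := fun _ => rfl
  let tr := Algebra.trace P.fieldRange T.functionField
  have key : ∀ f ∈ Lspace K ((pullDom φ hφ D).1 ^ m), ∀ j,
      e.symm (tr (f * b' j)) ∈ Lspace K (D.1 ^ (m + k)) := by
    intro f hf j y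
    obtain ⟨U, hyU, hU⟩ := D.2 y
    obtain ⟨W, hW, hyW, hWU⟩ := exists_isAffineOpen_mem_and_subset hyU
    set c : S.functionField := (D.1 y : S.functionField) ^ (m + k)
    have hz : ∀ p, φ p ∈ W → f * b' j * P c ∈ Reg p := by
      intro p hp
      have hv := (hU (φ p) (hWU hp)).2
      rw [inv_div] at hv
      have h1 := mul_mem (mul_mem (hf p) (hb' j p))
        (pow_mem (pullFun_mem_Reg φ p hv) (m + k))
      convert h1 using 1
      rw [Pi.pow_apply, Units.val_pow_eq_pow_val, Units.val_div_eq_div_val]
      rw [show pullFun φ ((D.1 y : S.functionField) / (D.1 (φ p) : S.functionField)) =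
        P ((D.1 y : S.functionField) / (D.1 (φ p) : S.functionField)) from rfl]
      rw [show (((pullDom φ hφ D).1 p : (T.functionField)ˣ) : T.functionField) =
        P (D.1 (φ p) : S.functionField) from rfl]
      have hne : P (D.1 (φ p) : S.functionField) ≠ 0 := (map_ne_zero P).mpr (Units.ne_zero _)
      simp only [c, map_pow, map_div₀, div_pow]
      rw [pow_add _ m k, pow_add _ m k]
      field_simp
    obtain ⟨a, ha, ha'⟩ := trace_mem_Reg φ hφ hS hW hyW hz
    have e1 : tr (f * b' j * P c) = e c * tr (f * b' j) := by
      have hs : f * b' j * P c = e c • (f * b' j) := by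
        rw [Algebra.smul_def, mul_comm]
        rfl
      rw [hs, map_smul, smul_eq_mul]
    have e2 : e.symm (tr (f * b' j)) * c = a := by
      apply P.injective
      rw [map_mul, ← he, e.apply_symm_apply, ← ha']
      show _ = ((tr (f * b' j * P c) : P.fieldRange) : T.functionField)
      rw [e1, mul_comm]
      rfl
    rw [Pi.pow_apply, Units.val_pow_eq_pow_val, e2]
    exact ha
  have hsmul : ∀ (c : K) (v : P.fieldRange),
      e.symm (e (algebraMap K S.functionField c) * v) = c • e.symm v := fun c v => by
    rw [map_mul, e.symm_apply_apply, Algebra.smul_def]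
  let G : Lspace K ((pullDom φ hφ D).1 ^ m) →ₗ[K] (ι → Lspace K (D.1 ^ (m + k))) :=
    { toFun := fun f j => ⟨_, key f.1 f.2 j⟩
      map_add' := fun f f' => by
        refine funext fun j => Subtype.ext ?_
        simp only [Pi.add_apply, Submodule.coe_add, add_mul, map_add]
      map_smul' := fun c f => by
        refine funext fun j => Subtype.ext ?_
        show e.symm (tr ((c • f.1) * b' j)) = c • e.symm (tr (f.1 * b' j))
        rw [← hsmul]
        congr 1
        rw [← smul_eq_mul (e _), ← map_smul, Algebra.smul_def, Algebra.smul_def, mul_assoc]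
        congr 2
        exact (pullHom_algebraMap hover hφ c).symm }
  have hG : Function.Injective G := by
    rw [injective_iff_map_eq_zero]
    intro f hf
    refine Subtype.ext ((traceForm_nondegenerate P.fieldRange T.functionField).1 f.1 fun z => ?_)
    have hzero : ∀ j, tr (f.1 * b' j) = 0 := fun j => by
      have h := congrArg (fun F => ((F j : _) : S.functionField)) hf
      exact e.symm.injective (h.trans (map_zero e.symm).symm)
    have : (Algebra.traceForm P.fieldRange T.functionField) f.1 = 0 :=
      b'.ext fun j => by simpa [Algebra.traceForm_apply] using hzero j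
    rw [this]
    rfl
  have := LinearMap.finrank_le_finrank_of_injective hG
  rwa [Module.finrank_pi_fintype, Finset.sum_const, Finset.card_univ, smul_eq_mul] at this

end Inequalities

end Fermat.Agent.AbVar
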