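import Mathlib

/-! A function of polynomial growth `g` sandwiched under scaling by `N` forces the factor `N ^ g`. -/

set_option autoImplicit false

namespace Fermat.Agent.AbVar

open Filter Topology

theorem le_of_pow_le_mul_poly {a b C k g : ℕ} (hb : 0 < b)
    (h : ∀ i : ℕ, a ^ i ≤ b ^ i * (C * (k * (i + 1) + 1) ^ g)) : a ≤ b := by
  by_contra hab
  push Not at hab
  have hb' : (0 : ℝ) < b := by exact_mod_cast hb
  set r : ℝ := (a : ℝ) / b
  have hr : 1 < r := (one_lt_div hb').mpr (by exact_mod_cast hab)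
  have hlim := tendsto_pow_const_div_const_pow_of_one_lt g hr
  set B : ℝ := (C : ℝ) * (2 * k + 1) ^ g
  have hlim' := hlim.const_mul B
  rw [mul_zero] at hlim'
  obtain ⟨i, hi, hi1⟩ := ((hlim'.eventually_lt_const zero_lt_one).and
    (eventually_ge_atTop 1)).exists
  have hri : 0 < r ^ i := pow_pos (zero_lt_one.trans hr) _
  have h1 : r ^ i ≤ B * (i : ℝ) ^ g := by
    rw [div_pow, div_le_iff₀ (pow_pos hb' _)]
    have hbase : k * (i + 1) + 1 ≤ (2 * k + 1) * i := by nlinarith
    calc (a : ℝ) ^ i ≤ (b : ℝ) ^ i * (C * (k * (i + 1) + 1 : ℕ) ^ g) := by exact_mod_cast h i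
      _ ≤ (b : ℝ) ^ i * (C * (((2 * k + 1) * i : ℕ) : ℝ) ^ g) := by
          gcongr
      _ = B * (i : ℝ) ^ g * (b : ℝ) ^ i := by
          simp only [B]; push_cast; rw [mul_pow]; ring
  rw [← mul_div_assoc, div_lt_one hri] at hi
  exact absurd h1 (not_le.mpr hi)

theorem eq_pow_of_sandwich (s : ℕ → ℕ) (d N g C k : ℕ) (hN : 1 ≤ N) (hmono : Monotone s)
    (hup : ∀ m, s m ≤ C * (m + 1) ^ g) (hlow : ∀ M, (M + 1) ^ g ≤ s (g * M))
    (hA : ∀ m, d * s m ≤ s (N * (m + k))) (hB : ∀ m, s (N * m) ≤ d * s (m + k)) :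
    d = N ^ g := by
  have hd : 0 < d := by
    rcases Nat.eq_zero_or_pos d with rfl | hd
    · have h0 := hB (g * 0)
      have h1 := hlow 0
      simp at h0 h1
      omega
    · exact hd
  have hs0 : 1 ≤ s 0 := by simpa using hlow 0
  refine le_antisymm (le_of_pow_le_mul_poly (C := C) (k := k) (g := g) (pow_pos hN g) fun i => ?_)
    (le_of_pow_le_mul_poly (C := C) (k := g + k) (g := g) hd fun i => ?_)
  · have key : ∀ i : ℕ, d ^ i * s 0 ≤ s (N ^ i * (i * k)) := by
      intro i
      induction i with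
      | zero => simp
      | succ i ih =>
        calc d ^ (i + 1) * s 0 = d * (d ^ i * s 0) := by ring
          _ ≤ d * s (N ^ i * (i * k)) := Nat.mul_le_mul_left _ ih
          _ ≤ s (N * (N ^ i * (i * k) + k)) := hA _
          _ ≤ _ := hmono <| by
              have : k ≤ N ^ i * k := Nat.le_mul_of_pos_left _ (pow_pos hN _)
              calc N * (N ^ i * (i * k) + k) ≤ N * (N ^ i * (i * k) + N ^ i * k) := by gcongr
                _ = N ^ (i + 1) * ((i + 1) * k) := by ring
    calc d ^ i ≤ d ^ i * s 0 := Nat.le_mul_of_pos_right _ hs0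
      _ ≤ C * (N ^ i * (i * k) + 1) ^ g := (key i).trans (hup _)
      _ ≤ C * (N ^ i * (k * (i + 1) + 1)) ^ g := by
          gcongr
          have : 1 ≤ N ^ i := Nat.one_le_pow _ _ hN
          nlinarith
      _ = _ := by rw [mul_pow, ← pow_mul, ← pow_mul, mul_comm i g]; ring
  · have key : ∀ i m : ℕ, s (N ^ i * m) ≤ d ^ i * s (m + i * k) := by
      intro i
      induction i with
      | zero => simp
      | succ i ih =>
        intro m
        calc s (N ^ (i + 1) * m) = s (N * (N ^ i * m)) := by ring_nf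
          _ ≤ d * s (N ^ i * m + k) := hB _
          _ ≤ d * s (N ^ i * (m + k)) := by
              gcongr
              apply hmono
              have : k ≤ N ^ i * k := Nat.le_mul_of_pos_left _ (pow_pos hN _)
              rw [mul_add]
              omega
          _ ≤ d * (d ^ i * s (m + k + i * k)) := Nat.mul_le_mul_left _ (ih _)
          _ = _ := by ring_nf
    calc (N ^ g) ^ i = (N ^ i) ^ g := by rw [← pow_mul, ← pow_mul, mul_comm]
      _ ≤ (N ^ i + 1) ^ g := Nat.pow_le_pow_left (Nat.le_succ _) _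
      _ ≤ s (g * N ^ i) := hlow _
      _ ≤ d ^ i * s (g + i * k) := by rw [mul_comm g]; exact key i g
      _ ≤ _ := by
          gcongr
          refine (hup _).trans ?_
          gcongr
          nlinarith

end Fermat.Agent.AbVar
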