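import Fermat.Agent.AbVar.Interfaces
import Fermat.Agent.AbVar.SandwichBounds
import Fermat.Agent.AbVar.SandwichCount

/-! The count of `n`-torsion points from the four structural properties of abelian varieties. -/

set_option autoImplicit false

noncomputable section

open CategoryTheory AlgebraicGeometry TopologicalSpace NeronModelInfra GoodReductionJacobian

universe u

namespace Fermat.Agent.AbVar

variable {K : Type u} [Field K]

theorem inv_inv_idPoint {A : Scheme.{u}} {f : A ⟶ KSpec K} (L : RelativeGroupLaw K f) :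
    (L.inv f RelativeGroupLaw.idPoint).1 ≫ (L.inv f RelativeGroupLaw.idPoint).1 = 𝟙 A := by
  let _ := L.pointGroup f
  set i : SchemeHomOver f f := L.inv f RelativeGroupLaw.idPoint
  have h1 := L.mul_natural f f i.1 i.2 i RelativeGroupLaw.idPoint
  rw [L.inv_mul_cancel, L.one_natural] at h1
  have h2 : schemeHomOverComp i.1 i.2 (RelativeGroupLaw.idPoint : SchemeHomOver f f) = i :=
    Subtype.ext (Category.comp_id _)
  rw [h2] at h1
  have h3 : schemeHomOverComp i.1 i.2 i = i⁻¹ := eq_inv_of_mul_eq_one_left h1.symm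
  have h4 : i⁻¹ = (RelativeGroupLaw.idPoint : SchemeHomOver f f) :=
    inv_inv (RelativeGroupLaw.idPoint : SchemeHomOver f f)
  exact congrArg Subtype.val (h3.trans h4)

theorem pow_mul_mem_Reg {S : Scheme.{u}} [IsIntegral S] {x : S} {a t : S.functionField}
    (ha : a * t ∈ Reg x) (ht : t ∈ Reg x) {e M : ℕ} (he : e ≤ M) : a ^ e * t ^ M ∈ Reg x := by
  obtain ⟨j, rfl⟩ := Nat.exists_eq_add_of_le he
  rw [pow_add, ← mul_assoc, ← mul_pow]
  exact mul_mem (pow_mem ha _) (pow_mem ht _)

section LowerBound

variable {S : Scheme.{u}} [IsIntegral S] [S.Over (KSpec K)] {g : ℕ} {x : Fin g → S.functionField}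
  (D : CDiv S)

theorem monomial_mem_Lspace (hD : ∀ p, (D.1 p : S.functionField) ∈ Reg p)
    (hxD : ∀ i p, x i * (D.1 p : S.functionField) ∈ Reg p) {M : ℕ}
    (a : Fin g → Fin (M + 1)) : (∏ i, x i ^ (a i).val) ∈ Lspace K (D.1 ^ (g * M)) := by
  intro p
  have h : ∀ i, x i ^ (a i).val * (D.1 p : S.functionField) ^ M ∈ Reg p := fun i =>
    pow_mul_mem_Reg (hxD i p) (hD p) (Nat.lt_succ_iff.mp (a i).isLt)
  have e : (∏ i, x i ^ (a i).val) * (((D.1 ^ (g * M)) p : (S.functionField)ˣ) : S.functionField) =
      ∏ i, x i ^ (a i).val * (D.1 p : S.functionField) ^ M := by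
    rw [Finset.prod_mul_distrib, Finset.prod_const, Finset.card_univ, Fintype.card_fin,
      Pi.pow_apply, Units.val_pow_eq_pow_val, ← pow_mul, mul_comm M g]
  rw [e]
  exact prod_mem fun i _ => h i

theorem card_le_finrank_Lspace (hx : AlgebraicIndependent K x)
    (hD : ∀ p, (D.1 p : S.functionField) ∈ Reg p)
    (hxD : ∀ i p, x i * (D.1 p : S.functionField) ∈ Reg p) (M : ℕ)
    [FiniteDimensional K (Lspace K (D.1 ^ (g * M)))] :
    (M + 1) ^ g ≤ Module.finrank K (Lspace K (D.1 ^ (g * M))) := by
  let E : (Fin g → Fin (M + 1)) → (Fin g →₀ ℕ) := fun a =>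
    Finsupp.equivFunOnFinite.symm fun i => (a i).val
  have hE : Function.Injective E := fun a b h => funext fun i => Fin.ext (by
    simpa [E] using DFunLike.congr_fun h i)
  have hmap := ((MvPolynomial.basisMonomials (Fin g) K).linearIndependent.comp E hE).map'
    (MvPolynomial.aeval (R := K) x).toLinearMap (LinearMap.ker_eq_bot.mpr hx)
  have hval : ((MvPolynomial.aeval (R := K) x).toLinearMap ∘
      (⇑(MvPolynomial.basisMonomials (Fin g) K) ∘ E)) =
      fun a : Fin g → Fin (M + 1) => ∏ i, x i ^ (a i).val := by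
    refine funext fun a => ?_
    simp [E, MvPolynomial.aeval_monomial, Finsupp.prod_fintype]
  rw [hval] at hmap
  have hv : LinearIndependent K fun a : Fin g → Fin (M + 1) =>
      (⟨_, monomial_mem_Lspace (K := K) D hD hxD a⟩ : Lspace K (D.1 ^ (g * M))) :=
    LinearIndependent.of_comp (Lspace K (D.1 ^ (g * M))).subtype hmap
  simpa using hv.fintype_card_le_finrank

theorem Lspace_mono (hD : ∀ p, (D.1 p : S.functionField) ∈ Reg p) {m m' : ℕ} (h : m ≤ m') :
    Lspace K (D.1 ^ m) ≤ Lspace K (D.1 ^ m') := by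
  intro a ha p
  obtain ⟨j, rfl⟩ := Nat.exists_eq_add_of_le h
  have := mul_mem (ha p) (pow_mem (hD p) j)
  rw [Pi.pow_apply, Units.val_pow_eq_pow_val] at this ⊢
  rwa [pow_add, ← mul_assoc]

end LowerBound

theorem degree_eq_pow {A : Scheme.{u}} [IsIntegral A] [A.Over (KSpec K)] [CompactSpace A]
    [IsProper (A ↘ KSpec K)] (h2 : GrowthProperty K)
    (hN : ∀ x : A, IsIntegrallyClosed (A.presheaf.stalk x)) {g : ℕ} (x : Fin g → A.functionField)
    (hx : AlgebraicIndependent K x)
    (hfin : FiniteDimensional (IntermediateField.adjoin K (Set.range x)) A.functionField)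
    (hsep : Algebra.IsSeparable (IntermediateField.adjoin K (Set.range x)) A.functionField)
    (φ : A ⟶ A) [IsFinite φ] (hφ : φ (genericPoint A) = genericPoint A)
    (hover : φ ≫ (A ↘ KSpec K) = A ↘ KSpec K)
    [FiniteDimensional (pullHom φ hφ).fieldRange A.functionField]
    [Algebra.IsSeparable (pullHom φ hφ).fieldRange A.functionField]
    (D : CDiv A) (hD : ∀ p, (D.1 p : A.functionField) ∈ Reg p)
    (hxD : ∀ i p, x i * (D.1 p : A.functionField) ∈ Reg p)
    (N : ℕ) (hN1 : 1 ≤ N) (hquad : pullPic φ (cls D) = cls D ^ N) :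
    Module.finrank (pullHom φ hφ).fieldRange A.functionField = N ^ g := by
  obtain ⟨e, hefin, he⟩ := exists_finiteRange_rep D
  obtain ⟨C, hC⟩ := h2 A g x hx hfin hsep e hefin
  have hfd : ∀ m, FiniteDimensional K (Lspace K (D.1 ^ m)) := fun m => by
    obtain ⟨i⟩ := Lspace_congr (K := K) 1 he m
    have := (hC m).1
    exact i.symm.finiteDimensional
  have hup : ∀ m, Module.finrank K (Lspace K (D.1 ^ m)) ≤ C * (m + 1) ^ g := fun m => by
    obtain ⟨i⟩ := Lspace_congr (K := K) 1 he m
    rw [i.finrank_eq]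
    exact (hC m).2
  rw [← cls_pullDom φ hφ, ← map_pow, cls_eq_cls] at hquad
  obtain ⟨c, hc⟩ := hquad
  have hiso : ∀ m, Nonempty
      (Lspace K ((pullDom φ hφ D).1 ^ m) ≃ₗ[K] Lspace K (D.1 ^ (N * m))) := fun m => by
    rw [pow_mul]
    exact Lspace_congr c hc m
  have hfd' : ∀ m, FiniteDimensional K (Lspace K ((pullDom φ hφ D).1 ^ m)) := fun m => by
    obtain ⟨i⟩ := hiso m
    have := hfd (N * m)
    exact i.symm.finiteDimensional
  let b := Module.finBasis (pullHom φ hφ).fieldRange A.functionField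
  let t : A → A.functionField := fun p => pullHom φ hφ (D.1 (φ p) : A.functionField)
  have hmult := fun j => exists_integral_multiple_bound φ hφ x hfin inferInstance hN t
    (fun p => pullFun_mem_Reg φ p (hD _))
    (fun i p => by
      show pullHom φ hφ (x i) * pullHom φ hφ _ ∈ _
      rw [← map_mul]
      exact pullFun_mem_Reg φ p (hxD i _)) (b j)
  choose r hr k hk using hmult
  let w : _ → ((pullHom φ hφ).fieldRange)ˣ := fun j =>
    Units.mk0 ((pullHom φ hφ).rangeRestrictField (r j))
      ((map_ne_zero (pullHom φ hφ).rangeRestrictField).mpr (hr j))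
  let b' := (b.unitsSMul w).reindex Equiv.ulift.{u}.symm
  let k₀ := Finset.univ.sup k
  have hb' : ∀ j p, b' j * (((pullDom φ hφ D).1 p : (A.functionField)ˣ) : A.functionField) ^ k₀ ∈
      Reg p := by
    intro j p
    have h := hk j.down k₀ (Finset.le_sup (Finset.mem_univ j.down)) p
    convert h using 1
    rw [Module.Basis.reindex_apply, Module.Basis.unitsSMul_apply]
    show (pullHom φ hφ (r j.down) * b j.down) * t p ^ k₀ = _
    rw [mul_comm (pullHom φ hφ (r j.down))]
  have hcard : Fintype.card (ULift.{u} (Fin (Module.finrank (pullHom φ hφ).fieldRange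
      A.functionField))) = Module.finrank (pullHom φ hφ).fieldRange A.functionField := by simp
  refine eq_pow_of_sandwich (fun m => Module.finrank K (Lspace K (D.1 ^ m)))
    _ N g C k₀ hN1 (fun m m' h => ?_) hup (fun M => ?_) (fun m => ?_) (fun m => ?_)
  · have := hfd m'
    exact Submodule.finrank_mono (Lspace_mono D hD h)
  · have := hfd (g * M)
    exact card_le_finrank_Lspace D hx hD hxD M
  · have := hfd m
    have := hfd' (m + k₀)
    obtain ⟨i⟩ := hiso (m + k₀)
    rw [← i.finrank_eq]
    exact hcard ▸ finrank_mul_le hover hφ D b' k₀ hb' m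
  · have := hfd (m + k₀)
    obtain ⟨i⟩ := hiso m
    rw [← i.finrank_eq]
    exact hcard ▸ finrank_le_mul hover hφ D b' k₀ hb' hN m

/-- The torsion count from the structural properties. -/
theorem torsionCount [IsAlgClosed K] (h1 : LocalStructureProperty K) (h2 : GrowthProperty K)
    (h3 : NsmulDegreeProperty K) (h4 : QuadraticProperty K) : TorsionCountProperty K := by
  intro A f L hc hA g hg n hn
  let _ : A.Over (KSpec K) := ⟨f⟩
  have hsm : SmoothOfRelativeDimension g (A ↘ KSpec K) := hg
  have hP : IsProper (A ↘ KSpec K) := hA.proper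
  have : CompactSpace A := QuasiCompact.compactSpace_of_compactSpace (A ↘ KSpec K)
  obtain ⟨hint, hN, h, x, hx, hfin, hsep, hh, hxh⟩ := h1 A L hA g
  obtain ⟨hfinite, hgen, hcard, hfd, hs⟩ := h3 A L hc hA g hN n hn
  let i : A ⟶ A := (L.inv f RelativeGroupLaw.idPoint).1
  have hii : i ≫ i = 𝟙 A := inv_inv_idPoint L
  have : IsIso i := ⟨i, hii, hii⟩
  have hi : i (genericPoint A) = genericPoint A :=
    (genericPoint_eq_of_isOpenImmersion i)
  let D : CDiv A := h * pullDom i hi h
  have hDcoe : ∀ p, (D.1 p : A.functionField) =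
      (h.1 p : A.functionField) * pullFun i (h.1 (i p) : A.functionField) := fun p => rfl
  have hD : ∀ p, (D.1 p : A.functionField) ∈ Reg p := fun p => by
    rw [hDcoe]
    exact mul_mem (hh p) (pullFun_mem_Reg i p (hh _))
  have hxD : ∀ j p, x j * (D.1 p : A.functionField) ∈ Reg p := fun j p => by
    rw [hDcoe, ← mul_assoc]
    exact mul_mem (hxh j p) (pullFun_mem_Reg i p (hh _))
  have hsym : pullPic i (cls D) = cls D := by
    have e : cls D = cls h * pullPic i (cls h) := by
      rw [← cls_pullDom i hi, ← map_mul]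
    rw [e, map_mul, ← pullPic_comp, hii, pullPic_id]
    exact @mul_comm (CPic A) _ _ _
  have : IsFinite (L.schemeNsmul n) := hfinite
  have hgen' : L.schemeNsmul n (genericPoint A) = genericPoint A := hgen
  have : FiniteDimensional (pullHom (L.schemeNsmul n) hgen').fieldRange A.functionField := hfd
  have : Algebra.IsSeparable (pullHom (L.schemeNsmul n) hgen').fieldRange A.functionField := hs
  refine hcard.trans ?_
  change Module.finrank (pullHom (L.schemeNsmul n) hgen').fieldRange A.functionField = _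
  rw [degree_eq_pow h2 hN x hx hfin hsep (L.schemeNsmul n) hgen'
    (L.schemeNsmul_over n) D hD hxD (n ^ 2) ?_ (h4 A L hc hA (cls D) hsym n), ← pow_mul]
  exact Nat.one_le_pow _ _ (Nat.pos_of_ne_zero fun h0 => hn (by simp [h0]))

/-- The frozen shape of the torsion count, from the structural properties. -/
theorem natCard_torsion_of_properties [IsAlgClosed K] (h1 : LocalStructureProperty K)
    (h2 : GrowthProperty K) (h3 : NsmulDegreeProperty K) (h4 : QuadraticProperty K)
    {A : Scheme.{u}} (f : A ⟶ Spec (CommRingCat.of K))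
    (L : RelativeGroupLaw K f) (hc : L.IsCommutative) (hA : AbelianSchemePropertyBundle K f)
    (g : ℕ) [SmoothOfRelativeDimension g f] (n : ℕ) (hn : (n : K) ≠ 0) :
    Nat.card {x : SchemeHomOver (𝟙 (Spec (CommRingCat.of K))) f //
        L.IsTorsionPoint (𝟙 (Spec (CommRingCat.of K))) n x} = n ^ (2 * g) :=
  torsionCount h1 h2 h3 h4 A f L hc hA g n hn

end Fermat.Agent.AbVar
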