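import Fermat.Agent.AbVar.CubeGeneric
import Fermat.Agent.AbVar.Kunneth
import Fermat.Agent.AbVar.Product
import Fermat.Agent.AbVar.Quadratic
import Fermat.Agent.AbVar.Nsmul
import Fermat.Agent.AbVar.LocalStructure
import Fermat.Agent.AbVar.FormalFactorial
import Fermat.Agent.AbVar.Sandwich

/-! The number of torsion points of an abelian variety, from the infinitesimal theorem of the
cube. -/

set_option autoImplicit false

noncomputable section

open CategoryTheory AlgebraicGeometry NeronModelInfra GoodReductionJacobian

universe u

namespace Fermat.Agent.AbVar

theorem torsionCountProperty_of_cubeFormal {K : Type u} [Field K] [IsAlgClosed K]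
    (hF : CubeFormalProperty K) : TorsionCountProperty K :=
  torsionCount (localStructureProperty (formalFactorialProperty K)) (growthProperty K)
    (nsmulDegreeProperty K)
    (quadraticProperty (productIntegralProperty K) seesawProperty (cubeGenericProperty hF))

end Fermat.Agent.AbVar
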