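import Fermat.Agent.AbVar.CubeMap

/-! Sections of a class and of its inverse, and their pullbacks along `σ × id` normalised by a
trivialisation. -/

set_option autoImplicit false
set_option linter.unusedSectionVars false

noncomputable section

open CategoryTheory CategoryTheory.Limits AlgebraicGeometry TopologicalSpace
open scoped TensorProduct

universe u

namespace Fermat.Agent.AbVar

theorem pullFun_finsetSum {S T : Scheme.{u}} [IsIntegral S] [IsIntegral T] (φ : T ⟶ S) {α : Type*}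
    (s : Finset α) (f : α → S.functionField) (hf : ∀ l ∈ s, f l ∈ Reg (φ (genericPoint T))) :
    pullFun φ (∑ l ∈ s, f l) = ∑ l ∈ s, pullFun φ (f l) := by
  classical
  induction s using Finset.induction with
  | empty => simp
  | insert a s ha ih =>
    have hs : ∀ l ∈ s, f l ∈ Reg (φ (genericPoint T)) := fun l hl => hf l (Finset.mem_insert_of_mem hl)
    rw [Finset.sum_insert ha, Finset.sum_insert ha,
      pullFun_add φ (hf a (Finset.mem_insert_self a s)) (sum_mem hs), ih hs]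

theorem pullFun_map_sub {S T : Scheme.{u}} [IsIntegral S] [IsIntegral T] (φ : T ⟶ S)
    {a b : S.functionField} (ha : a ∈ Reg (φ (genericPoint T)))
    (hb : b ∈ Reg (φ (genericPoint T))) : pullFun φ (a - b) = pullFun φ a - pullFun φ b := by
  rw [eq_sub_iff_add_eq, ← pullFun_add φ (sub_mem ha hb) hb, sub_add_cancel]

section Secs

variable {K : Type u} [Field K] {X Z : Scheme.{u}}
  [X.Over (Spec (CommRingCat.of K))] [Z.Over (Spec (CommRingCat.of K))] [IsIntegral X]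
  [IsIntegral Z] [IsIntegral (Pd K X Z)] [PdDominant K X Z] {h : CDiv (Pd K X Z)} {U : Z.Opens}
  (C : Chart h U)

theorem Chart.pairing_eq (i : C.ι) (τ S : (Pd K X Z).functionField) :
    τ * S = ∑ l, τ * C.ψ i l * (C.φ i l * S) := by
  calc τ * S = (∑ l, C.ψ i l * C.φ i l) * (τ * S) := by rw [(C.split i).2, one_mul]
    _ = _ := by rw [Finset.sum_mul]; exact Finset.sum_congr rfl fun l _ => by ring

theorem Chart.sec_regular {i : C.ι} {V : X.Opens} (hV : V ≤ C.W i)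
    {S : (Pd K X Z).functionField} (hS : ∀ l, C.φ i l * S ∈ RegOn K (rect K V U))
    {q : (Pd K X Z)} (hq : q ∈ rect K V U) :
    S * (h.1 q : (Pd K X Z).functionField) ∈ Reg q := by
  rw [mul_comm, C.pairing_eq i]
  refine sum_mem fun l _ => mul_mem ?_ (hS l q hq)
  rw [mul_comm]
  exact ((C.split i).1 q ⟨hV hq.1, hq.2⟩ l).1

theorem Chart.invSec_regular {i : C.ι} {V : X.Opens} (hV : V ≤ C.W i)
    {τ : (Pd K X Z).functionField} (hτ : ∀ l, τ * C.ψ i l ∈ RegOn K (rect K V U))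
    {q : (Pd K X Z)} (hq : q ∈ rect K V U) :
    τ * ((h.1 q)⁻¹ : ((Pd K X Z).functionField)ˣ) ∈ Reg q := by
  rw [C.pairing_eq i]
  exact sum_mem fun l _ => mul_mem (hτ l q hq) ((C.split i).1 q ⟨hV hq.1, hq.2⟩ l).2

theorem Chart.pairing_mem {i : C.ι} {V : X.Opens} (hV : IsAffineOpen V) (hV0 : (V : Set X).Nonempty)
    {J : Ideal (RegOn K U)} {τ S : (Pd K X Z).functionField}
    (hτ : ∀ l, τ * C.ψ i l ∈ RegOn K (rect K V U)) (hS : ∀ l, C.φ i l * S ∈ Mk K V U J) :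
    τ * S ∈ Mk K V U J := by
  rw [C.pairing_eq i]
  exact Submodule.sum_mem _ fun l _ => regular_mul_mem_Mk hV hV0 C.affU C.neU (hτ l) (hS l)

theorem Chart.pairing_mem₂ {i : C.ι} {V : X.Opens} {J J' : Ideal (RegOn K U)}
    {τ S : (Pd K X Z).functionField} (hτ : ∀ l, τ * C.ψ i l ∈ Mk K V U J)
    (hS : ∀ l, C.φ i l * S ∈ Mk K V U J') :
    τ * S ∈ Mk K V U (J * J') := by
  rw [C.pairing_eq i]
  exact Submodule.sum_mem _ fun l _ => mul_mem_Mk (hτ l) (hS l)

end Secs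

section Pulled

variable {K : Type u} [Field K] {X X' Z : Scheme.{u}}
  [X.Over (Spec (CommRingCat.of K))] [X'.Over (Spec (CommRingCat.of K))]
  [Z.Over (Spec (CommRingCat.of K))] [IsIntegral X] [IsIntegral X'] [IsIntegral Z]
  [IsIntegral (Pd K X Z)] [IsIntegral (Pd K X' Z)] [PdDominant K X Z] [PdDominant K X' Z]
  {h : CDiv (Pd K X Z)} {U : Z.Opens} (C : Chart h U) (σ : X' ⟶ X)
  (hσ : σ ≫ (X ↘ Spec (CommRingCat.of K)) = (X' ↘ Spec (CommRingCat.of K)))
  (c₁ : ((Pd K X' Z).functionField)ˣ)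
  (hc₁ : ∀ p, (pullDiv (mapLeft Z σ hσ) h).1 p / c₁ ∈ unitsAt p)

/-- A section pulled back, normalised by the trivialisation. -/
def pullSec (h : CDiv (Pd K X Z)) (c₁ : ((Pd K X' Z).functionField)ˣ)
    (s : (Pd K X Z).functionField) : (Pd K X' Z).functionField :=
  pullFun (mapLeft Z σ hσ)
      (s * (h.1 (mapLeft Z σ hσ (genericPoint (Pd K X' Z))) : (Pd K X Z).functionField)) *
    (c₁ : (Pd K X' Z).functionField)

/-- A section of the inverse pulled back, normalised by the trivialisation. -/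
def pullInvSec (h : CDiv (Pd K X Z)) (c₁ : ((Pd K X' Z).functionField)ˣ)
    (s : (Pd K X Z).functionField) : (Pd K X' Z).functionField :=
  pullFun (mapLeft Z σ hσ)
      (s * ((h.1 (mapLeft Z σ hσ (genericPoint (Pd K X' Z))))⁻¹ : ((Pd K X Z).functionField)ˣ)) *
    ((c₁⁻¹ : ((Pd K X' Z).functionField)ˣ) : (Pd K X' Z).functionField)

include hc₁ in
theorem pullSec_regular {V : X.Opens} (hne : σ (genericPoint X') ∈ V) (hU0 : (U : Set Z).Nonempty)
    {s : (Pd K X Z).functionField}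
    (hs : ∀ q ∈ rect K V U, s * (h.1 q : (Pd K X Z).functionField) ∈ Reg q) :
    pullSec σ hσ h c₁ s ∈ RegOn K (rect K (σ ⁻¹ᵁ V) U) := by
  intro p hp
  have hq := mapLeft_mem_rect σ hσ hp
  have hη := mapLeft_generic_mem σ hσ hne hU0
  have := mul_mem (pullFun_mem_Reg (mapLeft Z σ hσ) p (hs _ hq)) (hc₁ p).2
  convert this using 1
  have h1 : pullFun (mapLeft Z σ hσ) (s * (h.1 (mapLeft Z σ hσ p) : (Pd K X Z).functionField)) =
      pullFun (mapLeft Z σ hσ)
        (s * (h.1 (mapLeft Z σ hσ (genericPoint (Pd K X' Z))) : (Pd K X Z).functionField)) *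
        ((pullDiv (mapLeft Z σ hσ) h).1 p : (Pd K X' Z).functionField) := by
    rw [pullDiv_coe, pullGerm, pullUnit_coe,
      ← pullFun_mul _ (hs _ hη) (ratio_mem (mapLeft Z σ hσ) h p).1]
    congr 1
    simp only [Units.val_div_eq_div_val]
    field_simp
  rw [h1, pullSec]
  simp only [inv_div, Units.val_div_eq_div_val]
  field_simp

include hc₁ in
theorem pullInvSec_regular {V : X.Opens} (hne : σ (genericPoint X') ∈ V)
    (hU0 : (U : Set Z).Nonempty) {s : (Pd K X Z).functionField}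
    (hs : ∀ q ∈ rect K V U, s * ((h.1 q)⁻¹ : ((Pd K X Z).functionField)ˣ) ∈ Reg q) :
    pullInvSec σ hσ h c₁ s ∈ RegOn K (rect K (σ ⁻¹ᵁ V) U) := by
  intro p hp
  have hq := mapLeft_mem_rect σ hσ hp
  have hη := mapLeft_generic_mem σ hσ hne hU0
  have := mul_mem (pullFun_mem_Reg (mapLeft Z σ hσ) p (hs _ hq)) (hc₁ p).1
  convert this using 1
  have h1 : pullFun (mapLeft Z σ hσ)
      (s * ((h.1 (mapLeft Z σ hσ p))⁻¹ : ((Pd K X Z).functionField)ˣ)) =
      pullFun (mapLeft Z σ hσ)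
        (s * ((h.1 (mapLeft Z σ hσ (genericPoint (Pd K X' Z))))⁻¹ : ((Pd K X Z).functionField)ˣ)) *
        (((pullDiv (mapLeft Z σ hσ) h).1 p)⁻¹ : ((Pd K X' Z).functionField)ˣ) := by
    rw [pullDiv_coe, pullGerm, ← map_inv, pullUnit_coe, InvMemClass.coe_inv,
      ← pullFun_mul _ (hs _ hη) (ratio_mem (mapLeft Z σ hσ) h p).2]
    congr 1
    simp only [inv_div, Units.val_div_eq_div_val, Units.val_inv_eq_inv_val]
    field_simp
  rw [h1, pullInvSec]
  simp only [Units.val_div_eq_div_val, Units.val_inv_eq_inv_val]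
  field_simp

theorem pullSec_sub {V : X.Opens} (hne : σ (genericPoint X') ∈ V) (hU0 : (U : Set Z).Nonempty)
    {s t : (Pd K X Z).functionField}
    (hs : ∀ q ∈ rect K V U, s * (h.1 q : (Pd K X Z).functionField) ∈ Reg q)
    (ht : ∀ q ∈ rect K V U, t * (h.1 q : (Pd K X Z).functionField) ∈ Reg q) :
    pullSec σ hσ h c₁ (s - t) = pullSec σ hσ h c₁ s - pullSec σ hσ h c₁ t := by
  have hη := mapLeft_generic_mem σ hσ hne hU0
  rw [pullSec, sub_mul, pullFun_map_sub _ (hs _ hη) (ht _ hη), sub_mul]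
  rfl

theorem pullInvSec_sub {V : X.Opens} (hne : σ (genericPoint X') ∈ V) (hU0 : (U : Set Z).Nonempty)
    {s t : (Pd K X Z).functionField}
    (hs : ∀ q ∈ rect K V U, s * ((h.1 q)⁻¹ : ((Pd K X Z).functionField)ˣ) ∈ Reg q)
    (ht : ∀ q ∈ rect K V U, t * ((h.1 q)⁻¹ : ((Pd K X Z).functionField)ˣ) ∈ Reg q) :
    pullInvSec σ hσ h c₁ (s - t) = pullInvSec σ hσ h c₁ s - pullInvSec σ hσ h c₁ t := by
  have hη := mapLeft_generic_mem σ hσ hne hU0
  rw [pullInvSec, sub_mul, pullFun_map_sub _ (hs _ hη) (ht _ hη), sub_mul]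
  rfl

theorem pullFun_pairing {V : X.Opens} (hne : σ (genericPoint X') ∈ V) (hU0 : (U : Set Z).Nonempty)
    {τ s : (Pd K X Z).functionField}
    (hτ : ∀ q ∈ rect K V U, τ * ((h.1 q)⁻¹ : ((Pd K X Z).functionField)ˣ) ∈ Reg q)
    (hs : ∀ q ∈ rect K V U, s * (h.1 q : (Pd K X Z).functionField) ∈ Reg q) :
    pullFun (mapLeft Z σ hσ) (τ * s) = pullInvSec σ hσ h c₁ τ * pullSec σ hσ h c₁ s := by
  have hη := mapLeft_generic_mem σ hσ hne hU0
  have e : τ * s = τ * ((h.1 (mapLeft Z σ hσ (genericPoint (Pd K X' Z))))⁻¹ :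
        ((Pd K X Z).functionField)ˣ) *
      (s * (h.1 (mapLeft Z σ hσ (genericPoint (Pd K X' Z))) : (Pd K X Z).functionField)) := by
    rw [Units.val_inv_eq_inv_val]; field_simp
  rw [e, pullFun_mul _ (hτ _ hη) (hs _ hη), pullInvSec, pullSec, mul_mul_mul_comm, Units.inv_mul,
    mul_one]

variable [IsProper (X' ↘ Spec (CommRingCat.of K))]

include hc₁ in
theorem Chart.pullSec_mem_Mk {i : C.ι} {V : X.Opens} (hV : V ≤ C.W i)
    (hne : σ (genericPoint X') ∈ V) (hV' : IsAffineOpen (σ ⁻¹ᵁ V)) {J : Ideal (RegOn K U)}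
    {T : (Pd K X Z).functionField} (hT : ∀ l, C.φ i l * T ∈ Mk K V U J) :
    pullSec σ hσ h c₁ T ∈ Mk K (σ ⁻¹ᵁ V) U J := by
  have hη := mapLeft_generic_mem σ hσ hne C.neU
  have hreg : ∀ l, C.φ i l * T ∈ Reg (mapLeft Z σ hσ (genericPoint (Pd K X' Z))) :=
    fun l => Mk_le_RegOn (hT l) _ hη
  have hψ : ∀ l, ∀ q ∈ rect K V U, C.ψ i l * (h.1 q : (Pd K X Z).functionField) ∈ Reg q :=
    fun l q hq => ((C.split i).1 q ⟨hV hq.1, hq.2⟩ l).1
  have e : pullSec σ hσ h c₁ T =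
      ∑ l, pullSec σ hσ h c₁ (C.ψ i l) * pullFun (mapLeft Z σ hσ) (C.φ i l * T) := by
    have e0 : T * (h.1 (mapLeft Z σ hσ (genericPoint (Pd K X' Z))) : (Pd K X Z).functionField) =
        ∑ l, C.φ i l * T * (C.ψ i l *
          (h.1 (mapLeft Z σ hσ (genericPoint (Pd K X' Z))) : (Pd K X Z).functionField)) := by
      rw [mul_comm T, C.pairing_eq i]
      exact Finset.sum_congr rfl fun l _ => by ring
    rw [pullSec, e0, pullFun_finsetSum _ _ _ fun l _ => mul_mem (hreg l) (hψ l _ hη),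
      Finset.sum_mul]
    refine Finset.sum_congr rfl fun l _ => ?_
    rw [pullFun_mul _ (hreg l) (hψ l _ hη), pullSec]
    ring
  rw [e]
  exact Submodule.sum_mem _ fun l _ => regular_mul_mem_Mk hV' ⟨genericPoint X', hne⟩ C.affU C.neU
    (pullSec_regular σ hσ c₁ hc₁ hne C.neU (hψ l))
    (pullFun_mem_Mk σ hσ le_rfl hne C.neU (hT l))

include hc₁ in
theorem Chart.pullInvSec_mem_Mk {i : C.ι} {V : X.Opens} (hV : V ≤ C.W i)
    (hne : σ (genericPoint X') ∈ V) (hV' : IsAffineOpen (σ ⁻¹ᵁ V)) {J : Ideal (RegOn K U)}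
    {τ : (Pd K X Z).functionField} (hτ : ∀ l, τ * C.ψ i l ∈ Mk K V U J) :
    pullInvSec σ hσ h c₁ τ ∈ Mk K (σ ⁻¹ᵁ V) U J := by
  have hη := mapLeft_generic_mem σ hσ hne C.neU
  have hreg : ∀ l, τ * C.ψ i l ∈ Reg (mapLeft Z σ hσ (genericPoint (Pd K X' Z))) :=
    fun l => Mk_le_RegOn (hτ l) _ hη
  have hφ : ∀ l, ∀ q ∈ rect K V U,
      C.φ i l * ((h.1 q)⁻¹ : ((Pd K X Z).functionField)ˣ) ∈ Reg q :=
    fun l q hq => ((C.split i).1 q ⟨hV hq.1, hq.2⟩ l).2
  have e : pullInvSec σ hσ h c₁ τ =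
      ∑ l, pullInvSec σ hσ h c₁ (C.φ i l) * pullFun (mapLeft Z σ hσ) (τ * C.ψ i l) := by
    rw [pullInvSec, C.pairing_eq i, pullFun_finsetSum _ _ _ fun l _ => mul_mem (hreg l) (hφ l _ hη),
      Finset.sum_mul]
    refine Finset.sum_congr rfl fun l _ => ?_
    rw [pullFun_mul _ (hreg l) (hφ l _ hη), pullInvSec]
    ring
  rw [e]
  exact Submodule.sum_mem _ fun l _ => regular_mul_mem_Mk hV' ⟨genericPoint X', hne⟩ C.affU C.neU
    (pullInvSec_regular σ hσ c₁ hc₁ hne C.neU (hφ l))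
    (pullFun_mem_Mk σ hσ le_rfl hne C.neU (hτ l))

end Pulled

end Fermat.Agent.AbVar
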