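import Fermat.Agent.AbVar.CubeGlobal
import Fermat.Agent.AbVar.CubeSecs

/-! Along a morphism on which the class becomes trivial, the obstruction to lifting a section to
the next infinitesimal neighbourhood is a coboundary. -/

set_option autoImplicit false
set_option linter.unusedSectionVars false

noncomputable section

open CategoryTheory CategoryTheory.Limits AlgebraicGeometry TopologicalSpace
open scoped TensorProduct

universe u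

namespace Fermat.Agent.AbVar

variable {K : Type u} [Field K] [IsAlgClosed K] {X X' Z : Scheme.{u}}
  [X.Over (Spec (CommRingCat.of K))] [X'.Over (Spec (CommRingCat.of K))]
  [Z.Over (Spec (CommRingCat.of K))] [IsIntegral X] [IsIntegral X'] [IsIntegral Z]
  [IsIntegral (Pd K X Z)] [IsIntegral (Pd K X' Z)] [PdDominant K X Z] [PdDominant K X' Z]
  [IsProper (X' ↘ Spec (CommRingCat.of K))]
  [LocallyOfFiniteType (Z ↘ Spec (CommRingCat.of K))]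
  {h : CDiv (Pd K X Z)} {U : Z.Opens}

theorem Chart.axis_coboundary (C : Chart h U) (σ : X' ⟶ X)
    (hσ : σ ≫ (X ↘ Spec (CommRingCat.of K)) = (X' ↘ Spec (CommRingCat.of K))) [IsAffineHom σ]
    [IsSeparated (X ↘ Spec (CommRingCat.of K))]
    (htriv : pullPic (mapLeft Z σ hσ) (cls h) = 1)
    (z : RatPt K Z) (hz : z.pt ∈ U) {k : ℕ}
    (ℓ : LevelBasis K (RegOn K U) (ptIdeal z U hz) k) (S τ : C.ι → (Pd K X Z).functionField)
    (hS : ∀ i l, C.φ i l * S i ∈ RegOn K (rect K (C.W i) U))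
    (hτ : ∀ i l, τ i * C.ψ i l ∈ RegOn K (rect K (C.W i) U))
    (hd : ∀ i j l, C.φ i l * (S i - S j) ∈ Mk K (C.W i ⊓ C.W j) U (ptIdeal z U hz ^ k))
    (hττ : ∀ i j l, (τ i - τ j) * C.ψ i l ∈ Mk K (C.W i ⊓ C.W j) U (ptIdeal z U hz))
    (β : ℓ.β) :
    ∃ b : C.ι → X'.functionField,
      (∀ i, σ (genericPoint X') ∈ C.W i → b i ∈ RegOn K (σ ⁻¹ᵁ C.W i)) ∧
      ∀ i j, σ (genericPoint X') ∈ C.W i → σ (genericPoint X') ∈ C.W j →
        pullFun σ (compo U (ℓ.μ β) (τ i * (S i - S j))) = b i - b j := by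
  classical
  obtain ⟨c₁, hc₁⟩ := cls_eq_one.mp htriv
  have hU0 := C.neU
  let ι' := {i : C.ι // σ (genericPoint X') ∈ C.W i}
  have haff : ∀ i, IsAffineOpen (σ ⁻¹ᵁ C.W i) := fun i => (C.affW i).preimage σ
  have haff₂ : ∀ i j, IsAffineOpen (σ ⁻¹ᵁ (C.W i ⊓ C.W j)) := fun i j =>
    (isAffineOpen_inf (K := K) (C.affW i) (C.affW j)).preimage σ
  have hcov : ∀ x, ∃ i : ι', x ∈ σ ⁻¹ᵁ C.W i := fun x => by
    obtain ⟨i, hi⟩ := C.cover (σ x)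
    exact ⟨⟨i, (((genericPoint_specializes x).map σ.continuous).mem_open (C.W i).isOpen hi)⟩, hi⟩
  let w : C.ι → (Pd K X' Z).functionField := fun i => pullSec σ hσ h c₁ (S i)
  let κ : C.ι → (Pd K X' Z).functionField := fun i => pullInvSec σ hσ h c₁ (τ i)
  have hsreg : ∀ i, ∀ q ∈ rect K (C.W i) U, S i * (h.1 q : (Pd K X Z).functionField) ∈ Reg q :=
    fun i q hq => C.sec_regular le_rfl (hS i) hq
  have htreg : ∀ i, ∀ q ∈ rect K (C.W i) U,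
      τ i * ((h.1 q)⁻¹ : ((Pd K X Z).functionField)ˣ) ∈ Reg q :=
    fun i q hq => C.invSec_regular le_rfl (hτ i) hq
  have hwd : ∀ i j, σ (genericPoint X') ∈ C.W i → σ (genericPoint X') ∈ C.W j →
      w i - w j ∈ Mk K (σ ⁻¹ᵁ (C.W i ⊓ C.W j)) U ((ptIdeal z U hz) ^ k) := fun i j hi hj => by
    show pullSec σ hσ h c₁ (S i) - pullSec σ hσ h c₁ (S j) ∈ _
    rw [← pullSec_sub σ hσ c₁ (V := C.W i ⊓ C.W j) ⟨hi, hj⟩ hU0
      (fun q hq => hsreg i q ⟨hq.1.1, hq.2⟩) (fun q hq => hsreg j q ⟨hq.1.2, hq.2⟩)]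
    exact C.pullSec_mem_Mk σ hσ c₁ hc₁ inf_le_left ⟨hi, hj⟩ (haff₂ i j) (hd i j)
  have hκd : ∀ i j, σ (genericPoint X') ∈ C.W i → σ (genericPoint X') ∈ C.W j →
      κ i - κ j ∈ Mk K (σ ⁻¹ᵁ (C.W i ⊓ C.W j)) U (ptIdeal z U hz) := fun i j hi hj => by
    show pullInvSec σ hσ h c₁ (τ i) - pullInvSec σ hσ h c₁ (τ j) ∈ _
    rw [← pullInvSec_sub σ hσ c₁ (V := C.W i ⊓ C.W j) ⟨hi, hj⟩ hU0
      (fun q hq => htreg i q ⟨hq.1.1, hq.2⟩) (fun q hq => htreg j q ⟨hq.1.2, hq.2⟩)]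
    exact C.pullInvSec_mem_Mk σ hσ c₁ hc₁ inf_le_left ⟨hi, hj⟩ (haff₂ i j) (hττ i j)
  obtain ⟨w₀, hw₀⟩ := exists_global_mod (K := K) (X := X') (Z := Z)
    (W := fun i : ι' => σ ⁻¹ᵁ C.W i) (fun i => haff i) (fun i => ⟨genericPoint X', i.2⟩) hcov
    C.affU hU0 (w := fun i : ι' => w i)
    (fun i => pullSec_regular σ hσ c₁ hc₁ i.2 hU0 (hsreg i))
    (fun i j => hwd i j i.2 j.2)
  let v : C.ι → (Pd K X' Z).functionField :=
    fun i => κ i * (w i - pullZ K X' Z (w₀ : Z.functionField))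
  have hv : ∀ i, σ (genericPoint X') ∈ C.W i → v i ∈ Mk K (σ ⁻¹ᵁ C.W i) U ((ptIdeal z U hz) ^ k) := fun i hi =>
    regular_mul_mem_Mk (haff i) ⟨genericPoint X', hi⟩ C.affU hU0
      (pullInvSec_regular σ hσ c₁ hc₁ hi hU0 (htreg i)) (hw₀ ⟨i, hi⟩)
  refine ⟨fun i => compo U (ℓ.μ β) (v i), fun i hi => compo_mem hU0 _ (hv i hi),
    fun i j hi hj => ?_⟩
  have ha : τ i * (S i - S j) ∈ Mk K (C.W i ⊓ C.W j) U ((ptIdeal z U hz) ^ k) :=
    C.pairing_mem (isAffineOpen_inf (K := K) (C.affW i) (C.affW j))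
      (inf_nonempty (C.neW i) (C.neW j))
      (fun l q hq => hτ i l q ⟨hq.1.1, hq.2⟩) (hd i j)
  rw [← compo_pullFun σ hσ (V := C.W i ⊓ C.W j) ⟨hi, hj⟩ hU0 (ℓ.μ β) ha]
  have hsd : ∀ q ∈ rect K (C.W i ⊓ C.W j) U,
      (S i - S j) * (h.1 q : (Pd K X Z).functionField) ∈ Reg q := fun q hq => by
    rw [sub_mul]
    exact sub_mem (hsreg i q ⟨hq.1.1, hq.2⟩) (hsreg j q ⟨hq.1.2, hq.2⟩)
  have hpull : pullFun (mapLeft Z σ hσ) (τ i * (S i - S j)) = κ i * (w i - w j) := by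
    rw [pullFun_pairing σ hσ c₁ (V := C.W i ⊓ C.W j) ⟨hi, hj⟩ hU0
      (fun q hq => htreg i q ⟨hq.1.1, hq.2⟩) hsd,
      pullSec_sub σ hσ c₁ (V := C.W i ⊓ C.W j) ⟨hi, hj⟩ hU0
      (fun q hq => hsreg i q ⟨hq.1.1, hq.2⟩) (fun q hq => hsreg j q ⟨hq.1.2, hq.2⟩)]
  have hp := pullFun_mem_Mk σ hσ le_rfl (V := C.W i ⊓ C.W j) ⟨hi, hj⟩ hU0 ha
  have hvi : v i ∈ Mk K (σ ⁻¹ᵁ (C.W i ⊓ C.W j)) U ((ptIdeal z U hz) ^ k) :=
    Mk_restrict (Scheme.Hom.preimage_mono σ inf_le_left) (hv i hi)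
  have hvj : v j ∈ Mk K (σ ⁻¹ᵁ (C.W i ⊓ C.W j)) U ((ptIdeal z U hz) ^ k) :=
    Mk_restrict (Scheme.Hom.preimage_mono σ inf_le_right) (hv j hj)
  have herr : pullFun (mapLeft Z σ hσ) (τ i * (S i - S j)) - (v i - v j) ∈
      Mk K (σ ⁻¹ᵁ (C.W i ⊓ C.W j)) U ((ptIdeal z U hz) ^ (k + 1)) := by
    have e : pullFun (mapLeft Z σ hσ) (τ i * (S i - S j)) - (v i - v j) =
        -((κ i - κ j) * (w j - pullZ K X' Z (w₀ : Z.functionField))) := by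
      rw [hpull]
      simp only [v]
      ring
    rw [e, pow_succ']
    exact neg_mem (mul_mem_Mk (hκd i j hi hj)
      (Mk_restrict (Scheme.Hom.preimage_mono σ inf_le_right) (hw₀ ⟨j, hj⟩)))
  have h0 := compo_succ ℓ hU0 β herr
  rw [compo_sub hU0 _ hp (Submodule.sub_mem _ hvi hvj), compo_sub hU0 _ hvi hvj, sub_eq_zero] at h0
  exact h0

end Fermat.Agent.AbVar
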