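import Fermat.Agent.AbVar.CubeSmall

/-! Functions on `X × Z` vanishing to given order along `X × {z}`, inside the function field,
with their components. -/

set_option autoImplicit false
set_option linter.unusedSectionVars false

noncomputable section

open CategoryTheory CategoryTheory.Limits AlgebraicGeometry TopologicalSpace
open scoped TensorProduct

universe u

namespace Fermat.Agent.AbVar

variable {K : Type u} [Field K] {X Z : Scheme.{u}} [X.Over (Spec (CommRingCat.of K))]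
  [Z.Over (Spec (CommRingCat.of K))] [IsIntegral X] [IsIntegral Z] [IsIntegral (Pd K X Z)]

/-- The ideal of a rational point in the functions regular on an open set. -/
abbrev ptIdeal (z : RatPt K Z) (U : Z.Opens) (hz : z.pt ∈ U) : Ideal (RegOn K U) :=
  RingHom.ker (evalAt z U hz).toRingHom

omit [IsIntegral (Pd K X Z)] [IsIntegral X] [X.Over (Spec (CommRingCat.of K))] in
theorem sub_evalAt_mem (z : RatPt K Z) (U : Z.Opens) (hz : z.pt ∈ U) (e : RegOn K U) :
    e - algebraMap K (RegOn K U) (evalAt z U hz e) ∈ ptIdeal z U hz := by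
  show evalAt z U hz (e - algebraMap K (RegOn K U) (evalAt z U hz e)) = 0
  rw [map_sub, AlgHom.commutes]
  simp

variable [PdDominant K X Z]

variable (K X) in
/-- Functions on `X` with coefficients in the functions regular on `U`. -/
def muX (U : Z.Opens) : X.functionField ⊗[K] RegOn K U →ₐ[K] (Pd K X Z).functionField :=
  Algebra.TensorProduct.productMap (pullX K X Z) ((pullZ K X Z).comp (RegOn K U).val)

theorem muX_map_val (V : X.Opens) (U : Z.Opens) (t : RegOn K V ⊗[K] RegOn K U) :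
    muX K X U (Algebra.TensorProduct.map (RegOn K V).val (AlgHom.id K _) t) = mu K V U t := by
  induction t using TensorProduct.induction_on with
  | zero => simp
  | tmul a b => rfl
  | add x y hx hy => simp only [map_add, hx, hy]

theorem muX_injective [IsAlgClosed K] [LocallyOfFiniteType (Z ↘ Spec (CommRingCat.of K))]
    (U : Z.Opens) (hU : (U : Set Z).Nonempty) : Function.Injective (muX K X U) := by
  rw [injective_iff_map_eq_zero]
  intro t ht
  have hex : ∀ s : X.functionField ⊗[K] RegOn K U, ∃ (V : X.Opens) (_ : genericPoint X ∈ V)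
      (s' : RegOn K V ⊗[K] RegOn K U),
      Algebra.TensorProduct.map (RegOn K V).val (AlgHom.id K _) s' = s := by
    intro s
    induction s using TensorProduct.induction_on with
    | zero => exact ⟨⊤, trivial, 0, map_zero _⟩
    | tmul a b =>
      obtain ⟨V, hV, hV'⟩ := exists_open_of_mem_Reg (mem_Reg_genericPoint a)
      exact ⟨V, hV, (⟨a, hV'⟩ : RegOn K V) ⊗ₜ b, rfl⟩
    | add x y hx hy =>
      obtain ⟨V, hV, x', hx'⟩ := hx
      obtain ⟨V', hV', y', hy'⟩ := hy
      refine ⟨V ⊓ V', ⟨hV, hV'⟩,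
        Algebra.TensorProduct.map (Subalgebra.inclusion (RegOn_anti inf_le_left)) (AlgHom.id K _) x' +
          Algebra.TensorProduct.map (Subalgebra.inclusion (RegOn_anti inf_le_right)) (AlgHom.id K _) y',
        ?_⟩
      rw [map_add, ← hx', ← hy']
      congr 1 <;>
      · rw [← AlgHom.comp_apply, ← Algebra.TensorProduct.map_comp]
        rfl
  obtain ⟨V, hV, t', rfl⟩ := hex t
  rw [muX_map_val] at ht
  rw [(injective_iff_map_eq_zero _).mp (mu_injective V ⟨_, hV⟩ U hU) t' ht, map_zero]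

variable (K) in
/-- Functions on `V × U` with coefficients in `J`. -/
def Mk (V : X.Opens) (U : Z.Opens) (J : Ideal (RegOn K U)) :
    Submodule K (Pd K X Z).functionField :=
  (smallSub J).map (mu K V U).toLinearMap

theorem mem_Mk {V : X.Opens} {U : Z.Opens} {J : Ideal (RegOn K U)}
    {a : (Pd K X Z).functionField} :
    a ∈ Mk K V U J ↔ ∃ t ∈ smallSub J, mu K V U t = a :=
  Iff.rfl

theorem Mk_le_RegOn {V : X.Opens} {U : Z.Opens} {J : Ideal (RegOn K U)}
    {a : (Pd K X Z).functionField} (ha : a ∈ Mk K V U J) : a ∈ RegOn K (rect K V U) := by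
  obtain ⟨t, -, rfl⟩ := mem_Mk.mp ha
  exact range_mu_le V U ⟨t, rfl⟩

theorem Mk_restrict {V V' : X.Opens} (h : V' ≤ V) {U : Z.Opens} {J : Ideal (RegOn K U)}
    {a : (Pd K X Z).functionField} (ha : a ∈ Mk K V U J) : a ∈ Mk K V' U J := by
  obtain ⟨t, ht, rfl⟩ := mem_Mk.mp ha
  exact mem_Mk.mpr ⟨_, map_mem_smallSub (Subalgebra.inclusion (RegOn_anti h)) ht,
    mu_map_inclusion (RegOn_anti h) t⟩

theorem mul_mem_Mk {V : X.Opens} {U : Z.Opens} {J J' : Ideal (RegOn K U)}
    {a b : (Pd K X Z).functionField} (ha : a ∈ Mk K V U J) (hb : b ∈ Mk K V U J') :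
    a * b ∈ Mk K V U (J * J') := by
  obtain ⟨t, ht, rfl⟩ := mem_Mk.mp ha
  obtain ⟨s, hs, rfl⟩ := mem_Mk.mp hb
  exact mem_Mk.mpr ⟨t * s, mul_mem_smallSub ht hs, map_mul _ _ _⟩

theorem regular_mul_mem_Mk {V : X.Opens} (hV : IsAffineOpen V) (hV0 : (V : Set X).Nonempty)
    {U : Z.Opens} (hU : IsAffineOpen U) (hU0 : (U : Set Z).Nonempty) {J : Ideal (RegOn K U)}
    {a b : (Pd K X Z).functionField} (ha : a ∈ RegOn K (rect K V U)) (hb : b ∈ Mk K V U J) :
    a * b ∈ Mk K V U J := by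
  obtain ⟨t, rfl⟩ := rectangleSurjective K X Z V U hV hU hV0 hU0 ha
  obtain ⟨s, hs, rfl⟩ := mem_Mk.mp hb
  exact mem_Mk.mpr ⟨t * s, mul_mem_smallSub_left t hs, map_mul _ _ _⟩

theorem Mk_mono {V : X.Opens} {U : Z.Opens} {J J' : Ideal (RegOn K U)} (h : J ≤ J')
    {a : (Pd K X Z).functionField} (ha : a ∈ Mk K V U J) : a ∈ Mk K V U J' := by
  obtain ⟨t, ht, rfl⟩ := mem_Mk.mp ha
  refine mem_Mk.mpr ⟨t, ?_, rfl⟩
  refine smallSub_induction (P := fun t => t ∈ smallSub (R := RegOn K V) J') (zero_mem _)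
    (fun a e he => tmul_mem_smallSub a (h he)) (fun _ _ => add_mem) ht

theorem mem_Mk_ptIdeal {V : X.Opens} (hV : IsAffineOpen V) (hV0 : (V : Set X).Nonempty)
    {U : Z.Opens} (hU : IsAffineOpen U) {z : RatPt K Z} (hz : z.pt ∈ U)
    {a : (Pd K X Z).functionField} (ha : a ∈ RegOn K (rect K V U))
    (h0 : pullFun (sliceZ z) a = 0) : a ∈ Mk K V U (ptIdeal z U hz) := by
  obtain ⟨t, rfl⟩ := rectangleSurjective K X Z V U hV hU hV0 ⟨_, hz⟩ ha
  refine mem_Mk.mpr ⟨t, ?_, rfl⟩
  let μ : RegOn K U →ₗ[K] K := (evalAt z U hz).toLinearMap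
  have h1 : ∀ s : RegOn K V ⊗[K] RegOn K U,
      s - coeffMap μ s ⊗ₜ[K] (1 : RegOn K U) ∈ smallSub (ptIdeal z U hz) ∧
        sliceTensor z V U hz s = ((coeffMap μ s : RegOn K V) : X.functionField) := by
    intro s
    induction s using TensorProduct.induction_on with
    | zero => simp
    | tmul c e =>
      refine ⟨?_, ?_⟩
      · have := tmul_mem_smallSub (K := K) c (sub_evalAt_mem z U hz e)
        rwa [TensorProduct.tmul_sub, Algebra.algebraMap_eq_smul_one, TensorProduct.tmul_smul,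
          TensorProduct.smul_tmul', show evalAt z U hz e • c = μ e • c from rfl,
          ← coeffMap_tmul μ c e] at this
      · simp [sliceTensor, coeffMap_tmul, μ, Algebra.smul_def, mul_comm]
    | add x y hx hy =>
      refine ⟨?_, by simp only [map_add, AddMemClass.coe_add, hx.2, hy.2]⟩
      have := add_mem hx.1 hy.1
      rw [map_add, TensorProduct.add_tmul]
      convert this using 1
      abel
  have h2 : coeffMap μ t = 0 := Subtype.ext (by
    refine ((h1 t).2.symm.trans (pullFun_sliceZ_mu z V hV0 U hz t).symm).trans ?_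
    exact h0)
  simpa [h2] using (h1 t).1

theorem pullFun_sliceZ_eq_zero {V : X.Opens} (hV0 : (V : Set X).Nonempty) {U : Z.Opens}
    {z : RatPt K Z} (hz : z.pt ∈ U) {a : (Pd K X Z).functionField}
    (ha : a ∈ Mk K V U (ptIdeal z U hz)) : pullFun (sliceZ z) a = 0 := by
  obtain ⟨t, ht, rfl⟩ := mem_Mk.mp ha
  rw [pullFun_sliceZ_mu z V hV0 U hz]
  refine smallSub_induction (P := fun t => sliceTensor z V U hz t = 0) (map_zero _) ?_ ?_ ht
  · intro c e he
    have he' : evalAt z U hz e = 0 := he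
    simp [sliceTensor] at he' ⊢
    simp [he']
  · intro x y hx hy
    rw [map_add, hx, hy, add_zero]

open scoped Classical in
/-- The coefficient along a functional. -/
def compo (U : Z.Opens) (μ : RegOn K U →ₗ[K] K) (a : (Pd K X Z).functionField) :
    X.functionField :=
  coeffMap μ (Function.invFun (muX K X U) a)

variable [IsAlgClosed K] [LocallyOfFiniteType (Z ↘ Spec (CommRingCat.of K))]

theorem compo_mu {V : X.Opens} {U : Z.Opens} (hU0 : (U : Set Z).Nonempty)
    (μ : RegOn K U →ₗ[K] K) (t : RegOn K V ⊗[K] RegOn K U) :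
    compo U μ (mu K V U t) = ((coeffMap μ t : RegOn K V) : X.functionField) := by
  rw [← muX_map_val, compo, Function.leftInverse_invFun (muX_injective U hU0)]
  exact coeffMap_natural μ (RegOn K V).val t

theorem compo_mem {V : X.Opens} {U : Z.Opens} (hU0 : (U : Set Z).Nonempty) {J : Ideal (RegOn K U)}
    (μ : RegOn K U →ₗ[K] K) {a : (Pd K X Z).functionField} (ha : a ∈ Mk K V U J) :
    compo U μ a ∈ RegOn K V := by
  obtain ⟨t, -, rfl⟩ := mem_Mk.mp ha
  rw [compo_mu hU0]
  exact (coeffMap μ t).2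

theorem compo_sub {V : X.Opens} {U : Z.Opens} (hU0 : (U : Set Z).Nonempty) {J J' : Ideal (RegOn K U)}
    (μ : RegOn K U →ₗ[K] K) {a b : (Pd K X Z).functionField} (ha : a ∈ Mk K V U J)
    (hb : b ∈ Mk K V U J') : compo U μ (a - b) = compo U μ a - compo U μ b := by
  obtain ⟨t, -, rfl⟩ := mem_Mk.mp ha
  obtain ⟨s, -, rfl⟩ := mem_Mk.mp hb
  rw [← map_sub, compo_mu hU0, compo_mu hU0, compo_mu hU0, map_sub]
  rfl

theorem compo_add {V : X.Opens} {U : Z.Opens} (hU0 : (U : Set Z).Nonempty) {J J' : Ideal (RegOn K U)}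
    (μ : RegOn K U →ₗ[K] K) {a b : (Pd K X Z).functionField} (ha : a ∈ Mk K V U J)
    (hb : b ∈ Mk K V U J') : compo U μ (a + b) = compo U μ a + compo U μ b := by
  obtain ⟨t, -, rfl⟩ := mem_Mk.mp ha
  obtain ⟨s, -, rfl⟩ := mem_Mk.mp hb
  rw [← map_add, compo_mu hU0, compo_mu hU0, compo_mu hU0, map_add]
  rfl

variable {U : Z.Opens} {m : Ideal (RegOn K U)} {k : ℕ} (ℓ : LevelBasis K (RegOn K U) m k)

theorem compo_succ {V : X.Opens} (hU0 : (U : Set Z).Nonempty) (b : ℓ.β)
    {a : (Pd K X Z).functionField} (ha : a ∈ Mk K V U (m ^ (k + 1))) :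
    compo U (ℓ.μ b) a = 0 := by
  obtain ⟨t, ht, rfl⟩ := mem_Mk.mp ha
  rw [compo_mu hU0, ℓ.coeff_eq_zero ht]
  rfl

theorem exists_compo_expansion {V : X.Opens} (hU0 : (U : Set Z).Nonempty)
    {a : (Pd K X Z).functionField} (ha : a ∈ Mk K V U (m ^ k)) :
    ∃ S₀ : Finset ℓ.β, ∀ S, S₀ ⊆ S →
      a - ∑ b ∈ S, pullX K X Z (compo U (ℓ.μ b) a) * pullZ K X Z (ℓ.e b : Z.functionField) ∈
        Mk K V U (m ^ (k + 1)) := by
  obtain ⟨t, ht, rfl⟩ := mem_Mk.mp ha
  obtain ⟨S₀, hS₀⟩ := ℓ.exists_expansion ht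
  refine ⟨S₀, fun S hS => mem_Mk.mpr ⟨_, hS₀ S hS, ?_⟩⟩
  rw [map_sub, map_sum]
  simp only [mu_tmul, compo_mu hU0]

theorem pullX_mul_pullZ_mem_Mk {V : X.Opens} (c : RegOn K V) (b : ℓ.β) :
    pullX K X Z (c : X.functionField) * pullZ K X Z (ℓ.e b : Z.functionField) ∈
      Mk K V U (m ^ k) :=
  mem_Mk.mpr ⟨c ⊗ₜ ℓ.e b, tmul_mem_smallSub c (ℓ.e_mem b), mu_tmul V U _ _⟩

end Fermat.Agent.AbVar
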