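import Fermat.Agent.AbVar.Pic

/-! The base field inside function fields, Riemann-Roch spaces of germ families, and pullback
along dominant morphisms. -/

set_option autoImplicit false

noncomputable section

open CategoryTheory AlgebraicGeometry TopologicalSpace

universe u

namespace Fermat.Agent.AbVar

variable {K : Type u} [Field K] {S T : Scheme.{u}} [IsIntegral S] [IsIntegral T]

instance (S : Scheme.{u}) [IsIntegral S] : Nonempty (⊤ : S.Opens) :=
  ⟨⟨genericPoint S, trivial⟩⟩

/-- The constants in the function field. -/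
def baseMap (f : S ⟶ Spec (CommRingCat.of K)) : K →+* S.functionField :=
  ((S.germToFunctionField ⊤).hom.comp (f.appTop).hom).comp
    (Scheme.ΓSpecIso (CommRingCat.of K)).inv.hom

instance algebraFunctionField [S.Over (Spec (CommRingCat.of K))] : Algebra K S.functionField :=
  (baseMap (S ↘ Spec (CommRingCat.of K))).toAlgebra

theorem algebraMap_functionField [S.Over (Spec (CommRingCat.of K))] :
    algebraMap K S.functionField = baseMap (S ↘ Spec (CommRingCat.of K)) :=
  rfl

theorem baseMap_mem_Reg (f : S ⟶ Spec (CommRingCat.of K)) (c : K) (x : S) :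
    baseMap f c ∈ Reg x :=
  germToFunctionField_mem_Reg (U := ⊤) trivial _

theorem algebraMap_mem_Reg [S.Over (Spec (CommRingCat.of K))] (c : K) (x : S) :
    algebraMap K S.functionField c ∈ Reg x :=
  baseMap_mem_Reg _ c x

theorem pullFun_baseMap (φ : T ⟶ S) (f : S ⟶ Spec (CommRingCat.of K))
    (g : T ⟶ Spec (CommRingCat.of K)) (h : φ ≫ f = g) (c : K) :
    pullFun φ (baseMap f c) = baseMap g c := by
  subst h
  have : Nonempty (φ ⁻¹ᵁ (⊤ : S.Opens) : T.Opens) := ⟨⟨genericPoint T, trivial⟩⟩
  exact pullFun_germ φ ⊤ _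

variable (K) in
/-- `L(e) = {a | a * e x` is regular at every `x}`. -/
def Lspace [S.Over (Spec (CommRingCat.of K))] (e : S → (S.functionField)ˣ) :
    Submodule K S.functionField where
  carrier := {a | ∀ x, a * (e x : S.functionField) ∈ Reg x}
  zero_mem' x := by simp
  add_mem' ha hb x := by simpa [add_mul] using add_mem (ha x) (hb x)
  smul_mem' c a ha x := by
    rw [Algebra.smul_def, mul_assoc]
    exact mul_mem (algebraMap_mem_Reg c x) (ha x)

theorem mem_Lspace [S.Over (Spec (CommRingCat.of K))] {e : S → (S.functionField)ˣ}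
    {a : S.functionField} :
    a ∈ Lspace K e ↔ ∀ x, a * (e x : S.functionField) ∈ Reg x :=
  Iff.rfl

/-- Pullback of rational functions along a dominant morphism. -/
def pullHom (φ : T ⟶ S) (hφ : φ (genericPoint T) = genericPoint S) :
    S.functionField →+* T.functionField where
  toFun := pullFun φ
  map_one' := pullFun_one φ
  map_mul' a b := pullFun_mul φ (hφ ▸ mem_Reg_genericPoint a) (hφ ▸ mem_Reg_genericPoint b)
  map_zero' := pullFun_zero φ
  map_add' a b := pullFun_add φ (hφ ▸ mem_Reg_genericPoint a) (hφ ▸ mem_Reg_genericPoint b)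

@[simp]
theorem pullHom_apply (φ : T ⟶ S) (hφ : φ (genericPoint T) = genericPoint S)
    (a : S.functionField) : pullHom φ hφ a = pullFun φ a :=
  rfl

/-- Pullback of germ families along a dominant morphism, without normalisation. -/
def pullDom (φ : T ⟶ S) (hφ : φ (genericPoint T) = genericPoint S) : CDiv S →* CDiv T where
  toFun h := ⟨fun y => Units.map (pullHom φ hφ : S.functionField →* T.functionField) (h.1 (φ y)), by
    intro x
    obtain ⟨U, hU, hU'⟩ := h.2 (φ x)
    refine ⟨φ ⁻¹ᵁ U, hU, fun y hy => ?_⟩
    rw [← map_div]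
    refine ⟨pullFun_mem_Reg φ y (hU' (φ y) hy).1, ?_⟩
    rw [← map_inv]
    exact pullFun_mem_Reg φ y (hU' (φ y) hy).2⟩
  map_one' := Subtype.ext (funext fun y => map_one _)
  map_mul' a b := Subtype.ext (funext fun y => map_mul _ _ _)

theorem cls_pullDom (φ : T ⟶ S) (hφ : φ (genericPoint T) = genericPoint S) (h : CDiv S) :
    cls (pullDom φ hφ h) = pullPic φ (cls h) := by
  rw [pullPic_cls, cls_eq_cls]
  refine ⟨Units.map (pullHom φ hφ : S.functionField →* T.functionField)
    (h.1 (φ (genericPoint T))), fun x => ?_⟩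
  convert one_mem (unitsAt x)
  refine Units.ext ?_
  have h0 : pullFun φ (h.1 (φ (genericPoint T)) : S.functionField) ≠ 0 :=
    (Units.map (pullHom φ hφ : S.functionField →* T.functionField)
      (h.1 (φ (genericPoint T)))).ne_zero
  have h1 : pullFun φ (h.1 (φ x) : S.functionField) ≠ 0 :=
    (Units.map (pullHom φ hφ : S.functionField →* T.functionField) (h.1 (φ x))).ne_zero
  have key : pullFun φ ((h.1 (φ x) : S.functionField) / h.1 (φ (genericPoint T))) =
      pullFun φ (h.1 (φ x) : S.functionField) /
        pullFun φ (h.1 (φ (genericPoint T)) : S.functionField) :=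
    map_div₀ (pullHom φ hφ) _ _
  simp only [pullDiv_coe, pullGerm, Units.val_div_eq_div_val, pullUnit_coe]
  simp [pullDom, key, h0, h1]

end Fermat.Agent.AbVar
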