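import Fermat.Prelude.Def_JacJ1Iface
import Fermat.Prelude.Def_GoodReductionJacobian_RelativeGroupLawKernel
import Fermat.Agent.AbVar.Field

/-! Statements of the ingredients of the count of torsion points on an abelian variety. -/

set_option autoImplicit false

noncomputable section

open CategoryTheory CategoryTheory.Limits AlgebraicGeometry NeronModelInfra GoodReductionJacobian

universe u

namespace Fermat.Agent.AbVar

variable (K : Type u) [Field K]

/-- The base scheme. -/
abbrev KSpec : Scheme.{u} := Spec (CommRingCat.of K)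

/-- A local ring with the formal structure of affine space is a factorial domain. -/
def FormalFactorialProperty : Prop :=
  ∀ (g : ℕ) (R : Type u) [CommRing R] [IsLocalRing R] [IsNoetherianRing R] [Algebra K R]
    (z : Fin g → R), IsLocalRing.maximalIdeal R = Ideal.span (Set.range z) →
    Function.Surjective (IsLocalRing.residue R ∘ algebraMap K R) →
    (∀ (k : ℕ) (p : MvPolynomial (Fin g) K),
      MvPolynomial.aeval z p ∈ IsLocalRing.maximalIdeal R ^ k →
      p ∈ Ideal.span (Set.range (MvPolynomial.X : Fin g → MvPolynomial (Fin g) K)) ^ k) →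
    IsDomain R ∧ UniqueFactorizationMonoid R

/-- An abelian variety is integral and normal, and has a big effective divisor. -/
def LocalStructureProperty : Prop :=
  ∀ (A : Scheme.{u}) [A.Over (KSpec K)] (_L : RelativeGroupLaw K (A ↘ KSpec K)),
    AbelianSchemePropertyBundle K (A ↘ KSpec K) →
    ∀ (g : ℕ) [SmoothOfRelativeDimension g (A ↘ KSpec K)],
    ∃ _ : IsIntegral A,
      (∀ x : A, IsIntegrallyClosed (A.presheaf.stalk x)) ∧
      ∃ (h : CDiv A) (x : Fin g → A.functionField),
        AlgebraicIndependent K x ∧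
        FiniteDimensional (IntermediateField.adjoin K (Set.range x)) A.functionField ∧
        Algebra.IsSeparable (IntermediateField.adjoin K (Set.range x)) A.functionField ∧
        (∀ p, (h.1 p : A.functionField) ∈ Reg p) ∧
        ∀ i p, x i * (h.1 p : A.functionField) ∈ Reg p

/-- Riemann-Roch spaces on a proper integral scheme grow at most like `m ^ g`. -/
def GrowthProperty : Prop :=
  ∀ (S : Scheme.{u}) [IsIntegral S] [S.Over (KSpec K)] [IsProper (S ↘ KSpec K)] (g : ℕ)
    (x : Fin g → S.functionField), AlgebraicIndependent K x →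
    FiniteDimensional (IntermediateField.adjoin K (Set.range x)) S.functionField →
    Algebra.IsSeparable (IntermediateField.adjoin K (Set.range x)) S.functionField →
    ∀ e : S → (S.functionField)ˣ, (Set.range e).Finite →
    ∃ C : ℕ, ∀ m : ℕ, FiniteDimensional K (Lspace K (e ^ m)) ∧
      Module.finrank K (Lspace K (e ^ m)) ≤ C * (m + 1) ^ g

/-- Multiplication by `n` is a finite separable map of degree the order of its kernel. -/
def NsmulDegreeProperty : Prop :=
  ∀ (A : Scheme.{u}) [IsIntegral A] [A.Over (KSpec K)]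
    (L : RelativeGroupLaw K (A ↘ KSpec K)), L.IsCommutative →
    AbelianSchemePropertyBundle K (A ↘ KSpec K) →
    ∀ (g : ℕ) [SmoothOfRelativeDimension g (A ↘ KSpec K)],
    (∀ x : A, IsIntegrallyClosed (A.presheaf.stalk x)) →
    ∀ (n : ℕ), (n : K) ≠ 0 →
      IsFinite (L.schemeNsmul n) ∧
      ∃ hgen : L.schemeNsmul n (genericPoint A) = genericPoint A,
        Nat.card {x : SchemeHomOver (𝟙 (KSpec K)) (A ↘ KSpec K) //
          L.IsTorsionPoint (𝟙 (KSpec K)) n x} =
          Module.finrank (pullHom (L.schemeNsmul n) hgen).fieldRange A.functionField ∧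
        FiniteDimensional (pullHom (L.schemeNsmul n) hgen).fieldRange A.functionField ∧
        Algebra.IsSeparable (pullHom (L.schemeNsmul n) hgen).fieldRange A.functionField

section Slices

variable {K} {X Z : Scheme.{u}} (fX : X ⟶ KSpec K) (fZ : Z ⟶ KSpec K)

/-- The slice `X × {z}`. -/
def sliceAt (z : SchemeHomOver (𝟙 (KSpec K)) fZ) : X ⟶ pullback fX fZ :=
  pullback.lift (𝟙 X) (fX ≫ z.1) (by simp [z.2])

/-- The slice `{x} × Z`. -/
def sliceFrom (x : SchemeHomOver (𝟙 (KSpec K)) fX) : Z ⟶ pullback fX fZ :=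
  pullback.lift (fZ ≫ x.1) (𝟙 Z) (by simp [x.2])

theorem sliceAt_over (z : SchemeHomOver (𝟙 (KSpec K)) fZ) :
    sliceAt fX fZ z ≫ pullback.fst fX fZ ≫ fX = fX := by
  rw [sliceAt, pullback.lift_fst_assoc, Category.id_comp]

theorem sliceFrom_over (x : SchemeHomOver (𝟙 (KSpec K)) fX) :
    sliceFrom fX fZ x ≫ pullback.fst fX fZ ≫ fX = fZ := by
  rw [sliceFrom, pullback.lift_fst_assoc, Category.assoc, x.2, Category.comp_id]

end Slices

/-- Products of integral varieties are integral. -/
def ProductIntegralProperty : Prop :=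
  ∀ (X Z : Scheme.{u}) (fX : X ⟶ KSpec K) (fZ : Z ⟶ KSpec K) [IsIntegral X] [IsIntegral Z]
    [LocallyOfFiniteType fX] [LocallyOfFiniteType fZ], IsIntegral (pullback fX fZ)

/-- Seesaw principle. -/
def SeesawProperty : Prop :=
  ∀ (X Z : Scheme.{u}) (fX : X ⟶ KSpec K) (fZ : Z ⟶ KSpec K)
    [IsIntegral X] [IsIntegral Z] [IsProper fX] [IsSeparated fZ] [LocallyOfFiniteType fZ]
    [IsIntegral (pullback fX fZ)]
    (c : CPic (pullback fX fZ)) (x₀ : SchemeHomOver (𝟙 (KSpec K)) fX),
    (∀ z, pullPic (sliceAt fX fZ z) c = 1) → pullPic (sliceFrom fX fZ x₀) c = 1 → c = 1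

/-- Theorem of the cube, on an open set of the third factor. -/
def CubeGenericProperty : Prop :=
  ∀ (Y Y' Z : Scheme.{u}) (fY : Y ⟶ KSpec K) (fY' : Y' ⟶ KSpec K) (fZ : Z ⟶ KSpec K)
    [IsIntegral Y] [IsIntegral Y'] [IsIntegral Z] [IsProper fY] [IsProper fY']
    [IsSeparated fZ] [LocallyOfFiniteType fZ]
    [IsIntegral (pullback fY fY')] [IsIntegral (pullback fY fZ)] [IsIntegral (pullback fY' fZ)]
    [IsIntegral (pullback (pullback.fst fY fY' ≫ fY) fZ)]
    (c : CPic (pullback (pullback.fst fY fY' ≫ fY) fZ))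
    (y₀ : SchemeHomOver (𝟙 (KSpec K)) fY) (y₀' : SchemeHomOver (𝟙 (KSpec K)) fY')
    (z₀ : SchemeHomOver (𝟙 (KSpec K)) fZ),
    pullPic (sliceAt _ fZ z₀) c = 1 →
    pullPic (pullback.map fY' fZ (pullback.fst fY fY' ≫ fY) fZ (sliceFrom fY fY' y₀) (𝟙 Z) (𝟙 _)
      (sliceFrom_over fY fY' y₀).symm (by simp)) c = 1 →
    pullPic (pullback.map fY fZ (pullback.fst fY fY' ≫ fY) fZ (sliceAt fY fY' y₀') (𝟙 Z) (𝟙 _)
      (sliceAt_over fY fY' y₀').symm (by simp)) c = 1 →
    ∃ U : Z.Opens, (U : Set Z).Nonempty ∧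
      ∀ z : SchemeHomOver (𝟙 (KSpec K)) fZ, z.1 (IsLocalRing.closedPoint K) ∈ U →
        pullPic (sliceAt _ fZ z) c = 1

/-- Symmetric classes are quadratic for multiplication by `n`. -/
def QuadraticProperty : Prop :=
  ∀ (A : Scheme.{u}) [IsIntegral A] [A.Over (KSpec K)]
    (L : RelativeGroupLaw K (A ↘ KSpec K)), L.IsCommutative →
    AbelianSchemePropertyBundle K (A ↘ KSpec K) →
    ∀ c : CPic A, pullPic (L.inv (A ↘ KSpec K) RelativeGroupLaw.idPoint).1 c = c →
    ∀ n : ℕ, pullPic (L.schemeNsmul n) c = c ^ (n ^ 2)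

/-- The statement to be proved. -/
def TorsionCountProperty : Prop :=
  ∀ (A : Scheme.{u}) (f : A ⟶ KSpec K) (L : RelativeGroupLaw K f), L.IsCommutative →
    AbelianSchemePropertyBundle K f →
    ∀ (g : ℕ) [SmoothOfRelativeDimension g f] (n : ℕ), (n : K) ≠ 0 →
      Nat.card {x : SchemeHomOver (𝟙 (KSpec K)) f //
        L.IsTorsionPoint (𝟙 (KSpec K)) n x} = n ^ (2 * g)

end Fermat.Agent.AbVar
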