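import Fermat.Agent.AbVar.SeesawLocal
import Fermat.Agent.AbVar.Interfaces

/-! The seesaw principle. -/

set_option autoImplicit false
set_option linter.unusedSectionVars false

noncomputable section

open CategoryTheory CategoryTheory.Limits AlgebraicGeometry TopologicalSpace

universe u

namespace Fermat.Agent.AbVar

variable {K : Type u} [Field K]

theorem surjective_to_spec {S : Scheme.{u}} [IsIntegral S]
    (f : S ⟶ Spec (CommRingCat.of K)) : Surjective f :=
  ⟨fun y => ⟨genericPoint S, Subsingleton.elim (α := PrimeSpectrum K) _ y⟩⟩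

variable [IsAlgClosed K]
variable {X Z : Scheme.{u}} [X.Over (Spec (CommRingCat.of K))] [Z.Over (Spec (CommRingCat.of K))]
  [IsIntegral X] [IsIntegral Z] [IsIntegral (Pd K X Z)] [PdDominant K X Z]
  [IsProper (X ↘ Spec (CommRingCat.of K))] [LocallyOfFiniteType (Z ↘ Spec (CommRingCat.of K))]

theorem sliceX_pX (x : RatPt K X) :
    sliceX x ≫ pX K X Z = (Z ↘ Spec (CommRingCat.of K)) ≫ x.1 :=
  pullback.lift_fst _ _ _

theorem sliceX_pZ (x : RatPt K X) : sliceX x ≫ pZ K X Z = 𝟙 Z :=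
  pullback.lift_snd _ _ _

theorem pZ_sliceX (x : RatPt K X) (y : Z) : pZ K X Z (sliceX x y) = y := by
  rw [← Scheme.Hom.comp_apply, sliceX_pZ]
  rfl

theorem pullFun_sliceX_pullSnd (x : RatPt K X) (b : Z.functionField) :
    pullFun (sliceX x) (pullZ K X Z b) = b := by
  rw [pullZ_apply, ← pullFun_comp]
  · rw [sliceX_pZ, pullFun_id]
  · rw [sliceX_pZ]; exact mem_Reg_genericPoint b

/-- Units pulled back from the second factor. -/
def unitZ : (Z.functionField)ˣ →* ((Pd K X Z).functionField)ˣ :=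
  Units.map (pullZ K X Z : Z.functionField →* (Pd K X Z).functionField)

theorem unitZ_mem_unitsAt {b : (Z.functionField)ˣ} {p : (Pd K X Z)}
    (hb : b ∈ unitsAt (pZ K X Z p)) : unitZ (X := X) b ∈ unitsAt p := by
  refine ⟨pullFun_mem_Reg _ p hb.1, ?_⟩
  rw [← map_inv]
  exact pullFun_mem_Reg _ p hb.2

/-- A function that is a unit over an open set of `Z` and restricts to one on `{x} × Z` is one. -/
theorem eq_one_of_sliceX (x₀ : RatPt K X) {U : Z.Opens} (hU : (U : Set Z).Nonempty)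
    {r : ((Pd K X Z).functionField)ˣ} (hr : ∀ p, pZ K X Z p ∈ U → r ∈ unitsAt p)
    (h1 : pullFun (sliceX x₀) (r : (Pd K X Z).functionField) = 1) :
    (r : (Pd K X Z).functionField) = 1 := by
  by_contra hne
  have hd : (r : (Pd K X Z).functionField) - 1 ≠ 0 := sub_ne_zero.mpr hne
  obtain ⟨V, hV, hV'⟩ := exists_open_of_mem_Reg
    (mem_Reg_genericPoint ((r : (Pd K X Z).functionField) - 1)⁻¹)
  have := LocallyOfFiniteType.jacobsonSpace (Pd K X Z ↘ Spec (CommRingCat.of K))
  have hgU : pZ K X Z (genericPoint (Pd K X Z)) ∈ U := by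
    rw [PdDominant.snd_generic]
    exact ((genericPoint_spec Z).mem_open_set_iff U.isOpen).mpr (by simpa using hU)
  obtain ⟨q, ⟨hqV, hqU⟩, hqc⟩ := nonempty_inter_closedPoints
    (Z := (V : Set (Pd K X Z)) ∩ pZ K X Z ⁻¹' (U : Set Z)) ⟨_, hV, hgU⟩
    ((V.isOpen.isLocallyClosed).inter ((pZ K X Z ⁻¹ᵁ U).isOpen.isLocallyClosed))
  obtain ⟨x, z, rfl, hzq⟩ := exists_ratPt_of_closed hqc
  have hzU : z.pt ∈ U := by rw [hzq]; exact hqU
  have hreg : ∀ x' : X, (r : (Pd K X Z).functionField) ∈ Reg (sliceZ z x') :=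
    fun x' => (hr _ (by rwa [pZ_sliceZ])).1
  obtain ⟨a, ha⟩ := eq_algebraMap_of_forall_mem_Reg (K := K)
    (a := pullFun (sliceZ z) (r : (Pd K X Z).functionField))
    fun x' => pullFun_mem_Reg _ x' (hreg x')
  have ha1 : a = 1 := by
    have hr0 : (r : (Pd K X Z).functionField) ∈ Reg (sliceZ z x₀.pt) := hreg _
    have h2 : pullFun (x₀.1 ≫ sliceZ z) (r : (Pd K X Z).functionField) =
        pullFun (z.1 ≫ sliceX x₀) (r : (Pd K X Z).functionField) := by rw [sliceZ_pt_eq]
    have hm : (r : (Pd K X Z).functionField) ∈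
        Reg ((x₀.1 ≫ sliceZ z) (genericPoint (Spec (CommRingCat.of K) : Scheme.{u}))) := by
      rw [Scheme.Hom.comp_apply, x₀.apply_eq]; exact hr0
    rw [pullFun_comp _ _ hm, pullFun_comp _ _ (by rw [← sliceZ_pt_eq]; exact hm), h1, pullFun_one,
      ← ha, algebraMap_functionField, pullFun_baseMap x₀.1 _ _ x₀.2] at h2
    exact (baseMap_id_bijective (K := K)).1 (h2.trans (map_one _).symm)
  subst ha1
  rw [map_one] at ha
  have h3 := pullFun_mul (sliceZ z) (mem_Reg_of_apply _ x.pt (sub_mem (hreg x.pt) (one_mem _)))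
    (mem_Reg_of_apply _ x.pt (hV' _ hqV))
  have h4 : pullFun (sliceZ z) ((r : (Pd K X Z).functionField) - 1) = 0 := by
    have h5 := pullFun_add (sliceZ z)
      (mem_Reg_of_apply _ x.pt (sub_mem (hreg x.pt) (one_mem _)))
      (one_mem (Reg (sliceZ z (genericPoint X))))
    rw [sub_add_cancel, pullFun_one, ← ha] at h5
    exact right_eq_add.mp h5
  rw [mul_inv_cancel₀ hd, pullFun_one, h4, zero_mul] at h3
  exact one_ne_zero h3

theorem seesaw (h : CDiv (Pd K X Z)) (x₀ : RatPt K X)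
    (hslice : ∀ z : RatPt K Z, pullPic (sliceZ z) (cls h) = 1)
    (hx : pullPic (sliceX x₀) (cls h) = 1) : cls h = 1 := by
  obtain ⟨c₀, hc₀⟩ := cls_eq_one.mp hx
  set η₀ := sliceX (Z := Z) x₀ (genericPoint Z) with hη₀
  have hnorm : ∀ z : RatPt K Z, ∃ (U : Z.Opens) (f : ((Pd K X Z).functionField)ˣ), z.pt ∈ U ∧
      (∀ p, pZ K X Z p ∈ U → f * h.1 p ∈ unitsAt p) ∧
      pullFun (sliceX x₀) ((f * h.1 η₀ : ((Pd K X Z).functionField)ˣ) : (Pd K X Z).functionField) =
        ((c₀⁻¹ : (Z.functionField)ˣ) : Z.functionField) := by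
    intro z
    obtain ⟨U, f, hzU, hf⟩ := exists_local_trivialization h hslice z
    have hgU : genericPoint Z ∈ U :=
      ((genericPoint_spec Z).mem_open_set_iff U.isOpen).mpr ⟨z.pt, trivial, hzU⟩
    have hη : f * h.1 η₀ ∈ unitsAt η₀ := hf _ (by rw [hη₀, pZ_sliceX]; exact hgU)
    let u : (Z.functionField)ˣ := pullUnit (sliceX x₀) ⟨_, hη⟩ * c₀
    refine ⟨U, f / unitZ u, hzU, fun p hp => ?_, ?_⟩
    · have hy : sliceX x₀ (pZ K X Z p) ∈ pZ K X Z ⁻¹' (U : Set Z) := by
        show pZ K X Z (sliceX x₀ _) ∈ U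
        rw [pZ_sliceX]; exact hp
      have hfy := hf _ hy
      have hu : u ∈ unitsAt (pZ K X Z p) := by
        have h1 := pullUnit_mem_unitsAt (sliceX x₀) (pZ K X Z p)
          ⟨_, unitsAt_le_of_specializes
            ((genericPoint_specializes_to _).map (sliceX x₀).continuous) hfy⟩ hfy
        have h2 := hc₀ (pZ K X Z p)
        have h3 : u = pullUnit (sliceX x₀) ⟨_, unitsAt_le_of_specializes
            ((genericPoint_specializes_to _).map (sliceX x₀).continuous) hfy⟩ /
            ((pullDiv (sliceX x₀) h).1 (pZ K X Z p) / c₀) := by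
          rw [← div_mul, pullDiv_coe, pullGerm, ← map_div]
          show pullUnit _ _ * c₀ = _
          congr 2
          refine Subtype.ext ?_
          show f * h.1 η₀ = f * h.1 _ / (h.1 _ / h.1 η₀)
          rw [← div_mul, mul_div_assoc, div_self', mul_one]
        rw [h3]
        exact div_mem h1 h2
      rw [div_mul_eq_mul_div]
      exact div_mem (hf p hp) (unitZ_mem_unitsAt hu)
    · have hu' : (u : Z.functionField) ≠ 0 := Units.ne_zero u
      rw [div_mul_eq_mul_div, Units.val_div_eq_div_val, div_eq_mul_inv]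
      rw [pullFun_mul _ hη.1]
      · have h4 : ((unitZ (X := X) u : ((Pd K X Z).functionField)ˣ) : (Pd K X Z).functionField)⁻¹ =
            pullZ K X Z (u : Z.functionField)⁻¹ := (map_inv₀ (pullZ K X Z) _).symm
        rw [h4, pullFun_sliceX_pullSnd]
        simp only [u, Units.val_mul, pullUnit_coe, Units.val_inv_eq_inv_val]
        have h5 : pullFun (sliceX x₀) ((f : (Pd K X Z).functionField) * (h.1 η₀ : (Pd K X Z).functionField)) ≠ 0 := by
          intro h0
          refine Units.ne_zero (pullUnit (sliceX x₀) ⟨_, hη⟩) ?_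
          simpa using h0
        field_simp
      · have h4 : ((unitZ (X := X) u : ((Pd K X Z).functionField)ˣ) : (Pd K X Z).functionField)⁻¹ =
            pullZ K X Z (u : Z.functionField)⁻¹ := (map_inv₀ (pullZ K X Z) _).symm
        rw [h4]
        refine pullFun_mem_Reg _ _ ?_
        rw [pZ_sliceX]
        exact mem_Reg_genericPoint _
  choose U f hzU hf hfn using hnorm
  obtain ⟨z₁, -⟩ := exists_ratPt_mem (K := K) (Z := Z) (U := ⊤) ⟨genericPoint Z, trivial⟩
  have hall : ∀ z, f z = f z₁ := by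
    intro z
    have hgen : ∀ w, genericPoint Z ∈ U w := fun w =>
      ((genericPoint_spec Z).mem_open_set_iff (U w).isOpen).mpr ⟨w.pt, trivial, hzU w⟩
    have hr : ∀ p, pZ K X Z p ∈ U z ⊓ U z₁ → f z / f z₁ ∈ unitsAt p := fun p hp => by
      have := div_mem (hf z p hp.1) (hf z₁ p hp.2)
      rwa [mul_div_mul_right_eq_div] at this
    refine div_eq_one.mp (Units.ext (eq_one_of_sliceX x₀ (U := U z ⊓ U z₁) ⟨genericPoint Z, hgen z, hgen z₁⟩ hr ?_))
    have hη : pZ K X Z η₀ ∈ U z ⊓ U z₁ := by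
      rw [hη₀, pZ_sliceX]; exact ⟨hgen z, hgen z₁⟩
    have key := pullFun_mul (sliceX x₀) (hr η₀ hη).1 (hf z₁ η₀ hη.2).1
    rw [← Units.val_mul, ← mul_assoc, div_mul_cancel, hfn, hfn] at key
    exact (mul_eq_right₀ (Units.ne_zero (c₀⁻¹))).mp key.symm
  refine cls_eq_one.mpr ⟨(f z₁)⁻¹, fun p => ?_⟩
  rw [div_inv_eq_mul, mul_comm]
  refine mem_unitsAt_of_closed h (U := ⊤) _ (fun q hq _ => ?_) trivial
  obtain ⟨x, z, rfl, hzq⟩ := exists_ratPt_of_closed hq
  rw [← hall z]
  exact hf z _ (hzq ▸ hzU z)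

theorem seesawProperty : SeesawProperty K := by
  intro X Z fX fZ _ _ _ _ _ _ c x₀ hs hx
  let : X.Over (Spec (CommRingCat.of K)) := ⟨fX⟩
  let : Z.Over (Spec (CommRingCat.of K)) := ⟨fZ⟩
  have : IsIntegral (Pd K X Z) := ‹IsIntegral (pullback fX fZ)›
  have : Surjective (X ↘ Spec (CommRingCat.of K)) := surjective_to_spec _
  have : Surjective (Z ↘ Spec (CommRingCat.of K)) := surjective_to_spec _
  have : IsProper (X ↘ Spec (CommRingCat.of K)) := ‹IsProper fX›
  have : LocallyOfFiniteType (Z ↘ Spec (CommRingCat.of K)) := ‹LocallyOfFiniteType fZ›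
  induction c using QuotientGroup.induction_on with
  | H h =>
    have : PdDominant K X Z := pdDominant
    exact seesaw (X := X) (Z := Z) h x₀ hs hx

end Fermat.Agent.AbVar
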