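import Fermat.Agent.AbVar.CubeLift
import Fermat.Agent.AbVar.Kunneth
import Fermat.Agent.AbVar.Seesaw

/-! The infinitesimal theorem of the cube. -/

set_option autoImplicit false
set_option linter.unusedSectionVars false

noncomputable section

open CategoryTheory CategoryTheory.Limits AlgebraicGeometry TopologicalSpace
open scoped TensorProduct

universe u

namespace Fermat.Agent.AbVar

variable {K : Type u} [Field K] [IsAlgClosed K]

section Axes

variable {Y Y' : Scheme.{u}} [Y.Over (Spec (CommRingCat.of K))] [Y'.Over (Spec (CommRingCat.of K))]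

theorem isAffineHom_sliceZ [IsSeparated (Y' ↘ Spec (CommRingCat.of K))] (y : RatPt K Y') :
    IsAffineHom (sliceZ (X := Y) y) := by
  have : IsClosedImmersion (sliceZ (X := Y) y ≫ pX K Y Y') := by
    rw [sliceZ_pX]; infer_instance
  have := IsClosedImmersion.of_comp (sliceZ (X := Y) y) (pX K Y Y')
  infer_instance

theorem isAffineHom_sliceX [IsSeparated (Y ↘ Spec (CommRingCat.of K))] (y : RatPt K Y) :
    IsAffineHom (sliceX (Z := Y') y) := by
  have : IsClosedImmersion (sliceX (Z := Y') y ≫ pZ K Y Y') := by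
    rw [sliceX, pullback.lift_snd]; infer_instance
  have := IsClosedImmersion.of_comp (sliceX (Z := Y') y) (pZ K Y Y')
  infer_instance

theorem sliceX_over (y : RatPt K Y) :
    sliceX (Z := Y') y ≫ (Pd K Y Y' ↘ Spec (CommRingCat.of K)) =
      (Y' ↘ Spec (CommRingCat.of K)) := by
  show sliceX y ≫ pX K Y Y' ≫ _ = _
  rw [sliceX, pullback.lift_fst_assoc, Category.assoc, y.2, Category.comp_id]

theorem sliceX_mem_rect (y : RatPt K Y) {A : Y.Opens} {A' : Y'.Opens} {x : Y'} (hx : x ∈ A')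
    (hy : y.pt ∈ A) : sliceX y x ∈ rect K A A' := by
  refine ⟨?_, ?_⟩
  · show pX K Y Y' (sliceX y x) ∈ A
    rw [← Scheme.Hom.comp_apply, sliceX, pullback.lift_fst, Scheme.Hom.comp_apply, y.apply_eq]
    exact hy
  · show pZ K Y Y' (sliceX y x) ∈ A'
    rw [← Scheme.Hom.comp_apply, sliceX, pullback.lift_snd]
    exact hx

end Axes

variable {Y Y' Z : Scheme.{u}} [Y.Over (Spec (CommRingCat.of K))]
  [Y'.Over (Spec (CommRingCat.of K))] [Z.Over (Spec (CommRingCat.of K))] [IsIntegral Y]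
  [IsIntegral Y'] [IsIntegral Z] [IsProper (Y ↘ Spec (CommRingCat.of K))]
  [IsProper (Y' ↘ Spec (CommRingCat.of K))] [LocallyOfFiniteType (Z ↘ Spec (CommRingCat.of K))]
  [IsIntegral (Pd K Y Y')] [IsIntegral (Pd K Y Z)] [IsIntegral (Pd K Y' Z)]
  [IsIntegral (Pd K (Pd K Y Y') Z)]
  [PdDominant K Y Y'] [PdDominant K Y Z] [PdDominant K Y' Z] [PdDominant K (Pd K Y Y') Z]

theorem Chart.obstr_coboundary {h : CDiv (Pd K (Pd K Y Y') Z)} {U : Z.Opens} (C : Chart h U)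
    (z₀ : RatPt K Z) (hz : z₀.pt ∈ U) (c : ((Pd K Y Y').functionField)ˣ)
    (hc : ∀ x, (sliceDiv h z₀).1 x / c ∈ unitsAt x) (y₀ : RatPt K Y) (y₀' : RatPt K Y')
    (h1 : pullPic (axisFst y₀) (cls h) = 1) (h2 : pullPic (axisSnd y₀') (cls h) = 1)
    {ι ι' : Type u} [Fintype ι] [Fintype ι'] (A : ι → Y.Opens) (A' : ι' → Y'.Opens)
    (hA : ∀ a, IsAffineOpen (A a)) (hA' : ∀ a, IsAffineOpen (A' a))
    (hA0 : ∀ a, (A a : Set Y).Nonempty) (hA0' : ∀ a, (A' a : Set Y').Nonempty)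
    (hcov : ∀ y, ∃ a, y ∈ A a) (hcov' : ∀ y, ∃ a, y ∈ A' a)
    (e : C.ι ≃ ι × ι') (hW : ∀ i, C.W i = rect K (A (e i).1) (A' (e i).2))
    {k : ℕ} {S : C.ι → (Pd K (Pd K Y Y') Z).functionField}
    (hS : C.IsApproxSec z₀ hz c k S) (ℓ : LevelBasis K (RegOn K U) (ptIdeal z₀ U hz) k) (β : ℓ.β) :
    ∃ b : C.ι → (Pd K Y Y').functionField, (∀ i, b i ∈ RegOn K (C.W i)) ∧
      ∀ i j, compo U (ℓ.μ β) (C.obstr z₀ c S i j) = b i - b j := by
  let cc : ι × ι' → ι × ι' → (Pd K Y Y').functionField :=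
    fun p q => compo U (ℓ.μ β) (C.obstr z₀ c S (e.symm p) (e.symm q))
  have hWp : ∀ p, C.W (e.symm p) = rect K (A p.1) (A' p.2) := fun p => by
    rw [hW, e.apply_symm_apply]
  have hcc : ∀ p q, cc p q ∈ RegOn K (rect K (A p.1) (A' p.2) ⊓ rect K (A q.1) (A' q.2)) :=
    fun p q => by
    rw [← hWp, ← hWp]
    exact compo_mem C.neU _ (C.obstr_mem z₀ hz c hc hS _ _)
  have hτ : ∀ i l, C.invStart z₀ c i * C.ψ i l ∈ RegOn K (rect K (C.W i) U) :=
    fun i l p hp => (C.invStart_ψ z₀ hz c hc i i l).1 p ⟨⟨hp.1, hp.1⟩, hp.2⟩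
  have hττ : ∀ i j l, (C.invStart z₀ c i - C.invStart z₀ c j) * C.ψ i l ∈
      Mk K (C.W i ⊓ C.W j) U (ptIdeal z₀ U hz) := fun i j l =>
    C.invStart_sub_mem z₀ hz c hc i j l
  have hgen : ∀ {S : Scheme.{u}} [IsIntegral S] {V : S.Opens}, (V : Set S).Nonempty →
      genericPoint S ∈ V := fun {S} _ {V} hV =>
    ((genericPoint_spec S).mem_open_set_iff V.isOpen).mpr (by simpa using hV)
  have hax1 : ∃ b : ι × ι' → Y.functionField,
      (∀ p, y₀'.pt ∈ A' p.2 → b p ∈ RegOn K (A p.1)) ∧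
      ∀ p q, y₀'.pt ∈ A' p.2 → y₀'.pt ∈ A' q.2 →
        pullFun (sliceZ y₀') (cc p q) = b p - b q := by
    have := isAffineHom_sliceZ (K := K) (Y := Y) y₀'
    obtain ⟨b, hb, hbd⟩ := C.axis_coboundary (X' := Y) (sliceZ y₀') (sliceZ_over y₀') h2 z₀ hz ℓ S
      (C.invStart z₀ c) hS.regular hτ hS.agree hττ β
    have hmem : ∀ p : ι × ι', y₀'.pt ∈ A' p.2 → ∀ y ∈ A p.1,
        sliceZ y₀' y ∈ C.W (e.symm p) := fun p hp y hy => by
      rw [hWp]; exact sliceZ_mem_rect y₀' hy hp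
    exact ⟨fun p => b (e.symm p),
      fun p hp => RegOn_anti (fun y hy => hmem p hp y hy) (hb _ (hmem p hp _ (hgen (hA0 _)))),
      fun p q hp hq => hbd _ _ (hmem p hp _ (hgen (hA0 _))) (hmem q hq _ (hgen (hA0 _)))⟩
  have hax2 : ∃ b : ι × ι' → Y'.functionField,
      (∀ p, y₀.pt ∈ A p.1 → b p ∈ RegOn K (A' p.2)) ∧
      ∀ p q, y₀.pt ∈ A p.1 → y₀.pt ∈ A q.1 →
        pullFun (sliceX y₀) (cc p q) = b p - b q := by
    have := isAffineHom_sliceX (K := K) (Y' := Y') y₀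
    obtain ⟨b, hb, hbd⟩ := C.axis_coboundary (X' := Y') (sliceX y₀) (sliceX_over y₀) h1 z₀ hz ℓ S
      (C.invStart z₀ c) hS.regular hτ hS.agree hττ β
    have hmem : ∀ p : ι × ι', y₀.pt ∈ A p.1 → ∀ y ∈ A' p.2,
        sliceX y₀ y ∈ C.W (e.symm p) := fun p hp y hy => by
      rw [hWp]; exact sliceX_mem_rect y₀ hy hp
    exact ⟨fun p => b (e.symm p),
      fun p hp => RegOn_anti (fun y hy => hmem p hp y hy) (hb _ (hmem p hp _ (hgen (hA0' _)))),
      fun p q hp hq => hbd _ _ (hmem p hp _ (hgen (hA0' _))) (hmem q hq _ (hgen (hA0' _)))⟩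
  obtain ⟨b, hb, hbd⟩ := kunnethProperty K Y Y' y₀ y₀' ι ι' A A' hA hA' hA0 hA0' hcov hcov' cc hcc
    (fun p q s => C.compo_obstr_cocycle z₀ hz c hc hS ℓ β _ _ _) hax1 hax2
  refine ⟨fun i => b (e i), fun i => by rw [hW]; exact hb (e i), fun i j => ?_⟩
  have := hbd (e i) (e j)
  simpa only [cc, Equiv.symm_apply_apply] using this

theorem cubeFormalProperty : CubeFormalProperty K := by
  intro Y Y' Z _ _ _ _ _ _ _ _ _ _ _ _ _ _ _ _ _ _ h y₀ y₀' z₀ g0 g1 g2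
  obtain ⟨c, hc⟩ := cls_eq_one.mp g0
  obtain ⟨_, ⟨U, hU, rfl⟩, hzU, -⟩ :=
    Z.isBasis_affineOpens.exists_subset_of_mem_open (Set.mem_univ z₀.pt) isOpen_univ
  have : CompactSpace Y :=
    QuasiCompact.compactSpace_of_compactSpace (Y ↘ Spec (CommRingCat.of K))
  have : CompactSpace Y' :=
    QuasiCompact.compactSpace_of_compactSpace (Y' ↘ Spec (CommRingCat.of K))
  obtain ⟨ι, _, A, hA, hA0, hcov⟩ := exists_finite_affine_cover Y
  obtain ⟨ι', _, A', hA', hA0', hcov'⟩ := exists_finite_affine_cover Y'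
  obtain ⟨C, he, hW⟩ := exists_chart h hU ⟨_, hzU⟩ (ι × ι') (fun p => rect K (A p.1) (A' p.2))
    (fun p => isAffineOpen_prodRect _ _ (hA p.1) (hA' p.2))
    (fun p => by
      obtain ⟨q, hq, hq'⟩ := exists_point_over (Y ↘ Spec (CommRingCat.of K))
        (Y' ↘ Spec (CommRingCat.of K)) (hA0 p.1).some (hA0' p.2).some
      exact ⟨q, by show pX K Y Y' q ∈ A p.1; rw [hq]; exact (hA0 p.1).some_mem,
        by show pZ K Y Y' q ∈ A' p.2; rw [hq']; exact (hA0' p.2).some_mem⟩)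
    (fun x => by
      obtain ⟨a, ha⟩ := hcov (pX K Y Y' x)
      obtain ⟨a', ha'⟩ := hcov' (pZ K Y Y' x)
      exact ⟨(a, a'), ha, ha'⟩)
  have hstep : ∀ k, 1 ≤ k → ∃ S, C.IsApproxSec z₀ hzU c k S := by
    intro k hk
    induction k, hk using Nat.le_induction with
    | base => exact ⟨_, C.isApproxSec_one z₀ hzU c hc⟩
    | succ k hk ih =>
      obtain ⟨S, hS⟩ := ih
      obtain ⟨ℓ⟩ := exists_levelBasis K (ptIdeal z₀ U hzU) k
      exact C.exists_approxSec_succ z₀ hzU c hc (by omega) hS ℓ fun β =>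
        C.obstr_coboundary z₀ hzU c hc y₀ y₀' g1 g2 A A' hA hA' hA0 hA0' hcov hcov'
          (Equiv.cast he) hW hS ℓ β
  refine ⟨U, hzU, C, fun k => ?_⟩
  rcases k with _ | k
  · obtain ⟨S, hS⟩ := hstep 1 le_rfl
    obtain ⟨x, -, hx⟩ := C.exists_formal_kernel z₀ hzU c hc one_ne_zero hS
    exact ⟨x, fun l => by rw [pow_zero, Ideal.one_eq_top]; exact Submodule.mem_top, hx⟩
  · obtain ⟨S, hS⟩ := hstep (k + 1) (by omega)
    exact C.exists_formal_kernel z₀ hzU c hc (Nat.succ_ne_zero k) hS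

end Fermat.Agent.AbVar
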