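import Fermat.Agent.AbVar.Seesaw

/-! The theorem of the cube on an open set of the third factor, from its infinitesimal form. -/

set_option autoImplicit false
set_option linter.unusedSectionVars false

noncomputable section

open CategoryTheory CategoryTheory.Limits AlgebraicGeometry TopologicalSpace

universe u

namespace Fermat.Agent.AbVar

variable {K : Type u} [Field K] [IsAlgClosed K]
variable {X Z : Scheme.{u}} [X.Over (Spec (CommRingCat.of K))] [Z.Over (Spec (CommRingCat.of K))]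
  [IsIntegral X] [IsIntegral Z] [IsIntegral (Pd K X Z)] [PdDominant K X Z]
  [IsProper (X ↘ Spec (CommRingCat.of K))] [LocallyOfFiniteType (Z ↘ Spec (CommRingCat.of K))]

theorem Chart.exists_open_sol {h : CDiv (Pd K X Z)} {U : Z.Opens} (C : Chart h U) (z₀ : RatPt K Z)
    (hz₀ : z₀.pt ∈ U)
    (hform : ∀ k : ℕ, ∃ x : C.glue.Col → RegOn K U,
      (∀ l, ∑ c, C.glue.mat l c * x c ∈ RingHom.ker (evalAt z₀ U hz₀).toRingHom ^ k) ∧
      ∃ c, evalAt z₀ U hz₀ (x c) ≠ 0) :
    ∃ V : Z.Opens, (V : Set Z).Nonempty ∧ ∀ (z : RatPt K Z) (hz : z.pt ∈ U), z.pt ∈ V →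
      ∃ v, v ≠ 0 ∧ C.Ker z hz v := by
  classical
  let m := RingHom.ker (evalAt z₀ U hz₀).toRingHom
  have : m.IsMaximal := RingHom.ker_isMaximal_of_surjective _
    fun c => ⟨algebraMap K _ c, (evalAt z₀ U hz₀).commutes c⟩
  have : Nonempty U := C.neU.to_subtype
  have := finiteType_RegOn (K := K) C.affU
  have : IsNoetherianRing (RegOn K U) := Algebra.FiniteType.isNoetherianRing K _
  let e := Fintype.equivFin C.glue.Col
  obtain ⟨x, hx0, hx⟩ := exists_kernel_of_formal m (fun b hb => by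
      have h0 : b ∈ (⨅ k : ℕ, m ^ k) := (Submodule.mem_iInf _).mpr hb
      rwa [Ideal.iInf_pow_eq_bot_of_isDomain m (Ideal.IsPrime.ne_top inferInstance),
        Submodule.mem_bot] at h0)
    (fun (l : C.glue.Row) c => C.glue.mat l (e.symm c))
    (fun k => by
      obtain ⟨x, hx, c, hc⟩ := hform k
      refine ⟨x ∘ e.symm, fun l => ?_, e c, fun hm => hc ?_⟩
      · simp only [dotProduct, Function.comp_apply]
        rw [e.symm.sum_comp fun c => C.glue.mat l c * x c]
        exact hx l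
      · simpa [m] using hm)
  obtain ⟨c₀, hc₀⟩ := Function.ne_iff.mp hx0
  let y : C.glue.Col → RegOn K U := x ∘ e
  have hy : ∀ l, ∑ c, C.glue.mat l c * y c = 0 := fun l => by
    refine (e.symm.sum_comp fun c => C.glue.mat l c * y c).symm.trans ?_
    simpa [dotProduct, y] using hx l
  have hy0 : (y (e.symm c₀) : Z.functionField) ≠ 0 := by
    simpa [y] using hc₀
  obtain ⟨V, hV, hV'⟩ := exists_open_of_mem_Reg
    (mem_Reg_genericPoint (y (e.symm c₀) : Z.functionField)⁻¹)
  refine ⟨V, ⟨_, hV⟩, fun z hz hzV => ⟨fun c => evalAt z U hz (y c), fun h0 => ?_, fun l => ?_⟩⟩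
  · have h1 := valAt_mul z ((y (e.symm c₀)).2 _ hz) (hV' _ hzV)
    have h2 : valAt z (y (e.symm c₀) : Z.functionField) = 0 := congrFun h0 (e.symm c₀)
    have h3 := valAt_algebraMap z (1 : K)
    rw [mul_inv_cancel₀ hy0, h2, zero_mul] at h1
    rw [map_one, h1] at h3
    exact zero_ne_one h3
  · simp only [← map_mul, ← map_sum, hy l, map_zero]

theorem cubeGenericProperty (hF : CubeFormalProperty K) : CubeGenericProperty K := by
  intro Y Y' Z fY fY' fZ _ _ _ _ _ _ _ _ _ _ _ c y₀ y₀' z₀ h0 h1 h2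
  let : Y.Over (Spec (CommRingCat.of K)) := ⟨fY⟩
  let : Y'.Over (Spec (CommRingCat.of K)) := ⟨fY'⟩
  let : Z.Over (Spec (CommRingCat.of K)) := ⟨fZ⟩
  have : IsIntegral (Pd K Y Y') := ‹IsIntegral (pullback fY fY')›
  have : IsIntegral (Pd K Y Z) := ‹IsIntegral (pullback fY fZ)›
  have : IsIntegral (Pd K Y' Z) := ‹IsIntegral (pullback fY' fZ)›
  have : IsIntegral (Pd K (Pd K Y Y') Z) :=
    ‹IsIntegral (pullback (pullback.fst fY fY' ≫ fY) fZ)›
  have : Surjective (Y ↘ Spec (CommRingCat.of K)) := surjective_to_spec _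
  have : Surjective (Y' ↘ Spec (CommRingCat.of K)) := surjective_to_spec _
  have : Surjective (Z ↘ Spec (CommRingCat.of K)) := surjective_to_spec _
  have : Surjective (Pd K Y Y' ↘ Spec (CommRingCat.of K)) := surjective_to_spec _
  have : PdDominant K Y Y' := pdDominant
  have : PdDominant K Y Z := pdDominant
  have : PdDominant K Y' Z := pdDominant
  have : PdDominant K (Pd K Y Y') Z := pdDominant
  have : IsProper (Y ↘ Spec (CommRingCat.of K)) := ‹IsProper fY›
  have : IsProper (Y' ↘ Spec (CommRingCat.of K)) := ‹IsProper fY'›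
  have : IsSeparated (Z ↘ Spec (CommRingCat.of K)) := ‹IsSeparated fZ›
  have : LocallyOfFiniteType (Z ↘ Spec (CommRingCat.of K)) := ‹LocallyOfFiniteType fZ›
  induction c using QuotientGroup.induction_on with
  | H h =>
    have e1 : axisFst (K := K) (Y := Y) (Y' := Y') (Z := Z) y₀ =
        pullback.map fY' fZ (pullback.fst fY fY' ≫ fY) fZ (sliceFrom fY fY' y₀) (𝟙 Z) (𝟙 _)
          (by rw [Category.comp_id]; exact (sliceFrom_over fY fY' y₀).symm) (by simp) := by
      refine pullback.hom_ext ?_ ?_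
      · exact (pullback.lift_fst _ _ _).trans (pullback.lift_fst _ _ _).symm
      · exact ((pullback.lift_snd _ _ _).trans (Category.comp_id _).symm).trans
          (pullback.lift_snd _ _ _).symm
    have e2 : axisSnd (K := K) (Y := Y) (Y' := Y') (Z := Z) y₀' =
        pullback.map fY fZ (pullback.fst fY fY' ≫ fY) fZ (sliceAt fY fY' y₀') (𝟙 Z) (𝟙 _)
          (by rw [Category.comp_id]; exact (sliceAt_over fY fY' y₀').symm) (by simp) := by
      refine pullback.hom_ext ?_ ?_
      · exact (pullback.lift_fst _ _ _).trans (pullback.lift_fst _ _ _).symm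
      · exact ((pullback.lift_snd _ _ _).trans (Category.comp_id _).symm).trans
          (pullback.lift_snd _ _ _).symm
    have e0 : ∀ z : RatPt K Z, sliceZ (X := Pd K Y Y') z =
        sliceAt (pullback.fst fY fY' ≫ fY) fZ z := fun z => by
      refine pullback.hom_ext ?_ ?_
      · exact (pullback.lift_fst _ _ _).trans (pullback.lift_fst _ _ _).symm
      · exact (pullback.lift_snd _ _ _).trans (pullback.lift_snd _ _ _).symm
    let h' : CDiv (Pd K (Pd K Y Y') Z) := h
    have g0 : pullPic (sliceZ z₀) (cls h') = 1 :=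
      (congrArg (fun φ => pullPic φ (cls h')) (e0 z₀)).trans h0
    have g1 : pullPic (axisFst y₀) (cls h') = 1 :=
      (congrArg (fun φ => pullPic φ (cls h')) e1).trans h1
    have g2 : pullPic (axisSnd y₀') (cls h') = 1 :=
      (congrArg (fun φ => pullPic φ (cls h')) e2).trans h2
    have hinv : cls h'⁻¹ = (cls h')⁻¹ := map_inv _ h'
    obtain ⟨U, hz, C, hC⟩ := hF Y Y' Z h' y₀ y₀' z₀ g0 g1 g2
    obtain ⟨U', hz', C', hC'⟩ := hF Y Y' Z h'⁻¹ y₀ y₀' z₀
      (by rw [hinv, map_inv, g0, inv_one]) (by rw [hinv, map_inv, g1, inv_one])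
      (by rw [hinv, map_inv, g2, inv_one])
    obtain ⟨V, hV, hVsol⟩ := C.exists_open_sol z₀ hz hC
    obtain ⟨V', hV', hVsol'⟩ := C'.exists_open_sol z₀ hz' hC'
    refine ⟨(U ⊓ U') ⊓ (V ⊓ V'), inf_nonempty (inf_nonempty C.neU C'.neU) (inf_nonempty hV hV'),
      fun z hzm => ?_⟩
    obtain ⟨⟨hzU, hzU'⟩, hzV, hzV'⟩ := hzm
    obtain ⟨v, hv0, hv⟩ := hVsol z hzU hzV
    obtain ⟨v', hv0', hv'⟩ := hVsol' z hzU' hzV'
    have g := C.trivial_of_sols C' hzU hzU' hv hv0 hv' hv0'
    exact (congrArg (fun φ => pullPic φ (cls h')) (e0 z)).symm.trans g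

end Fermat.Agent.AbVar
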