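import Fermat.Agent.AbVar.CubeField

/-! A family of functions agreeing modulo an ideal on overlaps agrees with a function of the
parameter alone, on a proper variety. -/

set_option autoImplicit false
set_option linter.unusedSectionVars false

noncomputable section

open CategoryTheory CategoryTheory.Limits AlgebraicGeometry TopologicalSpace
open scoped TensorProduct

universe u

namespace Fermat.Agent.AbVar

section Val

variable {K : Type u} [Field K] {X : Scheme.{u}} [X.Over (Spec (CommRingCat.of K))] [IsIntegral X]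
  {Q : Type u} [CommRing Q] [Algebra K Q]

/-- Tensors over a ring of regular functions as tensors over the function field. -/
def valTensor (V : X.Opens) (Q : Type u) [CommRing Q] [Algebra K Q] :
    RegOn K V ⊗[K] Q →ₐ[K] X.functionField ⊗[K] Q :=
  Algebra.TensorProduct.map (RegOn K V).val (AlgHom.id K Q)

theorem valTensor_inclusion {V V' : X.Opens} (hV : RegOn K V ≤ RegOn K V')
    (q : RegOn K V ⊗[K] Q) :
    valTensor V' Q (Algebra.TensorProduct.map (Subalgebra.inclusion hV) (AlgHom.id K Q) q) =
      valTensor V Q q := by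
  induction q using TensorProduct.induction_on with
  | zero => simp
  | tmul a c => rfl
  | add x y hx hy => simp only [map_add, hx, hy]

open scoped Classical in
theorem coord_valTensor {β : Type u} (b : Module.Basis β K Q) (V : X.Opens)
    (s : RegOn K V ⊗[K] Q) (n : β) :
    TensorProduct.equivFinsuppOfBasisRight b (valTensor V Q s) n =
      ((TensorProduct.equivFinsuppOfBasisRight b s n : RegOn K V) : X.functionField) := by
  induction s using TensorProduct.induction_on with
  | zero => simp
  | tmul a c => simp [valTensor]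
  | add x y hx hy => simp only [map_add, Finsupp.add_apply, hx, hy, AddMemClass.coe_add]

theorem valTensor_injective (V : X.Opens) : Function.Injective (valTensor (K := K) V Q) := by
  classical
  intro p q h
  let b := Module.Free.chooseBasis K Q
  refine (TensorProduct.equivFinsuppOfBasisRight b).injective (Finsupp.ext fun n => Subtype.ext ?_)
  rw [← coord_valTensor, ← coord_valTensor, h]

theorem exists_eq_one_tmul [IsAlgClosed K] [IsProper (X ↘ Spec (CommRingCat.of K))]
    (θ : X.functionField ⊗[K] Q)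
    (hθ : ∀ x, ∃ (V : X.Opens) (_ : x ∈ V) (s : RegOn K V ⊗[K] Q), valTensor V Q s = θ) :
    ∃ q : Q, θ = (1 : X.functionField) ⊗ₜ q := by
  classical
  let b := Module.Free.chooseBasis K Q
  have hconst : ∀ n, ∃ c : K, algebraMap K X.functionField c =
      TensorProduct.equivFinsuppOfBasisRight b θ n := fun n =>
    eq_algebraMap_of_forall_mem_Reg fun x => by
      obtain ⟨V, hV, s, rfl⟩ := hθ x
      rw [coord_valTensor]
      exact (TensorProduct.equivFinsuppOfBasisRight b s n).2 x hV
  choose c hc using hconst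
  refine ⟨∑ n ∈ (TensorProduct.equivFinsuppOfBasisRight b θ).support, c n • b n, ?_⟩
  conv_lhs => rw [← (TensorProduct.equivFinsuppOfBasisRight b).symm_apply_apply θ,
    TensorProduct.equivFinsuppOfBasisRight_symm_apply, Finsupp.sum]
  rw [TensorProduct.tmul_sum]
  refine Finset.sum_congr rfl fun n _ => ?_
  rw [← hc, Algebra.algebraMap_eq_smul_one, TensorProduct.smul_tmul]

end Val

variable {K : Type u} [Field K] [IsAlgClosed K] {X Z : Scheme.{u}}
  [X.Over (Spec (CommRingCat.of K))] [Z.Over (Spec (CommRingCat.of K))] [IsIntegral X]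
  [IsIntegral Z] [IsIntegral (Pd K X Z)] [PdDominant K X Z]
  [IsProper (X ↘ Spec (CommRingCat.of K))] [LocallyOfFiniteType (Z ↘ Spec (CommRingCat.of K))]

theorem valTensor_red_eq {V V' : X.Opens} (hV : (V : Set X).Nonempty)
    (hV' : (V' : Set X).Nonempty) {U : Z.Opens} (hU0 : (U : Set Z).Nonempty)
    {J : Ideal (RegOn K U)} (t : RegOn K V ⊗[K] RegOn K U) (t' : RegOn K V' ⊗[K] RegOn K U)
    (h : mu K V U t - mu K V' U t' ∈ Mk K (V ⊓ V') U J) :
    valTensor V _ (redCoeff (RegOn K V) J t) = valTensor V' _ (redCoeff (RegOn K V') J t') := by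
  obtain ⟨s, hs, hs'⟩ := mem_Mk.mp h
  have h1 : mu K (V ⊓ V') U
      (Algebra.TensorProduct.map (Subalgebra.inclusion (RegOn_anti inf_le_left)) (AlgHom.id K _) t -
        Algebra.TensorProduct.map (Subalgebra.inclusion (RegOn_anti inf_le_right)) (AlgHom.id K _) t') =
      mu K (V ⊓ V') U s := by
    rw [map_sub, mu_map_inclusion, mu_map_inclusion, hs']
  have h2 := mu_injective _ (inf_nonempty hV hV') U hU0 h1
  rw [← h2, mem_smallSub_iff, map_sub, redCoeff_natural, redCoeff_natural, sub_eq_zero] at hs
  have h3 := congrArg (valTensor (V ⊓ V') (RegOn K U ⧸ J)) hs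
  rwa [valTensor_inclusion, valTensor_inclusion] at h3

/-- A family of functions agreeing modulo `J` on overlaps agrees modulo `J` with a function on
`U`. -/
theorem exists_global_mod {ι : Type u} {W : ι → X.Opens} (hW : ∀ i, IsAffineOpen (W i))
    (hW0 : ∀ i, (W i : Set X).Nonempty) (hcov : ∀ x, ∃ i, x ∈ W i) {U : Z.Opens}
    (hU : IsAffineOpen U) (hU0 : (U : Set Z).Nonempty) {J : Ideal (RegOn K U)}
    {w : ι → (Pd K X Z).functionField} (hw : ∀ i, w i ∈ RegOn K (rect K (W i) U))
    (hd : ∀ i j, w i - w j ∈ Mk K (W i ⊓ W j) U J) :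
    ∃ w₀ : RegOn K U, ∀ i, w i - pullZ K X Z (w₀ : Z.functionField) ∈ Mk K (W i) U J := by
  obtain ⟨i₀, -⟩ := hcov (genericPoint X)
  choose t ht using fun i => rectangleSurjective K X Z (W i) U (hW i) hU (hW0 i) hU0 (hw i)
  have ht' : ∀ i, mu K (W i) U (t i) = w i := ht
  have hθeq : ∀ i j, valTensor (W i) _ (redCoeff (RegOn K (W i)) J (t i)) =
      valTensor (W j) _ (redCoeff (RegOn K (W j)) J (t j)) := fun i j =>
    valTensor_red_eq (hW0 i) (hW0 j) hU0 (t i) (t j) (by rw [ht', ht']; exact hd i j)
  obtain ⟨q, hq⟩ := exists_eq_one_tmul (valTensor (W i₀) _ (redCoeff (RegOn K (W i₀)) J (t i₀)))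
    fun x => let ⟨i, hi⟩ := hcov x; ⟨W i, hi, _, hθeq i i₀⟩
  obtain ⟨w₀, rfl⟩ := Ideal.Quotient.mk_surjective q
  refine ⟨w₀, fun i => mem_Mk.mpr ⟨t i - (1 : RegOn K (W i)) ⊗ₜ w₀, ?_, ?_⟩⟩
  · rw [mem_smallSub_iff, map_sub, sub_eq_zero]
    refine valTensor_injective (W i) ?_
    rw [hθeq i i₀, hq]
    simp [redCoeff, valTensor]
  · rw [map_sub, mu_tmul, ht']
    simp

end Fermat.Agent.AbVar
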