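import Fermat.Agent.AbVar.Eval

/-! Statement of the injectivity `H¹(Y × Y', O) → H¹(Y, O) × H¹(Y', O)` on rectangle covers. -/

set_option autoImplicit false

noncomputable section

open CategoryTheory CategoryTheory.Limits AlgebraicGeometry TopologicalSpace

universe u

namespace Fermat.Agent.AbVar

variable {K : Type u} [Field K] {X Z : Scheme.{u}} [X.Over (Spec (CommRingCat.of K))]
  [Z.Over (Spec (CommRingCat.of K))]

/-- The slice `{x} × Z`. -/
def sliceX (x : RatPt K X) : Z ⟶ Pd K X Z :=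
  pullback.lift ((Z ↘ Spec (CommRingCat.of K)) ≫ x.1) (𝟙 Z) (by simp [x.2])

variable (K) in
/-- An additive cocycle on a rectangle cover that is a coboundary on both axes is a coboundary. -/
def KunnethProperty : Prop :=
  ∀ (Y Y' : Scheme.{u}) [Y.Over (Spec (CommRingCat.of K))] [Y'.Over (Spec (CommRingCat.of K))]
    [IsProper (Y ↘ Spec (CommRingCat.of K))] [IsProper (Y' ↘ Spec (CommRingCat.of K))]
    [IsIntegral Y] [IsIntegral Y'] [IsIntegral (Pd K Y Y')] [PdDominant K Y Y']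
    (y₀ : RatPt K Y) (y₀' : RatPt K Y') (ι ι' : Type u) [Fintype ι] [Fintype ι']
    (W : ι → Y.Opens) (W' : ι' → Y'.Opens),
    (∀ a, IsAffineOpen (W a)) → (∀ a, IsAffineOpen (W' a)) →
    (∀ a, (W a : Set Y).Nonempty) → (∀ a, (W' a : Set Y').Nonempty) →
    (∀ y, ∃ a, y ∈ W a) → (∀ y, ∃ a, y ∈ W' a) →
    ∀ c : ι × ι' → ι × ι' → (Pd K Y Y').functionField,
    (∀ p q, c p q ∈ RegOn K (rect K (W p.1) (W' p.2) ⊓ rect K (W q.1) (W' q.2))) →
    (∀ p q s, c p s = c p q + c q s) →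
    (∃ b : ι × ι' → Y.functionField,
      (∀ p, y₀'.pt ∈ W' p.2 → b p ∈ RegOn K (W p.1)) ∧
      ∀ p q, y₀'.pt ∈ W' p.2 → y₀'.pt ∈ W' q.2 → pullFun (sliceZ y₀') (c p q) = b p - b q) →
    (∃ b : ι × ι' → Y'.functionField,
      (∀ p, y₀.pt ∈ W p.1 → b p ∈ RegOn K (W' p.2)) ∧
      ∀ p q, y₀.pt ∈ W p.1 → y₀.pt ∈ W q.1 → pullFun (sliceX y₀) (c p q) = b p - b q) →
    ∃ b : ι × ι' → (Pd K Y Y').functionField,
      (∀ p, b p ∈ RegOn K (rect K (W p.1) (W' p.2))) ∧ ∀ p q, c p q = b p - b q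

end Fermat.Agent.AbVar
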