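import Fermat.Agent.AbVar.ChartSlice
import Fermat.Agent.AbVar.KunnethIface

/-! The infinitesimal form of the theorem of the cube. -/

set_option autoImplicit false
set_option linter.unusedSectionVars false

noncomputable section

open CategoryTheory CategoryTheory.Limits AlgebraicGeometry TopologicalSpace

universe u

namespace Fermat.Agent.AbVar

variable {K : Type u} [Field K]

instance isProper_pd {X Z : Scheme.{u}} [X.Over (Spec (CommRingCat.of K))]
    [Z.Over (Spec (CommRingCat.of K))] [IsProper (X ↘ Spec (CommRingCat.of K))]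
    [IsProper (Z ↘ Spec (CommRingCat.of K))] :
    IsProper (Pd K X Z ↘ Spec (CommRingCat.of K)) :=
  inferInstanceAs (IsProper (pX K X Z ≫ (X ↘ Spec (CommRingCat.of K))))

instance locallyOfFiniteType_pd {X Z : Scheme.{u}} [X.Over (Spec (CommRingCat.of K))]
    [Z.Over (Spec (CommRingCat.of K))] [LocallyOfFiniteType (X ↘ Spec (CommRingCat.of K))]
    [LocallyOfFiniteType (Z ↘ Spec (CommRingCat.of K))] :
    LocallyOfFiniteType (Pd K X Z ↘ Spec (CommRingCat.of K)) :=
  inferInstanceAs (LocallyOfFiniteType (pX K X Z ≫ (X ↘ Spec (CommRingCat.of K))))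

/-- `{y} × Y' × Z → (Y × Y') × Z`. -/
def axisFst {Y Y' Z : Scheme.{u}} [Y.Over (Spec (CommRingCat.of K))]
    [Y'.Over (Spec (CommRingCat.of K))] [Z.Over (Spec (CommRingCat.of K))] (y : RatPt K Y) :
    Pd K Y' Z ⟶ Pd K (Pd K Y Y') Z :=
  pullback.lift (pX K Y' Z ≫ sliceX y) (pZ K Y' Z) (by
    show (pX K Y' Z ≫ sliceX y) ≫ pX K Y Y' ≫ (Y ↘ Spec (CommRingCat.of K)) = _
    rw [sliceX, Category.assoc, pullback.lift_fst_assoc, Category.assoc, y.2, Category.comp_id]
    exact pullback.condition)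

/-- `Y × {y'} × Z → (Y × Y') × Z`. -/
def axisSnd {Y Y' Z : Scheme.{u}} [Y.Over (Spec (CommRingCat.of K))]
    [Y'.Over (Spec (CommRingCat.of K))] [Z.Over (Spec (CommRingCat.of K))] (y' : RatPt K Y') :
    Pd K Y Z ⟶ Pd K (Pd K Y Y') Z :=
  pullback.lift (pX K Y Z ≫ sliceZ y') (pZ K Y Z) (by
    show (pX K Y Z ≫ sliceZ y') ≫ pX K Y Y' ≫ (Y ↘ Spec (CommRingCat.of K)) = _
    rw [sliceZ, Category.assoc, pullback.lift_fst_assoc, Category.id_comp]
    exact pullback.condition)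

variable (K) in
/-- A class trivial on the three coordinate slices has kernel vectors modulo every power of the
maximal ideal of the base point, nonzero at that point. -/
def CubeFormalProperty [IsAlgClosed K] : Prop :=
  ∀ (Y Y' Z : Scheme.{u}) [Y.Over (Spec (CommRingCat.of K))] [Y'.Over (Spec (CommRingCat.of K))]
    [Z.Over (Spec (CommRingCat.of K))] [IsIntegral Y] [IsIntegral Y'] [IsIntegral Z]
    [IsProper (Y ↘ Spec (CommRingCat.of K))] [IsProper (Y' ↘ Spec (CommRingCat.of K))]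
    [IsSeparated (Z ↘ Spec (CommRingCat.of K))]
    [LocallyOfFiniteType (Z ↘ Spec (CommRingCat.of K))]
    [IsIntegral (Pd K Y Y')] [IsIntegral (Pd K Y Z)] [IsIntegral (Pd K Y' Z)]
    [IsIntegral (Pd K (Pd K Y Y') Z)]
    [PdDominant K Y Y'] [PdDominant K Y Z] [PdDominant K Y' Z] [PdDominant K (Pd K Y Y') Z]
    (h : CDiv (Pd K (Pd K Y Y') Z)) (y₀ : RatPt K Y) (y₀' : RatPt K Y') (z₀ : RatPt K Z),
    pullPic (sliceZ z₀) (cls h) = 1 → pullPic (axisFst y₀) (cls h) = 1 →
    pullPic (axisSnd y₀') (cls h) = 1 →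
    ∃ (U : Z.Opens) (hz : z₀.pt ∈ U) (C : Chart h U), ∀ k : ℕ,
      ∃ x : C.glue.Col → RegOn K U,
        (∀ l, ∑ c, C.glue.mat l c * x c ∈ RingHom.ker (evalAt z₀ U hz).toRingHom ^ k) ∧
        ∃ c, evalAt z₀ U hz (x c) ≠ 0

end Fermat.Agent.AbVar
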