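import Fermat.Agent.AbVar.CubeSecs

/-! The sections extending a trivialisation on a slice. -/

set_option autoImplicit false
set_option linter.unusedSectionVars false

noncomputable section

open CategoryTheory CategoryTheory.Limits AlgebraicGeometry TopologicalSpace
open scoped TensorProduct

universe u

namespace Fermat.Agent.AbVar

variable {K : Type u} [Field K] {X Z : Scheme.{u}} [X.Over (Spec (CommRingCat.of K))]
  [Z.Over (Spec (CommRingCat.of K))] [IsIntegral X] [IsIntegral Z] [IsIntegral (Pd K X Z)]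
  [PdDominant K X Z] {h : CDiv (Pd K X Z)} {U : Z.Opens} (C : Chart h U)
  (z : RatPt K Z) (hz : z.pt ∈ U) (c : (X.functionField)ˣ)
  (hc : ∀ x, (sliceDiv h z).1 x / c ∈ unitsAt x)

/-- The section of the class extending the trivialisation of the slice. -/
def Chart.secStart (i : C.ι) : (Pd K X Z).functionField :=
  ∑ l, C.ψ i l * pullX K X Z (C.φAt z i l * ((c⁻¹ : (X.functionField)ˣ) : X.functionField))

/-- The section of the inverse extending the trivialisation of the slice. -/
def Chart.invStart (i : C.ι) : (Pd K X Z).functionField :=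
  ∑ l, C.φ i l * pullX K X Z ((c : X.functionField) * C.ψAt z i l)

include hz hc in
theorem Chart.φAt_norm_regular (i : C.ι) (l : Fin C.r) :
    C.φAt z i l * ((c⁻¹ : (X.functionField)ˣ) : X.functionField) ∈ RegOn K (C.W i) := by
  intro x hx
  have := mul_mem ((C.split_slice hz i).1 x hx l).2 (hc x).1
  convert this using 1
  simp only [Units.val_div_eq_div_val, Units.val_inv_eq_inv_val]
  field_simp

include hz hc in
theorem Chart.ψAt_norm_regular (i : C.ι) (l : Fin C.r) :
    (c : X.functionField) * C.ψAt z i l ∈ RegOn K (C.W i) := by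
  intro x hx
  have := mul_mem ((C.split_slice hz i).1 x hx l).1 (hc x).2
  convert this using 1
  simp only [inv_div, Units.val_div_eq_div_val]
  field_simp

theorem Chart.trans_regular (i j : C.ι) (k l : Fin C.r) :
    C.φ i k * C.ψ j l ∈ RegOn K (rect K (C.W i ⊓ C.W j) U) :=
  fun _ hp => (C.split i).mul_mem_Reg (C.split j) ⟨hp.1.1, hp.2⟩ ⟨hp.1.2, hp.2⟩ k l

include hz in
theorem Chart.pullFun_trans (i j : C.ι) (k l : Fin C.r) :
    pullFun (sliceZ z) (C.φ i k * C.ψ j l) = C.φAt z i k * C.ψAt z j l := by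
  have h1 := ((C.split i).1 _ (C.gen_mem hz i) k).2
  have h2 := ((C.split j).1 _ (C.gen_mem hz j) l).1
  rw [Chart.φAt, Chart.ψAt, ← pullFun_mul _ h1 h2]
  congr 1
  rw [Units.val_inv_eq_inv_val]
  field_simp

theorem pullX_regular {V : X.Opens} {a : X.functionField} (ha : a ∈ RegOn K V) :
    pullX K X Z a ∈ RegOn K (rect K V U) :=
  fun p hp => pullFun_mem_Reg _ p (ha _ hp.1)

include hz hc in
theorem Chart.φ_secStart (i j : C.ι) (k : Fin C.r) :
    C.φ i k * C.secStart z c j ∈ RegOn K (rect K (C.W i ⊓ C.W j) U) ∧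
      pullFun (sliceZ z) (C.φ i k * C.secStart z c j) =
        C.φAt z i k * ((c⁻¹ : (X.functionField)ˣ) : X.functionField) := by
  have hη : sliceZ z (genericPoint X) ∈ rect K (C.W i ⊓ C.W j) U :=
    sliceZ_mem_rect z ⟨C.generic_mem i, C.generic_mem j⟩ hz
  have e : C.φ i k * C.secStart z c j =
      ∑ l, C.φ i k * C.ψ j l *
        pullX K X Z (C.φAt z j l * ((c⁻¹ : (X.functionField)ˣ) : X.functionField)) := by
    rw [Chart.secStart, Finset.mul_sum]
    exact Finset.sum_congr rfl fun l _ => by ring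
  have hr : ∀ l, pullX K X Z (C.φAt z j l * ((c⁻¹ : (X.functionField)ˣ) : X.functionField)) ∈
      RegOn K (rect K (C.W i ⊓ C.W j) U) := fun l =>
    pullX_regular (RegOn_anti inf_le_right (C.φAt_norm_regular z hz c hc j l))
  refine ⟨e ▸ sum_mem fun l _ => mul_mem (C.trans_regular i j k l) (hr l), ?_⟩
  rw [e, pullFun_finsetSum (sliceZ z) _ _ fun l _ => mul_mem (C.trans_regular i j k l _ hη) (hr l _ hη)]
  calc _ = ∑ l, C.φAt z i k * ((c⁻¹ : (X.functionField)ˣ) : X.functionField) *
        (C.ψAt z j l * C.φAt z j l) := Finset.sum_congr rfl fun l _ => by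
          rw [pullFun_mul _ (C.trans_regular i j k l _ hη) (hr l _ hη), C.pullFun_trans z hz,
            pullFun_sliceZ_pullX]
          ring
    _ = _ := by rw [← Finset.mul_sum, (C.split_slice hz j).2, mul_one]

include hz hc in
theorem Chart.invStart_ψ (i j : C.ι) (k : Fin C.r) :
    C.invStart z c j * C.ψ i k ∈ RegOn K (rect K (C.W i ⊓ C.W j) U) ∧
      pullFun (sliceZ z) (C.invStart z c j * C.ψ i k) = (c : X.functionField) * C.ψAt z i k := by
  have hη : sliceZ z (genericPoint X) ∈ rect K (C.W j ⊓ C.W i) U :=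
    sliceZ_mem_rect z ⟨C.generic_mem j, C.generic_mem i⟩ hz
  have e : C.invStart z c j * C.ψ i k =
      ∑ l, C.φ j l * C.ψ i k * pullX K X Z ((c : X.functionField) * C.ψAt z j l) := by
    rw [Chart.invStart, Finset.sum_mul]
    exact Finset.sum_congr rfl fun l _ => by ring
  have hr : ∀ l, pullX K X Z ((c : X.functionField) * C.ψAt z j l) ∈
      RegOn K (rect K (C.W j ⊓ C.W i) U) := fun l =>
    pullX_regular (RegOn_anti inf_le_left (C.ψAt_norm_regular z hz c hc j l))
  refine ⟨inf_comm (C.W j) (C.W i) ▸ e ▸ sum_mem fun l _ => mul_mem (C.trans_regular j i l k) (hr l), ?_⟩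
  rw [e, pullFun_finsetSum (sliceZ z) _ _ fun l _ => mul_mem (C.trans_regular j i l k _ hη) (hr l _ hη)]
  calc _ = ∑ l, (c : X.functionField) * C.ψAt z i k * (C.ψAt z j l * C.φAt z j l) :=
        Finset.sum_congr rfl fun l _ => by
          rw [pullFun_mul _ (C.trans_regular j i l k _ hη) (hr l _ hη), C.pullFun_trans z hz,
            pullFun_sliceZ_pullX]
          ring
    _ = _ := by rw [← Finset.mul_sum, (C.split_slice hz j).2, mul_one]

variable [IsSeparated (X ↘ Spec (CommRingCat.of K))]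

include hc in
theorem Chart.secStart_sub_mem (i j : C.ι) (k : Fin C.r) :
    C.φ i k * (C.secStart z c i - C.secStart z c j) ∈
      Mk K (C.W i ⊓ C.W j) U (ptIdeal z U hz) := by
  have h1 := C.φ_secStart z hz c hc i i k
  have h2 := C.φ_secStart z hz c hc i j k
  rw [inf_idem] at h1
  have h1' : C.φ i k * C.secStart z c i ∈ RegOn K (rect K (C.W i ⊓ C.W j) U) :=
    fun p hp => h1.1 p ⟨hp.1.1, hp.2⟩
  rw [mul_sub]
  refine mem_Mk_ptIdeal (isAffineOpen_inf (K := K) (C.affW i) (C.affW j))
    (inf_nonempty (C.neW i) (C.neW j)) C.affU hz (sub_mem h1' h2.1) ?_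
  have hη : sliceZ z (genericPoint X) ∈ rect K (C.W i ⊓ C.W j) U :=
    sliceZ_mem_rect z ⟨C.generic_mem i, C.generic_mem j⟩ hz
  rw [pullFun_map_sub _ (h1' _ hη) (h2.1 _ hη), h1.2, h2.2, sub_self]

include hc in
theorem Chart.invStart_sub_mem (i j : C.ι) (k : Fin C.r) :
    (C.invStart z c i - C.invStart z c j) * C.ψ i k ∈
      Mk K (C.W i ⊓ C.W j) U (ptIdeal z U hz) := by
  have h1 := C.invStart_ψ z hz c hc i i k
  have h2 := C.invStart_ψ z hz c hc i j k
  rw [inf_idem] at h1
  have h1' : C.invStart z c i * C.ψ i k ∈ RegOn K (rect K (C.W i ⊓ C.W j) U) :=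
    fun p hp => h1.1 p ⟨hp.1.1, hp.2⟩
  rw [sub_mul]
  refine mem_Mk_ptIdeal (isAffineOpen_inf (K := K) (C.affW i) (C.affW j))
    (inf_nonempty (C.neW i) (C.neW j)) C.affU hz (sub_mem h1' h2.1) ?_
  have hη : sliceZ z (genericPoint X) ∈ rect K (C.W i ⊓ C.W j) U :=
    sliceZ_mem_rect z ⟨C.generic_mem i, C.generic_mem j⟩ hz
  rw [pullFun_map_sub _ (h1' _ hη) (h2.1 _ hη), h1.2, h2.2, sub_self]

include hc in
theorem Chart.one_sub_start_mem (i : C.ι) :
    1 - C.invStart z c i * C.secStart z c i ∈ Mk K (C.W i) U (ptIdeal z U hz) := by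
  have h1 := fun k => inf_idem (C.W i) ▸ C.φ_secStart z hz c hc i i k
  have h2 := fun k => inf_idem (C.W i) ▸ C.invStart_ψ z hz c hc i i k
  have e : C.invStart z c i * C.secStart z c i =
      ∑ l, C.invStart z c i * C.ψ i l * (C.φ i l * C.secStart z c i) := by
    conv_lhs => rw [← one_mul (_ * _), ← (C.split i).2, Finset.sum_mul]
    exact Finset.sum_congr rfl fun l _ => by ring
  have hs := fun l => mul_mem (h2 l).1 (h1 l).1
  have hη : sliceZ z (genericPoint X) ∈ rect K (C.W i) U := C.gen_mem hz i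
  have hsum : C.invStart z c i * C.secStart z c i ∈ RegOn K (rect K (C.W i) U) :=
    e ▸ sum_mem fun l _ => hs l
  refine mem_Mk_ptIdeal (C.affW i) (C.neW i) C.affU hz (sub_mem (one_mem _) hsum) ?_
  rw [pullFun_map_sub _ (one_mem _) (hsum _ hη), pullFun_one, e,
    pullFun_finsetSum (sliceZ z) _ _ fun l _ => hs l _ hη, sub_eq_zero]
  refine (C.split_slice hz i).2.symm.trans (Finset.sum_congr rfl fun l _ => ?_)
  rw [pullFun_mul _ ((h2 l).1 _ hη) ((h1 l).1 _ hη), (h1 l).2, (h2 l).2, Units.val_inv_eq_inv_val]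
  field_simp

end Fermat.Agent.AbVar
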