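import Fermat.Agent.AbVar.CubeAxis
import Fermat.Agent.AbVar.CubeStart

/-! Lifting a section of a class trivial on a slice through the infinitesimal neighbourhoods of
the slice, when the obstructions are coboundaries. -/

set_option autoImplicit false
set_option linter.unusedSectionVars false

noncomputable section

open CategoryTheory CategoryTheory.Limits AlgebraicGeometry TopologicalSpace
open scoped TensorProduct

universe u

namespace Fermat.Agent.AbVar

section GlueGeneric

variable {K : Type u} [Field K] {F : Type u} [Field F] [Algebra K F] {B : Type u} [CommRing B]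
  [Algebra K B] (G : GlueData K F B)

theorem GlueData.resL_red (J : Ideal B) (i j : G.ι) (t : G.R i ⊗[K] B) :
    redCoeff (G.R2 i j) J (G.resL B i j t) = G.resL (B ⧸ J) i j (redCoeff (G.R i) J t) :=
  redCoeff_natural J _ t

theorem GlueData.resR_red (J : Ideal B) (i j : G.ι) (t : G.R j ⊗[K] B) :
    redCoeff (G.R2 i j) J (G.resR B i j t) = G.resR (B ⧸ J) i j (redCoeff (G.R j) J t) :=
  redCoeff_natural J _ t

theorem GlueData.isCompat_red (J : Ideal B) (g : ∀ i, Fin G.r → G.R i ⊗[K] B)
    (hg : ∀ i j l, G.defect (AlgHom.id K B) g i j l ∈ smallSub J) :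
    G.IsCompat (Ideal.Quotient.mkₐ K J) (fun i l => redCoeff (G.R i) J (g i l)) := by
  intro i j l
  have h0 := (mem_smallSub_iff J _).mp (hg i j l)
  rw [GlueData.defect, map_sub, map_sum, G.resL_red] at h0
  refine Eq.trans ?_ h0
  rw [GlueData.defect]
  refine congrArg₂ (· - ·) rfl (Finset.sum_congr rfl fun n _ => ?_)
  rw [map_mul, G.resR_red]
  congr 1
  simp [GlueData.push, redCoeff]

/-- Kernel vectors modulo an ideal from families compatible modulo it. -/
theorem GlueData.exists_kernel_mod [∀ i, FiniteDimensional K (G.bdd i)] (J : Ideal B)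
    (g : ∀ i, Fin G.r → G.R i ⊗[K] B)
    (hg : ∀ i j l, G.defect (AlgHom.id K B) g i j l ∈ smallSub J) :
    ∃ x : G.Col → B, (∀ l, ∑ d, G.mat l d * x d ∈ J) ∧
      ∀ i l, g i l - G.family x i l ∈ smallSub J := by
  classical
  obtain ⟨xb, hxb⟩ := G.exists_family (G.isCompat_red J g hg)
  choose x hx using fun d => Ideal.Quotient.mk_surjective (xb d)
  have hcompat : G.IsCompat (Ideal.Quotient.mkₐ K J) (G.family xb) := hxb ▸ G.isCompat_red J g hg
  refine ⟨x, fun l => Ideal.Quotient.eq_zero_iff_mem.mp ?_, fun i l => ?_⟩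
  · rw [map_sum]
    refine Eq.trans (Finset.sum_congr rfl fun d _ => ?_)
      ((G.isCompat_family_iff _ xb).mp hcompat l)
    rw [map_mul, hx]
    rfl
  · rw [mem_smallSub_iff, map_sub, sub_eq_zero]
    refine (congrFun (congrFun hxb i) l).trans ?_
    simp [GlueData.family, map_sum, redCoeff, hx]

end GlueGeneric

variable {K : Type u} [Field K] {X Z : Scheme.{u}} [X.Over (Spec (CommRingCat.of K))]
  [Z.Over (Spec (CommRingCat.of K))] [IsIntegral X] [IsIntegral Z] [IsIntegral (Pd K X Z)]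
  [PdDominant K X Z] {h : CDiv (Pd K X Z)} {U : Z.Opens} (C : Chart h U)
  (z : RatPt K Z) (hz : z.pt ∈ U) (c : (X.functionField)ˣ)

/-- A family of local sections agreeing to order `k` and restricting to the trivialisation. -/
structure Chart.IsApproxSec (k : ℕ) (S : C.ι → (Pd K X Z).functionField) : Prop where
  regular : ∀ i l, C.φ i l * S i ∈ RegOn K (rect K (C.W i) U)
  slice : ∀ i l, pullFun (sliceZ z) (C.φ i l * S i) =
    C.φAt z i l * ((c⁻¹ : (X.functionField)ˣ) : X.functionField)
  agree : ∀ i j l, C.φ i l * (S i - S j) ∈ Mk K (C.W i ⊓ C.W j) U (ptIdeal z U hz ^ k)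

variable (hc : ∀ x, (sliceDiv h z).1 x / c ∈ unitsAt x) [IsSeparated (X ↘ Spec (CommRingCat.of K))]

include hc in
theorem Chart.isApproxSec_one : C.IsApproxSec z hz c 1 (C.secStart z c) where
  regular i l := by simpa only [inf_idem] using (C.φ_secStart z hz c hc i i l).1
  slice i l := (C.φ_secStart z hz c hc i i l).2
  agree i j l := by rw [pow_one]; exact C.secStart_sub_mem z hz c hc i j l

/-- The obstruction cochain. -/
def Chart.obstr (S : C.ι → (Pd K X Z).functionField) (i j : C.ι) : (Pd K X Z).functionField :=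
  C.invStart z c i * (S i - S j)

include hc in
theorem Chart.obstr_mem {k : ℕ} {S : C.ι → (Pd K X Z).functionField}
    (hS : C.IsApproxSec z hz c k S) (i j : C.ι) :
    C.obstr z c S i j ∈ Mk K (C.W i ⊓ C.W j) U (ptIdeal z U hz ^ k) := by
  exact C.pairing_mem (isAffineOpen_inf (K := K) (C.affW i) (C.affW j))
    (inf_nonempty (C.neW i) (C.neW j))
    (fun l p hp => (C.invStart_ψ z hz c hc i i l).1 p ⟨⟨hp.1.1, hp.1.1⟩, hp.2⟩) (hS.agree i j)

variable [IsAlgClosed K] [LocallyOfFiniteType (Z ↘ Spec (CommRingCat.of K))]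

include hc in
theorem Chart.compo_obstr_cocycle {k : ℕ} {S : C.ι → (Pd K X Z).functionField}
    (hS : C.IsApproxSec z hz c k S) (ℓ : LevelBasis K (RegOn K U) (ptIdeal z U hz) k) (β : ℓ.β)
    (i j l : C.ι) :
    compo U (ℓ.μ β) (C.obstr z c S i l) =
      compo U (ℓ.μ β) (C.obstr z c S i j) + compo U (ℓ.μ β) (C.obstr z c S j l) := by
  let V := C.W i ⊓ C.W j ⊓ C.W l
  have hij : V ≤ C.W i ⊓ C.W j := inf_le_left
  have hjl : V ≤ C.W j ⊓ C.W l := le_inf (inf_le_left.trans inf_le_right) inf_le_right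
  have hil : V ≤ C.W i ⊓ C.W l := le_inf (inf_le_left.trans inf_le_left) inf_le_right
  have h1 := Mk_restrict hij (C.obstr_mem z hz c hc hS i j)
  have h2 := Mk_restrict hjl (C.obstr_mem z hz c hc hS j l)
  have h3 := Mk_restrict hil (C.obstr_mem z hz c hc hS i l)
  have h4 : C.obstr z c S i j + C.obstr z c S j l - C.obstr z c S i l ∈
      Mk K V U (ptIdeal z U hz ^ (k + 1)) := by
    have e : C.obstr z c S i j + C.obstr z c S j l - C.obstr z c S i l =
        (C.invStart z c j - C.invStart z c i) * (S j - S l) := by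
      simp only [Chart.obstr]
      ring
    rw [e, pow_succ']
    refine C.pairing_mem₂ (i := j) (fun n => Mk_restrict ?_ (C.invStart_sub_mem z hz c hc j i n))
      fun n => Mk_restrict hjl (hS.agree j l n)
    exact le_inf (inf_le_left.trans inf_le_right) (inf_le_left.trans inf_le_left)
  have h0 := compo_succ ℓ C.neU β h4
  rw [compo_sub C.neU _ (Submodule.add_mem _ h1 h2) h3, compo_add C.neU _ h1 h2, sub_eq_zero] at h0
  exact h0.symm

include hc in
theorem Chart.exists_approxSec_succ {k : ℕ} (hk : k ≠ 0) {S : C.ι → (Pd K X Z).functionField}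
    (hS : C.IsApproxSec z hz c k S) (ℓ : LevelBasis K (RegOn K U) (ptIdeal z U hz) k)
    (hcob : ∀ β, ∃ b : C.ι → X.functionField, (∀ i, b i ∈ RegOn K (C.W i)) ∧
      ∀ i j, compo U (ℓ.μ β) (C.obstr z c S i j) = b i - b j) :
    ∃ S', C.IsApproxSec z hz c (k + 1) S' := by
  classical
  choose b hb hbd using hcob
  choose T hT using fun i j => exists_compo_expansion ℓ C.neU (C.obstr_mem z hz c hc hS i j)
  let T₀ : Finset ℓ.β := Finset.univ.biUnion fun i => Finset.univ.biUnion (T i)
  let B : C.ι → (Pd K X Z).functionField := fun i =>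
    ∑ β ∈ T₀, pullX K X Z (b β i) * pullZ K X Z (ℓ.e β : Z.functionField)
  let σ := C.secStart z c
  have hB : ∀ i, B i ∈ Mk K (C.W i) U (ptIdeal z U hz ^ k) := fun i =>
    Submodule.sum_mem _ fun β _ => pullX_mul_pullZ_mem_Mk ℓ (⟨b β i, hb β i⟩ : RegOn K (C.W i)) β
  have hσB : ∀ i l, C.φ i l * σ i * B i ∈ Mk K (C.W i) U (ptIdeal z U hz ^ k) := fun i l =>
    regular_mul_mem_Mk (C.affW i) (C.neW i) C.affU C.neU
      (by simpa only [inf_idem] using (C.φ_secStart z hz c hc i i l).1) (hB i)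
  refine ⟨fun i => S i - σ i * B i, ⟨fun i l => ?_, fun i l => ?_, fun i j l => ?_⟩⟩
  · rw [mul_sub, ← mul_assoc]
    exact sub_mem (hS.regular i l) (Mk_le_RegOn (hσB i l))
  · have hη := C.gen_mem hz i
    rw [mul_sub, ← mul_assoc, pullFun_map_sub _ (hS.regular i l _ hη) (Mk_le_RegOn (hσB i l) _ hη),
      hS.slice, pullFun_sliceZ_eq_zero (C.neW i) hz (Mk_mono (Ideal.pow_le_self hk) (hσB i l)),
      sub_zero]
  · have haff := isAffineOpen_inf (K := K) (C.affW i) (C.affW j)
    have hne := inf_nonempty (C.neW i) (C.neW j)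
    have hexp : C.obstr z c S i j - (B i - B j) ∈
        Mk K (C.W i ⊓ C.W j) U (ptIdeal z U hz ^ (k + 1)) := by
      have := hT i j T₀ ((Finset.subset_biUnion_of_mem (T i) (Finset.mem_univ j)).trans
        (Finset.subset_biUnion_of_mem (fun i => Finset.univ.biUnion (T i)) (Finset.mem_univ i)))
      convert this using 2
      rw [← Finset.sum_sub_distrib]
      refine Finset.sum_congr rfl fun β _ => ?_
      rw [hbd, map_sub, sub_mul]
    have h1 := regular_mul_mem_Mk haff hne C.affU C.neU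
      (a := C.φ i l * σ i) (fun p hp => (C.φ_secStart z hz c hc i i l).1 p ⟨⟨hp.1.1, hp.1.1⟩, hp.2⟩)
      hexp
    have h2 : C.φ i l * (S i - S j) * (1 - C.invStart z c i * σ i) ∈
        Mk K (C.W i ⊓ C.W j) U (ptIdeal z U hz ^ (k + 1)) := by
      rw [pow_succ]
      exact mul_mem_Mk (hS.agree i j l)
        (Mk_restrict inf_le_left (C.one_sub_start_mem z hz c hc i))
    have h3 : C.φ i l * (σ i - σ j) * B j ∈
        Mk K (C.W i ⊓ C.W j) U (ptIdeal z U hz ^ (k + 1)) := by
      rw [pow_succ']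
      exact mul_mem_Mk (C.secStart_sub_mem z hz c hc i j l) (Mk_restrict inf_le_right (hB j))
    have := Submodule.sub_mem _ (Submodule.add_mem _ h1 h2) h3
    convert this using 1
    simp only [Chart.obstr]
    ring

theorem Chart.defect_small [IsProper (X ↘ Spec (CommRingCat.of K))]
    {S : C.ι → (Pd K X Z).functionField} {J : Ideal (RegOn K U)}
    (hd : ∀ i j l, C.φ i l * (S i - S j) ∈ Mk K (C.W i ⊓ C.W j) U J)
    (g : ∀ i, Fin C.r → RegOn K (C.W i) ⊗[K] RegOn K U)
    (hg : ∀ i l, mu K (C.W i) U (g i l) = C.φ i l * S i) (i j : C.ι) (l : Fin C.r) :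
    C.glue.defect (AlgHom.id K (RegOn K U)) g i j l ∈
      smallSub (R := RegOn K (C.W i ⊓ C.W j)) J := by
  obtain ⟨s, hs, hs'⟩ := mem_Mk.mp (hd i j l)
  have h1 : mu K (C.W i ⊓ C.W j) U (C.glue.defect (AlgHom.id K (RegOn K U)) g i j l) =
      mu K (C.W i ⊓ C.W j) U s := by
    show mu K (C.W i ⊓ C.W j) U (C.glue.resL _ i j (g i l) -
      ∑ n, C.glue.push (AlgHom.id K (RegOn K U)) i j l n * C.glue.resR _ i j (g j n)) = _
    rw [hs', map_sub, map_sum, mul_sub]
    refine congrArg₂ (· - ·) ((mu_map_inclusion (C.glue.le_left i j) (g i l)).trans (hg i l)) ?_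
    calc _ = ∑ n, C.φ i l * C.ψ j n * (C.φ j n * S j) := Finset.sum_congr rfl fun n _ => by
          rw [map_mul]
          erw [mu_map_inclusion (C.glue.le_right i j), hg j n]
          rw [show C.glue.push (AlgHom.id K (RegOn K U)) i j l n = C.glue.ε i j l n by
            simp [GlueData.push]]
          erw [C.mu_eps]
      _ = _ := (C.pairing_eq j _ _).symm
  exact (mu_injective _ (inf_nonempty (C.neW i) (C.neW j)) U C.neU h1) ▸ hs

include hc in
theorem Chart.exists_formal_kernel [IsProper (X ↘ Spec (CommRingCat.of K))] {k : ℕ} (hk : k ≠ 0)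
    {S : C.ι → (Pd K X Z).functionField} (hS : C.IsApproxSec z hz c k S) :
    ∃ x : C.glue.Col → RegOn K U,
      (∀ l, ∑ d, C.glue.mat l d * x d ∈ ptIdeal z U hz ^ k) ∧
      ∃ d, evalAt z U hz (x d) ≠ 0 := by
  classical
  choose g hg using fun i l =>
    rectangleSurjective K X Z (C.W i) U (C.affW i) C.affU (C.neW i) C.neU (hS.regular i l)
  have hg' : ∀ i l, mu K (C.W i) U (g i l) = C.φ i l * S i := hg
  obtain ⟨x, hx, h1⟩ := C.glue.exists_kernel_mod (ptIdeal z U hz ^ k) g
    (C.defect_small hS.agree g hg')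
  refine ⟨x, hx, ?_⟩
  by_contra hall
  push Not at hall
  have hvan : ∀ i l, C.φAt z i l * ((c⁻¹ : (X.functionField)ˣ) : X.functionField) = 0 := by
    intro i l
    have h2 : C.glue.family x i l ∈ smallSub (R := RegOn K (C.W i)) (ptIdeal z U hz) :=
      Submodule.sum_mem _ fun a _ => tmul_mem_smallSub _ (hall ⟨l, i, a⟩)
    have h3 : mu K (C.W i) U (g i l) ∈ Mk K (C.W i) U (ptIdeal z U hz) := by
      rw [← sub_add_cancel (g i l) (C.glue.family x i l), map_add]
      exact Submodule.add_mem _ (Mk_mono (Ideal.pow_le_self hk) (mem_Mk.mpr ⟨_, h1 i l, rfl⟩))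
        (mem_Mk.mpr ⟨_, h2, rfl⟩)
    rw [hg' i l] at h3
    rw [← hS.slice]
    exact pullFun_sliceZ_eq_zero (C.neW i) hz h3
  obtain ⟨i⟩ := C.nonempty
  have h4 := (C.split_slice hz i).2
  rw [Finset.sum_eq_zero fun l _ => by
    rw [(mul_eq_zero.mp (hvan i l)).resolve_right (Units.ne_zero _), mul_zero]] at h4
  exact zero_ne_one h4

end Fermat.Agent.AbVar
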