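import Fermat.Agent.AbVar.CubeField
import Fermat.Agent.AbVar.CubeIface

/-! Functoriality in the first factor of a product of the functions vanishing to given order. -/

set_option autoImplicit false
set_option linter.unusedSectionVars false

noncomputable section

open CategoryTheory CategoryTheory.Limits AlgebraicGeometry TopologicalSpace
open scoped TensorProduct

universe u

namespace Fermat.Agent.AbVar

variable {K : Type u} [Field K] {X X' Z : Scheme.{u}} [X.Over (Spec (CommRingCat.of K))]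
  [X'.Over (Spec (CommRingCat.of K))] [Z.Over (Spec (CommRingCat.of K))]

variable (Z) in
/-- `σ × id`. -/
def mapLeft (σ : X' ⟶ X)
    (hσ : σ ≫ (X ↘ Spec (CommRingCat.of K)) = (X' ↘ Spec (CommRingCat.of K))) :
    Pd K X' Z ⟶ Pd K X Z :=
  pullback.lift (pX K X' Z ≫ σ) (pZ K X' Z) (by rw [Category.assoc, hσ]; exact pullback.condition)

variable (σ : X' ⟶ X) (hσ : σ ≫ (X ↘ Spec (CommRingCat.of K)) = (X' ↘ Spec (CommRingCat.of K)))

theorem mapLeft_pX : mapLeft Z σ hσ ≫ pX K X Z = pX K X' Z ≫ σ :=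
  pullback.lift_fst _ _ _

theorem mapLeft_pZ : mapLeft Z σ hσ ≫ pZ K X Z = pZ K X' Z :=
  pullback.lift_snd _ _ _

theorem pX_mapLeft (p : Pd K X' Z) : pX K X Z (mapLeft Z σ hσ p) = σ (pX K X' Z p) := by
  rw [← Scheme.Hom.comp_apply, mapLeft_pX]
  rfl

theorem pZ_mapLeft (p : Pd K X' Z) : pZ K X Z (mapLeft Z σ hσ p) = pZ K X' Z p := by
  rw [← Scheme.Hom.comp_apply, mapLeft_pZ]

theorem mapLeft_mem_rect {V : X.Opens} {U : Z.Opens} {p : Pd K X' Z}
    (hp : p ∈ rect K (σ ⁻¹ᵁ V) U) : mapLeft Z σ hσ p ∈ rect K V U :=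
  ⟨by show pX K X Z (mapLeft Z σ hσ p) ∈ V; rw [pX_mapLeft]; exact hp.1,
   by show pZ K X Z (mapLeft Z σ hσ p) ∈ U; rw [pZ_mapLeft]; exact hp.2⟩

variable [IsIntegral X] [IsIntegral X']

/-- Pullback of regular functions along `σ`. -/
def pullRegOn (V : X.Opens) (V' : X'.Opens) (hle : V' ≤ σ ⁻¹ᵁ V) (hne : σ (genericPoint X') ∈ V) :
    RegOn K V →ₐ[K] RegOn K V' where
  toFun a := ⟨pullFun σ a, fun x hx => pullFun_mem_Reg σ x (a.2 _ (hle hx))⟩
  map_one' := Subtype.ext (pullFun_one σ)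
  map_mul' a b := Subtype.ext (pullFun_mul σ (a.2 _ hne) (b.2 _ hne))
  map_zero' := Subtype.ext (pullFun_zero σ)
  map_add' a b := Subtype.ext (pullFun_add σ (a.2 _ hne) (b.2 _ hne))
  commutes' c := Subtype.ext (pullFun_baseMap σ _ _ hσ c)

variable [IsIntegral Z] [IsIntegral (Pd K X Z)] [IsIntegral (Pd K X' Z)] [PdDominant K X Z]
  [PdDominant K X' Z]

theorem mapLeft_generic_mem {V : X.Opens} (hne : σ (genericPoint X') ∈ V) {U : Z.Opens}
    (hU0 : (U : Set Z).Nonempty) : mapLeft Z σ hσ (genericPoint (Pd K X' Z)) ∈ rect K V U := by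
  refine mapLeft_mem_rect σ hσ ⟨?_, ?_⟩
  · show σ (pX K X' Z (genericPoint (Pd K X' Z))) ∈ V
    rwa [PdDominant.fst_generic]
  · show pZ K X' Z (genericPoint (Pd K X' Z)) ∈ U
    rw [PdDominant.snd_generic]
    exact ((genericPoint_spec Z).mem_open_set_iff U.isOpen).mpr (by simpa using hU0)

theorem pullFun_mapLeft_mu {V : X.Opens} {V' : X'.Opens} (hle : V' ≤ σ ⁻¹ᵁ V)
    (hne : σ (genericPoint X') ∈ V) {U : Z.Opens} (hU0 : (U : Set Z).Nonempty)
    (t : RegOn K V ⊗[K] RegOn K U) :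
    pullFun (mapLeft Z σ hσ) (mu K V U t) =
      mu K V' U (Algebra.TensorProduct.map (pullRegOn σ hσ V V' hle hne) (AlgHom.id K _) t) := by
  have hη := mapLeft_generic_mem σ hσ hne hU0
  induction t using TensorProduct.induction_on with
  | zero => simp
  | tmul a b =>
    rw [mu_tmul]
    erw [pullFun_mul _ (pullFun_mem_Reg _ _ (a.2 _ hη.1)) (pullFun_mem_Reg _ _ (b.2 _ hη.2))]
    rw [Algebra.TensorProduct.map_tmul, mu_tmul]
    congr 1
    · rw [← pullFun_comp]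
      · show pullFun (mapLeft Z σ hσ ≫ pX K X Z) (a : X.functionField) =
          pullFun (pX K X' Z) (pullFun σ (a : X.functionField))
        rw [mapLeft_pX, pullFun_comp]
        rw [Scheme.Hom.comp_apply, PdDominant.fst_generic]
        exact a.2 _ hne
      · rw [Scheme.Hom.comp_apply]
        exact a.2 _ hη.1
    · rw [← pullFun_comp]
      · rw [mapLeft_pZ]
        rfl
      · rw [Scheme.Hom.comp_apply]
        exact b.2 _ hη.2
  | add x y hx hy =>
    rw [map_add]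
    erw [pullFun_add _ (range_mu_le V U ⟨x, rfl⟩ _ hη) (range_mu_le V U ⟨y, rfl⟩ _ hη)]
    rw [map_add, map_add, ← hx, ← hy]
    rfl

theorem pullFun_mem_Mk {V : X.Opens} {V' : X'.Opens} (hle : V' ≤ σ ⁻¹ᵁ V)
    (hne : σ (genericPoint X') ∈ V) {U : Z.Opens} (hU0 : (U : Set Z).Nonempty)
    {J : Ideal (RegOn K U)} {a : (Pd K X Z).functionField} (ha : a ∈ Mk K V U J) :
    pullFun (mapLeft Z σ hσ) a ∈ Mk K V' U J := by
  obtain ⟨t, ht, rfl⟩ := mem_Mk.mp ha
  exact mem_Mk.mpr ⟨_, map_mem_smallSub _ ht, (pullFun_mapLeft_mu σ hσ hle hne hU0 t).symm⟩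

variable [IsAlgClosed K] [LocallyOfFiniteType (Z ↘ Spec (CommRingCat.of K))]

theorem compo_pullFun {V : X.Opens} (hne : σ (genericPoint X') ∈ V)
    {U : Z.Opens} (hU0 : (U : Set Z).Nonempty) {J : Ideal (RegOn K U)} (μ : RegOn K U →ₗ[K] K)
    {a : (Pd K X Z).functionField} (ha : a ∈ Mk K V U J) :
    compo U μ (pullFun (mapLeft Z σ hσ) a) = pullFun σ (compo U μ a) := by
  obtain ⟨t, -, rfl⟩ := mem_Mk.mp ha
  rw [pullFun_mapLeft_mu σ hσ le_rfl hne hU0, compo_mu hU0, compo_mu hU0, coeffMap_natural]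
  rfl

end Fermat.Agent.AbVar
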