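import Fermat.Agent.AbVar.ChartSlice

/-! Functions on `X × U` vanishing modulo powers of the maximal ideal of a point of `U`, and their
components along a complement of the next power. -/

set_option autoImplicit false
set_option linter.unusedSectionVars false

noncomputable section

open CategoryTheory CategoryTheory.Limits AlgebraicGeometry TopologicalSpace
open scoped TensorProduct

universe u

namespace Fermat.Agent.AbVar

section Small

variable {K : Type u} [Field K] {R R' : Type u} [CommRing R] [Algebra K R] [CommRing R']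
  [Algebra K R'] {B : Type u} [CommRing B] [Algebra K B]

variable (R) in
/-- Reduction of the coefficients. -/
def redCoeff (J : Ideal B) : R ⊗[K] B →ₐ[K] R ⊗[K] (B ⧸ J) :=
  Algebra.TensorProduct.map (AlgHom.id K R) (Ideal.Quotient.mkₐ K J)

theorem redCoeff_natural (J : Ideal B) (φ : R →ₐ[K] R') (t : R ⊗[K] B) :
    redCoeff R' J (Algebra.TensorProduct.map φ (AlgHom.id K B) t) =
      Algebra.TensorProduct.map φ (AlgHom.id K (B ⧸ J)) (redCoeff R J t) := by
  induction t using TensorProduct.induction_on with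
  | zero => simp
  | tmul a b => simp [redCoeff]
  | add x y hx hy => simp only [map_add, hx, hy]

/-- Elements with coefficients in the ideal `J`. -/
def smallSub (J : Ideal B) : Submodule K (R ⊗[K] B) :=
  LinearMap.range ((Submodule.restrictScalars K J).subtype.lTensor R)

theorem mem_smallSub_iff (J : Ideal B) (t : R ⊗[K] B) :
    t ∈ smallSub J ↔ redCoeff R J t = 0 := by
  have hex : Function.Exact (Submodule.restrictScalars K J).subtype
      (Ideal.Quotient.mkₐ K J).toLinearMap := fun b => by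
    simp [Ideal.Quotient.eq_zero_iff_mem]
  have h := lTensor_exact R hex Ideal.Quotient.mk_surjective
  rw [smallSub, LinearMap.mem_range, ← Set.mem_range, ← h t]
  rfl

theorem smallSub_induction {J : Ideal B} {P : R ⊗[K] B → Prop} (h0 : P 0)
    (htm : ∀ (a : R) (e : B), e ∈ J → P (a ⊗ₜ e)) (hadd : ∀ x y, P x → P y → P (x + y))
    {t : R ⊗[K] B} (ht : t ∈ smallSub J) : P t := by
  obtain ⟨s, rfl⟩ := ht
  induction s using TensorProduct.induction_on with
  | zero => rwa [map_zero]
  | tmul a e => exact htm a e.1 e.2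
  | add x y hx hy => rw [map_add]; exact hadd _ _ hx hy

theorem tmul_mem_smallSub {J : Ideal B} (a : R) {e : B} (he : e ∈ J) :
    a ⊗ₜ[K] e ∈ smallSub (R := R) J :=
  ⟨a ⊗ₜ ⟨e, he⟩, rfl⟩

theorem mul_mem_smallSub_left {J : Ideal B} (t : R ⊗[K] B) {s : R ⊗[K] B} (hs : s ∈ smallSub J) :
    t * s ∈ smallSub J := by
  rw [mem_smallSub_iff] at hs ⊢
  rw [map_mul, hs, mul_zero]

theorem mul_mem_smallSub {J J' : Ideal B} {t s : R ⊗[K] B} (ht : t ∈ smallSub J)
    (hs : s ∈ smallSub J') : t * s ∈ smallSub (J * J') := by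
  refine smallSub_induction (P := fun t => t * s ∈ smallSub (J * J')) ?_ ?_ ?_ ht
  · simp
  · intro a e he
    refine smallSub_induction (P := fun s => a ⊗ₜ[K] e * s ∈ smallSub (J * J')) ?_ ?_ ?_ hs
    · simp
    · intro a' e' he'
      rw [Algebra.TensorProduct.tmul_mul_tmul]
      exact tmul_mem_smallSub _ (Ideal.mul_mem_mul he he')
    · intro x y hx hy
      rw [mul_add]
      exact add_mem hx hy
  · intro x y hx hy
    rw [add_mul]
    exact add_mem hx hy

theorem map_mem_smallSub {J : Ideal B} (φ : R →ₐ[K] R') {t : R ⊗[K] B} (ht : t ∈ smallSub J) :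
    Algebra.TensorProduct.map φ (AlgHom.id K B) t ∈ smallSub J := by
  rw [mem_smallSub_iff] at ht ⊢
  rw [redCoeff_natural, ht, map_zero]

/-- A functional on the coefficients, applied to a tensor. -/
def coeffMap (μ : B →ₗ[K] K) : R ⊗[K] B →ₗ[K] R :=
  (TensorProduct.rid K R).toLinearMap.comp (μ.lTensor R)

theorem coeffMap_tmul (μ : B →ₗ[K] K) (a : R) (b : B) : coeffMap μ (a ⊗ₜ b) = μ b • a := by
  simp [coeffMap]

theorem coeffMap_natural (μ : B →ₗ[K] K) (φ : R →ₐ[K] R') (t : R ⊗[K] B) :
    coeffMap μ (Algebra.TensorProduct.map φ (AlgHom.id K B) t) = φ (coeffMap μ t) := by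
  induction t using TensorProduct.induction_on with
  | zero => simp
  | tmul a b => simp [coeffMap_tmul]
  | add x y hx hy => simp only [map_add, hx, hy]

end Small

/-- Functionals on `m ^ k` vanishing on `m ^ (k + 1)` and a dual family. -/
structure LevelBasis (K : Type u) [Field K] (B : Type u) [CommRing B] [Algebra K B] (m : Ideal B)
    (k : ℕ) where
  β : Type u
  e : β → B
  μ : β → B →ₗ[K] K
  e_mem : ∀ b, e b ∈ m ^ k
  μ_succ : ∀ b, ∀ x ∈ m ^ (k + 1), μ b x = 0
  support : B → Finset β
  expand : ∀ x ∈ m ^ k, ∀ S : Finset β, support x ⊆ S →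
    x - ∑ b ∈ S, μ b x • e b ∈ m ^ (k + 1)

theorem exists_levelBasis (K : Type u) [Field K] {B : Type u} [CommRing B] [Algebra K B]
    (m : Ideal B) (k : ℕ) : Nonempty (LevelBasis K B m k) := by
  classical
  let V := Submodule.restrictScalars K (m ^ (k + 1))
  obtain ⟨Q, hQ⟩ := Submodule.exists_isCompl V
  let Mk := Submodule.restrictScalars K (m ^ k)
  let W := Q ⊓ Mk
  obtain ⟨W', hW'⟩ := Submodule.exists_isCompl W
  let 𝓑 := Module.Free.chooseBasis K W
  let p : B →ₗ[K] W := (W.projectionOnto W' hW').comp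
    (Q.subtype.comp (Q.projectionOnto V hQ.symm))
  refine ⟨⟨Module.Free.ChooseBasisIndex K W, fun b => (𝓑 b : B), fun b => (𝓑.coord b).comp p,
    fun b => (𝓑 b).2.2, fun b x hx => ?_, fun x => (𝓑.repr (p x)).support, fun x hx S hS => ?_⟩⟩
  · have h0 : Q.projectionOnto V hQ.symm x = 0 :=
      (Submodule.projectionOnto_apply_eq_zero_iff hQ.symm).mpr hx
    simp [p, h0]
  · have h1 : ∀ z : B, (Q.projectionOnto V hQ.symm z : B) - z ∈ V := by
      intro z
      rw [← Submodule.projectionOnto_apply_eq_zero_iff hQ.symm, map_sub,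
        Submodule.projectionOnto_apply_left hQ.symm, sub_self]
    have hq : (Q.projectionOnto V hQ.symm x : B) ∈ W := by
      refine ⟨(Q.projectionOnto V hQ.symm x).2, ?_⟩
      have := add_mem (Ideal.pow_le_pow_right k.le_succ (h1 x)) hx
      simpa [Mk] using this
    have hp : (p x : B) = Q.projectionOnto V hQ.symm x :=
      congrArg Subtype.val (Submodule.projectionOnto_apply_left hW' ⟨_, hq⟩)
    have hsum : ∑ b ∈ S, (𝓑.coord b).comp p x • (𝓑 b : B) = (p x : B) := by
      have := congrArg Subtype.val (𝓑.linearCombination_repr (p x))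
      rw [Finsupp.linearCombination_apply, Finsupp.sum_of_support_subset _ hS _ (by simp)] at this
      push_cast at this
      exact this
    rw [hsum, hp, ← neg_sub]
    exact neg_mem (h1 x)

section Components

variable {K : Type u} [Field K] {R : Type u} [CommRing R] [Algebra K R]
  {B : Type u} [CommRing B] [Algebra K B] {m : Ideal B} {k : ℕ} (ℓ : LevelBasis K B m k)

theorem LevelBasis.coeff_eq_zero {t : R ⊗[K] B} (ht : t ∈ smallSub (m ^ (k + 1))) (b : ℓ.β) :
    coeffMap (ℓ.μ b) t = 0 := by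
  refine smallSub_induction (P := fun t => coeffMap (ℓ.μ b) t = 0) ?_ ?_ ?_ ht
  · simp
  · intro a e he
    rw [coeffMap_tmul, ℓ.μ_succ b e he, zero_smul]
  · intro x y hx hy
    rw [map_add, hx, hy, add_zero]

theorem LevelBasis.exists_expansion {t : R ⊗[K] B} (ht : t ∈ smallSub (m ^ k)) :
    ∃ S₀ : Finset ℓ.β, ∀ S, S₀ ⊆ S →
      t - ∑ b ∈ S, coeffMap (ℓ.μ b) t ⊗ₜ[K] ℓ.e b ∈ smallSub (m ^ (k + 1)) := by
  classical
  refine smallSub_induction (P := fun t => ∃ S₀ : Finset ℓ.β, ∀ S, S₀ ⊆ S →
    t - ∑ b ∈ S, coeffMap (ℓ.μ b) t ⊗ₜ[K] ℓ.e b ∈ smallSub (m ^ (k + 1))) ⟨∅, by simp⟩ ?_ ?_ ht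
  · intro a e he
    refine ⟨ℓ.support e, fun S hS => ?_⟩
    have h := tmul_mem_smallSub (K := K) a (ℓ.expand e he S hS)
    rw [TensorProduct.tmul_sub, TensorProduct.tmul_sum] at h
    simpa [coeffMap_tmul, TensorProduct.smul_tmul] using h
  · rintro x y ⟨Sx, hx⟩ ⟨Sy, hy⟩
    refine ⟨Sx ∪ Sy, fun S hS => ?_⟩
    have h := add_mem (hx S (Finset.union_subset_left hS)) (hy S (Finset.union_subset_right hS))
    simp only [map_add, TensorProduct.add_tmul, Finset.sum_add_distrib]
    convert h using 1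
    abel

end Components

end Fermat.Agent.AbVar
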