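import Mathlib

/-! Lifting kernel vectors of a matrix from special points, or from all infinitesimal
neighbourhoods of a point. -/

set_option autoImplicit false

noncomputable section

universe u v

namespace Fermat.Agent.AbVar

open Matrix

theorem exists_det_ne_zero_of_kernel_trivial {F : Type*} [Field F] {Λ : Type*} {D : ℕ}
    (M : Λ → Fin D → F) (h : ∀ w : Fin D → F, (∀ l, M l ⬝ᵥ w = 0) → w = 0) :
    ∃ r : Fin D → Λ, (Matrix.of fun i => M (r i)).det ≠ 0 := by
  classical
  have hspan : Submodule.span F (Set.range M) = ⊤ := by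
    by_contra hne
    obtain ⟨φ, hφ, hφ'⟩ := Submodule.exists_le_ker_of_lt_top _ (lt_top_iff_ne_top.mpr hne)
    have hw : ∀ x : Fin D → F, φ x = x ⬝ᵥ fun i => φ (Pi.single i 1) := by
      intro x
      conv_lhs => rw [pi_eq_sum_univ' x]
      simp [dotProduct, map_sum]
    have := h (fun i => φ (Pi.single i 1)) fun l => by
      rw [← hw]
      exact hφ' (Submodule.subset_span ⟨l, rfl⟩)
    refine hφ (LinearMap.ext fun x => ?_)
    rw [hw x, this]
    simp
  obtain ⟨b, hbsub, hbspan, hbind⟩ := exists_linearIndependent F (Set.range M)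
  have : Fintype b := hbind.setFinite.fintype
  let B : Module.Basis b F (Fin D → F) :=
    Module.Basis.mk hbind (by rw [Subtype.range_coe, hbspan, hspan])
  have hcard : Fintype.card b = D := by
    have := Module.finrank_eq_card_basis B
    simpa using this.symm
  let e : Fin D ≃ b := (Fintype.equivFinOfCardEq hcard).symm
  choose r hr using fun i : Fin D => hbsub (e i).2
  refine ⟨r, ?_⟩
  have hli : LinearIndependent F (fun i => M (r i)) := by
    have : (fun i => M (r i)) = (fun x : b => (x : Fin D → F)) ∘ e := funext hr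
    rw [this]
    exact hbind.comp _ e.injective
  have hu : IsUnit (Matrix.of fun i => M (r i)) :=
    Matrix.linearIndependent_rows_iff_isUnit.mp hli
  exact ((Matrix.isUnit_iff_isUnit_det _).mp hu).ne_zero

/-- A kernel vector that does not vanish at `z₀`. -/
theorem exists_kernel_lift {B : Type*} [CommRing B] {K : Type*} [Field K] {Ω : Type*}
    (ev : Ω → B →+* K) (hsep : ∀ b, (∀ z, ev z b = 0) → b = 0) {Λ : Type*} {D : ℕ}
    (M : Λ → Fin D → B) (hall : ∀ z, ∃ v : Fin D → K, v ≠ 0 ∧ ∀ l, (fun c => ev z (M l c)) ⬝ᵥ v = 0)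
    (z₀ : Ω) (hone : ∀ v w : Fin D → K, v ≠ 0 → (∀ l, (fun c => ev z₀ (M l c)) ⬝ᵥ v = 0) →
      (∀ l, (fun c => ev z₀ (M l c)) ⬝ᵥ w = 0) → ∃ r : K, w = r • v) :
    ∃ x : Fin D → B, (∀ l, M l ⬝ᵥ x = 0) ∧ ∃ c, ev z₀ (x c) ≠ 0 := by
  classical
  obtain ⟨v, hv0, hv⟩ := hall z₀
  obtain ⟨c₀, hc₀⟩ := Function.ne_iff.mp hv0
  let M' : Option Λ → Fin D → B := fun o => o.elim (Pi.single c₀ 1) M
  obtain ⟨r, hr⟩ := exists_det_ne_zero_of_kernel_trivial
    (fun o c => ev z₀ (M' o c)) fun w hw => by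
      obtain ⟨t, rfl⟩ := hone v w hv0 hv fun l => hw (some l)
      have h0 := hw none
      simp [M', dotProduct, Pi.single_apply] at h0
      rcases h0 with h0 | h0
      · simp [h0]
      · exact absurd h0 (by simpa using hc₀)
  let Q : Matrix (Fin D) (Fin D) B := Matrix.of fun i => M' (r i)
  have hdet : ∀ (Q' : Matrix (Fin D) (Fin D) B), (∀ i, ∃ l, Q' i = M l) → Q'.det = 0 := by
    intro Q' hQ'
    refine hsep _ fun z => ?_
    obtain ⟨w, hw0, hw⟩ := hall z
    rw [RingHom.map_det]
    refine Matrix.exists_mulVec_eq_zero_iff.mp ⟨w, hw0, funext fun i => ?_⟩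
    obtain ⟨l, hl⟩ := hQ' i
    simpa [Matrix.mulVec, dotProduct, hl] using hw l
  have hQev : ev z₀ Q.det ≠ 0 := by
    rw [RingHom.map_det]
    exact hr
  obtain ⟨j, hj⟩ : ∃ j, r j = none := by
    by_contra hnone
    refine hQev ?_
    rw [hdet Q fun i => ?_, map_zero]
    rcases hri : r i with _ | l
    · exact absurd ⟨i, hri⟩ hnone
    · exact ⟨l, show M' (r i) = M l by rw [hri]; rfl⟩
  have key : ∀ b : Fin D → B, b ⬝ᵥ (fun c => Q.adjugate c j) = (Q.updateRow j b).det := by
    intro b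
    rw [← Matrix.cramer_transpose_apply, Matrix.cramer_eq_adjugate_mulVec,
      ← Matrix.adjugate_transpose]
    simp [Matrix.mulVec, dotProduct, mul_comm]
  refine ⟨fun c => Q.adjugate c j, fun l => ?_, c₀, ?_⟩
  · rw [key]
    refine hsep _ fun z => ?_
    obtain ⟨w, hw0, hw⟩ := hall z
    rw [RingHom.map_det]
    by_cases hno : ∃ i, i ≠ j ∧ r i = none
    · obtain ⟨i, hij, hi⟩ := hno
      exfalso
      refine hQev ?_
      rw [Matrix.det_zero_of_row_eq hij (show M' (r i) = M' (r j) by rw [hi, hj]), map_zero]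
    refine Matrix.exists_mulVec_eq_zero_iff.mp ⟨w, hw0, funext fun i => ?_⟩
    rcases eq_or_ne i j with rfl | hij
    · simpa [Matrix.mulVec, dotProduct] using hw l
    · rcases hri : r i with _ | l'
      · exact absurd ⟨i, hij, hri⟩ hno
      · simpa [Matrix.mulVec, dotProduct, Q, M', hri, hij] using hw l'
  · have h1 := key (Pi.single c₀ 1)
    have h2 : Q.updateRow j (Pi.single c₀ 1) = Q := by
      ext i c
      rcases eq_or_ne i j with rfl | hij
      · simp [Q, M', hj]
      · simp [hij]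
    rw [h2] at h1
    show ev z₀ (Q.adjugate c₀ j) ≠ 0
    simp only [dotProduct, Pi.single_apply, ite_mul, one_mul, zero_mul,
      Finset.sum_ite_eq', Finset.mem_univ, ite_true] at h1
    rwa [h1]

/-- Solutions modulo all powers of a maximal ideal give a global solution. -/
theorem exists_kernel_of_formal {B : Type*} [CommRing B] [IsDomain B] (m : Ideal B) [m.IsMaximal]
    (hkr : ∀ b, (∀ k : ℕ, b ∈ m ^ k) → b = 0) {Λ : Type*} {D : ℕ} (M : Λ → Fin D → B)
    (h : ∀ k : ℕ, ∃ x : Fin D → B, (∀ l, M l ⬝ᵥ x ∈ m ^ k) ∧ ∃ c, x c ∉ m) :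
    ∃ x : Fin D → B, x ≠ 0 ∧ ∀ l, M l ⬝ᵥ x = 0 := by
  classical
  let F := FractionRing B
  by_contra hcon
  obtain ⟨r, hr⟩ := exists_det_ne_zero_of_kernel_trivial
    (fun l c => algebraMap B F (M l c)) fun w hw => by
      obtain ⟨⟨b, hb⟩, hbw⟩ := IsLocalization.exist_integer_multiples_of_finite
        (nonZeroDivisors B) w
      choose x hx using hbw
      by_contra hw0
      refine hcon ⟨x, fun h0 => hw0 (funext fun c => ?_), fun l => ?_⟩
      · have := hx c
        rw [h0, Pi.zero_apply, map_zero, Algebra.smul_def, eq_comm, mul_eq_zero] at this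
        exact this.resolve_left (IsLocalization.to_map_ne_zero_of_mem_nonZeroDivisors F le_rfl hb)
      · refine IsFractionRing.injective B F ?_
        rw [map_zero, dotProduct, map_sum]
        simp only [map_mul, hx, Algebra.smul_def, mul_left_comm _ (algebraMap B F b)]
        rw [← Finset.mul_sum]
        exact mul_eq_zero_of_right _ (hw l)
  refine hr ?_
  let Q : Matrix (Fin D) (Fin D) B := Matrix.of fun i => M (r i)
  suffices Q.det = 0 by
    have := congrArg (algebraMap B F) this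
    rwa [map_zero, RingHom.map_det] at this
  refine hkr _ fun k => ?_
  obtain ⟨x, hx, c, hc⟩ := h k
  have h1 : Q.det * x c ∈ m ^ k := by
    have h2 : Q.adjugate *ᵥ (Q *ᵥ x) = Q.det • x := by
      rw [Matrix.mulVec_mulVec, Matrix.adjugate_mul, Matrix.smul_mulVec, Matrix.one_mulVec]
    have h3 := congrFun h2 c
    rw [Pi.smul_apply, smul_eq_mul] at h3
    rw [← h3]
    simp only [Matrix.mulVec, dotProduct]
    exact Ideal.sum_mem _ fun i _ => Ideal.mul_mem_left _ _ (hx (r i))
  have htop : Ideal.span {x c} ⊔ m ^ k = ⊤ :=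
    Ideal.sup_pow_eq_top (by
      by_contra hne
      have := (Ideal.IsMaximal.eq_of_le ‹_› hne (le_sup_right : m ≤ Ideal.span {x c} ⊔ m))
      exact hc (this ▸ Ideal.mem_sup_left (Ideal.mem_span_singleton_self _)))
  obtain ⟨a, ha, b, hb, hab⟩ := Submodule.mem_sup.mp ((Ideal.eq_top_iff_one _).mp htop)
  obtain ⟨a', rfl⟩ := Ideal.mem_span_singleton'.mp ha
  rw [← mul_one Q.det, ← hab, mul_add, mul_left_comm]
  exact add_mem (Ideal.mul_mem_left _ _ h1) (Ideal.mul_mem_left _ _ hb)

end Fermat.Agent.AbVar
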