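import Fermat.Agent.AbVar.Interfaces
import Mathlib.RingTheory.RingHom.StandardSmooth
import Mathlib.RingTheory.RingHom.Etale
import Mathlib.RingTheory.Smooth.Flat
import Mathlib.RingTheory.Unramified.LocalRing
import Mathlib.RingTheory.Unramified.Field
import Mathlib.RingTheory.Flat.Localization
import Mathlib.RingTheory.Flat.FaithfullyFlat.Algebra
import Mathlib.RingTheory.Jacobson.Ring

/-! Algebra behind the local structure of a smooth variety: etale algebras over a polynomial ring
over an algebraically closed field have factorial local rings and separable function fields. -/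

set_option autoImplicit false

noncomputable section

open IsLocalRing

universe u

namespace Fermat.Agent.AbVar.LocalStructure

variable {K : Type u} [Field K] {g : ℕ}

theorem finiteType_of_etale {S : Type u} [CommRing S] [Algebra K S]
    (φ : MvPolynomial (Fin g) K →+* S) (hC : φ.comp MvPolynomial.C = algebraMap K S)
    (hφ : φ.Etale) : Algebra.FiniteType K S := by
  algebraize [φ]
  have : IsScalarTower K (MvPolynomial (Fin g) K) S := .of_algebraMap_eq' hC.symm
  exact .trans (S := MvPolynomial (Fin g) K) inferInstance inferInstance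

/-- The localisation at a maximal ideal of an etale algebra over a polynomial ring has the formal
structure of affine space, hence is a factorial domain. -/
theorem factorial_of_etale [IsAlgClosed K] (hU : FormalFactorialProperty K) {S : Type u}
    [CommRing S] [Algebra K S] (φ : MvPolynomial (Fin g) K →+* S)
    (hC : φ.comp MvPolynomial.C = algebraMap K S) (hφ : φ.Etale)
    (P : Ideal S) [hP : P.IsMaximal] (R : Type u) [CommRing R] [Algebra S R]
    [IsLocalization.AtPrime R P] : IsDomain R ∧ UniqueFactorizationMonoid R := by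
  have := finiteType_of_etale φ hC hφ
  let _ : Field (S ⧸ P) := Ideal.Quotient.field P
  have : Module.Finite K (S ⧸ P) := finite_of_finite_type_of_isJacobsonRing K (S ⧸ P)
  have hbij := IsAlgClosed.algebraMap_bijective_of_isIntegral (k := K) (K := S ⧸ P)
  have : ∀ i, ∃ c : K, algebraMap K (S ⧸ P) c = Ideal.Quotient.mk P (φ (MvPolynomial.X i)) :=
    fun i => hbij.2 _
  choose a ha using this
  -- shift the coordinates so that the point becomes the origin
  let fwd : MvPolynomial (Fin g) K →ₐ[K] MvPolynomial (Fin g) K :=
    MvPolynomial.aeval fun i => MvPolynomial.X i - MvPolynomial.C (a i)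
  let bwd : MvPolynomial (Fin g) K →ₐ[K] MvPolynomial (Fin g) K :=
    MvPolynomial.aeval fun i => MvPolynomial.X i + MvPolynomial.C (a i)
  let σ : MvPolynomial (Fin g) K ≃ₐ[K] MvPolynomial (Fin g) K :=
    AlgEquiv.ofAlgHom fwd bwd (by ext; simp [fwd, bwd]) (by ext; simp [fwd, bwd])
  let ψ : MvPolynomial (Fin g) K →+* S := φ.comp σ.toRingEquiv.toRingHom
  have hψ : ψ.Etale := RingHom.Etale.respectsIso.2 φ σ.toRingEquiv hφ
  have hψC : ψ.comp MvPolynomial.C = algebraMap K S := by
    refine RingHom.ext fun c => ?_
    rw [← hC]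
    simp [ψ, σ, fwd]
  have hψX : ∀ i, ψ (MvPolynomial.X i) = φ (MvPolynomial.X i) - algebraMap K S (a i) := by
    intro i
    rw [← hC]
    simp [ψ, σ, fwd]
  clear_value ψ
  clear hφ
  algebraize [ψ]
  let _ : Algebra (MvPolynomial (Fin g) K) R := Algebra.compHom R ψ
  let _ : Algebra K R := Algebra.compHom R (algebraMap K S)
  have : IsScalarTower (MvPolynomial (Fin g) K) S R := .of_algebraMap_eq' rfl
  have : IsScalarTower K S R := .of_algebraMap_eq' rfl
  have : IsScalarTower K (MvPolynomial (Fin g) K) S := .of_algebraMap_eq' hψC.symm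
  have : IsScalarTower K (MvPolynomial (Fin g) K) R := .to₁₂₄ _ _ S _
  have : IsLocalRing R := IsLocalization.AtPrime.isLocalRing R P
  have : IsNoetherianRing S := Algebra.FiniteType.isNoetherianRing K S
  have : IsNoetherianRing R := IsLocalization.isNoetherianRing P.primeCompl R inferInstance
  let Q : Ideal (MvPolynomial (Fin g) K) := Ideal.span (Set.range MvPolynomial.X)
  have hQle : Q ≤ P.comap ψ := by
    refine Ideal.span_le.2 ?_
    rintro _ ⟨i, rfl⟩
    show ψ (MvPolynomial.X i) ∈ P
    rw [hψX, ← Ideal.Quotient.eq, ← ha i, Ideal.Quotient.mk_algebraMap]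
  have hQmax : Q.IsMaximal := by
    have hker : Q = RingHom.ker
        (MvPolynomial.constantCoeff : MvPolynomial (Fin g) K →+* K) := by
      ext p
      rw [RingHom.mem_ker, ← pow_one Q,
        show Q = MvPolynomial.idealOfVars (Fin g) K from rfl,
        MvPolynomial.mem_pow_idealOfVars_iff']
      simp [Finsupp.degree_eq_zero_iff, MvPolynomial.constantCoeff_eq]
    rw [hker]
    exact RingHom.ker_isMaximal_of_surjective
      (MvPolynomial.constantCoeff : MvPolynomial (Fin g) K →+* K)
      (fun c => ⟨MvPolynomial.C c, MvPolynomial.constantCoeff_C _ c⟩)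
  have hQ : Q = P.comap ψ := hQmax.eq_of_le (Ideal.comap_ne_top _ hP.ne_top) hQle
  let L := Localization.AtPrime Q
  have hunit : ∀ y : Q.primeCompl, IsUnit (algebraMap (MvPolynomial (Fin g) K) R y) := fun y => by
    rw [IsScalarTower.algebraMap_apply (MvPolynomial (Fin g) K) S R]
    refine IsLocalization.map_units R (⟨algebraMap _ S y.1, fun h => ?_⟩ : P.primeCompl)
    exact y.2 (hQ.ge h)
  let _ : Algebra L R := (IsLocalization.lift (S := L) hunit).toAlgebra
  have : IsScalarTower (MvPolynomial (Fin g) K) L R :=
    .of_algebraMap_eq fun p => (IsLocalization.lift_eq hunit p).symm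
  have hmL : maximalIdeal L = Q.map (algebraMap _ L) :=
    (Localization.AtPrime.map_eq_maximalIdeal).symm
  have hQR : Q.map (algebraMap (MvPolynomial (Fin g) K) R) ≤ maximalIdeal R := by
    rw [Ideal.map_le_iff_le_comap]
    intro p hp
    rw [Ideal.mem_comap, IsScalarTower.algebraMap_apply (MvPolynomial (Fin g) K) S R,
      IsLocalization.AtPrime.to_map_mem_maximal_iff R P]
    exact hQle hp
  have : IsLocalHom (algebraMap L R) := by
    refine ((local_hom_TFAE (algebraMap L R)).out 0 2).mpr ?_
    rw [hmL, Ideal.map_map, ← IsScalarTower.algebraMap_eq]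
    exact hQR
  have : Algebra.FormallyUnramified S R := .of_isLocalization P.primeCompl
  have : Algebra.FormallyUnramified (MvPolynomial (Fin g) K) R := .comp _ S _
  have : Algebra.FormallyUnramified L R := .of_restrictScalars (MvPolynomial (Fin g) K) _ _
  have : Algebra.EssFiniteType S R := .of_isLocalization R P.primeCompl
  have : Algebra.EssFiniteType (MvPolynomial (Fin g) K) R := .comp _ S _
  have : Algebra.EssFiniteType L R := .of_comp (MvPolynomial (Fin g) K) _ _
  have : Module.Flat S R := IsLocalization.flat R P.primeCompl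
  have : Module.Flat (MvPolynomial (Fin g) K) R := .trans _ S _
  have : Module.Flat L R := (Module.flat_iff_of_isLocalization L Q.primeCompl R).2 inferInstance
  have : Module.FaithfullyFlat L R := Module.FaithfullyFlat.of_flat_of_isLocalHom
  have hmR : maximalIdeal R = Q.map (algebraMap (MvPolynomial (Fin g) K) R) := by
    rw [← Algebra.FormallyUnramified.map_maximalIdeal (R := L) (S := R), hmL, Ideal.map_map,
      ← IsScalarTower.algebraMap_eq]
  have haeval : MvPolynomial.aeval (fun i => algebraMap (MvPolynomial (Fin g) K) R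
      (MvPolynomial.X i)) = IsScalarTower.toAlgHom K (MvPolynomial (Fin g) K) R := by
    ext
    simp
  refine hU g R (fun i => algebraMap (MvPolynomial (Fin g) K) R (MvPolynomial.X i)) ?_ ?_ ?_
  · rw [hmR, Ideal.map_span, ← Set.range_comp]
    rfl
  · intro r
    obtain ⟨r, rfl⟩ := residue_surjective r
    let e := IsLocalization.AtPrime.equivQuotMaximalIdeal P R
    obtain ⟨s, hs⟩ := e.surjective (residue R r)
    obtain ⟨s, rfl⟩ := Ideal.Quotient.mk_surjective s
    obtain ⟨c, hc⟩ := hbij.2 (Ideal.Quotient.mk P s)
    refine ⟨c, ?_⟩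
    rw [← hs, ← hc, ← Ideal.Quotient.mk_algebraMap]
    rfl
  · intro k p hp
    rw [haeval, hmR, ← Ideal.map_pow] at hp
    have hpL : algebraMap _ L p ∈ (Q ^ k).map (algebraMap _ L) := by
      rw [← Ideal.comap_map_eq_self_of_faithfullyFlat (B := R) ((Q ^ k).map (algebraMap _ L)),
        Ideal.mem_comap, Ideal.map_map, ← IsScalarTower.algebraMap_eq,
        ← IsScalarTower.algebraMap_apply]
      exact hp
    obtain ⟨s, hs, hsp⟩ :=
      (IsLocalization.algebraMap_mem_map_algebraMap_iff Q.primeCompl L (Q ^ k) p).1 hpL
    have htop : Q ^ k ⊔ Ideal.span {s} = ⊤ := by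
      refine Ideal.pow_sup_eq_top (hQmax.1.2 _ (lt_of_le_of_ne le_sup_left fun h => hs ?_))
      rw [h]
      exact Ideal.mem_sup_right (Ideal.subset_span rfl)
    obtain ⟨q, hq, w, hw, hqw⟩ := Submodule.mem_sup.1 (htop.symm ▸ Submodule.mem_top (x := 1))
    obtain ⟨t, rfl⟩ := Ideal.mem_span_singleton'.1 hw
    have : p = p * q + t * (s * p) := by linear_combination -p * hqw
    rw [this]
    exact add_mem (Ideal.mul_mem_left _ _ hq) (Ideal.mul_mem_left _ _ hsp)

/-- A localisation at a prime below a prime with domain localisation is a domain. -/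
theorem isDomain_of_le {S : Type u} [CommRing S] {p P : Ideal S} [p.IsPrime] [P.IsPrime]
    (hle : p ≤ P) (R R' : Type u) [CommRing R] [CommRing R'] [Algebra S R] [Algebra S R']
    [IsLocalization.AtPrime R p] [IsLocalization.AtPrime R' P] [IsDomain R'] : IsDomain R := by
  have : Nontrivial R := (IsLocalization.AtPrime.isLocalRing R p).toNontrivial
  have : NoZeroDivisors R := ⟨fun {x y} hxy => by
    obtain ⟨a, s, rfl⟩ := IsLocalization.exists_mk'_eq p.primeCompl x
    obtain ⟨b, t, rfl⟩ := IsLocalization.exists_mk'_eq p.primeCompl y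
    rw [← IsLocalization.mk'_mul, IsLocalization.mk'_eq_zero_iff] at hxy
    obtain ⟨v, hv⟩ := hxy
    have hv' := congrArg (algebraMap S R') hv
    rw [map_mul, map_mul, map_zero, mul_eq_zero, mul_eq_zero] at hv'
    have key : ∀ c : S, algebraMap S R' c = 0 → ∃ w : p.primeCompl, (w : S) * c = 0 := by
      intro c hc
      obtain ⟨w, hw⟩ := (IsLocalization.map_eq_zero_iff P.primeCompl R' c).1 hc
      exact ⟨⟨w.1, fun h => w.2 (hle h)⟩, hw⟩
    rcases hv' with h | h | h
    · obtain ⟨w, hw⟩ := key _ h
      exact ((w * v).2 (by simp [hw])).elim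
    · exact Or.inl ((IsLocalization.mk'_eq_zero_iff _ _).2 (key _ h))
    · exact Or.inr ((IsLocalization.mk'_eq_zero_iff _ _).2 (key _ h))⟩
  exact NoZeroDivisors.to_isDomain R

/-- The fraction field of an etale domain over a polynomial ring is finite separable over the
rational function field of the coordinates, which are algebraically independent. -/
theorem fractionField_of_etale {S F : Type u} [CommRing S] [IsDomain S] [Algebra K S] [Field F]
    [Algebra S F] [IsFractionRing S F] [Algebra K F] [IsScalarTower K S F]
    (φ : MvPolynomial (Fin g) K →+* S) (hC : φ.comp MvPolynomial.C = algebraMap K S)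
    (hφ : φ.Etale) (x : Fin g → F) (hx : ∀ i, x i = algebraMap S F (φ (MvPolynomial.X i))) :
    AlgebraicIndependent K x ∧
      FiniteDimensional (IntermediateField.adjoin K (Set.range x)) F ∧
      Algebra.IsSeparable (IntermediateField.adjoin K (Set.range x)) F := by
  algebraize [φ]
  let _ : Algebra (MvPolynomial (Fin g) K) F := Algebra.compHom F φ
  have : IsScalarTower (MvPolynomial (Fin g) K) S F := .of_algebraMap_eq' rfl
  have : IsScalarTower K (MvPolynomial (Fin g) K) S := .of_algebraMap_eq' hC.symm
  have : IsScalarTower K (MvPolynomial (Fin g) K) F := .to₁₂₄ _ _ S _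
  have haeval : MvPolynomial.aeval x = IsScalarTower.toAlgHom K (MvPolynomial (Fin g) K) F := by
    ext i
    simp [hx i, IsScalarTower.algebraMap_apply (MvPolynomial (Fin g) K) S F,
      RingHom.algebraMap_toAlgebra]
  refine ⟨?_, ?_⟩
  · rw [algebraicIndependent_iff_injective_aeval, haeval]
    show Function.Injective (algebraMap (MvPolynomial (Fin g) K) F)
    rw [IsScalarTower.algebraMap_eq _ S F]
    refine (IsFractionRing.injective S F).comp ?_
    refine (injective_iff_map_eq_zero _).2 fun p hp => ?_
    by_contra hp0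
    have : Function.Injective fun s : S => p • s :=
      IsSMulRegular.of_flat (IsRegular.of_ne_zero hp0).left
    exact one_ne_zero (this (show p • (1 : S) = p • 0 by simp [Algebra.smul_def, hp]))
  let E := IntermediateField.adjoin K (Set.range x)
  let gen : MvPolynomial (Fin g) K →ₐ[K] E :=
    MvPolynomial.aeval fun i => ⟨x i, IntermediateField.subset_adjoin K _ ⟨i, rfl⟩⟩
  let _ : Algebra (MvPolynomial (Fin g) K) E := gen.toRingHom.toAlgebra
  have : IsScalarTower (MvPolynomial (Fin g) K) E F := .of_algebraMap_eq fun p => by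
    show _ = E.val (gen p)
    rw [← AlgHom.comp_apply, MvPolynomial.comp_aeval]
    exact (DFunLike.congr_fun haeval p).symm
  have : Algebra.FormallyUnramified S F := .of_isLocalization (nonZeroDivisors S)
  have : Algebra.FormallyUnramified (MvPolynomial (Fin g) K) F := .comp _ S _
  have : Algebra.FormallyUnramified E F := .of_restrictScalars (MvPolynomial (Fin g) K) _ _
  have : Algebra.EssFiniteType S F := .of_isLocalization F (nonZeroDivisors S)
  have : Algebra.EssFiniteType (MvPolynomial (Fin g) K) F := .comp _ S _
  have : Algebra.EssFiniteType E F := .of_comp (MvPolynomial (Fin g) K) _ _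
  exact ⟨Algebra.FormallyUnramified.finite_of_free E F,
    Algebra.FormallyUnramified.isSeparable E F⟩

/-- In a factorial domain the denominators of finitely many fractions have a least common
multiple. -/
theorem exists_common_denominator {R F : Type u} [CommRing R] [IsDomain R]
    [UniqueFactorizationMonoid R] [Field F] [Algebra R F] [IsFractionRing R F]
    {ι : Type*} [Finite ι] (x : ι → F) :
    ∃ u : R, u ≠ 0 ∧ (∀ i, ∃ r : R, algebraMap R F u * x i = algebraMap R F r) ∧
      ∀ v : R, (∀ i, ∃ r : R, algebraMap R F v * x i = algebraMap R F r) → u ∣ v := by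
  classical
  let _ : GCDMonoid R := UniqueFactorizationMonoid.toGCDMonoid R
  cases nonempty_fintype ι
  let d : ι → R := fun i => (IsFractionRing.den R (x i) : R)
  have hd : ∀ i (v : R), (∃ r : R, algebraMap R F v * x i = algebraMap R F r) ↔ d i ∣ v := by
    intro i v
    have hne : algebraMap R F (d i) ≠ 0 := (map_ne_zero_iff _ (IsFractionRing.injective R F)).2
      (nonZeroDivisors.ne_zero (IsFractionRing.den R (x i)).2)
    have hx : x i * algebraMap R F (d i) = algebraMap R F (IsFractionRing.num R (x i)) :=
      (congrArg (· * algebraMap R F (d i)) (IsFractionRing.mk'_num_den R (x i)).symm).trans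
        (IsLocalization.mk'_spec F _ _)
    constructor
    · rintro ⟨r, hr⟩
      have h : v * IsFractionRing.num R (x i) = r * d i := IsFractionRing.injective R F (by
        rw [map_mul, map_mul, ← hx, ← hr]
        ring)
      exact (IsFractionRing.num_den_reduced R (x i)).symm.dvd_of_dvd_mul_right
        (h ▸ Dvd.intro_left r rfl)
    · rintro ⟨w, rfl⟩
      refine ⟨w * IsFractionRing.num R (x i), ?_⟩
      rw [map_mul, map_mul, ← hx]
      ring
  have hl : ∀ s : Finset ι, ∃ u : R, u ≠ 0 ∧ ∀ v, (∀ i ∈ s, d i ∣ v) ↔ u ∣ v := by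
    intro s
    induction s using Finset.induction with
    | empty => exact ⟨1, one_ne_zero, fun v => by simp⟩
    | @insert i s his ih =>
      obtain ⟨u, hu0, hu⟩ := ih
      refine ⟨lcm (d i) u, fun h => ?_, fun v => ?_⟩
      · rcases (lcm_eq_zero_iff _ _).1 h with h | h
        · exact nonZeroDivisors.ne_zero (IsFractionRing.den R (x i)).2 h
        · exact hu0 h
      · simp [lcm_dvd_iff, hu v]
  obtain ⟨u, hu0, hu⟩ := hl Finset.univ
  exact ⟨u, hu0, fun i => (hd i u).2 ((hu u).2 dvd_rfl i (Finset.mem_univ i)),
    fun v hv => (hu v).1 fun i _ => (hd i v).1 (hv i)⟩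

end Fermat.Agent.AbVar.LocalStructure
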