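import Fermat.Agent.AbVar.NsmulTangent

/-! Multiplication by an invertible `n` is unramified at closed points, finite and dominant. -/

set_option autoImplicit false

noncomputable section

open CategoryTheory CategoryTheory.Limits AlgebraicGeometry NeronModelInfra GoodReductionJacobian
  GoodReductionJacobian.RelativeGroupLaw IsLocalRing

universe u

namespace Fermat.Agent.AbVar

variable {A : Scheme.{u}}

/-- The map of stalks of `φ` at `x`, with a name for the image point. -/
def stalkTo (φ : A ⟶ A) (x y : A) (h : φ x = y) :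
    A.presheaf.stalk y ⟶ A.presheaf.stalk x :=
  (A.presheaf.stalkCongr (.of_eq h.symm)).hom ≫ φ.stalkMap x

theorem SpecMap_stalkTo (φ : A ⟶ A) (x y : A) (h : φ x = y) :
    Spec.map (stalkTo φ x y h) ≫ A.fromSpecStalk y = A.fromSpecStalk x ≫ φ := by
  subst h
  simp [stalkTo]

theorem stalkTo_comp (φ ψ : A ⟶ A) (x y z : A) (h : φ x = y) (h' : ψ y = z)
    (h'' : (φ ≫ ψ) x = z) :
    stalkTo (φ ≫ ψ) x z h'' = stalkTo ψ y z h' ≫ stalkTo φ x y h := by
  apply Spec.map_injective
  rw [← cancel_mono (A.fromSpecStalk z), SpecMap_stalkTo, Spec.map_comp, Category.assoc,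
    SpecMap_stalkTo, reassoc_of% SpecMap_stalkTo φ x y h]

theorem stalkTo_congr {φ ψ : A ⟶ A} (e : φ = ψ) (x y : A) (h : φ x = y) (h' : ψ x = y) :
    stalkTo φ x y h = stalkTo ψ x y h' := by
  subst e
  rfl

theorem stalkTo_rfl (φ : A ⟶ A) (x : A) : stalkTo φ x (φ x) rfl = φ.stalkMap x := by
  simp [stalkTo]

instance (φ : A ⟶ A) (x y : A) (h : φ x = y) [IsIso φ] : IsIso (stalkTo φ x y h) := by
  delta stalkTo
  infer_instance

theorem stalkTo_isLocalHom (φ : A ⟶ A) (x y : A) (h : φ x = y) :
    IsLocalHom (stalkTo φ x y h).hom := by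
  subst h
  rw [stalkTo_rfl]
  infer_instance

theorem map_maximalIdeal_iso {R S : CommRingCat.{u}} [IsLocalRing R] [IsLocalRing S] (e : R ⟶ S)
    [IsIso e] : (maximalIdeal R).map e.hom = maximalIdeal S := by
  have hb := (ConcreteCategory.isIso_iff_bijective e).mp inferInstance
  refine eq_maximalIdeal ((Ideal.map_eq_top_or_isMaximal_of_surjective e.hom hb.2
    inferInstance).resolve_left fun h => ?_)
  have h2 := congrArg (Ideal.comap e.hom) h
  rw [Ideal.comap_map_of_bijective _ hb, Ideal.comap_top] at h2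
  exact (maximalIdeal.isMaximal R).ne_top h2

theorem map_maximalIdeal_of_sub_mem {O : Type u} [CommRing O] [IsLocalRing O] [IsNoetherianRing O]
    (σ : O →+* O) [IsLocalHom σ] (n : ℕ) (hu : IsUnit (n : O))
    (h : ∀ a ∈ maximalIdeal O, σ a - (n : O) * a ∈ maximalIdeal O ^ 2) :
    (maximalIdeal O).map σ = maximalIdeal O := by
  have hle : (maximalIdeal O).map σ ≤ maximalIdeal O := by
    rw [Ideal.map_le_iff_le_comap]
    exact fun a ha hu => ha (isUnit_of_map_unit σ a hu)
  refine hle.antisymm (Submodule.le_of_le_smul_of_le_jacobson_bot (IsNoetherian.noetherian _)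
    (jacobson_eq_maximalIdeal ⊥ bot_ne_top).ge ?_)
  intro a ha
  obtain ⟨b, hb⟩ := hu.exists_left_inv
  have h2 := h a ha
  rw [pow_two] at h2
  have : a = b * σ a + (-b) * (σ a - n * a) := by
    linear_combination (-a) * hb
  rw [this]
  exact add_mem (Submodule.mem_sup_left (Ideal.mul_mem_left _ _ (Ideal.mem_map_of_mem σ ha)))
    (Submodule.mem_sup_right (Ideal.mul_mem_left _ _ h2))

theorem map_maximalIdeal_of_square {R S R' S' : CommRingCat.{u}} [IsLocalRing R] [IsLocalRing S]
    [IsLocalRing R'] [IsLocalRing S'] {σ' : R ⟶ S} {e : S ⟶ S'} {e' : R ⟶ R'} {σ : R' ⟶ S'}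
    [IsIso e] [IsIso e'] (key : σ' ≫ e = e' ≫ σ)
    (hσ : (maximalIdeal R').map σ.hom = maximalIdeal S') :
    (maximalIdeal R).map σ'.hom = maximalIdeal S := by
  have h := congrArg (fun v => (maximalIdeal R).map v.hom) key
  simp only [CommRingCat.hom_comp, ← Ideal.map_map, map_maximalIdeal_iso, hσ] at h
  have hb := (ConcreteCategory.isIso_iff_bijective e).mp inferInstance
  have := congrArg (Ideal.comap e.hom) (h.trans (map_maximalIdeal_iso e).symm)
  rwa [Ideal.comap_map_of_bijective _ hb, Ideal.comap_map_of_bijective _ hb] at this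

/-- The powers of an ideal and the constants: one more infinitesimal step. -/
theorem exists_sub_mem_pow_succ {K : Type u} [Field K] {O : Type u} [CommRing O] [IsLocalRing O]
    (cst : K →+* O) (hres : ∀ o : O, ∃ c : K, o - cst c ∈ maximalIdeal O) (σ : O →+* O)
    (hσ : σ.comp cst = cst) (hm : (maximalIdeal O).map σ = maximalIdeal O) (k : ℕ)
    {b : O} (hb : b ∈ maximalIdeal O ^ k) :
    ∃ w ∈ maximalIdeal O ^ k, b - σ w ∈ maximalIdeal O ^ (k + 1) := by
  have hb' : b ∈ Submodule.span O (σ '' ((maximalIdeal O ^ k : Ideal O) : Set O)) := by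
    show b ∈ (maximalIdeal O ^ k).map σ
    rwa [Ideal.map_pow, hm]
  suffices h : ∀ o : O, ∃ w ∈ maximalIdeal O ^ k, o * b - σ w ∈ maximalIdeal O ^ (k + 1) by
    simpa using h 1
  clear hb
  induction hb' using Submodule.span_induction with
  | mem x hx =>
    obtain ⟨w, hw, rfl⟩ := hx
    intro o
    obtain ⟨c, hc⟩ := hres o
    refine ⟨cst c * w, Ideal.mul_mem_left _ _ hw, ?_⟩
    rw [map_mul, ← RingHom.comp_apply σ cst, hσ, ← sub_mul, pow_succ']
    refine Ideal.mul_mem_mul hc ?_
    rw [← hm, ← Ideal.map_pow]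
    exact Ideal.mem_map_of_mem σ hw
  | zero => exact fun o => ⟨0, zero_mem _, by simp⟩
  | add x y _ _ hx hy =>
    intro o
    obtain ⟨w, hw, hw'⟩ := hx o
    obtain ⟨v, hv, hv'⟩ := hy o
    refine ⟨w + v, add_mem hw hv, ?_⟩
    convert add_mem hw' hv' using 1
    rw [map_add]
    ring
  | smul a x _ hx =>
    intro o
    obtain ⟨w, hw, hw'⟩ := hx (o * a)
    exact ⟨w, hw, by rwa [smul_eq_mul, ← _root_.mul_assoc]⟩

/-- An endomorphism generating the maximal ideal is injective when the residue field is the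
field of constants. -/
theorem injective_of_map_maximalIdeal {K : Type u} [Field K] {O : Type u} [CommRing O]
    [IsLocalRing O] [IsNoetherianRing O] (cst : K →+* O)
    (hres : ∀ o : O, ∃ c : K, o - cst c ∈ maximalIdeal O) (σ : O →+* O)
    (hσ : σ.comp cst = cst) (hm : (maximalIdeal O).map σ = maximalIdeal O) :
    Function.Injective σ := by
  letI : Algebra K O := cst.toAlgebra
  set m := maximalIdeal O
  have hfin : ∀ k, Module.Finite K (O ⧸ m ^ k) := by
    intro k
    induction k with
    | zero =>
      have : Subsingleton (O ⧸ m ^ 0) := Ideal.Quotient.subsingleton_iff.mpr (by simp)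
      infer_instance
    | succ k ih =>
      obtain ⟨s, hs⟩ := ih.fg_top
      obtain ⟨t, ht⟩ : (m ^ k).FG := IsNoetherian.noetherian _
      classical
      choose l hl using fun x : O ⧸ m ^ k => Ideal.Quotient.mk_surjective x
      let P : Submodule K (O ⧸ m ^ (k + 1)) := Submodule.span K
        ((s.image (Ideal.Quotient.mk (m ^ (k + 1)) ∘ l) ∪
          t.image (Ideal.Quotient.mk (m ^ (k + 1))) : Finset _) : Set _)
      refine ⟨⟨_, (eq_top_iff.mpr fun x _ => ?_ : P = ⊤)⟩⟩
      obtain ⟨a, rfl⟩ := Ideal.Quotient.mk_surjective x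
      have key : ∀ b ∈ m ^ k, Ideal.Quotient.mk (m ^ (k + 1)) b ∈ P := by
        intro b hb
        rw [← ht] at hb
        suffices h : ∀ o : O, Ideal.Quotient.mk (m ^ (k + 1)) (o * b) ∈ P by simpa using h 1
        induction hb using Submodule.span_induction with
        | mem z hz =>
          intro o
          obtain ⟨c, hc⟩ := hres o
          have : Ideal.Quotient.mk (m ^ (k + 1)) (o * z) =
              c • Ideal.Quotient.mk (m ^ (k + 1)) z := by
            rw [← Ideal.Quotient.mk_eq_mk, ← Ideal.Quotient.mk_eq_mk, ← Submodule.Quotient.mk_smul,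
              Submodule.Quotient.eq, Algebra.smul_def, ← sub_mul, pow_succ']
            exact Ideal.mul_mem_mul hc (ht ▸ Submodule.subset_span hz)
          rw [this]
          exact P.smul_mem c (Submodule.subset_span (Finset.mem_coe.mpr
            (Finset.mem_union_right _ (Finset.mem_image_of_mem _ hz))))
        | zero => exact fun o => by simp
        | add y z _ _ hy hz => exact fun o => by rw [mul_add, map_add]; exact add_mem (hy o) (hz o)
        | smul r y _ hy => exact fun o => by rw [smul_eq_mul, ← _root_.mul_assoc]; exact hy _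
      let π : (O ⧸ m ^ (k + 1)) →ₐ[K] O ⧸ m ^ k :=
        Ideal.Quotient.factorₐ K (Ideal.pow_le_pow_right (Nat.le_succ k))
      have hmap : (Submodule.map π.toLinearMap P) = ⊤ := by
        rw [eq_top_iff, ← hs, Submodule.span_le]
        intro y hy
        refine ⟨Ideal.Quotient.mk _ (l y), Submodule.subset_span (Finset.mem_coe.mpr
          (Finset.mem_union_left _ (Finset.mem_image_of_mem _ hy))), ?_⟩
        exact hl y
      obtain ⟨y, hy, hyx⟩ : π (Ideal.Quotient.mk _ a) ∈ Submodule.map π.toLinearMap P :=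
        hmap ▸ Submodule.mem_top
      obtain ⟨b, rfl⟩ := Ideal.Quotient.mk_surjective y
      have hab : a - b ∈ m ^ k := by
        rw [← Ideal.Quotient.eq]
        exact hyx.symm
      simpa using add_mem (key _ hab) hy
  have hsurj : ∀ k, ∀ a : O, ∃ w, a - σ w ∈ m ^ k := by
    intro k
    induction k with
    | zero => exact fun a => ⟨0, by simp⟩
    | succ k ih =>
      intro a
      obtain ⟨w, hw⟩ := ih a
      obtain ⟨v, -, hv⟩ := exists_sub_mem_pow_succ cst hres σ hσ hm k hw
      exact ⟨w + v, by rwa [map_add, ← sub_sub]⟩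
  rw [injective_iff_map_eq_zero]
  intro a ha
  have hbot := Ideal.iInf_pow_eq_bot_of_isLocalRing m (maximalIdeal.isMaximal O).ne_top
  rw [← Ideal.mem_bot, ← hbot, Ideal.mem_iInf]
  intro k
  let σ' : O →ₐ[K] O := { σ with commutes' := fun c => DFunLike.congr_fun hσ c }
  have hle : m ^ k ≤ (m ^ k).comap σ' := by
    rw [← Ideal.map_le_iff_le_comap]
    show (m ^ k).map σ ≤ m ^ k
    rw [Ideal.map_pow, hm]
  let τ : (O ⧸ m ^ k) →ₐ[K] O ⧸ m ^ k := Ideal.quotientMapₐ _ σ' hle
  have := hfin k
  have hinj : Function.Injective τ.toLinearMap := by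
    rw [LinearMap.injective_iff_surjective]
    intro x
    obtain ⟨b, rfl⟩ := Ideal.Quotient.mk_surjective x
    obtain ⟨w, hw⟩ := hsurj k b
    exact ⟨Ideal.Quotient.mk _ w, (Ideal.Quotient.eq.mpr hw).symm⟩
  rw [← Ideal.Quotient.eq_zero_iff_mem]
  refine (map_eq_zero_iff τ.toLinearMap hinj).mp ?_
  show Ideal.Quotient.mk (m ^ k) (σ a) = 0
  rw [ha, map_zero]

section Group

variable {K : Type u} [Field K] {f : A ⟶ KSpec K}

/-- The constant point with value `p`. -/
def constPt (p : SchemeHomOver (𝟙 (KSpec K)) f) : SchemeHomOver f f :=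
  schemeHomOverComp f (Category.comp_id f) p

variable (L : RelativeGroupLaw K f)

/-- Translation by a rational point. -/
def translate (p : SchemeHomOver (𝟙 (KSpec K)) f) : A ⟶ A :=
  (L.mul f (constPt p) idPoint).1

theorem translate_over (p : SchemeHomOver (𝟙 (KSpec K)) f) : translate L p ≫ f = f :=
  (L.mul f (constPt p) idPoint).2

theorem comp_translate {T : Scheme.{u}} (t : T ⟶ KSpec K) (x : SchemeHomOver t f)
    (p : SchemeHomOver (𝟙 (KSpec K)) f) :
    x.1 ≫ translate L p = (L.mul t (schemeHomOverComp t (Category.comp_id t) p) x).1 := by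
  have h := congrArg Subtype.val (L.mul_natural f t x.1 x.2 (constPt p) idPoint)
  refine h.trans ?_
  congr 2
  refine Subtype.ext ?_
  simp [constPt, reassoc_of% x.2]
  all_goals exact Subtype.ext (Category.comp_id _)

theorem point_comp_translate (x p : SchemeHomOver (𝟙 (KSpec K)) f) :
    x.1 ≫ translate L p = (L.mul (𝟙 _) p x).1 := by
  rw [comp_translate]
  congr 2

theorem translate_one : translate L (L.one (𝟙 (KSpec K))) = 𝟙 A := by
  show (L.mul f (constPt _) idPoint).1 = _
  rw [constPt, L.one_natural (𝟙 (KSpec K)) f f (Category.comp_id f), L.one_mul]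

theorem translate_mul (p q : SchemeHomOver (𝟙 (KSpec K)) f) :
    translate L p ≫ translate L q = translate L (L.mul (𝟙 _) q p) := by
  refine (comp_translate L f (L.mul f (constPt p) idPoint) q).trans ?_
  show _ = (L.mul f (constPt _) idPoint).1
  rw [← L.mul_assoc, constPt, constPt, L.mul_natural (𝟙 (KSpec K)) f f (Category.comp_id f)]

instance isIso_translate (p : SchemeHomOver (𝟙 (KSpec K)) f) : IsIso (translate L p) :=
  ⟨translate L (L.inv (𝟙 _) p), by rw [translate_mul, L.inv_mul_cancel, translate_one],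
    by rw [translate_mul, L.mul_inv_cancel, translate_one]⟩

theorem comp_schemeNsmul {T : Scheme.{u}} (t : T ⟶ KSpec K) (x : SchemeHomOver t f) (n : ℕ) :
    x.1 ≫ L.schemeNsmul n = (L.nsmul t n x).1 := by
  have h := congrArg Subtype.val (L.nsmul_natural f t x.1 x.2 n idPoint)
  refine h.trans ?_
  congr 2

theorem nsmul_mul (hc : L.IsCommutative) {T : Scheme.{u}} (t : T ⟶ KSpec K)
    (x y : SchemeHomOver t f) (n : ℕ) :
    L.nsmul t n (L.mul t x y) = L.mul t (L.nsmul t n x) (L.nsmul t n y) := by
  letI : CommGroup (SchemeHomOver t f) := { L.pointGroup t with mul_comm := hc t }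
  induction n with
  | zero => exact (one_mul (1 : SchemeHomOver t f)).symm
  | succ n ih =>
    rw [nsmul_succ, nsmul_succ, nsmul_succ, ih]
    exact mul_mul_mul_comm (G := SchemeHomOver t f) _ _ _ _

theorem translate_comp_schemeNsmul (hc : L.IsCommutative) (p : SchemeHomOver (𝟙 (KSpec K)) f)
    (n : ℕ) :
    translate L p ≫ L.schemeNsmul n = L.schemeNsmul n ≫ translate L (L.nsmul (𝟙 _) n p) := by
  refine (comp_schemeNsmul L f (L.mul f (constPt p) idPoint) n).trans ?_
  refine Eq.trans ?_ (comp_translate L f (L.nsmul f n idPoint) _).symm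
  rw [nsmul_mul L hc, constPt, L.nsmul_natural (𝟙 (KSpec K)) f f (Category.comp_id f)]

theorem translate_origin (p : SchemeHomOver (𝟙 (KSpec K)) f) :
    translate L p (origin L) = p.1 (closedPoint K) := by
  show ((L.one (𝟙 (KSpec K))).1 ≫ translate L p) (closedPoint K) = _
  rw [point_comp_translate, L.mul_one]

theorem schemeNsmul_origin (n : ℕ) : L.schemeNsmul n (origin L) = origin L := by
  show ((L.one (𝟙 (KSpec K))).1 ≫ L.schemeNsmul n) (closedPoint K) = _
  rw [comp_schemeNsmul, L.nsmul_unit]
  rfl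

variable [IsAlgClosed K] [LocallyOfFiniteType f]

theorem lin_stalkTo (n : ℕ) (ψ : THom K L) (a : A.presheaf.stalk (origin L)) :
    ψ.lin (stalkTo (L.schemeNsmul n) _ _ (schemeNsmul_origin L n) a) = n • ψ.lin a := by
  obtain ⟨c, hc, hc'⟩ := exists_THom_nsmul ψ n
  have h := (congrArg Subtype.val hc).trans (comp_schemeNsmul L _ ψ.pt n).symm
  have hcσ : c.1 = stalkTo (L.schemeNsmul n) _ _ (schemeNsmul_origin L n) ≫ ψ.1 := by
    apply Spec.map_injective
    rw [← cancel_mono (A.fromSpecStalk (origin L)), Spec.map_comp, Category.assoc,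
      SpecMap_stalkTo]
    exact h.trans (Category.assoc _ _ _)
  rw [← Pi.smul_apply n ψ.lin, ← hc']
  exact congrArg TrivSqZeroExt.snd (congrArg (fun e => (CommRingCat.Hom.hom e) a) hcσ).symm

theorem exists_THom_lin_ne_zero {b : A.presheaf.stalk (origin L)}
    (hb : b ∉ maximalIdeal (A.presheaf.stalk (origin L)) ^ 2) (hb₁ : originVal L b = 0) :
    ∃ ψ : THom K L, ψ.lin b ≠ 0 := by
  let : Algebra K (A.presheaf.stalk (origin L)) := (stalkConst f (origin L)).hom.toAlgebra
  obtain ⟨g, hg, hg'⟩ := Submodule.exists_dual_map_eq_bot_of_notMem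
    (p := (maximalIdeal (A.presheaf.stalk (origin L)) ^ 2).restrictScalars K) hb inferInstance
  have hker : ∀ z ∈ maximalIdeal (A.presheaf.stalk (origin L)) ^ 2, g z = 0 := fun z hz => by
    have h : g z ∈
        ((maximalIdeal (A.presheaf.stalk (origin L)) ^ 2).restrictScalars K).map g := ⟨z, hz, rfl⟩
    rwa [hg', Submodule.mem_bot] at h
  let v : A.presheaf.stalk (origin L) →+* K := originVal L
  let i : K →+* A.presheaf.stalk (origin L) := (stalkConst f (origin L)).hom
  let D : A.presheaf.stalk (origin L) → K := fun a => g (a - i (v a))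
  have hv : ∀ c, v (i c) = c := fun c => stalkVal_stalkConst (hx := isClosed_origin L) c
  have hlin : ∀ c z, g (i c * z) = c * g z := fun c z => by
    rw [← smul_eq_mul, ← smul_eq_mul c, ← map_smul]
    rfl
  have hmul : ∀ a a', D (a * a') = v a * D a' + v a' * D a := fun a a' => by
    have he : a * a' - i (v (a * a')) = (a - i (v a)) * (a' - i (v a')) +
        (i (v a) * (a' - i (v a')) + i (v a') * (a - i (v a))) := by
      rw [map_mul, map_mul]
      ring
    simp only [D]
    rw [he, map_add, map_add, hlin, hlin, hker _ (by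
      rw [pow_two]
      exact Ideal.mul_mem_mul (sub_stalkConst_mem (f := f) (isClosed_origin L) a)
        (sub_stalkConst_mem (f := f) (isClosed_origin L) a')), zero_add]
  let h : A.presheaf.stalk (origin L) →+* TrivSqZeroExt K K :=
    { toFun := fun a => TrivSqZeroExt.inl (v a) + TrivSqZeroExt.inr (D a)
      map_one' := by ext <;> simp [D]
      map_zero' := by ext <;> simp [D]
      map_add' := fun a a' => by
        have he : D (a + a') = D a + D a' := by
          simp only [D]
          rw [← map_add g, map_add, map_add, add_sub_add_comm]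
        ext <;> simp [he]
      map_mul' := fun a a' => by
        ext
        · simp
        · simp [hmul]
          ring }
  refine ⟨⟨CommRingCat.ofHom h, CommRingCat.hom_ext (RingHom.ext fun c => ?_)⟩, ?_⟩
  · show TrivSqZeroExt.inl (v (i c)) + TrivSqZeroExt.inr (D (i c)) = TrivSqZeroExt.inl c
    simp [D, hv]
  · show TrivSqZeroExt.snd (TrivSqZeroExt.inl (v b) + TrivSqZeroExt.inr (D b)) ≠ 0
    simpa [D, v, hb₁] using hg

theorem stalkTo_origin_sub_mem (n : ℕ) (a : A.presheaf.stalk (origin L))
    (ha : a ∈ maximalIdeal (A.presheaf.stalk (origin L))) :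
    stalkTo (L.schemeNsmul n) _ _ (schemeNsmul_origin L n) a - (n : A.presheaf.stalk (origin L)) * a
      ∈ maximalIdeal (A.presheaf.stalk (origin L)) ^ 2 := by
  by_contra hb
  have : IsLocalHom (stalkTo (L.schemeNsmul n) _ _ (schemeNsmul_origin L n)).hom :=
    stalkTo_isLocalHom _ _ _ _
  have hva : originVal L a = 0 := stalkVal_eq_zero_iff.mpr ha
  have hvσ : originVal L (stalkTo (L.schemeNsmul n) _ _ (schemeNsmul_origin L n) a) = 0 :=
    stalkVal_eq_zero_iff.mpr fun hu => ha (isUnit_of_map_unit _ a hu)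
  obtain ⟨ψ, hψ⟩ := exists_THom_lin_ne_zero L hb (by
    rw [map_sub, map_mul, hva, hvσ, mul_zero, sub_zero])
  refine hψ ?_
  have := lin_stalkTo L n ψ a
  simp only [THom.lin, map_sub, TrivSqZeroExt.snd_sub] at *
  rw [this, ← nsmul_eq_mul, map_nsmul, TrivSqZeroExt.snd_smul, sub_self]

theorem map_maximalIdeal_origin (n : ℕ) (hn : (n : K) ≠ 0) :
    (maximalIdeal (A.presheaf.stalk (origin L))).map
        (stalkTo (L.schemeNsmul n) _ _ (schemeNsmul_origin L n)).hom =
      maximalIdeal (A.presheaf.stalk (origin L)) := by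
  have := LocallyOfFiniteType.isLocallyNoetherian f
  have : IsLocalHom (stalkTo (L.schemeNsmul n) _ _ (schemeNsmul_origin L n)).hom :=
    stalkTo_isLocalHom _ _ _ _
  refine map_maximalIdeal_of_sub_mem _ n ?_ (stalkTo_origin_sub_mem L n)
  rw [← map_natCast (stalkConst f (origin L)).hom]
  exact (isUnit_iff_ne_zero.mpr hn).map _

theorem injective_stalkTo_origin (n : ℕ) (hn : (n : K) ≠ 0) :
    Function.Injective (stalkTo (L.schemeNsmul n) _ _ (schemeNsmul_origin L n)).hom := by
  have := LocallyOfFiniteType.isLocallyNoetherian f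
  refine injective_of_map_maximalIdeal (stalkConst f (origin L)).hom
    (fun o => ⟨_, sub_stalkConst_mem (f := f) (isClosed_origin L) o⟩) _ ?_
    (map_maximalIdeal_origin L n hn)
  rw [← CommRingCat.hom_comp]
  congr 1
  apply Spec.map_injective
  rw [Spec.map_comp, SpecMap_stalkConst, reassoc_of% SpecMap_stalkTo, schemeNsmul_over]

theorem map_maximalIdeal_stalkMap (hc : L.IsCommutative) (n : ℕ) (hn : (n : K) ≠ 0) (x : A)
    (hx : IsClosed {x}) :
    (maximalIdeal (A.presheaf.stalk (L.schemeNsmul n x))).map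
        ((L.schemeNsmul n).stalkMap x).hom = maximalIdeal (A.presheaf.stalk x) := by
  let p : SchemeHomOver (𝟙 (KSpec K)) f := (pointEquivClosedPoint f).symm ⟨x, hx⟩
  have hp : translate L p (origin L) = x :=
    (translate_origin L p).trans (pointOfClosedPoint_apply f x hx _)
  set q := L.nsmul (𝟙 _) n p
  set φ := L.schemeNsmul n
  have hφ : translate L q (origin L) = φ x := by
    rw [translate_origin, ← comp_schemeNsmul L _ p n]
    exact congrArg φ (pointOfClosedPoint_apply f x hx _)
  have h1 : (translate L p ≫ φ) (origin L) = φ x := congrArg φ hp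
  have h2 : (φ ≫ translate L q) (origin L) = φ x :=
    (congrArg (translate L q) (schemeNsmul_origin L n)).trans hφ
  have key : φ.stalkMap x ≫ stalkTo (translate L p) _ _ hp =
      stalkTo (translate L q) _ _ hφ ≫ stalkTo φ _ _ (schemeNsmul_origin L n) := by
    rw [← stalkTo_comp φ (translate L q) _ _ _ (schemeNsmul_origin L n) hφ h2, ← stalkTo_rfl,
      ← stalkTo_comp (translate L p) φ _ _ _ hp rfl h1]
    exact stalkTo_congr (translate_comp_schemeNsmul L hc p n) _ _ h1 h2
  exact map_maximalIdeal_of_square key (map_maximalIdeal_origin L n hn)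

theorem locallyQuasiFinite_schemeNsmul (hc : L.IsCommutative) (n : ℕ) (hn : (n : K) ≠ 0) :
    LocallyQuasiFinite (L.schemeNsmul n) := by
  set φ := L.schemeNsmul n
  have : LocallyOfFiniteType (φ ≫ f) := by
    rw [schemeNsmul_over]
    infer_instance
  have : LocallyOfFiniteType φ := locallyOfFiniteType_of_comp φ f
  have : JacobsonSpace A := LocallyOfFiniteType.jacobsonSpace f
  rw [← Scheme.Hom.quasiFiniteLocus_eq_top_iff, ← TopologicalSpace.Opens.coe_eq_univ, ← not_ne_iff,
    ← Set.nonempty_compl]
  intro H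
  obtain ⟨x, hx, hxc : IsClosed {x}⟩ :=
    nonempty_inter_closedPoints H φ.quasiFiniteLocus.2.isClosed_compl.isLocallyClosed
  refine hx ?_
  show (φ.stalkMap x).hom.QuasiFinite
  algebraize [(φ.stalkMap x).hom]
  have : IsLocalHom (algebraMap (A.presheaf.stalk (φ x)) (A.presheaf.stalk x)) :=
    inferInstanceAs <| IsLocalHom (φ.stalkMap x).hom
  have : Algebra.EssFiniteType (A.presheaf.stalk (φ x)) (A.presheaf.stalk x) := by
    rw [← RingHom.essFiniteType_algebraMap, RingHom.algebraMap_toAlgebra]
    exact LocallyOfFiniteType.stalkMap φ x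
  have hcomp := stalkConst_stalkMap f φ (schemeNsmul_over L n) x
  have : Algebra.IsSeparable (ResidueField (A.presheaf.stalk (φ x)))
      (ResidueField (A.presheaf.stalk x)) := by
    refine ⟨fun z => ?_⟩
    obtain ⟨c, rfl⟩ := (residue_stalkConst_bijective f x hxc).2 z
    rw [RingHom.comp_apply, ← hcomp, CommRingCat.comp_apply]
    exact isSeparable_algebraMap (residue _ (stalkConst f (φ x) c))
  have : Algebra.FormallyUnramified (A.presheaf.stalk (φ x)) (A.presheaf.stalk x) :=
    Algebra.FormallyUnramified.of_map_maximalIdeal (map_maximalIdeal_stalkMap L hc n hn x hxc)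
  exact ⟨fun P _ => Algebra.FormallyUnramified.finite_of_free _ _⟩

theorem isFinite_schemeNsmul (hc : L.IsCommutative) [IsProper f] (n : ℕ) (hn : (n : K) ≠ 0) :
    IsFinite (L.schemeNsmul n) := by
  have := locallyQuasiFinite_schemeNsmul L hc n hn
  have : IsProper (L.schemeNsmul n ≫ f) := by
    rw [schemeNsmul_over]
    infer_instance
  have : IsProper (L.schemeNsmul n) := .of_comp _ f
  exact IsFinite.of_isProper_of_locallyQuasiFinite _

theorem schemeNsmul_genericPoint [IsIntegral A] (n : ℕ) (hn : (n : K) ≠ 0) :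
    L.schemeNsmul n (genericPoint A) = genericPoint A := by
  set φ := L.schemeNsmul n
  by_contra hne
  obtain ⟨U, hU, hUe⟩ := exists_isAffineOpen_mem_and_subset (x := origin L) (U := ⊤) trivial
  let V : A.Opens := ⟨(closure {φ (genericPoint A)})ᶜ, isClosed_closure.isOpen_compl⟩
  have hηV : genericPoint A ∈ V := fun h => hne
    ((genericPoint_specializes_to (φ (genericPoint A))).antisymm
      (specializes_iff_mem_closure.mpr h)).eq.symm
  have hηU : genericPoint A ∈ U :=
    (genericPoint_specializes_to (origin L)).mem_open U.isOpen hUe.1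
  obtain ⟨s, hs, hηs⟩ := hU.exists_basicOpen_le (V := V) ⟨genericPoint A, hηV⟩ hηU
  have hη'U : φ (genericPoint A) ∈ U := by
    refine ((genericPoint_specializes_to (origin L)).map φ.continuous).mem_open U.isOpen ?_
    rw [schemeNsmul_origin]
    exact hUe.1
  have heU : φ (origin L) ∈ U := by
    rw [schemeNsmul_origin]
    exact hUe.1
  have : Nonempty U := ⟨⟨_, hη'U⟩⟩
  have : Nonempty (φ ⁻¹ᵁ U : A.Opens) := ⟨⟨_, hη'U⟩⟩
  have hzero : φ.stalkMap (genericPoint A) (A.presheaf.germ U _ hη'U s) = 0 := by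
    by_contra h
    have hu : IsUnit (A.presheaf.germ U _ hη'U s) :=
      isUnit_of_map_unit (φ.stalkMap (genericPoint A)).hom _
        (isUnit_iff_ne_zero (G₀ := A.functionField) |>.mpr h)
    exact hs ((A.mem_basicOpen s _ hη'U).mpr hu) (subset_closure rfl)
  have h0 : pullFun φ (A.germToFunctionField U s) = 0 := by
    rw [← Scheme.algebraMap_germ_eq_germToFunctionField A hη'U s, pullFun_algebraMap, hzero,
      map_zero]
  rw [← Scheme.algebraMap_germ_eq_germToFunctionField A heU s, pullFun_algebraMap,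
    map_eq_zero_iff _ (algebraMap_stalk_injective _)] at h0
  have hinj : Function.Injective (φ.stalkMap (origin L)).hom := by
    have hst := injective_stalkTo_origin L n hn
    rw [stalkTo, CommRingCat.hom_comp] at hst
    intro a b hab
    let e := (A.presheaf.stalkCongr (.of_eq (schemeNsmul_origin L n).symm))
    obtain ⟨a', rfl⟩ := (ConcreteCategory.isIso_iff_bijective e.hom).mp inferInstance |>.2 a
    obtain ⟨b', rfl⟩ := (ConcreteCategory.isIso_iff_bijective e.hom).mp inferInstance |>.2 b
    exact congrArg _ (hst hab)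
  rw [map_eq_zero_iff _ hinj] at h0
  refine (A.mem_basicOpen s (genericPoint A) hηU).mp hηs |>.ne_zero ?_
  rw [← TopCat.Presheaf.germ_stalkSpecializes A.presheaf heU
    (genericPoint_specializes_to (φ (origin L))), CommRingCat.comp_apply, h0, map_zero]

end Group

end Fermat.Agent.AbVar
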