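import Fermat.Agent.AbVar.Interfaces

/-! Stalks at closed points over an algebraically closed field, tangent vectors at the origin of a
group scheme, and their addition under the group law. -/

set_option autoImplicit false

noncomputable section

open CategoryTheory CategoryTheory.Limits AlgebraicGeometry NeronModelInfra GoodReductionJacobian
  IsLocalRing

universe u

namespace Fermat.Agent.AbVar

variable {K : Type u} [Field K] {A : Scheme.{u}} (f : A ⟶ KSpec K)

/-- The constants in a stalk. -/
def stalkConst (x : A) : CommRingCat.of K ⟶ A.presheaf.stalk x :=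
  Spec.preimage (A.fromSpecStalk x ≫ f)

@[reassoc]
theorem SpecMap_stalkConst (x : A) :
    Spec.map (stalkConst f x) = A.fromSpecStalk x ≫ f :=
  Spec.map_preimage _

theorem stalkConst_stalkMap (φ : A ⟶ A) (hφ : φ ≫ f = f) (x : A) :
    stalkConst f (φ x) ≫ φ.stalkMap x = stalkConst f x := by
  apply Spec.map_injective
  rw [Spec.map_comp, SpecMap_stalkConst, SpecMap_stalkConst,
    Scheme.SpecMap_stalkMap_fromSpecStalk_assoc, hφ]

variable [IsAlgClosed K] [LocallyOfFiniteType f]

theorem residue_stalkConst_bijective (x : A) (hx : IsClosed {x}) :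
    Function.Bijective ((residue (A.presheaf.stalk x)).comp (stalkConst f x).hom) := by
  have h : stalkConst f x ≫ A.residue x = (residueFieldIsoBase f x hx).inv := by
    apply Spec.map_injective
    rw [Spec.map_comp, SpecMap_stalkConst, SpecMap_residueFieldIsoBase_inv]
    rfl
  have := (ConcreteCategory.isIso_iff_bijective (residueFieldIsoBase f x hx).inv).mp inferInstance
  rw [← h] at this
  exact this

/-- Evaluation at a closed point. -/
def stalkVal (x : A) (hx : IsClosed {x}) : A.presheaf.stalk x →+* K :=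
  (RingEquiv.ofBijective _ (residue_stalkConst_bijective f x hx)).symm.toRingHom.comp
    (residue (A.presheaf.stalk x))

variable {f} {x : A} {hx : IsClosed {x}}

@[simp]
theorem stalkVal_stalkConst (c : K) : stalkVal f x hx (stalkConst f x c) = c :=
  (RingEquiv.ofBijective _ (residue_stalkConst_bijective f x hx)).symm_apply_apply c

theorem stalkVal_eq_zero_iff {a : A.presheaf.stalk x} :
    stalkVal f x hx a = 0 ↔ a ∈ maximalIdeal (A.presheaf.stalk x) := by
  rw [← residue_eq_zero_iff]
  exact map_eq_zero_iff _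
    (RingEquiv.ofBijective _ (residue_stalkConst_bijective f x hx)).symm.injective

theorem sub_stalkConst_mem (hx : IsClosed {x}) (a : A.presheaf.stalk x) :
    a - stalkConst f x (stalkVal f x hx a) ∈ maximalIdeal (A.presheaf.stalk x) := by
  rw [← stalkVal_eq_zero_iff (f := f) (hx := hx), map_sub, stalkVal_stalkConst, sub_self]

theorem eq_stalkVal (hx : IsClosed {x}) (ρ : A.presheaf.stalk x →+* K)
    (hρ : ∀ c, ρ (stalkConst f x c) = c) : ρ = stalkVal f x hx := by
  ext a
  have hker : RingHom.ker ρ = maximalIdeal (A.presheaf.stalk x) :=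
    eq_maximalIdeal (RingHom.ker_isMaximal_of_surjective ρ fun c => ⟨_, hρ c⟩)
  have h := sub_stalkConst_mem (f := f) hx a
  rw [← hker, RingHom.mem_ker, map_sub, hρ, sub_eq_zero] at h
  exact h

section Tangent

variable (K) in
/-- The ring of first order deformations along `M`. -/
abbrev DRing (M : Type u) [AddCommGroup M] [Module K M] [Module Kᵐᵒᵖ M] [IsCentralScalar K M] :
    CommRingCat.{u} :=
  CommRingCat.of (TrivSqZeroExt K M)

variable {M N : Type u} [AddCommGroup M] [Module K M] [Module Kᵐᵒᵖ M] [IsCentralScalar K M]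
  [AddCommGroup N] [Module K N] [Module Kᵐᵒᵖ N] [IsCentralScalar K N]

instance : IsLocalRing (TrivSqZeroExt K M) :=
  .of_nonunits_add fun a b ha hb => by
    simp only [mem_nonunits_iff, TrivSqZeroExt.isUnit_iff_isUnit_fst, isUnit_iff_ne_zero,
      ne_eq, not_not] at ha hb ⊢
    simp [ha, hb]

variable (K M) in
/-- The inclusion of constants. -/
abbrev dInl : CommRingCat.of K ⟶ DRing K M :=
  CommRingCat.ofHom (TrivSqZeroExt.inlHom K M)

variable (K M) in
/-- The value of a deformation. -/
abbrev dFst : DRing K M ⟶ CommRingCat.of K :=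
  CommRingCat.ofHom (TrivSqZeroExt.fstHom K K M).toRingHom

/-- Functoriality of deformations. -/
abbrev dMap (v : M →ₗ[K] N) : DRing K M ⟶ DRing K N :=
  CommRingCat.ofHom (TrivSqZeroExt.map v).toRingHom

variable (K M) in
/-- The base map of a deformation. -/
abbrev dBase : Spec (DRing K M) ⟶ KSpec K :=
  Spec.map (dInl K M)

theorem dFst_comp_dInl : dInl K M ≫ dFst K M = 𝟙 _ := by
  ext c
  rfl

theorem dInl_dMap (v : M →ₗ[K] N) : dInl K M ≫ dMap v = dInl K N :=
  CommRingCat.hom_ext (RingHom.ext fun c => TrivSqZeroExt.map_inl v c)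

theorem dMap_base (v : M →ₗ[K] N) : Spec.map (dMap v) ≫ dBase K M = dBase K N := by
  rw [dBase, dBase, ← Spec.map_comp, dInl_dMap]

theorem dFst_base : Spec.map (dFst K M) ≫ dBase K M = 𝟙 _ := by
  rw [dBase, ← Spec.map_comp, dFst_comp_dInl, Spec.map_id]

variable (L : RelativeGroupLaw K f)

/-- The origin. -/
def origin : A := (L.one (𝟙 (KSpec K))).1 (closedPoint K)

theorem isClosed_origin : IsClosed {origin L} :=
  (pointEquivClosedPoint f ⟨(L.one (𝟙 (KSpec K))).1, (L.one (𝟙 (KSpec K))).2⟩).2

/-- Evaluation at the origin. -/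
abbrev originVal : A.presheaf.stalk (origin L) →+* K :=
  stalkVal f (origin L) (isClosed_origin L)

variable (M) in
/-- Tangent vectors at the origin with values in `M`, as homomorphisms of rings. -/
def THom : Type u :=
  {ψ : A.presheaf.stalk (origin L) ⟶ DRing K M // stalkConst f (origin L) ≫ ψ = dInl K M}

variable {L}

theorem THom.fst_apply (ψ : THom M L) (a : A.presheaf.stalk (origin L)) :
    TrivSqZeroExt.fst (ψ.1 a) = originVal L a := by
  have h : (dFst K M).hom.comp ψ.1.hom = originVal L :=
    eq_stalkVal (isClosed_origin L) _ fun c => by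
      show TrivSqZeroExt.fst ((stalkConst f (origin L) ≫ ψ.1) c) = c
      rw [ψ.2]
      rfl
  exact DFunLike.congr_fun h a

/-- The linear part of a tangent vector. -/
def THom.lin (ψ : THom M L) (a : A.presheaf.stalk (origin L)) : M :=
  TrivSqZeroExt.snd (ψ.1 a)

theorem THom.ext {ψ ψ' : THom M L} (h : ψ.lin = ψ'.lin) : ψ = ψ' := by
  refine Subtype.ext (CommRingCat.hom_ext (RingHom.ext fun a => TrivSqZeroExt.ext ?_ ?_))
  · exact (ψ.fst_apply a).trans (ψ'.fst_apply a).symm
  · exact congr_fun h a

/-- The point attached to a tangent vector. -/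
def THom.pt (ψ : THom M L) : SchemeHomOver (dBase K M) f :=
  ⟨Spec.map ψ.1 ≫ A.fromSpecStalk (origin L), by
    rw [Category.assoc, ← SpecMap_stalkConst, ← Spec.map_comp, ψ.2]⟩

theorem THom.pt_injective : Function.Injective (THom.pt (M := M) (L := L)) := by
  intro ψ ψ' h
  have : Spec.map ψ.1 = Spec.map ψ'.1 :=
    (cancel_mono (A.fromSpecStalk (origin L))).mp (congrArg Subtype.val h)
  exact Subtype.ext (Spec.map_injective this)

/-- Pushing tangent vectors forward. -/
def THom.map (v : M →ₗ[K] N) (ψ : THom M L) : THom N L :=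
  ⟨ψ.1 ≫ dMap v, by
    rw [reassoc_of% ψ.2, dInl_dMap]⟩

theorem THom.lin_map (v : M →ₗ[K] N) (ψ : THom M L) (a : A.presheaf.stalk (origin L)) :
    (ψ.map v).lin a = v (ψ.lin a) :=
  TrivSqZeroExt.snd_map v _

theorem THom.pt_map (v : M →ₗ[K] N) (ψ : THom M L) :
    schemeHomOverComp (Spec.map (dMap v)) (dMap_base v) ψ.pt = (ψ.map v).pt := by
  refine Subtype.ext ?_
  simp [THom.pt, THom.map]

variable (M L) in
/-- The zero tangent vector. -/
def THom.zero : THom M L :=
  ⟨CommRingCat.ofHom ((TrivSqZeroExt.inlHom K M).comp (originVal L)),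
    CommRingCat.hom_ext (RingHom.ext fun c =>
      congrArg (TrivSqZeroExt.inl (M := M)) (stalkVal_stalkConst (hx := isClosed_origin L) c))⟩

theorem THom.lin_zero (a : A.presheaf.stalk (origin L)) : (THom.zero M L).lin a = 0 :=
  rfl

theorem THom.pt_zero : (THom.zero M L).pt = L.one (dBase K M) := by
  rw [← L.one_natural (𝟙 (KSpec K)) (dBase K M) (dBase K M) (Category.comp_id _)]
  refine Subtype.ext ?_
  have he : Spec.map (CommRingCat.ofHom (originVal L)) ≫ A.fromSpecStalk (origin L) =
      (L.one (𝟙 (KSpec K))).1 := by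
    refine ext_of_apply_closedPoint_eq f ?_ (L.one (𝟙 (KSpec K))).2 ?_
    · rw [Category.assoc, ← SpecMap_stalkConst, ← Spec.map_comp, ← Spec.map_id]
      congr 1
      ext c
      exact stalkVal_stalkConst (hx := isClosed_origin L) c
    · show A.fromSpecStalk (origin L)
        (Spec.map (CommRingCat.ofHom (originVal L)) (closedPoint K)) = origin L
      have : IsLocalHom (CommRingCat.ofHom (originVal L)).hom := ⟨fun a ha => by
        by_contra h
        exact ha.ne_zero ((stalkVal_eq_zero_iff (hx := isClosed_origin L)).mpr h)⟩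
      exact (congrArg (A.fromSpecStalk (origin L)) Spec_closedPoint).trans
        Scheme.fromSpecStalk_closedPoint
  simp only [THom.pt, THom.zero, schemeHomOverComp_coe, ← he, dBase, ← Spec.map_comp_assoc]
  rfl

theorem exists_THom_pt (x : SchemeHomOver (dBase K M) f)
    (hx : schemeHomOverComp (Spec.map (dFst K M)) dFst_base x = L.one (𝟙 (KSpec K))) :
    ∃ ψ : THom M L, ψ.pt = x := by
  have hp : x.1 (closedPoint (DRing K M)) = origin L := by
    rw [origin, ← hx]
    have : IsLocalHom (dFst K M).hom := ⟨fun a ha => TrivSqZeroExt.isUnit_iff_isUnit_fst.mpr ha⟩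
    exact congrArg x.1 (Spec_closedPoint (f := dFst K M)).symm
  obtain ⟨ψ, hψ⟩ : ∃ ψ : A.presheaf.stalk (origin L) ⟶ DRing K M,
      Spec.map ψ ≫ A.fromSpecStalk (origin L) = x.1 := by
    rw [← hp]
    exact ⟨_, Scheme.Spec_stalkClosedPointTo_fromSpecStalk x.1⟩
  refine ⟨⟨ψ, Spec.map_injective ?_⟩, Subtype.ext hψ⟩
  rw [Spec.map_comp, SpecMap_stalkConst, ← Category.assoc, hψ]
  exact x.2

theorem THom.pt_restrict (ψ : THom M L) :
    schemeHomOverComp (Spec.map (dFst K M)) dFst_base ψ.pt = L.one (𝟙 (KSpec K)) := by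
  rw [← L.one_natural (dBase K M) (𝟙 (KSpec K)) (Spec.map (dFst K M)) dFst_base, ← THom.pt_zero]
  refine Subtype.ext ?_
  simp only [THom.pt, schemeHomOverComp_coe, ← Spec.map_comp_assoc]
  congr 2
  ext a
  show TrivSqZeroExt.fst (ψ.1 a) = TrivSqZeroExt.fst ((THom.zero M L).1 a)
  rw [THom.fst_apply, THom.fst_apply]

/-- The product of two tangent vectors. -/
theorem exists_THom_mul (a b : THom M L) :
    ∃ c : THom M L, c.pt = L.mul (dBase K M) a.pt b.pt :=
  exists_THom_pt _ (by rw [L.mul_natural (dBase K M) (𝟙 _) (Spec.map (dFst K M)) dFst_base,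
    a.pt_restrict, b.pt_restrict, L.one_mul])

theorem lin_of_pt_mul {a b c : THom K L} (h : c.pt = L.mul (dBase K K) a.pt b.pt) :
    c.lin = a.lin + b.lin := by
  set a' := a.map (LinearMap.inl K K K)
  set b' := b.map (LinearMap.inr K K K)
  obtain ⟨c', hc'⟩ := exists_THom_mul a' b'
  have push : ∀ v : (K × K) →ₗ[K] K, (c'.map v).pt = L.mul (dBase K K) (a'.map v).pt (b'.map v).pt :=
    fun v => by
      rw [← THom.pt_map, hc', L.mul_natural (dBase K (K × K)) (dBase K K) _ (dMap_base v),
        THom.pt_map, THom.pt_map]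
  have h1 : c'.map (LinearMap.fst K K K) = a := by
    refine THom.pt_injective ?_
    rw [push]
    have ea : a'.map (LinearMap.fst K K K) = a :=
      THom.ext (funext fun x => by simp [a', THom.lin_map])
    have eb : b'.map (LinearMap.fst K K K) = THom.zero K L :=
      THom.ext (funext fun x => by simp [b', THom.lin_map, THom.lin_zero])
    rw [ea, eb, THom.pt_zero, L.mul_one]
  have h2 : c'.map (LinearMap.snd K K K) = b := by
    refine THom.pt_injective ?_
    rw [push]
    have ea : a'.map (LinearMap.snd K K K) = THom.zero K L :=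
      THom.ext (funext fun x => by simp [a', THom.lin_map, THom.lin_zero])
    have eb : b'.map (LinearMap.snd K K K) = b :=
      THom.ext (funext fun x => by simp [b', THom.lin_map])
    rw [ea, eb, THom.pt_zero, L.one_mul]
  have h3 : c'.map (LinearMap.fst K K K + LinearMap.snd K K K) = c := by
    refine THom.pt_injective ?_
    rw [push, h]
    congr 2 <;> exact THom.ext (funext fun x => by simp [a', b', THom.lin_map])
  funext x
  rw [← h3, THom.lin_map, LinearMap.add_apply, ← THom.lin_map, ← THom.lin_map, h1, h2, Pi.add_apply]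

theorem exists_THom_nsmul (ψ : THom K L) (n : ℕ) :
    ∃ c : THom K L, c.pt = L.nsmul (dBase K K) n ψ.pt ∧ c.lin = n • ψ.lin := by
  induction n with
  | zero => exact ⟨THom.zero K L, THom.pt_zero, funext fun a => by simp [THom.lin_zero]⟩
  | succ n ih =>
    obtain ⟨c, hc, hc'⟩ := ih
    obtain ⟨d, hd⟩ := exists_THom_mul c ψ
    refine ⟨d, ?_, ?_⟩
    · rw [hd, hc]
      rfl
    · rw [lin_of_pt_mul hd, hc', add_smul, one_smul]

end Tangent

end Fermat.Agent.AbVar
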