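import Fermat.Agent.AbVar.Reg

/-! Cartier classes on integral schemes as germ families of rational functions; pullback. -/

set_option autoImplicit false

noncomputable section

open CategoryTheory AlgebraicGeometry TopologicalSpace

universe u

namespace Fermat.Agent.AbVar

variable {S T W : Scheme.{u}} [IsIntegral S] [IsIntegral T] [IsIntegral W]

/-- Rational functions that are units at `x`. -/
def unitsAt (x : S) : Subgroup (S.functionField)ˣ where
  carrier := {a | (a : S.functionField) ∈ Reg x ∧ ((a⁻¹ : (S.functionField)ˣ) : S.functionField) ∈ Reg x}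
  one_mem' := ⟨by simp, by simp⟩
  mul_mem' := by
    rintro a b ⟨ha, ha'⟩ ⟨hb, hb'⟩
    exact ⟨by simpa using mul_mem ha hb, by simpa using mul_mem hb' ha'⟩
  inv_mem' := by
    rintro a ⟨ha, ha'⟩
    exact ⟨ha', by simpa using ha⟩

theorem mem_unitsAt {x : S} {a : (S.functionField)ˣ} :
    a ∈ unitsAt x ↔ (a : S.functionField) ∈ Reg x ∧
      ((a⁻¹ : (S.functionField)ˣ) : S.functionField) ∈ Reg x :=
  Iff.rfl

theorem unitsAt_le_of_specializes {x y : S} (h : x ⤳ y) : unitsAt y ≤ unitsAt x :=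
  fun _ ha => ⟨Reg_le_of_specializes h ha.1, Reg_le_of_specializes h ha.2⟩

theorem exists_open_of_mem_unitsAt {x : S} {a : (S.functionField)ˣ} (ha : a ∈ unitsAt x) :
    ∃ U : S.Opens, x ∈ U ∧ ∀ y ∈ U, a ∈ unitsAt y := by
  obtain ⟨U, hU, hU'⟩ := exists_open_of_mem_Reg ha.1
  obtain ⟨V, hV, hV'⟩ := exists_open_of_mem_Reg ha.2
  exact ⟨U ⊓ V, ⟨hU, hV⟩, fun y hy => ⟨hU' y hy.1, hV' y hy.2⟩⟩

variable (S) in
/-- Cartier divisors, given by a germ at every point. -/
def CDiv : Subgroup (S → (S.functionField)ˣ) where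
  carrier := {h | ∀ x, ∃ U : S.Opens, x ∈ U ∧ ∀ y ∈ U, h y / h x ∈ unitsAt y}
  one_mem' x := ⟨⊤, trivial, fun y _ => by simp⟩
  mul_mem' := by
    intro a b ha hb x
    obtain ⟨U, hU, hU'⟩ := ha x
    obtain ⟨V, hV, hV'⟩ := hb x
    refine ⟨U ⊓ V, ⟨hU, hV⟩, fun y hy => ?_⟩
    simpa [mul_div_mul_comm] using mul_mem (hU' y hy.1) (hV' y hy.2)
  inv_mem' := by
    intro a ha x
    obtain ⟨U, hU, hU'⟩ := ha x
    refine ⟨U, hU, fun y hy => ?_⟩
    have h := inv_mem (hU' y hy)
    simpa [div_eq_mul_inv, mul_comm] using h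

theorem div_mem_unitsAt (h : CDiv S) {x y : S} (hxy : x ⤳ y) :
    h.1 x / h.1 y ∈ unitsAt x := by
  obtain ⟨U, hU, hU'⟩ := h.2 y
  exact hU' x (hxy.mem_open U.isOpen hU)

variable (S) in
/-- Germ families equivalent to zero: a constant times units. -/
def trivDiv : Subgroup (CDiv S) where
  carrier := {h | ∃ c : (S.functionField)ˣ, ∀ x, h.1 x / c ∈ unitsAt x}
  one_mem' := ⟨1, fun x => by simp⟩
  mul_mem' := by
    rintro a b ⟨c, hc⟩ ⟨d, hd⟩
    exact ⟨c * d, fun x => by simpa [mul_div_mul_comm] using mul_mem (hc x) (hd x)⟩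
  inv_mem' := by
    rintro a ⟨c, hc⟩
    refine ⟨c⁻¹, fun x => ?_⟩
    have h := inv_mem (hc x)
    simpa [div_eq_mul_inv, mul_comm] using h

theorem mem_trivDiv {h : CDiv S} :
    h ∈ trivDiv S ↔ ∃ c : (S.functionField)ˣ, ∀ x, h.1 x / c ∈ unitsAt x :=
  Iff.rfl

variable (S) in
/-- Cartier classes. -/
abbrev CPic : Type u := CDiv S ⧸ trivDiv S

/-- The class of a Cartier divisor. -/
abbrev cls (h : CDiv S) : CPic S := QuotientGroup.mk' (trivDiv S) h

theorem cls_eq_cls {a b : CDiv S} :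
    cls a = cls b ↔ ∃ c : (S.functionField)ˣ, ∀ x, a.1 x / b.1 x / c ∈ unitsAt x := by
  rw [cls, cls, QuotientGroup.mk'_eq_mk']
  constructor
  · rintro ⟨z, ⟨c, hc⟩, rfl⟩
    refine ⟨c⁻¹, fun x => ?_⟩
    have h := inv_mem (hc x)
    simpa [div_eq_mul_inv, mul_comm, mul_left_comm] using h
  · rintro ⟨c, hc⟩
    refine ⟨a⁻¹ * b, ⟨c⁻¹, fun x => ?_⟩, by simp⟩
    have h := inv_mem (hc x)
    simpa [div_eq_mul_inv, mul_comm, mul_left_comm] using h

theorem cls_eq_one {a : CDiv S} :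
    cls a = 1 ↔ ∃ c : (S.functionField)ˣ, ∀ x, a.1 x / c ∈ unitsAt x :=
  QuotientGroup.eq_one_iff a

/-- `pullFun` on units. -/
def pullUnit (φ : T ⟶ S) : unitsAt (φ (genericPoint T)) →* (T.functionField)ˣ :=
  MonoidHom.toHomUnits
    { toFun := fun a => pullFun φ (a.1 : S.functionField)
      map_one' := by simp
      map_mul' := fun a b => by
        simpa using pullFun_mul φ a.2.1 b.2.1 }

@[simp]
theorem pullUnit_coe (φ : T ⟶ S) (a : unitsAt (φ (genericPoint T))) :
    (pullUnit φ a : T.functionField) = pullFun φ (a.1 : S.functionField) :=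
  rfl

theorem pullUnit_mem_unitsAt (φ : T ⟶ S) (y : T) (a : unitsAt (φ (genericPoint T)))
    (ha : a.1 ∈ unitsAt (φ y)) : pullUnit φ a ∈ unitsAt y := by
  refine ⟨by simpa using pullFun_mem_Reg φ y ha.1, ?_⟩
  rw [← map_inv, pullUnit_coe]
  exact pullFun_mem_Reg φ y ha.2

theorem ratio_mem (φ : T ⟶ S) (h : CDiv S) (y : T) :
    h.1 (φ y) / h.1 (φ (genericPoint T)) ∈ unitsAt (φ (genericPoint T)) := by
  simpa using inv_mem (div_mem_unitsAt h ((genericPoint_specializes_to y).map φ.continuous))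

/-- The germs of a pulled back divisor. -/
def pullGerm (φ : T ⟶ S) (h : CDiv S) (y : T) : (T.functionField)ˣ :=
  pullUnit φ ⟨_, ratio_mem φ h y⟩

theorem pullGerm_mem (φ : T ⟶ S) (h : CDiv S) : pullGerm φ h ∈ CDiv T := by
  intro x
  obtain ⟨U, hU, hU'⟩ := h.2 (φ x)
  refine ⟨φ ⁻¹ᵁ U, hU, fun y hy => ?_⟩
  rw [pullGerm, pullGerm, ← map_div]
  refine pullUnit_mem_unitsAt φ y _ ?_
  simpa using hU' (φ y) hy

/-- Pullback of Cartier divisors. -/
def pullDiv (φ : T ⟶ S) : CDiv S →* CDiv T where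
  toFun h := ⟨pullGerm φ h, pullGerm_mem φ h⟩
  map_one' := by
    refine Subtype.ext (funext fun y => Units.ext ?_)
    simp [pullGerm]
  map_mul' a b := by
    refine Subtype.ext (funext fun y => ?_)
    show pullGerm φ (a * b) y = pullGerm φ a y * pullGerm φ b y
    rw [pullGerm, pullGerm, pullGerm, ← map_mul]
    congr 1
    exact Subtype.ext (mul_div_mul_comm _ _ _ _)

@[simp]
theorem pullDiv_coe (φ : T ⟶ S) (h : CDiv S) (y : T) :
    (pullDiv φ h).1 y = pullGerm φ h y :=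
  rfl

theorem pullDiv_mem_trivDiv (φ : T ⟶ S) {h : CDiv S} (hh : h ∈ trivDiv S) :
    pullDiv φ h ∈ trivDiv T := by
  obtain ⟨c, hc⟩ := hh
  set η := φ (genericPoint T)
  refine ⟨(pullUnit φ ⟨_, hc η⟩)⁻¹, fun y => ?_⟩
  rw [pullDiv_coe, pullGerm, div_inv_eq_mul, ← map_mul]
  refine pullUnit_mem_unitsAt φ y _ ?_
  simpa [η, div_mul_div_cancel] using hc (φ y)

/-- Pullback of Cartier classes. -/
def pullPic (φ : T ⟶ S) : CPic S →* CPic T :=
  QuotientGroup.map _ _ (pullDiv φ) fun _ hh => pullDiv_mem_trivDiv φ hh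

@[simp]
theorem pullPic_cls (φ : T ⟶ S) (h : CDiv S) : pullPic φ (cls h) = cls (pullDiv φ h) :=
  rfl

theorem pullPic_id (c : CPic S) : pullPic (𝟙 S) c = c := by
  induction c using QuotientGroup.induction_on with
  | H h =>
    refine cls_eq_cls.mpr ⟨(h.1 (genericPoint S))⁻¹, fun x => ?_⟩
    have : (pullDiv (𝟙 S) h).1 x = h.1 x / h.1 (genericPoint S) := by
      refine Units.ext ?_
      exact (pullFun_id _).trans (by simp)
    rw [this]
    simp

theorem pullPic_comp (ψ : W ⟶ T) (φ : T ⟶ S) (c : CPic S) :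
    pullPic (ψ ≫ φ) c = pullPic ψ (pullPic φ c) := by
  induction c using QuotientGroup.induction_on with
  | H h =>
    refine congrArg (QuotientGroup.mk' (trivDiv W)) ?_
    refine Subtype.ext (funext fun y => Units.ext ?_)
    have hy : φ (genericPoint T) ⤳ φ (ψ y) := (genericPoint_specializes_to _).map φ.continuous
    have hw : φ (genericPoint T) ⤳ φ (ψ (genericPoint W)) :=
      (genericPoint_specializes_to _).map φ.continuous
    simp only [pullDiv_coe, pullGerm, pullUnit_coe]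
    rw [pullFun_comp ψ φ (by exact (ratio_mem (ψ ≫ φ) h y).1)]
    have h1 := ratio_mem φ h (ψ y)
    have h2 := ratio_mem φ h (ψ (genericPoint W))
    rw [← map_div, pullUnit_coe]
    congr 3
    exact (div_div_div_cancel_right _ _ _).symm

theorem CPic.eq_one_of_point [Subsingleton S] (c : CPic S) : c = 1 := by
  induction c using QuotientGroup.induction_on with
  | H h =>
    refine cls_eq_one.mpr ⟨h.1 (genericPoint S), fun x => ?_⟩
    rw [Subsingleton.elim x (genericPoint S)]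
    simp

/-- A morphism factoring through a one-point scheme pulls every class back to zero. -/
theorem pullPic_factor_point [Subsingleton W] (ψ : T ⟶ W) (φ : W ⟶ S) (c : CPic S) :
    pullPic (ψ ≫ φ) c = 1 := by
  rw [pullPic_comp, CPic.eq_one_of_point (pullPic φ c), map_one]

end Fermat.Agent.AbVar
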