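import Mathlib

/-! Local rings of an integral scheme as subrings of its function field; evaluation of rational
functions along morphisms of integral schemes. -/

set_option autoImplicit false

noncomputable section

open CategoryTheory AlgebraicGeometry TopologicalSpace Opposite

universe u

namespace Fermat.Agent.AbVar

variable {S T W : Scheme.{u}} [IsIntegral S] [IsIntegral T] [IsIntegral W]

/-- The rational functions regular at `x`. -/
def Reg (x : S) : Subring S.functionField :=
  (algebraMap (S.presheaf.stalk x) S.functionField).range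

theorem genericPoint_specializes_to (x : S) : genericPoint S ⤳ x :=
  (genericPoint_spec S).specializes trivial

theorem algebraMap_stalk_injective (x : S) :
    Function.Injective (algebraMap (S.presheaf.stalk x) S.functionField) :=
  IsFractionRing.injective _ _

theorem algebraMap_stalkSpecializes {x y : S} (h : x ⤳ y) (a : S.presheaf.stalk y) :
    algebraMap (S.presheaf.stalk x) S.functionField (S.presheaf.stalkSpecializes h a) =
      algebraMap (S.presheaf.stalk y) S.functionField a := by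
  simp only [RingHom.algebraMap_toAlgebra]
  rw [← ConcreteCategory.comp_apply, TopCat.Presheaf.stalkSpecializes_comp]

theorem Reg_le_of_specializes {x y : S} (h : x ⤳ y) : Reg y ≤ Reg x := by
  rintro _ ⟨a, rfl⟩
  exact ⟨S.presheaf.stalkSpecializes h a, algebraMap_stalkSpecializes h a⟩

theorem mem_Reg_genericPoint (a : S.functionField) : a ∈ Reg (genericPoint S) := by
  refine ⟨a, ?_⟩
  simp only [RingHom.algebraMap_toAlgebra]
  simp [TopCat.Presheaf.stalkSpecializes_refl]

theorem germToFunctionField_mem_Reg {U : S.Opens} [Nonempty U] {x : S} (hx : x ∈ U)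
    (s : Γ(S, U)) : S.germToFunctionField U s ∈ Reg x :=
  ⟨S.presheaf.germ U x hx s, Scheme.algebraMap_germ_eq_germToFunctionField S hx s⟩

theorem exists_section_of_mem_Reg {x : S} {a : S.functionField} (ha : a ∈ Reg x) :
    ∃ (U : S.Opens) (_ : x ∈ U) (_ : Nonempty U) (s : Γ(S, U)), S.germToFunctionField U s = a := by
  obtain ⟨b, rfl⟩ := ha
  obtain ⟨U, hx, s, rfl⟩ := S.presheaf.exists_germ_eq b
  have : Nonempty U := ⟨⟨x, hx⟩⟩
  exact ⟨U, hx, this, s, (Scheme.algebraMap_germ_eq_germToFunctionField S hx s).symm⟩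

theorem exists_open_of_mem_Reg {x : S} {a : S.functionField} (ha : a ∈ Reg x) :
    ∃ U : S.Opens, x ∈ U ∧ ∀ y ∈ U, a ∈ Reg y := by
  obtain ⟨U, hx, _, s, rfl⟩ := exists_section_of_mem_Reg ha
  exact ⟨U, hx, fun y hy => germToFunctionField_mem_Reg hy s⟩

/-- Rational functions that are regular everywhere on `U` come from `Γ(S, U)`. -/
theorem exists_section_of_forall_mem_Reg (U : S.Opens) [hU : Nonempty U] (a : S.functionField)
    (ha : ∀ x ∈ U, a ∈ Reg x) : ∃ s : Γ(S, U), S.germToFunctionField U s = a := by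
  have hx : ∀ x : U, ∃ (V : S.Opens) (_ : x.1 ∈ V) (_ : V ≤ U) (_ : Nonempty V) (s : Γ(S, V)),
      S.germToFunctionField V s = a := by
    intro x
    obtain ⟨V, hxV, _, s, hs⟩ := exists_section_of_mem_Reg (ha x.1 x.2)
    have : Nonempty (V ⊓ U : S.Opens) := ⟨⟨x.1, hxV, x.2⟩⟩
    refine ⟨V ⊓ U, ⟨hxV, x.2⟩, inf_le_right, this,
      S.presheaf.map (homOfLE inf_le_left).op s, ?_⟩
    rw [← hs]
    exact S.presheaf.germ_res_apply _ _ _ s
  choose V hxV hVU hV s hs using hx
  have hcompat : TopCat.Presheaf.IsCompatible S.presheaf V s := by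
    intro i j
    have hg : genericPoint S ∈ V i ⊓ V j :=
      ⟨((genericPoint_spec S).mem_open_set_iff (V i).isOpen).mpr (by simpa using hV i),
        ((genericPoint_spec S).mem_open_set_iff (V j).isOpen).mpr (by simpa using hV j)⟩
    refine germ_injective_of_isIntegral S (genericPoint S) hg ?_
    erw [S.presheaf.germ_res_apply, S.presheaf.germ_res_apply]
    exact (hs i).trans (hs j).symm
  obtain ⟨t, ht, -⟩ := S.sheaf.existsUnique_gluing' V U (fun i => homOfLE (hVU i))
    (fun x hx => Opens.mem_iSup.mpr ⟨⟨x, hx⟩, hxV ⟨x, hx⟩⟩) s hcompat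
  obtain ⟨i⟩ := hU
  refine ⟨t, ?_⟩
  rw [← hs i, ← ht i]
  exact (S.presheaf.germ_res_apply _ _ _ t).symm

/-- The stalk at `x` as a subring of the function field. -/
def stalkEquivReg (x : S) : S.presheaf.stalk x ≃+* Reg x :=
  RingEquiv.ofBijective (algebraMap (S.presheaf.stalk x) S.functionField).rangeRestrict
    ⟨fun _ _ h => algebraMap_stalk_injective x (congrArg Subtype.val h),
      (algebraMap (S.presheaf.stalk x) S.functionField).rangeRestrict_surjective⟩

@[simp]
theorem stalkEquivReg_coe (x : S) (a : S.presheaf.stalk x) :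
    (stalkEquivReg x a : S.functionField) = algebraMap _ _ a :=
  rfl

/-- Restriction of rational functions regular at `φ` of the generic point. -/
def evalGen (φ : T ⟶ S) : Reg (φ (genericPoint T)) →+* T.functionField :=
  ((φ.stalkMap (genericPoint T)).hom).comp (stalkEquivReg (φ (genericPoint T))).symm.toRingHom

open scoped Classical in
/-- `evalGen`, extended by zero. -/
def pullFun (φ : T ⟶ S) (a : S.functionField) : T.functionField :=
  if h : a ∈ Reg (φ (genericPoint T)) then evalGen φ ⟨a, h⟩ else 0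

theorem pullFun_of_mem (φ : T ⟶ S) {a : S.functionField} (h : a ∈ Reg (φ (genericPoint T))) :
    pullFun φ a = evalGen φ ⟨a, h⟩ :=
  dif_pos h

theorem pullFun_add (φ : T ⟶ S) {a b : S.functionField} (ha : a ∈ Reg (φ (genericPoint T)))
    (hb : b ∈ Reg (φ (genericPoint T))) : pullFun φ (a + b) = pullFun φ a + pullFun φ b := by
  rw [pullFun_of_mem φ (add_mem ha hb), pullFun_of_mem φ ha, pullFun_of_mem φ hb, ← map_add]
  rfl

theorem pullFun_mul (φ : T ⟶ S) {a b : S.functionField} (ha : a ∈ Reg (φ (genericPoint T)))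
    (hb : b ∈ Reg (φ (genericPoint T))) : pullFun φ (a * b) = pullFun φ a * pullFun φ b := by
  rw [pullFun_of_mem φ (mul_mem ha hb), pullFun_of_mem φ ha, pullFun_of_mem φ hb, ← map_mul]
  rfl

@[simp]
theorem pullFun_one (φ : T ⟶ S) : pullFun φ 1 = 1 := by
  rw [pullFun_of_mem φ (one_mem _)]
  exact map_one (evalGen φ)

@[simp]
theorem pullFun_zero (φ : T ⟶ S) : pullFun φ 0 = 0 := by
  rw [pullFun_of_mem φ (zero_mem _)]
  exact map_zero (evalGen φ)

theorem pullFun_algebraMap (φ : T ⟶ S) (y : T) (a : S.presheaf.stalk (φ y)) :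
    pullFun φ (algebraMap _ S.functionField a) =
      algebraMap (T.presheaf.stalk y) T.functionField (φ.stalkMap y a) := by
  have h : φ (genericPoint T) ⤳ φ y := (genericPoint_specializes_to y).map φ.continuous
  have e := algebraMap_stalkSpecializes h a
  rw [← e, pullFun_of_mem φ ⟨_, rfl⟩]
  have : (⟨_, ⟨_, rfl⟩⟩ : Reg (φ (genericPoint T))) =
      stalkEquivReg _ (S.presheaf.stalkSpecializes h a) := rfl
  rw [this, evalGen, RingHom.comp_apply, RingEquiv.toRingHom_eq_coe, RingEquiv.coe_toRingHom,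
    RingEquiv.symm_apply_apply]
  exact Scheme.Hom.stalkSpecializes_stalkMap_apply φ (genericPoint T) y _ a

theorem pullFun_mem_Reg (φ : T ⟶ S) (y : T) {a : S.functionField} (ha : a ∈ Reg (φ y)) :
    pullFun φ a ∈ Reg y := by
  obtain ⟨b, rfl⟩ := ha
  exact ⟨_, (pullFun_algebraMap φ y b).symm⟩

theorem mem_Reg_of_apply (φ : T ⟶ S) (y : T) {a : S.functionField} (ha : a ∈ Reg (φ y)) :
    a ∈ Reg (φ (genericPoint T)) :=
  Reg_le_of_specializes ((genericPoint_specializes_to y).map φ.continuous) ha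

theorem pullFun_germ (φ : T ⟶ S) (U : S.Opens) [Nonempty U] [Nonempty (φ ⁻¹ᵁ U : T.Opens)]
    (s : Γ(S, U)) :
    pullFun φ (S.germToFunctionField U s) =
      T.germToFunctionField (φ ⁻¹ᵁ U) (φ.app U s) := by
  obtain ⟨y, hy'⟩ := ‹Nonempty (φ ⁻¹ᵁ U : T.Opens)›
  have hy : φ y ∈ U := hy'
  rw [← Scheme.algebraMap_germ_eq_germToFunctionField S hy s, pullFun_algebraMap φ y,
    Scheme.Hom.germ_stalkMap_apply φ U y hy]
  exact Scheme.algebraMap_germ_eq_germToFunctionField T _ _

@[simp]
theorem pullFun_id (a : S.functionField) : pullFun (𝟙 S) a = a := by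
  obtain ⟨U, hx, _, s, rfl⟩ := exists_section_of_mem_Reg (mem_Reg_genericPoint a)
  have : Nonempty ((𝟙 S : S ⟶ S) ⁻¹ᵁ U : S.Opens) := ⟨⟨_, hx⟩⟩
  rw [pullFun_germ]
  rfl

theorem pullFun_comp (ψ : W ⟶ T) (φ : T ⟶ S) {a : S.functionField}
    (ha : a ∈ Reg ((ψ ≫ φ) (genericPoint W))) :
    pullFun (ψ ≫ φ) a = pullFun ψ (pullFun φ a) := by
  obtain ⟨U, hx, _, s, rfl⟩ := exists_section_of_mem_Reg ha
  have : Nonempty ((ψ ≫ φ) ⁻¹ᵁ U : W.Opens) := ⟨⟨_, hx⟩⟩
  have : Nonempty (φ ⁻¹ᵁ U : T.Opens) := ⟨⟨ψ (genericPoint W), hx⟩⟩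
  have : Nonempty (ψ ⁻¹ᵁ (φ ⁻¹ᵁ U) : W.Opens) := ⟨⟨_, hx⟩⟩
  rw [pullFun_germ, pullFun_germ, pullFun_germ]
  rfl

theorem pullFun_inv (φ : T ⟶ S) {a : S.functionField} (ha : a ∈ Reg (φ (genericPoint T)))
    (ha' : a⁻¹ ∈ Reg (φ (genericPoint T))) : pullFun φ a⁻¹ = (pullFun φ a)⁻¹ := by
  rcases eq_or_ne a 0 with rfl | h0
  · simp
  refine eq_inv_of_mul_eq_one_left ?_
  rw [← pullFun_mul φ ha' ha, inv_mul_cancel₀ h0, pullFun_one]

end Fermat.Agent.AbVar
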