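import Fermat.Agent.AbVar.Field

/-! Riemann-Roch spaces: change of representative, finite-range representatives; integral
multiples of rational functions with bounded poles; traces along a finite morphism. -/

set_option autoImplicit false

noncomputable section

open CategoryTheory AlgebraicGeometry TopologicalSpace

universe u

namespace Fermat.Agent.AbVar

variable {K : Type u} [Field K] {S T : Scheme.{u}} [IsIntegral S] [IsIntegral T]

theorem mul_unit_mem_Reg {x : S} {a : S.functionField} {v : (S.functionField)ˣ}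
    (hv : v ∈ unitsAt x) (ha : a ∈ Reg x) : a * (v : S.functionField) ∈ Reg x :=
  mul_mem ha hv.1

theorem mem_Reg_of_mul_unit {x : S} {a : S.functionField} {v : (S.functionField)ˣ}
    (hv : v ∈ unitsAt x) (ha : a * (v : S.functionField) ∈ Reg x) : a ∈ Reg x := by
  simpa [mul_assoc] using mul_mem ha hv.2

theorem Lspace_congr [S.Over (Spec (CommRingCat.of K))] {e e' : S → (S.functionField)ˣ}
    (c : (S.functionField)ˣ) (h : ∀ x, e' x / e x / c ∈ unitsAt x) (m : ℕ) :
    Nonempty (Lspace K (e' ^ m) ≃ₗ[K] Lspace K (e ^ m)) := by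
  have hne : ((c ^ m : (S.functionField)ˣ) : S.functionField) ≠ 0 := Units.ne_zero _
  let M : S.functionField ≃ₗ[K] S.functionField :=
    { LinearMap.mulLeft K ((c ^ m : (S.functionField)ˣ) : S.functionField) with
      invFun := fun a => ((c ^ m : (S.functionField)ˣ) : S.functionField)⁻¹ * a
      left_inv := fun a => by simp
      right_inv := fun a => by simp }
  refine ⟨M.ofSubmodules _ _ (Submodule.ext fun b => ?_)⟩
  rw [Submodule.mem_map_equiv, mem_Lspace, mem_Lspace]
  refine forall_congr' fun x => ?_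
  have hv : (e' x / e x / c) ^ m ∈ unitsAt x := pow_mem (h x) m
  have e1 : M.symm b * (((e' ^ m) x : (S.functionField)ˣ) : S.functionField) =
      b * (((e ^ m) x : (S.functionField)ˣ) : S.functionField) *
        (((e' x / e x / c) ^ m : (S.functionField)ˣ) : S.functionField) := by
    show ((c ^ m : (S.functionField)ˣ) : S.functionField)⁻¹ * b * _ = _
    rw [← Units.val_inv_eq_inv_val, mul_comm _ b, mul_assoc, mul_assoc, ← Units.val_mul,
      ← Units.val_mul]
    congr 2
    simp only [Pi.pow_apply, div_pow]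
    rw [div_div, mul_div_assoc', mul_comm (e x ^ m) (e' x ^ m), mul_comm (e x ^ m) (c ^ m),
      mul_div_mul_right_eq_div, inv_mul_eq_div]
  rw [e1]
  exact ⟨fun h' => mem_Reg_of_mul_unit hv h', fun h' => mul_unit_mem_Reg hv h'⟩

theorem exists_finiteRange_rep [CompactSpace S] (h : CDiv S) :
    ∃ e : S → (S.functionField)ˣ, (Set.range e).Finite ∧ ∀ x, h.1 x / e x / 1 ∈ unitsAt x := by
  choose U hU hU' using h.2
  obtain ⟨t, ht⟩ := isCompact_univ.elim_finite_subcover (fun x => (U x : Set S))
    (fun x => (U x).isOpen) (fun x _ => Set.mem_iUnion.mpr ⟨x, hU x⟩)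
  have hx : ∀ y : S, ∃ x ∈ t, y ∈ U x := fun y => by
    simpa using ht (Set.mem_univ y)
  choose c hc hc' using hx
  refine ⟨fun y => h.1 (c y), (t.finite_toSet.image h.1).subset ?_, fun y => ?_⟩
  · rintro _ ⟨y, rfl⟩
    exact ⟨c y, hc y, rfl⟩
  · rw [div_one]
    exact hU' (c y) y (hc' y)

theorem mem_Reg_of_isIntegralElem {x : S} (hx : IsIntegrallyClosed (S.presheaf.stalk x))
    {a : S.functionField} (p : Polynomial S.functionField) (hp : p.Monic)
    (hc : ∀ i < p.natDegree, p.coeff i ∈ Reg x) (ha : p.eval a = 0) : a ∈ Reg x := by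
  have hl : p ∈ Polynomial.lifts (algebraMap (S.presheaf.stalk x) S.functionField) := by
    rw [Polynomial.lifts_iff_coeff_lifts]
    intro i
    rcases lt_trichotomy i p.natDegree with hi | hi | hi
    · exact hc i hi
    · exact ⟨1, by rw [map_one, hi, hp.coeff_natDegree]⟩
    · exact ⟨0, by rw [map_zero, Polynomial.coeff_eq_zero_of_natDegree_lt hi]⟩
  obtain ⟨q, hq, -, hqm⟩ := Polynomial.lifts_and_degree_eq_and_monic hl hp
  have : IsIntegral (S.presheaf.stalk x) a :=
    ⟨q, hqm, by rw [Polynomial.eval₂_eq_eval_map, hq, ha]⟩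
  exact IsIntegrallyClosed.isIntegral_iff.mp this

section Multiples

open scoped IntermediateField.algebraAdjoinAdjoin

variable [S.Over (Spec (CommRingCat.of K))] (φ : T ⟶ S)
  (hφ : φ (genericPoint T) = genericPoint S) {g : ℕ} (x : Fin g → S.functionField)

theorem exists_bound_of_mem_adjoin (t : T → T.functionField) (ht : ∀ p, t p ∈ Reg p)
    (hxt : ∀ i p, pullFun φ (x i) * t p ∈ Reg p) {a : S.functionField}
    (ha : a ∈ Algebra.adjoin K (Set.range x)) :
    ∃ k : ℕ, ∀ k' ≥ k, ∀ p, pullHom φ hφ a * t p ^ k' ∈ Reg p := by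
  induction ha using Algebra.adjoin_induction with
  | mem a ha =>
    obtain ⟨i, rfl⟩ := ha
    refine ⟨1, fun k' hk p => ?_⟩
    obtain ⟨j, rfl⟩ := Nat.exists_eq_add_of_le hk
    rw [pow_add, pow_one, ← mul_assoc]
    exact mul_mem (hxt i p) (pow_mem (ht p) j)
  | algebraMap c =>
    exact ⟨0, fun k' _ p => mul_mem (pullFun_mem_Reg φ p (algebraMap_mem_Reg c _))
      (pow_mem (ht p) _)⟩
  | add a b _ _ iha ihb =>
    obtain ⟨k, hk⟩ := iha
    obtain ⟨l, hl⟩ := ihb
    refine ⟨max k l, fun k' hk' p => ?_⟩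
    rw [map_add, add_mul]
    exact add_mem (hk k' ((le_max_left _ _).trans hk') p) (hl k' ((le_max_right _ _).trans hk') p)
  | mul a b _ _ iha ihb =>
    obtain ⟨k, hk⟩ := iha
    obtain ⟨l, hl⟩ := ihb
    refine ⟨k + l, fun k' hk' p => ?_⟩
    obtain ⟨j, rfl⟩ := Nat.exists_eq_add_of_le hk'
    have := mul_mem (hk k le_rfl p) (hl (l + j) (Nat.le_add_right _ _) p)
    convert this using 1
    rw [map_mul, add_assoc, pow_add]
    ring

theorem exists_integral_multiple_bound
    (hfin : FiniteDimensional (IntermediateField.adjoin K (Set.range x)) S.functionField)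
    (hF : FiniteDimensional (pullHom φ hφ).fieldRange T.functionField)
    (hT : ∀ p : T, IsIntegrallyClosed (T.presheaf.stalk p))
    (t : T → T.functionField) (ht : ∀ p, t p ∈ Reg p)
    (hxt : ∀ i p, pullFun φ (x i) * t p ∈ Reg p) (b : T.functionField) :
    ∃ r : S.functionField, r ≠ 0 ∧ ∃ k : ℕ, ∀ k' ≥ k, ∀ p,
      b * pullHom φ hφ r * t p ^ k' ∈ Reg p := by
  set A₀ := Algebra.adjoin K (Set.range x)
  let _ : Algebra S.functionField T.functionField := (pullHom φ hφ).toAlgebra
  let _ : Algebra A₀ T.functionField :=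
    ((pullHom φ hφ).comp (algebraMap A₀ S.functionField)).toAlgebra
  have : Algebra.IsAlgebraic A₀ S.functionField :=
    (IsFractionRing.comap_isAlgebraic_iff (K := IntermediateField.adjoin K (Set.range x))).mpr
      inferInstance
  have : Algebra.IsAlgebraic S.functionField T.functionField := ⟨fun z => by
    obtain ⟨p, hp, hp0⟩ := Algebra.IsAlgebraic.isAlgebraic (R := (pullHom φ hφ).fieldRange) z
    have hl : p.map (pullHom φ hφ).fieldRange.subtype ∈
        Polynomial.lifts (pullHom φ hφ) := by
      rw [Polynomial.lifts_iff_coeff_lifts]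
      intro i
      rw [Polynomial.coeff_map]
      exact (p.coeff i).2
    obtain ⟨q, hq⟩ := (Polynomial.mem_lifts _).mp hl
    refine ⟨q, fun h0 => hp ?_, ?_⟩
    · rw [h0, Polynomial.map_zero] at hq
      exact (Polynomial.map_eq_zero _).mp hq.symm
    · rw [Polynomial.aeval_def, Polynomial.eval₂_eq_eval_map]
      show Polynomial.eval z (q.map (pullHom φ hφ)) = 0
      rw [hq, ← Polynomial.eval₂_eq_eval_map]
      exact hp0⟩
  have : Algebra.IsAlgebraic A₀ T.functionField :=
    @Algebra.IsAlgebraic.trans A₀ S.functionField T.functionField _ _ _ _ _ _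
      (IsScalarTower.of_algebraMap_eq fun _ => rfl) _ _ ‹_›
  obtain ⟨y, hy, q, hqm, hq⟩ := (Algebra.IsAlgebraic.isAlgebraic (R := A₀) b).exists_integral_multiple
  refine ⟨(y : S.functionField), by simpa using hy, ?_⟩
  have hk := fun i => exists_bound_of_mem_adjoin φ hφ x t ht hxt (q.coeff i).2
  choose k hk using hk
  refine ⟨(Finset.range q.natDegree).sup k, fun k' hk' p => ?_⟩
  set P := q.map (algebraMap A₀ T.functionField)
  have hP : P.Monic := hqm.map _
  refine mem_Reg_of_isIntegralElem (hT p) (P.scaleRoots (t p ^ k'))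
    ((Polynomial.monic_scaleRoots_iff _).mpr hP) (fun i hi => ?_) ?_
  · rw [Polynomial.natDegree_scaleRoots, hqm.natDegree_map] at hi
    rw [Polynomial.coeff_scaleRoots, Polynomial.coeff_map, hqm.natDegree_map, ← pow_mul]
    refine hk i _ (le_trans (le_trans ?_ hk') (Nat.le_mul_of_pos_right _ (by omega))) p
    exact Finset.le_sup (Finset.mem_range.mpr hi)
  · have h1 : Polynomial.eval₂ (RingHom.id _) (b * pullHom φ hφ y) P = 0 := by
      rw [Polynomial.eval₂_id, ← Polynomial.eval₂_eq_eval_map]
      rw [Algebra.smul_def, mul_comm] at hq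
      exact hq
    have h2 := Polynomial.scaleRoots_eval₂_eq_zero (RingHom.id _) (s := t p ^ k') h1
    rw [Polynomial.eval₂_id, RingHom.id_apply, mul_comm] at h2
    exact h2

end Multiples

theorem trace_mem_Reg (φ : T ⟶ S) (hφ : φ (genericPoint T) = genericPoint S) [IsFinite φ]
    [FiniteDimensional (pullHom φ hφ).fieldRange T.functionField]
    (hS : ∀ y : S, IsIntegrallyClosed (S.presheaf.stalk y))
    {W : S.Opens} (hW : IsAffineOpen W) {y : S} (hy : y ∈ W) {z : T.functionField}
    (hz : ∀ p, φ p ∈ W → z ∈ Reg p) :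
    ∃ a ∈ Reg y, ((Algebra.trace (pullHom φ hφ).fieldRange T.functionField z :
      (pullHom φ hφ).fieldRange) : T.functionField) = pullHom φ hφ a := by
  have : Nonempty W := ⟨⟨y, hy⟩⟩
  have hη : genericPoint T ∈ φ ⁻¹ᵁ W := by
    show φ (genericPoint T) ∈ W
    rw [hφ]
    exact (genericPoint_specializes_to y).mem_open W.isOpen hy
  have : Nonempty (φ ⁻¹ᵁ W : T.Opens) := ⟨⟨_, hη⟩⟩
  obtain ⟨s, rfl⟩ := exists_section_of_forall_mem_Reg (φ ⁻¹ᵁ W) z fun p hp => hz p hp
  obtain ⟨q, hqm, hq⟩ := (RingHom.Finite.to_isIntegral (φ.finite_app W hW)) s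
  set F := (pullHom φ hφ).fieldRange
  let _ : Algebra (S.presheaf.stalk y) F :=
    ((pullHom φ hφ).rangeRestrictField.comp
      (algebraMap (S.presheaf.stalk y) S.functionField)).toAlgebra
  let _ : Algebra (S.presheaf.stalk y) T.functionField :=
    ((pullHom φ hφ).comp (algebraMap (S.presheaf.stalk y) S.functionField)).toAlgebra
  have : IsScalarTower (S.presheaf.stalk y) F T.functionField :=
    IsScalarTower.of_algebraMap_eq' rfl
  have hint : IsIntegral (S.presheaf.stalk y) (T.germToFunctionField (φ ⁻¹ᵁ W) s) := by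
    refine ⟨q.map (S.presheaf.germ W y hy).hom, hqm.map _, ?_⟩
    rw [Polynomial.eval₂_map]
    have : (algebraMap (S.presheaf.stalk y) T.functionField).comp (S.presheaf.germ W y hy).hom =
        (T.germToFunctionField (φ ⁻¹ᵁ W)).hom.comp (φ.app W).hom := by
      refine RingHom.ext fun a => ?_
      show pullFun φ (algebraMap _ S.functionField (S.presheaf.germ W y hy a)) = _
      rw [Scheme.algebraMap_germ_eq_germToFunctionField S hy a, pullFun_germ]
      rfl
    rw [this, ← Polynomial.hom_eval₂]
    exact (congrArg _ hq).trans (map_zero _)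
  have htr : IsIntegral (S.presheaf.stalk y)
      (Algebra.trace F T.functionField (T.germToFunctionField (φ ⁻¹ᵁ W) s)) :=
    Algebra.isIntegral_trace hint
  generalize hv : Algebra.trace F T.functionField (T.germToFunctionField (φ ⁻¹ᵁ W) s) = v at htr ⊢
  obtain ⟨a, ha⟩ := (pullHom φ hφ).rangeRestrictField_bijective.2 v
  let j : S.functionField →ₐ[S.presheaf.stalk y] F :=
    { (pullHom φ hφ).rangeRestrictField with commutes' := fun _ => rfl }
  have ha' : IsIntegral (S.presheaf.stalk y) a := by
    rw [← isIntegral_algHom_iff j (pullHom φ hφ).rangeRestrictField.injective]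
    simpa [j, ha] using htr
  exact ⟨a, (hS y |> fun _ => IsIntegrallyClosed.isIntegral_iff.mp ha'), by rw [← ha]; rfl⟩

end Fermat.Agent.AbVar
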