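import Fermat.Agent.AbVar.Split

/-! Sections of a class with splitting data as compatible families of rational functions. -/

set_option autoImplicit false

noncomputable section

open CategoryTheory AlgebraicGeometry TopologicalSpace

universe u

namespace Fermat.Agent.AbVar

variable {S : Scheme.{u}} [IsIntegral S] {ι : Type*} {V : ι → S.Opens} {h : CDiv S} {r : ℕ}
  {ψ φ : ι → Fin r → S.functionField}

theorem exists_section_of_family (hs : ∀ i, SplitOn h (V i) (ψ i) (φ i)) [Nonempty ι]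
    {g : ι → Fin r → S.functionField} (hg : ∀ i k, ∀ p ∈ V i, g i k ∈ Reg p)
    (hc : ∀ i j k, g i k = ∑ l, φ i k * ψ j l * g j l) :
    ∃ s : S.functionField, (∀ i, ∀ p ∈ V i, s * (h.1 p : S.functionField) ∈ Reg p) ∧
      ∀ i k, g i k = s * φ i k := by
  obtain ⟨i₀⟩ := ‹Nonempty ι›
  refine ⟨∑ l, ψ i₀ l * g i₀ l, fun i p hp => ?_, fun i k => ?_⟩
  · have h1 : ∑ l, ψ i₀ l * g i₀ l = ∑ k, ψ i k * g i k := by
      calc ∑ l, ψ i₀ l * g i₀ l = (∑ k, ψ i k * φ i k) * ∑ l, ψ i₀ l * g i₀ l := by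
            rw [(hs i).2, one_mul]
        _ = _ := by
            rw [Finset.sum_mul]
            refine Finset.sum_congr rfl fun k _ => ?_
            rw [hc i i₀ k, Finset.mul_sum, Finset.mul_sum]
            exact Finset.sum_congr rfl fun l _ => by ring
    rw [h1, Finset.sum_mul]
    refine sum_mem fun k _ => ?_
    rw [mul_right_comm]
    exact mul_mem ((hs i).1 p hp k).1 (hg i k p hp)
  · rw [hc i i₀ k, Finset.sum_mul]
    exact Finset.sum_congr rfl fun l _ => by ring

theorem family_of_section (hs : ∀ i, SplitOn h (V i) (ψ i) (φ i)) {s : S.functionField}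
    (hreg : ∀ i, ∀ p ∈ V i, s * (h.1 p : S.functionField) ∈ Reg p) :
    (∀ i k, ∀ p ∈ V i, s * φ i k ∈ Reg p) ∧
      ∀ i j k, s * φ i k = ∑ l, φ i k * ψ j l * (s * φ j l) := by
  refine ⟨fun i k p hp => ?_, fun i j k => ?_⟩
  · have := mul_mem (hreg i p hp) ((hs i).1 p hp k).2
    convert this using 1
    rw [Units.val_inv_eq_inv_val]
    field_simp
  · calc s * φ i k = φ i k * s * ∑ l, ψ j l * φ j l := by rw [(hs j).2, mul_one, mul_comm]
      _ = _ := by
          rw [Finset.mul_sum]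
          exact Finset.sum_congr rfl fun l _ => by ring

theorem SplitOn.swap {W : S.Opens} {ψ' φ' : Fin r → S.functionField}
    (hs : SplitOn h W ψ' φ') : SplitOn h⁻¹ W φ' ψ' := by
  refine ⟨fun p hp k => ⟨?_, ?_⟩, by rw [← hs.2]; exact Finset.sum_congr rfl fun k _ => mul_comm _ _⟩
  · exact (hs.1 p hp k).2
  · simpa using (hs.1 p hp k).1

theorem SplitOn.mul_mem_Reg {W W' : S.Opens} {ψ' φ' ψ'' φ'' : Fin r → S.functionField}
    (hs : SplitOn h W ψ' φ') (hs' : SplitOn h W' ψ'' φ'') {p : S} (hp : p ∈ W) (hp' : p ∈ W')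
    (k l : Fin r) : φ' k * ψ'' l ∈ Reg p := by
  have := mul_mem (hs.1 p hp k).2 (hs'.1 p hp' l).1
  convert this using 1
  rw [Units.val_inv_eq_inv_val]
  field_simp

theorem SplitOn.extend {W : S.Opens} {n : ℕ} {ψ' φ' : Fin n → S.functionField}
    (hs : SplitOn h W ψ' φ') (hnr : n ≤ r) :
    ∃ ψ'' φ'' : Fin r → S.functionField, SplitOn h W ψ'' φ'' := by
  classical
  refine ⟨fun k => if hk : (k : ℕ) < n then ψ' ⟨k, hk⟩ else 0,
    fun k => if hk : (k : ℕ) < n then φ' ⟨k, hk⟩ else 0, fun p hp k => ?_, ?_⟩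
  · by_cases hk : (k : ℕ) < n
    · simpa [hk] using hs.1 p hp ⟨k, hk⟩
    · simp [hk]
  · rw [← hs.2]
    refine (Fintype.sum_of_injective (Fin.castLE hnr) (Fin.castLE_injective hnr) _ _ ?_ ?_).symm
    · intro k hk
      simp only
      rw [dif_neg fun h' => hk ⟨⟨k, h'⟩, Fin.ext rfl⟩, zero_mul]
    · intro k
      simp [k.2]

/-- A class with nonzero global sections on both sides is trivial, given constant functions. -/
theorem cls_eq_one_of_sections {s t : S.functionField} (hs0 : s * t ≠ 0)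
    (hs : ∀ p, s * (h.1 p : S.functionField) ∈ Reg p)
    (ht : ∀ p, t * ((h.1 p)⁻¹ : (S.functionField)ˣ) ∈ Reg p)
    (hst : ∀ p, (s * t)⁻¹ ∈ Reg p) : cls h = 1 := by
  obtain ⟨hs', -⟩ := mul_ne_zero_iff.mp hs0
  refine cls_eq_one.mpr ⟨(Units.mk0 s hs')⁻¹, fun p => ⟨?_, ?_⟩⟩
  · have : ((h.1 p / (Units.mk0 s hs')⁻¹ : (S.functionField)ˣ) : S.functionField) =
        s * (h.1 p : S.functionField) := by
      simp [mul_comm]
    rw [this]
    exact hs p
  · have := mul_mem (ht p) (hst p)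
    convert this using 1
    simp only [inv_div, Units.val_div_eq_div_val, Units.val_inv_eq_inv_val, Units.val_mk0]
    have := (mul_ne_zero_iff.mp hs0).2
    field_simp

end Fermat.Agent.AbVar
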