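import Fermat.Agent.AbVar.SliceTriv
import Fermat.Agent.AbVar.KernelLift

/-! A class trivial on every slice `X × {z}` is trivial over small open sets of `Z`. -/

set_option autoImplicit false
set_option linter.unusedSectionVars false

noncomputable section

open CategoryTheory CategoryTheory.Limits AlgebraicGeometry TopologicalSpace

universe u

namespace Fermat.Agent.AbVar

variable {K : Type u} [Field K] [IsAlgClosed K]
variable {X Z : Scheme.{u}} [X.Over (Spec (CommRingCat.of K))] [Z.Over (Spec (CommRingCat.of K))]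
  [IsIntegral X] [IsIntegral Z] [IsIntegral (Pd K X Z)] [PdDominant K X Z]
  [IsProper (X ↘ Spec (CommRingCat.of K))] [LocallyOfFiniteType (Z ↘ Spec (CommRingCat.of K))]

/-- A closed point of the product lies on the slice through a rational point. -/
theorem exists_ratPt_of_closed {q : (Pd K X Z)} (hq : IsClosed {q}) :
    ∃ (x : RatPt K X) (z : RatPt K Z), sliceZ z x.pt = q ∧ z.pt = pZ K X Z q := by
  let a : RatPt K (Pd K X Z) :=
    (pointEquivClosedPoint (Pd K X Z ↘ Spec (CommRingCat.of K))).symm ⟨q, hq⟩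
  have ha : a.pt = q := pointOfClosedPoint_apply _ q hq _
  have hax : (a.1 ≫ pX K X Z) ≫ (X ↘ Spec (CommRingCat.of K)) = 𝟙 _ := by
    rw [Category.assoc]; exact a.2
  have haz : (a.1 ≫ pZ K X Z) ≫ (Z ↘ Spec (CommRingCat.of K)) = 𝟙 _ := by
    rw [Category.assoc]
    exact (congrArg (a.1 ≫ ·) pullback.condition.symm).trans a.2
  let x : RatPt K X := ⟨a.1 ≫ pX K X Z, hax⟩
  let z : RatPt K Z := ⟨a.1 ≫ pZ K X Z, haz⟩
  have hk : x.1 ≫ sliceZ z = a.1 := by
    refine pullback.hom_ext ?_ ?_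
    · rw [Category.assoc]
      erw [sliceZ_pX]
      rw [Category.comp_id]
    · rw [Category.assoc]
      erw [sliceZ_pZ]
      rw [← Category.assoc, x.2, Category.id_comp]
  refine ⟨x, z, ?_, ?_⟩
  · rw [← ha]
    exact congrArg (fun φ : Spec (CommRingCat.of K) ⟶ Pd K X Z => φ (IsLocalRing.closedPoint K)) hk
  · rw [← ha]; rfl

theorem sliceZ_pt_eq (x : RatPt K X) (z : RatPt K Z) :
    x.1 ≫ sliceZ z = z.1 ≫ sliceX x := by
  refine pullback.hom_ext ?_ ?_
  · rw [Category.assoc, Category.assoc, sliceZ, sliceX, pullback.lift_fst, pullback.lift_fst,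
      ← Category.assoc z.1, z.2, Category.comp_id, Category.id_comp]
  · rw [Category.assoc, Category.assoc, sliceZ, sliceX, pullback.lift_snd, pullback.lift_snd,
      ← Category.assoc x.1, x.2, Category.comp_id, Category.id_comp]

theorem mem_unitsAt_of_closed (h : CDiv (Pd K X Z)) (f : ((Pd K X Z).functionField)ˣ)
    {U : Z.Opens}
    (hcl : ∀ q : (Pd K X Z), IsClosed {q} → pZ K X Z q ∈ U → f * h.1 q ∈ unitsAt q)
    {p : (Pd K X Z)} (hp : pZ K X Z p ∈ U) : f * h.1 p ∈ unitsAt p := by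
  have := LocallyOfFiniteType.jacobsonSpace (Pd K X Z ↘ Spec (CommRingCat.of K))
  obtain ⟨q, ⟨hq1, hq2⟩, hqc⟩ := nonempty_inter_closedPoints
    (Z := closure {p} ∩ pZ K X Z ⁻¹' (U : Set Z)) ⟨p, subset_closure (Set.mem_singleton p), hp⟩
    ((isClosed_closure.isLocallyClosed).inter ((pZ K X Z ⁻¹ᵁ U).isOpen.isLocallyClosed))
  have hspec : p ⤳ q := specializes_iff_mem_closure.mpr hq1
  have h1 := mul_mem (unitsAt_le_of_specializes hspec (hcl q hqc hq2)) (div_mem_unitsAt h hspec)
  convert h1 using 1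
  rw [mul_assoc, mul_div_cancel]

theorem exists_local_trivialization (h : CDiv (Pd K X Z))
    (hslice : ∀ z : RatPt K Z, pullPic (sliceZ z) (cls h) = 1) (z₀ : RatPt K Z) :
    ∃ (U : Z.Opens) (f : ((Pd K X Z).functionField)ˣ), z₀.pt ∈ U ∧
      ∀ p, pZ K X Z p ∈ U → f * h.1 p ∈ unitsAt p := by
  classical
  have : CompactSpace X := QuasiCompact.compactSpace_of_compactSpace (X ↘ Spec (CommRingCat.of K))
  obtain ⟨_, ⟨U, hU, rfl⟩, hzU, -⟩ := Z.isBasis_affineOpens.exists_subset_of_mem_open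
    (Set.mem_univ z₀.pt) isOpen_univ
  obtain ⟨ι, _, W, hW, hW0, hcov⟩ := exists_finite_affine_cover X
  obtain ⟨C, -⟩ := exists_chart h hU ⟨_, hzU⟩ ι W hW hW0 hcov
  let e := Fintype.equivFin C.glue.Col
  obtain ⟨x, hx, c₀, hc₀⟩ := exists_kernel_lift
    (fun z : {z : RatPt K Z // z.pt ∈ U} => (evalAt z.1 U z.2).toRingHom)
    (fun b hb => Subtype.ext (eq_zero_of_forall_valAt ⟨_, hzU⟩ b.2
      fun z hz => hb ⟨z, hz⟩))
    (fun (l : C.glue.Row) c => C.glue.mat l (e.symm c))
    (fun z => by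
      obtain ⟨v, hv0, hv, -⟩ := C.sol_of_trivial z.2 (hslice z.1)
      refine ⟨v ∘ e.symm, fun h0 => hv0 (funext fun c => ?_), fun l => ?_⟩
      · simpa using congrFun h0 (e c)
      · exact (e.symm.sum_comp fun c => evalAt z.1 U z.2 (C.glue.mat l c) * v c).trans (hv l))
    ⟨z₀, hzU⟩
    (fun v w hv0 hv hw => by
      obtain ⟨v₁, -, -, hall⟩ := C.sol_of_trivial hzU (hslice z₀)
      have conv : ∀ u : Fin (Fintype.card C.glue.Col) → K,
          (∀ l, (fun c => evalAt z₀ U hzU (C.glue.mat l (e.symm c))) ⬝ᵥ u = 0) →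
          C.Ker z₀ hzU (u ∘ e) := fun u hu l => by
        refine (e.symm.sum_comp fun c => evalAt z₀ U hzU (C.glue.mat l c) * (u ∘ e) c).symm.trans ?_
        simpa [dotProduct] using hu l
      obtain ⟨r, hr⟩ := hall _ (conv v hv)
      obtain ⟨t, ht⟩ := hall _ (conv w hw)
      have hr0 : r ≠ 0 := fun h0 => hv0 (funext fun c => by
        simpa [h0] using congrFun hr (e.symm c))
      refine ⟨t / r, funext fun c => ?_⟩
      have h1 := congrFun hr (e.symm c)
      have h2 := congrFun ht (e.symm c)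
      simp only [Function.comp_apply, e.apply_symm_apply, Pi.smul_apply, smul_eq_mul] at h1 h2 ⊢
      rw [h1, h2]
      field_simp)
  let y : C.glue.Col → RegOn K U := x ∘ e
  have hy : ∀ l, ∑ c, C.glue.mat l c * y c = 0 := fun l => by
    refine (e.symm.sum_comp fun c => C.glue.mat l c * y c).symm.trans ?_
    simpa [dotProduct, y] using hx l
  obtain ⟨s, hs, hs'⟩ := C.exists_sec_global hy
  let c₁ := e.symm c₀
  have hval : valAt z₀ (y c₁ : Z.functionField) ≠ 0 := by simpa [y, c₁] using hc₀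
  have hy0 : (y c₁ : Z.functionField) ≠ 0 := fun h0 => hval (by rw [h0]; simp [valAt])
  obtain ⟨U₁, hzU₁, hU₁⟩ := exists_open_of_mem_unitsAt
    (mem_unitsAt_of_valAt_ne_zero z₀ (a := Units.mk0 _ hy0) ((y c₁).2 _ hzU) hval)
  -- at every point of `U ⊓ U₁` the vector does not vanish
  have hkey : ∀ (z : RatPt K Z) (hz : z.pt ∈ U), z.pt ∈ U₁ → ∀ x : X,
      s * (h.1 (sliceZ z x) : (Pd K X Z).functionField) ≠ 0 ∧
      (pullFun (sliceZ z) (s * (h.1 (sliceZ z x) : (Pd K X Z).functionField)))⁻¹ ∈ Reg x ∧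
      pullFun (sliceZ z) (s * (h.1 (sliceZ z x) : (Pd K X Z).functionField)) ≠ 0 := by
    intro z hz hz₁ x
    obtain ⟨hker, hfam⟩ := hs' z hz
    have hne : valAt z (y c₁ : Z.functionField) ≠ 0 := by
      intro h0
      have := valAt_mul z ((y c₁).2 _ hz) (hU₁ _ hz₁).2
      rw [h0, zero_mul, Units.val_inv_eq_inv_val, Units.val_mk0, mul_inv_cancel₀ hy0] at this
      have h1 := valAt_algebraMap z (1 : K)
      rw [map_one, this] at h1
      exact zero_ne_one h1
    obtain ⟨c, hc, hall⟩ := sections_of_trivial (K := K) (h' := sliceDiv h z) (hslice z)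
    have hgen : pZ K X Z (sliceZ z (genericPoint X)) ∈ U := by rwa [pZ_sliceZ]
    have hq : pZ K X Z (sliceZ z x) ∈ U := by rwa [pZ_sliceZ]
    set sz := pullFun (sliceZ z)
      (s * (h.1 (sliceZ z (genericPoint X)) : (Pd K X Z).functionField)) with hsz
    have hsx : ∀ x, pullFun (sliceZ z) (s * (h.1 (sliceZ z x) : (Pd K X Z).functionField)) =
        sz * ((sliceDiv h z).1 x : X.functionField) := by
      intro x
      rw [hsz, sliceDiv, pullDiv_coe, pullGerm, pullUnit_coe,
        ← pullFun_mul _ (hs _ hgen) (ratio_mem (sliceZ z) h x).1]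
      congr 1
      simp only [Units.val_div_eq_div_val]
      field_simp
    obtain ⟨r, hr⟩ := hall sz fun x => by
      rw [← hsx]
      exact pullFun_mem_Reg _ _ (hs _ (by rwa [pZ_sliceZ]))
    have hr0 : r ≠ 0 := by
      rintro rfl
      have h0 : sz = 0 := by rw [hr, map_zero, zero_mul]
      have : (fun c => evalAt z U hz (y c)) = 0 := C.famK_injective fun i k => by
        rw [hfam, h0, zero_mul]
        simpa using (C.famK_smul 0 0 i k).symm
      exact hne (congrFun this c₁)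
    have hval : pullFun (sliceZ z) (s * (h.1 (sliceZ z x) : (Pd K X Z).functionField)) =
        algebraMap K X.functionField r * (((sliceDiv h z).1 x / c : (X.functionField)ˣ) : X.functionField) := by
      rw [hsx, hr, Units.val_div_eq_div_val, Units.val_inv_eq_inv_val]
      ring
    have hne' : pullFun (sliceZ z) (s * (h.1 (sliceZ z x) : (Pd K X Z).functionField)) ≠ 0 := by
      rw [hval]
      exact mul_ne_zero (by simpa using hr0) (Units.ne_zero _)
    refine ⟨fun h0 => hne' (by rw [h0, pullFun_zero]), ?_, hne'⟩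
    rw [hval, mul_inv, ← map_inv₀, ← Units.val_inv_eq_inv_val]
    exact mul_mem (algebraMap_mem_Reg _ x) (hc x).2
  have hs0 : s ≠ 0 := fun h0 =>
    (hkey z₀ hzU hzU₁ (genericPoint X)).1 (by rw [h0, zero_mul])
  refine ⟨U ⊓ U₁, Units.mk0 s hs0, ⟨hzU, hzU₁⟩, fun p hp => mem_unitsAt_of_closed h _ ?_ hp⟩
  intro q hq hqU
  obtain ⟨x, z, rfl, hzq⟩ := exists_ratPt_of_closed hq
  obtain ⟨-, h2, h3⟩ := hkey z (by rw [hzq]; exact hqU.1) (by rw [hzq]; exact hqU.2) x.pt
  exact mem_unitsAt_of_pullFun (sliceZ z) x.pt (by simpa using hs _ hqU.1) (by simpa using h3)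
    (by simpa using h2)

end Fermat.Agent.AbVar
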