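import Fermat.Agent.AbVar.CubeIface

/-! Triviality of slices in terms of kernels of the gluing matrix. -/

set_option autoImplicit false
set_option linter.unusedSectionVars false

noncomputable section

open CategoryTheory CategoryTheory.Limits AlgebraicGeometry TopologicalSpace

universe u

namespace Fermat.Agent.AbVar

variable {K : Type u} [Field K]

theorem mem_unitsAt_of_pullFun {S T : Scheme.{u}} [IsIntegral S] [IsIntegral T] (φ : T ⟶ S)
    (y : T) {a : (S.functionField)ˣ} (ha : (a : S.functionField) ∈ Reg (φ y))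
    (h0 : pullFun φ (a : S.functionField) ≠ 0)
    (hu : (pullFun φ (a : S.functionField))⁻¹ ∈ Reg y) : a ∈ unitsAt (φ y) := by
  refine ⟨ha, ?_⟩
  obtain ⟨b, hb⟩ := ha
  obtain ⟨d, hd⟩ := hu
  rw [← hb, pullFun_algebraMap φ y b] at h0 hd
  have h1 : d * φ.stalkMap y b = 1 := by
    refine algebraMap_stalk_injective y ?_
    rw [map_mul, hd, map_one, inv_mul_cancel₀ h0]
  have hbu : IsUnit b := isUnit_of_map_unit (φ.stalkMap y).hom b
    (isUnit_iff_exists_inv'.mpr ⟨d, h1⟩)
  obtain ⟨w, hw⟩ := hbu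
  refine ⟨(w⁻¹ : (S.presheaf.stalk (φ y))ˣ), ?_⟩
  rw [Units.val_inv_eq_inv_val]
  refine eq_inv_of_mul_eq_one_left ?_
  rw [← hb, ← hw, ← map_mul, Units.inv_mul, map_one]

theorem mem_unitsAt_of_valAt_ne_zero {Z : Scheme.{u}} [Z.Over (Spec (CommRingCat.of K))]
    [IsIntegral Z] (z : RatPt K Z) {a : (Z.functionField)ˣ} (ha : (a : Z.functionField) ∈ Reg z.pt)
    (h0 : valAt z (a : Z.functionField) ≠ 0) : a ∈ unitsAt z.pt := by
  have h1 : pullFun z.1 (a : Z.functionField) ≠ 0 := fun h => h0 (by rw [valAt, h, map_zero])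
  have := mem_unitsAt_of_pullFun z.1 (genericPoint (Spec (CommRingCat.of K) : Scheme.{u}))
    (z.mem_Reg_generic ha) h1 (mem_Reg_genericPoint _)
  rwa [z.apply_eq] at this

variable {X Z : Scheme.{u}} [X.Over (Spec (CommRingCat.of K))] [Z.Over (Spec (CommRingCat.of K))]
  [IsIntegral X] [IsIntegral Z] [IsIntegral (Pd K X Z)] [PdDominant K X Z]
  [IsProper (X ↘ Spec (CommRingCat.of K))] [LocallyOfFiniteType (Z ↘ Spec (CommRingCat.of K))]
  [IsAlgClosed K] {h : CDiv (Pd K X Z)} {U : Z.Opens}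

theorem sliceDiv_inv (h : CDiv (Pd K X Z)) (z : RatPt K Z) :
    sliceDiv h⁻¹ z = (sliceDiv h z)⁻¹ :=
  map_inv (pullDiv (sliceZ z)) h

/-- On a trivial slice every section is a constant multiple of one nowhere vanishing section. -/
theorem sections_of_trivial {h' : CDiv X} (ht : cls h' = 1) :
    ∃ c : (X.functionField)ˣ, (∀ x, h'.1 x / c ∈ unitsAt x) ∧
      ∀ s : X.functionField, (∀ x, s * (h'.1 x : X.functionField) ∈ Reg x) →
        ∃ r : K, s = algebraMap K X.functionField r * ((c⁻¹ : (X.functionField)ˣ) : X.functionField) := by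
  obtain ⟨c, hc⟩ := cls_eq_one.mp ht
  refine ⟨c, hc, fun s hs => ?_⟩
  obtain ⟨r, hr⟩ := eq_algebraMap_of_forall_mem_Reg (K := K)
    (a := s * (c : X.functionField)) fun x => by
      have := mul_mem (hs x) (hc x).2
      convert this using 1
      simp only [inv_div, Units.val_div_eq_div_val]
      field_simp
  exact ⟨r, by rw [hr, Units.val_inv_eq_inv_val]; field_simp⟩

theorem Chart.sol_of_trivial (C : Chart h U) {z : RatPt K Z} (hz : z.pt ∈ U)
    (ht : pullPic (sliceZ z) (cls h) = 1) :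
    ∃ v, v ≠ 0 ∧ C.Ker z hz v ∧ ∀ w, C.Ker z hz w → ∃ r : K, w = r • v := by
  obtain ⟨c, hc, hall⟩ := sections_of_trivial (K := K) (h' := sliceDiv h z) ht
  obtain ⟨v, hv, hvφ⟩ := C.exists_ker hz (s := ((c⁻¹ : (X.functionField)ˣ) : X.functionField))
    fun x => by
      have := (hc x).1
      convert this using 1
      simp only [Units.val_div_eq_div_val, Units.val_inv_eq_inv_val]
      rw [div_eq_mul_inv, mul_comm]
  refine ⟨v, fun h0 => ?_, hv, fun w hw => ?_⟩
  · obtain ⟨i⟩ := C.nonempty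
    have hz' := (C.split_slice hz i).2
    have h1 : ∀ k, C.φAt z i k = 0 := fun k => by
      have := hvφ i k
      rw [h0] at this
      have h2 : C.famK (0 : C.glue.Col → K) i k = 0 := by
        simpa using C.famK_smul 0 0 i k
      rw [h2] at this
      exact (mul_eq_zero.mp this.symm).resolve_left (Units.ne_zero _)
    simp [h1] at hz'
  · obtain ⟨s, hs, hsφ⟩ := C.exists_sec hz hw
    obtain ⟨r, rfl⟩ := hall s hs
    refine ⟨r, C.famK_injective fun i k => ?_⟩
    rw [C.famK_smul, hvφ, hsφ, mul_assoc]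

theorem Chart.trivial_of_sols (C : Chart h U) {U' : Z.Opens} (C' : Chart h⁻¹ U') {z : RatPt K Z}
    (hz : z.pt ∈ U) (hz' : z.pt ∈ U')
    {v : C.glue.Col → K} (hv : C.Ker z hz v) (hv0 : v ≠ 0)
    {v' : C'.glue.Col → K} (hv' : C'.Ker z hz' v') (hv0' : v' ≠ 0) :
    pullPic (sliceZ z) (cls h) = 1 := by
  obtain ⟨s, hs, hsφ⟩ := C.exists_sec hz hv
  obtain ⟨t, ht, htφ⟩ := C'.exists_sec hz' hv'
  have hs0 : s ≠ 0 := fun h0 => hv0 (C.famK_injective fun i k => by
    rw [hsφ, h0, zero_mul]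
    simpa using (C.famK_smul 0 0 i k).symm)
  have ht0 : t ≠ 0 := fun h0 => hv0' (C'.famK_injective fun i k => by
    rw [htφ, h0, zero_mul]
    simpa using (C'.famK_smul 0 0 i k).symm)
  have ht' : ∀ x, t * (((sliceDiv h z).1 x)⁻¹ : (X.functionField)ˣ) ∈ Reg x := fun x => by
    have := ht x
    rwa [sliceDiv_inv] at this
  obtain ⟨r, hr⟩ := eq_algebraMap_of_forall_mem_Reg (K := K) (a := s * t) fun x => by
    have := mul_mem (hs x) (ht' x)
    convert this using 1
    rw [Units.val_inv_eq_inv_val]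
    field_simp
  refine cls_eq_one_of_sections (h := sliceDiv h z) (mul_ne_zero hs0 ht0) hs ht' fun x => ?_
  rw [← hr, ← map_inv₀]
  exact algebraMap_mem_Reg _ x

end Fermat.Agent.AbVar
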