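import Fermat.Agent.AbVar.RegOn

/-! Splitting data for a Cartier class on an affine open set. -/

set_option autoImplicit false

noncomputable section

open CategoryTheory AlgebraicGeometry TopologicalSpace

universe u

namespace Fermat.Agent.AbVar

variable {S : Scheme.{u}} [IsIntegral S]

/-- `ψ k` are sections of the class of `h` over `V`, `φ k` of the inverse class, pairing to one. -/
def SplitOn (h : CDiv S) (V : S.Opens) {r : ℕ} (ψ φ : Fin r → S.functionField) : Prop :=
  (∀ p ∈ V, ∀ k, ψ k * (h.1 p : S.functionField) ∈ Reg p ∧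
    φ k * ((h.1 p)⁻¹ : (S.functionField)ˣ) ∈ Reg p) ∧ ∑ k, ψ k * φ k = 1

theorem exists_pow_mul_mem_Reg {V : S.Opens} (hV : IsAffineOpen V) [Nonempty V]
    (t u : Γ(S, V)) (e : S.functionField)
    (he : ∀ p ∈ S.basicOpen t, p ∈ S.basicOpen u → e ∈ Reg p) :
    ∃ N : ℕ, ∀ p ∈ S.basicOpen u, (S.germToFunctionField V t) ^ N * e ∈ Reg p := by
  classical
  let γ : Γ(S, V) →+* S.functionField := (S.germToFunctionField V).hom
  let J : Ideal Γ(S, V) :=
    { carrier := {r | ∀ p ∈ S.basicOpen u, γ r * e ∈ Reg p}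
      zero_mem' := fun p _ => by simp
      add_mem' := fun {a b} ha hb p hp => by
        simpa [map_add, add_mul] using add_mem (ha p hp) (hb p hp)
      smul_mem' := fun c a ha p hp => by
        rw [smul_eq_mul, map_mul, mul_assoc]
        exact mul_mem (germToFunctionField_mem_Reg (S.basicOpen_le u hp) c) (ha p hp) }
  have hrad : t * u ∈ J.radical := by
    rw [Ideal.radical_eq_sInf, Ideal.mem_sInf]
    rintro q ⟨hJq, hq⟩
    by_contra htu
    let p : S := hV.fromSpec ⟨q, hq⟩
    have hpV : p ∈ V := by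
      have := hV.range_fromSpec
      exact (Set.ext_iff.mp this p).mp ⟨_, rfl⟩
    let := TopCat.Presheaf.algebra_section_stalk S.presheaf (⟨p, hpV⟩ : V)
    have hloc : IsLocalization.AtPrime (S.presheaf.stalk p) q :=
      hV.isLocalization_stalk' ⟨q, hq⟩ hpV
    have hmem : ∀ s : Γ(S, V), s ∉ q → p ∈ S.basicOpen s := by
      intro s hs
      rw [Scheme.mem_basicOpen _ s p hpV]
      exact IsLocalization.map_units (S.presheaf.stalk p) (⟨s, hs⟩ : q.primeCompl)
    obtain ⟨e', he'⟩ := he p (hmem t fun h => htu (q.mul_mem_right _ h))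
      (hmem u fun h => htu (q.mul_mem_left _ h))
    obtain ⟨⟨r, s⟩, hrs⟩ := IsLocalization.surj q.primeCompl e'
    refine s.2 (hJq fun p' hp' => ?_)
    have h1 : γ s.1 * e = γ r := by
      have := congrArg (algebraMap (S.presheaf.stalk p) S.functionField) hrs
      rw [map_mul, he'] at this
      rw [mul_comm]
      refine Eq.trans ?_ (this.trans ?_)
      · congr 1
        exact (Scheme.algebraMap_germ_eq_germToFunctionField S hpV _).symm
      · exact Scheme.algebraMap_germ_eq_germToFunctionField S hpV _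
    rw [h1]
    exact germToFunctionField_mem_Reg (S.basicOpen_le u hp') r
  obtain ⟨N, hN⟩ := hrad
  refine ⟨N, fun p hp => ?_⟩
  have h2 := hN p hp
  have hpV := S.basicOpen_le u hp
  have hu : IsUnit (S.presheaf.germ V p hpV u) := (Scheme.mem_basicOpen _ u p hpV).mp hp
  obtain ⟨w, hw⟩ := hu
  have hw' : γ u * algebraMap (S.presheaf.stalk p) S.functionField (w⁻¹ : (S.presheaf.stalk p)ˣ) = 1 := by
    show S.germToFunctionField V u * _ = 1
    rw [← Scheme.algebraMap_germ_eq_germToFunctionField S hpV, ← hw, ← map_mul, Units.mul_inv,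
      map_one]
  have h3 := mul_mem h2 (pow_mem (⟨(w⁻¹ : (S.presheaf.stalk p)ˣ), rfl⟩ :
    algebraMap (S.presheaf.stalk p) S.functionField (w⁻¹ : (S.presheaf.stalk p)ˣ) ∈ Reg p) N)
  convert h3 using 1
  calc (S.germToFunctionField V t) ^ N * e = γ t ^ N * e * 1 ^ N := by
        rw [one_pow, mul_one]
    _ = γ ((t * u) ^ N) * e *
        algebraMap (S.presheaf.stalk p) S.functionField (w⁻¹ : (S.presheaf.stalk p)ˣ) ^ N := by
        rw [← hw', mul_pow, map_pow, map_mul, mul_pow]
        ring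

theorem exists_splitOn (h : CDiv S) {V : S.Opens} (hV : IsAffineOpen V) [Nonempty V] :
    ∃ (r : ℕ) (ψ φ : Fin r → S.functionField), SplitOn h V ψ φ := by
  classical
  have hloc : ∀ x : V, ∃ t : Γ(S, V), x.1 ∈ S.basicOpen t ∧
      ∀ p ∈ S.basicOpen t, h.1 p / h.1 x.1 ∈ unitsAt p := by
    intro x
    obtain ⟨U, hxU, hU⟩ := h.2 x.1
    obtain ⟨t, htU, hxt⟩ := hV.exists_basicOpen_le ⟨x.1, hxU⟩ x.2
    exact ⟨t, hxt, fun p hp => hU p (htU hp)⟩
  choose t hxt ht using hloc
  have hspan : Ideal.span (Set.range t) = ⊤ := by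
    rw [← hV.iSup_basicOpen_eq_self_iff]
    refine le_antisymm (iSup_le fun _ => S.basicOpen_le _) fun x hx => ?_
    exact Opens.mem_iSup.mpr ⟨⟨_, ⟨x, hx⟩, rfl⟩, hxt ⟨x, hx⟩⟩
  obtain ⟨T, hT, hTspan⟩ := Submodule.mem_span_finite_of_mem_span
    ((Ideal.eq_top_iff_one _).mp hspan)
  choose g hg using fun s : T => hT s.2
  let n := T.card
  let i : Fin n → V := fun a => g (T.equivFin.symm a)
  have hspan' : Ideal.span (Set.range (t ∘ i)) = ⊤ := by
    rw [Ideal.eq_top_iff_one]
    refine Ideal.span_mono ?_ hTspan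
    intro s hs
    exact ⟨T.equivFin ⟨s, hs⟩, by simp [i, hg]⟩
  let γ : Γ(S, V) →+* S.functionField := (S.germToFunctionField V).hom
  have hN : ∀ a b : Fin n, ∃ N : ℕ, ∀ p ∈ S.basicOpen (t (i b)),
      γ (t (i a)) ^ N * (h.1 (i b).1 / h.1 (i a).1 : (S.functionField)ˣ) ∈ Reg p ∧
      γ (t (i a)) ^ N * (h.1 (i a).1 / h.1 (i b).1 : (S.functionField)ˣ) ∈ Reg p := by
    intro a b
    have hu : ∀ p ∈ S.basicOpen (t (i a)), p ∈ S.basicOpen (t (i b)) →
        h.1 (i b).1 / h.1 (i a).1 ∈ unitsAt p := fun p hpa hpb => by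
      simpa using div_mem (ht _ p hpa) (ht _ p hpb)
    obtain ⟨N₁, hN₁⟩ := exists_pow_mul_mem_Reg hV _ _
      ((h.1 (i b).1 / h.1 (i a).1 : (S.functionField)ˣ) : S.functionField)
      fun p hpa hpb => (hu p hpa hpb).1
    obtain ⟨N₂, hN₂⟩ := exists_pow_mul_mem_Reg hV _ _
      ((h.1 (i a).1 / h.1 (i b).1 : (S.functionField)ˣ) : S.functionField)
      fun p hpa hpb => by simpa using (hu p hpa hpb).2
    refine ⟨N₁ + N₂, fun p hp => ⟨?_, ?_⟩⟩
    · rw [pow_add, mul_right_comm]
      exact mul_mem (hN₁ p hp) (pow_mem (germToFunctionField_mem_Reg (S.basicOpen_le _ hp) _) _)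
    · rw [pow_add, mul_assoc]
      exact mul_mem (pow_mem (germToFunctionField_mem_Reg (S.basicOpen_le _ hp) _) _) (hN₂ p hp)
  choose N hN using hN
  let M : ℕ := ∑ a, ∑ b, N a b
  have hNM : ∀ a b, ∃ M', M = M' + N a b := fun a b => Nat.exists_eq_add_of_le' <|
    (Finset.single_le_sum (fun _ _ => Nat.zero_le _) (Finset.mem_univ b)).trans
      (Finset.single_le_sum (f := fun a => ∑ b, N a b) (fun _ _ => Nat.zero_le _)
        (Finset.mem_univ a))
  have hspan2 : Ideal.span (Set.range fun a => t (i a) ^ (M + M)) = ⊤ := by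
    have := Ideal.span_pow_eq_top _ hspan' (M + M)
    rwa [← Set.range_comp] at this
  obtain ⟨c, hc⟩ := Ideal.mem_span_range_iff_exists_fun.mp
    ((Ideal.eq_top_iff_one _).mp hspan2)
  refine ⟨n, fun a => γ (t (i a)) ^ M * ((h.1 (i a).1)⁻¹ : (S.functionField)ˣ),
    fun a => γ (c a) * γ (t (i a)) ^ M * (h.1 (i a).1 : S.functionField), ?_, ?_⟩
  · intro p hp a
    obtain ⟨⟨_, b, rfl⟩, hb⟩ := Opens.mem_iSup.mp
      ((hV.iSup_basicOpen_eq_self_iff.mpr hspan').ge hp)
    simp only [Function.comp_apply] at hb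
    obtain ⟨M', hM'⟩ := hNM a b
    have hR : ∀ s : Γ(S, V), γ s ∈ Reg p := fun s => germToFunctionField_mem_Reg hp s
    have hpb := ht _ p hb
    constructor
    · have := mul_mem (mul_mem (pow_mem (hR (t (i a))) M') (hN a b p hb).1) hpb.1
      convert this using 1
      simp only [hM', pow_add, Units.val_div_eq_div_val, Units.val_inv_eq_inv_val]
      field_simp
    · have := mul_mem (mul_mem (hR (c a))
        (mul_mem (pow_mem (hR (t (i a))) M') (hN a b p hb).2)) hpb.2
      convert this using 1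
      simp only [hM', pow_add, inv_div, Units.val_div_eq_div_val, Units.val_inv_eq_inv_val]
      field_simp
  · have := congrArg γ hc
    rw [map_sum, map_one] at this
    rw [← this]
    refine Finset.sum_congr rfl fun a _ => ?_
    simp only [map_mul, map_pow, pow_add, Units.val_inv_eq_inv_val]
    field_simp

end Fermat.Agent.AbVar
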